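import Fermat.Agent.CFT.Coh.Interface

set_option autoImplicit false

/-!
# (A1) abstract Herbrand quotient: complements to `Coh/HerbrandIndex.lean`

Vocabulary (from `HerbrandIndex.lean`): `hIndex f g = [ker f : im g]` (`ℕ`, `0` if infinite),
`HerbrandDefined f g := hIndex f g ≠ 0 ∧ hIndex g f ≠ 0`, `hIndexQ f g = hIndex f g / hIndex g f`.

Main statements for consumers (all for additive maps `i : A' →+ A` injective, `p : A →+ A''`
surjective, `i.range = p.ker`, intertwining `(f', g')`, `(f, g)`, `(f'', g'')`, and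
`f ∘ g = 0 = g ∘ f`):
* `hIndex_mul_mul_of_exact` (in `HerbrandIndex.lean`): unconditional identity in `ℕ`;
* `hIndexQ_mul_of_left_right`, `hIndexQ_mul_of_mid_left`, `hIndexQ_mul_of_mid_right`:
  two-out-of-three together with `q(A) = q(A') q(A'')`;
* `hIndexQ_eq_of_finiteIndex'`: finite-index stable subgroup, no definedness hypothesis;
* `finite_kerModIm_iff`, `hIndex_pos_iff_finite`: translation to `Finite (ker f / im g)`.
-/

namespace Fermat.Agent.CFT

section Basic

variable {A : Type*} [AddCommGroup A]

theorem finite_kerModIm_iff (f g : A →+ A) : Finite (kerModIm f g) ↔ hIndex f g ≠ 0 := by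
  unfold hIndex AddSubgroup.relIndex
  exact (AddSubgroup.finiteIndex_iff_finite_quotient.symm).trans AddSubgroup.finiteIndex_iff

theorem herbrandDefined_iff_finite (f g : A →+ A) :
    HerbrandDefined f g ↔ Finite (kerModIm f g) ∧ Finite (kerModIm g f) := by
  unfold HerbrandDefined
  rw [finite_kerModIm_iff, finite_kerModIm_iff]

theorem hIndexQ_symm (f g : A →+ A) : hIndexQ g f = (hIndexQ f g)⁻¹ := by
  unfold hIndexQ
  rw [inv_div]

/-- if `ker f = im g` then `hIndex f g = 1` -/
theorem hIndex_eq_one_of_ker_le_range {f g : A →+ A} (h : f.ker ≤ g.range) : hIndex f g = 1 :=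
  AddSubgroup.relIndex_eq_one.mpr h

theorem hIndex_eq_one_iff {f g : A →+ A} : hIndex f g = 1 ↔ f.ker ≤ g.range :=
  AddSubgroup.relIndex_eq_one

end Basic

section Exact

variable {A' A A'' : Type*} [AddCommGroup A'] [AddCommGroup A] [AddCommGroup A'']
variable {i : A' →+ A} {p : A →+ A''} (hi : Function.Injective i) (hp : Function.Surjective p)
  (hex : i.range = p.ker)
variable {f' g' : A' →+ A'} {f g : A →+ A} {f'' g'' : A'' →+ A''}
  (hfi : ∀ a, i (f' a) = f (i a)) (hgi : ∀ a, i (g' a) = g (i a))
  (hfp : ∀ a, p (f a) = f'' (p a)) (hgp : ∀ a, p (g a) = g'' (p a))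
  (hfg : ∀ a, f (g a) = 0) (hgf : ∀ a, g (f a) = 0)

include hi hp hex hfi hgi hfp hgp hfg hgf in
/-- two-out-of-three, packaged: from `A'` and `A''`. -/
theorem hIndexQ_mul_of_left_right (h' : HerbrandDefined f' g') (h'' : HerbrandDefined f'' g'') :
    HerbrandDefined f g ∧ hIndexQ f g = hIndexQ f' g' * hIndexQ f'' g'' := by
  have h := herbrandDefined_of_exact_left_right i p hi hp hex hfi hgi hfp hgp hfg hgf h' h''
  exact ⟨h, hIndexQ_eq_mul_of_exact i p hi hp hex hfi hgi hfp hgp hfg hgf h h' h''⟩

include hi hp hex hfi hgi hfp hgp hfg hgf in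
/-- two-out-of-three, packaged: from `A` and `A'`. -/
theorem hIndexQ_mul_of_mid_left (h : HerbrandDefined f g) (h' : HerbrandDefined f' g') :
    HerbrandDefined f'' g'' ∧ hIndexQ f g = hIndexQ f' g' * hIndexQ f'' g'' := by
  have h'' := herbrandDefined_of_exact_mid_left i p hi hp hex hfi hgi hfp hgp hfg hgf h h'
  exact ⟨h'', hIndexQ_eq_mul_of_exact i p hi hp hex hfi hgi hfp hgp hfg hgf h h' h''⟩

include hi hp hex hfi hgi hfp hgp hfg hgf in
/-- two-out-of-three, packaged: from `A` and `A''`. -/
theorem hIndexQ_mul_of_mid_right (h : HerbrandDefined f g) (h'' : HerbrandDefined f'' g'') :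
    HerbrandDefined f' g' ∧ hIndexQ f g = hIndexQ f' g' * hIndexQ f'' g'' := by
  have h' := herbrandDefined_of_exact_mid_right i p hi hp hex hfi hgi hfp hgp hfg hgf h h''
  exact ⟨h', hIndexQ_eq_mul_of_exact i p hi hp hex hfi hgi hfp hgp hfg hgf h h' h''⟩

end Exact

section FiniteIndex

variable {A : Type*} [AddCommGroup A]

/-- A stable subgroup `B ≤ A` of finite index has the same Herbrand quotient; no definedness
hypothesis (both sides are the same junk value otherwise). -/
theorem hIndexQ_eq_of_finiteIndex' {f g : A →+ A} (hfg : ∀ a, f (g a) = 0)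
    (hgf : ∀ a, g (f a) = 0) (B : AddSubgroup A)
    [B.FiniteIndex] (hf : ∀ a ∈ B, f a ∈ B) (hg : ∀ a ∈ B, g a ∈ B) :
    hIndexQ f g = hIndexQ (subHom f B hf) (subHom g B hg) := by
  have hiff := herbrandDefined_iff_of_finiteIndex hfg hgf B hf hg
  by_cases h : HerbrandDefined f g
  · exact hIndexQ_eq_of_finiteIndex hfg hgf B hf hg h
  · have h' : ¬ HerbrandDefined (subHom f B hf) (subHom g B hg) := fun h' => h (hiff.mpr h')
    have key := hIndex_mul_mul hfg B hf hg hgf
    have : Finite (A ⧸ B) := B.finite_quotient_of_finiteIndex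
    obtain ⟨e1, e2⟩ := hIndex_eq_of_finite (quotHom_comp_eq_zero hfg B hf hg)
      (quotHom_comp_eq_zero hgf B hg hf)
    rw [← e1] at key
    have key' : hIndex f g * hIndex (subHom g B hg) (subHom f B hf) =
        hIndex g f * hIndex (subHom f B hf) (subHom g B hg) :=
      Nat.eq_of_mul_eq_mul_right (Nat.pos_of_ne_zero e2) key
    unfold hIndexQ
    have keyQ : (hIndex f g : ℚ) * hIndex (subHom g B hg) (subHom f B hf) =
        (hIndex g f : ℚ) * hIndex (subHom f B hf) (subHom g B hg) := by exact_mod_cast key'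
    by_cases n1 : hIndex g f = 0
    · by_cases n2 : hIndex (subHom g B hg) (subHom f B hf) = 0
      · rw [n1, n2]; simp
      · have : hIndex f g = 0 := by
          rw [n1, zero_mul] at key'
          exact (Nat.mul_eq_zero.mp key').resolve_right n2
        have hs : hIndex (subHom f B hf) (subHom g B hg) = 0 := by
          by_contra hne
          exact h' ⟨hne, n2⟩
        rw [n1, this, hs]; simp
    · by_cases n2 : hIndex (subHom g B hg) (subHom f B hf) = 0
      · have hs : hIndex (subHom f B hf) (subHom g B hg) = 0 := by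
          rw [n2, mul_zero] at key'
          exact (Nat.mul_eq_zero.mp key'.symm).resolve_left n1
        have : hIndex f g = 0 := by
          by_contra hne
          exact h ⟨hne, n1⟩
        rw [n2, this, hs]; simp
      · have q1 : (hIndex g f : ℚ) ≠ 0 := Nat.cast_ne_zero.mpr n1
        have q2 : (hIndex (subHom g B hg) (subHom f B hf) : ℚ) ≠ 0 := Nat.cast_ne_zero.mpr n2
        field_simp
        linear_combination keyQ

end FiniteIndex

end Fermat.Agent.CFT
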