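import Fermat.Agent.CFT.Coh.HerbrandIndex

set_option autoImplicit false

/-!
# Stream A (Coh) : interface, definitions only

Cyclic specialisation of the elementary Herbrand quotient of `Coh/HerbrandIndex.lean`
(`hIndex f g = [ker f : im g]`, `hIndexQ`, `HerbrandDefined`): a finite cyclic group
`G = ⟨σ⟩` acting on an additive group `A`, with `f = σ - 1`, `g = N = ∑_{τ ∈ G} τ`.
-/

namespace Fermat.Agent.CFT

section Abstract

variable {A : Type*} [AddCommGroup A]

/-- `ker f / (im g ∩ ker f)`; when `f ∘ g = 0` this is `ker f / im g`. -/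
abbrev kerModIm (f g : A →+ A) : Type _ := ↥f.ker ⧸ (g.range.addSubgroupOf f.ker)

theorem natCard_kerModIm (f g : A →+ A) : Nat.card (kerModIm f g) = hIndex f g := rfl

end Abstract

section Cyclic

variable (G : Type*) [Group G] [Fintype G] (A : Type*) [AddCommGroup A] [DistribMulAction G A]

/-- The norm endomorphism `a ↦ ∑ τ, τ • a`. -/
def normHom : A →+ A where
  toFun a := ∑ τ : G, τ • a
  map_zero' := by simp
  map_add' a b := by simp [smul_add, Finset.sum_add_distrib]

@[simp] theorem normHom_apply (a : A) : normHom G A a = ∑ τ : G, τ • a := rfl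

variable {G}

omit [Fintype G] in
/-- `a ↦ σ • a - a`. -/
def subOneHom (σ : G) : A →+ A where
  toFun a := σ • a - a
  map_zero' := by simp
  map_add' a b := by rw [smul_add]; abel

omit [Fintype G] in
@[simp] theorem subOneHom_apply (σ : G) (a : A) : subOneHom A σ a = σ • a - a := rfl

variable (G)

/-- `Ĥ⁰(G,A) = A^G / N A` for `G = ⟨σ⟩`. -/
abbrev tateH0 (σ : G) : Type _ := kerModIm (subOneHom A σ) (normHom G A)

/-- `Ĥ¹(G,A) = Ĥ⁻¹(G,A) = ker N / (σ - 1) A` for `G = ⟨σ⟩`. -/
abbrev tateH1 (σ : G) : Type _ := kerModIm (normHom G A) (subOneHom A σ)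

/-- `|Ĥ⁰(G,A)|` (`0` if infinite). -/
noncomputable def tateH0Card (σ : G) : ℕ := hIndex (subOneHom A σ) (normHom G A)

/-- `|Ĥ¹(G,A)|` (`0` if infinite). -/
noncomputable def tateH1Card (σ : G) : ℕ := hIndex (normHom G A) (subOneHom A σ)

/-- The Herbrand quotient `h(A) = |Ĥ⁰| / |Ĥ¹|` of a finite cyclic group `G = ⟨σ⟩`. -/
noncomputable def herbrand (σ : G) : ℚ := hIndexQ (subOneHom A σ) (normHom G A)

/-- Both `Ĥ⁰` and `Ĥ¹` are finite. -/
def HerbrandDefinedCyclic (σ : G) : Prop := HerbrandDefined (subOneHom A σ) (normHom G A)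

theorem herbrand_eq (σ : G) :
    herbrand G A σ = (tateH0Card G A σ : ℚ) / (tateH1Card G A σ : ℚ) := rfl

end Cyclic

end Fermat.Agent.CFT
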