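import Mathlib
import Fermat.Agent.CFT.Coh.Interface
import Fermat.Agent.CFT.Coh.HerbrandAbs

set_option autoImplicit false

/-!
# Stream A (Coh), layer (A2): the Herbrand quotient of a finite cyclic group, elementary form

`G` is a finite group, `σ : G` a generator (`hσ : ∀ τ, τ ∈ Subgroup.zpowers σ`), `A` an additive
commutative group with a `DistribMulAction G A`; `f = σ - 1 = subOneHom A σ`, `g = N = normHom G A`.

* `subOneHom_normHom`, `normHom_subOneHom`: `(σ - 1) N = 0 = N (σ - 1)`;
* `mem_ker_subOneHom_iff`: `ker (σ - 1) = A^G`;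
* `card_nsmul_tateH0`, `card_nsmul_tateH1`: the Tate groups are killed by `|G|`;
* `herbrandDefinedCyclic_of_fg`: finitely generated modules have finite Tate groups;
* `tateH0Congr`, `tateH1Congr`, `herbrand_congr`: invariance under equivariant isomorphisms;
* `herbrand_generator`: independence of the generator;
* `herbrand_of_equiv_int`: `h(ℤ) = |G|`;
* `herbrand_mul_of_exact*`: multiplicativity in equivariant short exact sequences;
* `herbrand_of_finite`, `herbrand_eq_of_finiteIndex`.
-/

namespace Fermat.Agent.CFT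

open AddSubgroup

section Basic

variable {G : Type*} [Group G] [Fintype G] {A : Type*} [AddCommGroup A] [DistribMulAction G A]

theorem smul_normHom (σ : G) (a : A) : σ • normHom G A a = normHom G A a := by
  rw [normHom_apply, Finset.smul_sum]
  simp_rw [← mul_smul]
  exact Fintype.sum_equiv (Equiv.mulLeft σ) _ _ fun τ => rfl

theorem normHom_smul (σ : G) (a : A) : normHom G A (σ • a) = normHom G A a := by
  rw [normHom_apply, normHom_apply]
  simp_rw [← mul_smul]
  exact Fintype.sum_equiv (Equiv.mulRight σ) _ _ fun τ => rfl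

/-- `(σ - 1) ∘ N = 0` (no cyclicity needed). -/
theorem subOneHom_normHom (σ : G) (a : A) : subOneHom A σ (normHom G A a) = 0 := by
  rw [subOneHom_apply, smul_normHom, sub_self]

/-- `N ∘ (σ - 1) = 0` (no cyclicity needed). -/
theorem normHom_subOneHom (σ : G) (a : A) : normHom G A (subOneHom A σ a) = 0 := by
  rw [subOneHom_apply, map_sub, normHom_smul, sub_self]

theorem mem_ker_subOneHom {σ : G} {a : A} : a ∈ (subOneHom A σ).ker ↔ σ • a = a := by
  rw [AddMonoidHom.mem_ker, subOneHom_apply, sub_eq_zero]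

/-- For a generator `σ`, the kernel of `σ - 1` is the group of invariants. -/
theorem mem_ker_subOneHom_iff {σ : G} (hσ : ∀ τ, τ ∈ Subgroup.zpowers σ) {a : A} :
    a ∈ (subOneHom A σ).ker ↔ ∀ τ : G, τ • a = a := by
  rw [mem_ker_subOneHom]
  refine ⟨fun h τ => ?_, fun h => h σ⟩
  obtain ⟨k, rfl⟩ := Subgroup.mem_zpowers_iff.mp (hσ τ)
  have hfix : σ ∈ MulAction.stabilizer G a := h
  exact (MulAction.stabilizer G a).zpow_mem hfix k

/-- On invariants the norm is multiplication by the order of the group. -/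
theorem normHom_of_fixed {a : A} (h : ∀ τ : G, τ • a = a) :
    normHom G A a = Fintype.card G • a := by
  rw [normHom_apply]
  simp [h, Finset.card_univ]

/-- For a generator `σ`, every `τ - 1` has image inside the image of `σ - 1`. -/
theorem smul_sub_mem_range_subOneHom {σ : G} (hσ : ∀ τ, τ ∈ Subgroup.zpowers σ) (τ : G) (a : A) :
    τ • a - a ∈ (subOneHom A σ).range := by
  let H : Subgroup G :=
    { carrier := {τ | ∀ a : A, τ • a - a ∈ (subOneHom A σ).range}
      one_mem' := fun a => by simp
      mul_mem' := by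
        intro τ₁ τ₂ h₁ h₂ a
        have : (τ₁ * τ₂) • a - a = (τ₁ • (τ₂ • a) - τ₂ • a) + (τ₂ • a - a) := by
          rw [mul_smul]; abel
        rw [this]
        exact add_mem (h₁ _) (h₂ _)
      inv_mem' := by
        intro τ h a
        have : τ⁻¹ • a - a = -(τ • (τ⁻¹ • a) - τ⁻¹ • a) := by
          rw [smul_inv_smul]; abel
        rw [this]
        exact neg_mem (h _) }
  have hσH : σ ∈ H := fun a => ⟨a, rfl⟩
  have : Subgroup.zpowers σ ≤ H := (Subgroup.zpowers_le).mpr hσH
  exact this (hσ τ) a

/-- The image of `σ - 1` does not depend on the generator `σ`. -/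
theorem range_subOneHom_eq {σ σ' : G} (hσ : ∀ τ, τ ∈ Subgroup.zpowers σ)
    (hσ' : ∀ τ, τ ∈ Subgroup.zpowers σ') :
    (subOneHom A σ).range = (subOneHom A σ').range := by
  apply le_antisymm
  · rintro _ ⟨a, rfl⟩
    exact smul_sub_mem_range_subOneHom hσ' σ a
  · rintro _ ⟨a, rfl⟩
    exact smul_sub_mem_range_subOneHom hσ σ' a

/-- The kernel of `σ - 1` does not depend on the generator `σ`. -/
theorem ker_subOneHom_eq {σ σ' : G} (hσ : ∀ τ, τ ∈ Subgroup.zpowers σ)
    (hσ' : ∀ τ, τ ∈ Subgroup.zpowers σ') :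
    (subOneHom A σ).ker = (subOneHom A σ').ker := by
  ext a
  rw [mem_ker_subOneHom_iff hσ, mem_ker_subOneHom_iff hσ']

end Basic

section Killed

variable {G : Type*} [Group G] [Fintype G] {A : Type*} [AddCommGroup A] [DistribMulAction G A]

/-- `Ĥ⁰` of a cyclic group is killed by the order of the group. -/
theorem card_nsmul_tateH0 {σ : G} (hσ : ∀ τ, τ ∈ Subgroup.zpowers σ) (x : tateH0 G A σ) :
    Fintype.card G • x = 0 := by
  induction x using QuotientAddGroup.induction_on with
  | H a =>
    rw [← QuotientAddGroup.mk_nsmul, QuotientAddGroup.eq_zero_iff, AddSubgroup.mem_addSubgroupOf]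
    have ha : ∀ τ : G, τ • (a : A) = a := (mem_ker_subOneHom_iff hσ).mp a.2
    refine ⟨(a : A), ?_⟩
    rw [normHom_of_fixed ha]
    simp

/-- `Ĥ¹ = Ĥ⁻¹` of a cyclic group is killed by the order of the group. -/
theorem card_nsmul_tateH1 {σ : G} (hσ : ∀ τ, τ ∈ Subgroup.zpowers σ) (x : tateH1 G A σ) :
    Fintype.card G • x = 0 := by
  induction x using QuotientAddGroup.induction_on with
  | H a =>
    rw [← QuotientAddGroup.mk_nsmul, QuotientAddGroup.eq_zero_iff, AddSubgroup.mem_addSubgroupOf]
    have ha : ∑ τ : G, τ • (a : A) = 0 := a.2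
    have : ((Fintype.card G • a : (normHom G A).ker) : A) = -∑ τ : G, (τ • (a : A) - a) := by
      rw [Finset.sum_sub_distrib, ha]
      simp [Finset.card_univ]
    rw [this]
    exact neg_mem (sum_mem fun τ _ => smul_sub_mem_range_subOneHom hσ τ _)

end Killed

section Finiteness

variable {G : Type*} [Group G] [Fintype G] {A : Type*} [AddCommGroup A] [DistribMulAction G A]

/-- A quotient of a subgroup of a finitely generated abelian group which is killed by a positive
integer is finite. -/
theorem finite_quotient_of_fg_of_nsmul [Module.Finite ℤ A] (H : AddSubgroup A)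
    (S : AddSubgroup H) {n : ℕ} (hn : n ≠ 0) (hS : ∀ x : H ⧸ S, n • x = 0) : Finite (H ⧸ S) := by
  have h1 : Module.Finite ℤ H :=
    Module.Finite.of_injective (H.subtype.toIntLinearMap) Subtype.coe_injective
  have h2 : Module.Finite ℤ (H ⧸ S) :=
    Module.Finite.of_surjective (QuotientAddGroup.mk' S).toIntLinearMap
      (QuotientAddGroup.mk'_surjective S)
  refine Module.finite_of_fg_torsion (H ⧸ S) fun x => ?_
  refine ⟨⟨(n : ℤ), mem_nonZeroDivisors_of_ne_zero (by exact_mod_cast hn)⟩, ?_⟩
  show (n : ℤ) • x = 0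
  rw [natCast_zsmul]
  exact hS x

theorem finite_tateH0_of_fg [Module.Finite ℤ A] {σ : G} (hσ : ∀ τ, τ ∈ Subgroup.zpowers σ) :
    Finite (tateH0 G A σ) :=
  finite_quotient_of_fg_of_nsmul _ _ Fintype.card_ne_zero (card_nsmul_tateH0 hσ)

theorem finite_tateH1_of_fg [Module.Finite ℤ A] {σ : G} (hσ : ∀ τ, τ ∈ Subgroup.zpowers σ) :
    Finite (tateH1 G A σ) :=
  finite_quotient_of_fg_of_nsmul _ _ Fintype.card_ne_zero (card_nsmul_tateH1 hσ)

/-- For a finitely generated module over a finite cyclic group, the Tate groups are finite. -/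
theorem herbrandDefinedCyclic_of_fg [Module.Finite ℤ A] {σ : G}
    (hσ : ∀ τ, τ ∈ Subgroup.zpowers σ) : HerbrandDefinedCyclic G A σ :=
  (herbrandDefined_iff_finite _ _).mpr ⟨finite_tateH0_of_fg hσ, finite_tateH1_of_fg hσ⟩

theorem herbrand_pos_of_defined {σ : G} (h : HerbrandDefinedCyclic G A σ) :
    0 < herbrand G A σ := by
  rw [herbrand_eq]
  have h0 : 0 < tateH0Card G A σ := Nat.pos_of_ne_zero h.1
  have h1 : 0 < tateH1Card G A σ := Nat.pos_of_ne_zero h.2
  positivity

end Finiteness

section Congr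

variable {A B : Type*} [AddCommGroup A] [AddCommGroup B]

/-- Transport of `ker f / im g` along an additive equivalence intertwining the endomorphisms. -/
noncomputable def kerModImEquiv (e : A ≃+ B) {f g : A →+ A} {f₂ g₂ : B →+ B}
    (hf : ∀ a, e (f a) = f₂ (e a)) (hg : ∀ a, e (g a) = g₂ (e a)) :
    kerModIm f g ≃+ kerModIm f₂ g₂ := by
  have hker : ∀ a : A, a ∈ f.ker ↔ e a ∈ f₂.ker := by
    intro a
    rw [AddMonoidHom.mem_ker, AddMonoidHom.mem_ker, ← hf]
    exact (EmbeddingLike.map_eq_zero_iff (f := e)).symm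
  let e' : f.ker ≃+ f₂.ker :=
    { toFun := fun a => ⟨e a, (hker a).mp a.2⟩
      invFun := fun b => ⟨e.symm b, (hker _).mpr (by simpa using b.2)⟩
      left_inv := fun a => by ext; simp
      right_inv := fun b => by ext; simp
      map_add' := fun a b => by ext; simp }
  refine QuotientAddGroup.congr _ _ e' ?_
  ext b
  simp only [AddSubgroup.mem_map, AddSubgroup.mem_addSubgroupOf, AddMonoidHom.mem_range]
  constructor
  · rintro ⟨a, ⟨c, hc⟩, rfl⟩
    refine ⟨e c, ?_⟩
    rw [← hg, hc]
    rfl
  · rintro ⟨c, hc⟩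
    refine ⟨⟨e.symm b, (hker _).mpr (by simpa using b.2)⟩, ⟨e.symm c, ?_⟩, ?_⟩
    · apply e.injective
      rw [hg]
      simpa using hc
    · ext
      simp [e']

variable {G : Type*} [Group G] [Fintype G] [DistribMulAction G A] [DistribMulAction G B]

theorem map_normHom (e : A ≃+ B) (he : ∀ (τ : G) (a : A), e (τ • a) = τ • e a) (a : A) :
    e (normHom G A a) = normHom G B (e a) := by
  simp [normHom_apply, map_sum, he]

theorem map_subOneHom (e : A ≃+ B) (he : ∀ (τ : G) (a : A), e (τ • a) = τ • e a) (σ : G) (a : A) :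
    e (subOneHom A σ a) = subOneHom B σ (e a) := by
  simp [subOneHom_apply, he]

/-- `Ĥ⁰` is invariant under `G`-equivariant isomorphisms. -/
noncomputable def tateH0Congr (e : A ≃+ B) (he : ∀ (τ : G) (a : A), e (τ • a) = τ • e a) (σ : G) :
    tateH0 G A σ ≃+ tateH0 G B σ :=
  kerModImEquiv e (map_subOneHom e he σ) (map_normHom e he)

/-- `Ĥ¹` is invariant under `G`-equivariant isomorphisms. -/
noncomputable def tateH1Congr (e : A ≃+ B) (he : ∀ (τ : G) (a : A), e (τ • a) = τ • e a) (σ : G) :
    tateH1 G A σ ≃+ tateH1 G B σ :=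
  kerModImEquiv e (map_normHom e he) (map_subOneHom e he σ)

theorem tateH0Card_congr (e : A ≃+ B) (he : ∀ (τ : G) (a : A), e (τ • a) = τ • e a) (σ : G) :
    tateH0Card G A σ = tateH0Card G B σ :=
  hIndex_congr e (map_subOneHom e he σ) (map_normHom e he)

theorem tateH1Card_congr (e : A ≃+ B) (he : ∀ (τ : G) (a : A), e (τ • a) = τ • e a) (σ : G) :
    tateH1Card G A σ = tateH1Card G B σ :=
  hIndex_congr e (map_normHom e he) (map_subOneHom e he σ)

/-- The Herbrand quotient is invariant under `G`-equivariant isomorphisms. -/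
theorem herbrand_congr (e : A ≃+ B) (he : ∀ (τ : G) (a : A), e (τ • a) = τ • e a) (σ : G) :
    herbrand G A σ = herbrand G B σ :=
  hIndexQ_congr e (map_subOneHom e he σ) (map_normHom e he)

theorem herbrandDefinedCyclic_congr (e : A ≃+ B) (he : ∀ (τ : G) (a : A), e (τ • a) = τ • e a)
    (σ : G) : HerbrandDefinedCyclic G A σ ↔ HerbrandDefinedCyclic G B σ :=
  herbrandDefined_congr e (map_subOneHom e he σ) (map_normHom e he)

end Congr

section Generator

variable {G : Type*} [Group G] [Fintype G] {A : Type*} [AddCommGroup A] [DistribMulAction G A]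

/-- `|Ĥ⁰|` does not depend on the generator. -/
theorem tateH0Card_generator {σ σ' : G} (hσ : ∀ τ, τ ∈ Subgroup.zpowers σ)
    (hσ' : ∀ τ, τ ∈ Subgroup.zpowers σ') : tateH0Card G A σ = tateH0Card G A σ' := by
  unfold tateH0Card hIndex
  rw [ker_subOneHom_eq hσ hσ']

/-- `|Ĥ¹|` does not depend on the generator. -/
theorem tateH1Card_generator {σ σ' : G} (hσ : ∀ τ, τ ∈ Subgroup.zpowers σ)
    (hσ' : ∀ τ, τ ∈ Subgroup.zpowers σ') : tateH1Card G A σ = tateH1Card G A σ' := by
  unfold tateH1Card hIndex
  rw [range_subOneHom_eq hσ hσ']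

/-- The Herbrand quotient does not depend on the generator. -/
theorem herbrand_generator {σ σ' : G} (hσ : ∀ τ, τ ∈ Subgroup.zpowers σ)
    (hσ' : ∀ τ, τ ∈ Subgroup.zpowers σ') : herbrand G A σ = herbrand G A σ' := by
  rw [herbrand_eq, herbrand_eq, tateH0Card_generator hσ hσ', tateH1Card_generator hσ hσ']

theorem herbrandDefinedCyclic_generator {σ σ' : G} (hσ : ∀ τ, τ ∈ Subgroup.zpowers σ)
    (hσ' : ∀ τ, τ ∈ Subgroup.zpowers σ') :
    HerbrandDefinedCyclic G A σ ↔ HerbrandDefinedCyclic G A σ' := by
  have h0 := tateH0Card_generator (A := A) hσ hσ'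
  have h1 := tateH1Card_generator (A := A) hσ hσ'
  unfold tateH0Card at h0
  unfold tateH1Card at h1
  unfold HerbrandDefinedCyclic HerbrandDefined
  rw [h0, h1]

end Generator

section Trivial

variable {G : Type*} [Group G] [Fintype G] {A : Type*} [AddCommGroup A] [DistribMulAction G A]

theorem subOneHom_eq_zero_of_trivial (htriv : ∀ (τ : G) (a : A), τ • a = a) (σ : G) :
    subOneHom A σ = 0 := by
  ext a
  simp [htriv]

theorem normHom_apply_of_trivial (htriv : ∀ (τ : G) (a : A), τ • a = a) (a : A) :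
    normHom G A a = Fintype.card G • a :=
  normHom_of_fixed fun τ => htriv τ a

/-- Trivial action: `Ĥ⁰(G, A) = A / |G| A`. -/
theorem tateH0Card_of_trivial (htriv : ∀ (τ : G) (a : A), τ • a = a) (σ : G) :
    tateH0Card G A σ = (nsmulAddMonoidHom (Fintype.card G) : A →+ A).range.index := by
  unfold tateH0Card hIndex
  rw [subOneHom_eq_zero_of_trivial htriv, AddMonoidHom.ker_zero, AddSubgroup.relIndex_top_right]
  congr 1
  ext a
  simp only [AddMonoidHom.mem_range, normHom_apply_of_trivial htriv, nsmulAddMonoidHom_apply]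

/-- Trivial action: `Ĥ¹(G, A) = A[|G|]`. -/
theorem tateH1Card_of_trivial (htriv : ∀ (τ : G) (a : A), τ • a = a) (σ : G) :
    tateH1Card G A σ = Nat.card (nsmulAddMonoidHom (Fintype.card G) : A →+ A).ker := by
  unfold tateH1Card hIndex
  rw [subOneHom_eq_zero_of_trivial htriv, AddMonoidHom.range_zero, AddSubgroup.relIndex_bot_left]
  congr 2
  ext a
  simp only [AddMonoidHom.mem_ker, normHom_apply_of_trivial htriv, nsmulAddMonoidHom_apply]

/-- `Ĥ⁰(G, ℤ)` has order `|G|` (trivial action on a group isomorphic to `ℤ`). -/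
theorem tateH0Card_of_equiv_int (e : A ≃+ ℤ) (htriv : ∀ (τ : G) (a : A), τ • a = a) (σ : G) :
    tateH0Card G A σ = Fintype.card G := by
  rw [tateH0Card_of_trivial htriv]
  have h : ((nsmulAddMonoidHom (Fintype.card G) : A →+ A).range).map (e : A →+ ℤ) =
      AddSubgroup.zmultiples (Fintype.card G : ℤ) := by
    ext n
    simp only [AddSubgroup.mem_map, AddMonoidHom.mem_range, nsmulAddMonoidHom_apply,
      AddSubgroup.mem_zmultiples_iff]
    constructor
    · rintro ⟨_, ⟨a, rfl⟩, rfl⟩
      refine ⟨e a, ?_⟩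
      simp [mul_comm]
    · rintro ⟨k, rfl⟩
      refine ⟨_, ⟨e.symm k, rfl⟩, ?_⟩
      simp [mul_comm]
  rw [← AddSubgroup.index_map_equiv _ e]
  rw [h, Int.index_zmultiples]
  simp

/-- `Ĥ¹(G, ℤ) = 0` (trivial action on a group isomorphic to `ℤ`). -/
theorem tateH1Card_of_equiv_int (e : A ≃+ ℤ) (htriv : ∀ (τ : G) (a : A), τ • a = a) (σ : G) :
    tateH1Card G A σ = 1 := by
  rw [tateH1Card_of_trivial htriv]
  have : (nsmulAddMonoidHom (Fintype.card G) : A →+ A).ker = ⊥ := by
    rw [eq_bot_iff]
    intro a ha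
    rw [AddMonoidHom.mem_ker, nsmulAddMonoidHom_apply] at ha
    have h2 : e (Fintype.card G • a) = 0 := by rw [ha, map_zero]
    rw [map_nsmul, nsmul_eq_mul] at h2
    have h3 : e a = 0 := by
      rcases mul_eq_zero.mp h2 with h | h
      · exact absurd (by exact_mod_cast h) (Fintype.card_ne_zero (α := G))
      · exact h
    rw [AddSubgroup.mem_bot]
    exact (EmbeddingLike.map_eq_zero_iff (f := e)).mp h3
  rw [this]
  simp

/-- **`h(ℤ) = |G|`**: the Herbrand quotient of `ℤ` with trivial action. -/
theorem herbrand_of_equiv_int (e : A ≃+ ℤ) (htriv : ∀ (τ : G) (a : A), τ • a = a) (σ : G) :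
    herbrand G A σ = Fintype.card G := by
  rw [herbrand_eq, tateH0Card_of_equiv_int e htriv, tateH1Card_of_equiv_int e htriv]
  simp

theorem herbrandDefinedCyclic_of_equiv_int (e : A ≃+ ℤ) (htriv : ∀ (τ : G) (a : A), τ • a = a)
    (σ : G) : HerbrandDefinedCyclic G A σ := by
  constructor
  · show tateH0Card G A σ ≠ 0
    rw [tateH0Card_of_equiv_int e htriv]
    exact Fintype.card_ne_zero
  · show tateH1Card G A σ ≠ 0
    rw [tateH1Card_of_equiv_int e htriv]
    exact one_ne_zero

end Trivial

section Exact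

variable {G : Type*} [Group G] [Fintype G]
variable {A' A A'' : Type*} [AddCommGroup A'] [AddCommGroup A] [AddCommGroup A'']
  [DistribMulAction G A'] [DistribMulAction G A] [DistribMulAction G A'']
variable (i : A' →+ A) (p : A →+ A'') (hi : Function.Injective i) (hp : Function.Surjective p)
  (hex : i.range = p.ker)
  (hiG : ∀ (τ : G) (a : A'), i (τ • a) = τ • i a) (hpG : ∀ (τ : G) (a : A), p (τ • a) = τ • p a)

omit [Fintype G] in
theorem hom_subOneHom {B C : Type*} [AddCommGroup B] [AddCommGroup C] [DistribMulAction G B]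
    [DistribMulAction G C] (φ : B →+ C) (hφ : ∀ (τ : G) (b : B), φ (τ • b) = τ • φ b) (σ : G)
    (b : B) : φ (subOneHom B σ b) = subOneHom C σ (φ b) := by
  simp [subOneHom_apply, hφ]

theorem hom_normHom {B C : Type*} [AddCommGroup B] [AddCommGroup C] [DistribMulAction G B]
    [DistribMulAction G C] (φ : B →+ C) (hφ : ∀ (τ : G) (b : B), φ (τ • b) = τ • φ b)
    (b : B) : φ (normHom G B b) = normHom G C (φ b) := by
  simp [normHom_apply, map_sum, hφ]

include hi hp hex hiG hpG

/-- Multiplicativity of the Herbrand quotient in a `G`-equivariant short exact sequence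
`0 → A' → A → A'' → 0`, from the outer terms. -/
theorem herbrand_mul_of_left_right (σ : G) (h' : HerbrandDefinedCyclic G A' σ)
    (h'' : HerbrandDefinedCyclic G A'' σ) :
    HerbrandDefinedCyclic G A σ ∧ herbrand G A σ = herbrand G A' σ * herbrand G A'' σ :=
  hIndexQ_mul_of_left_right hi hp hex (hom_subOneHom i hiG σ) (hom_normHom i hiG)
    (hom_subOneHom p hpG σ) (hom_normHom p hpG) (subOneHom_normHom σ) (normHom_subOneHom σ) h' h''

/-- Multiplicativity of the Herbrand quotient, from the middle and left terms. -/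
theorem herbrand_mul_of_mid_left (σ : G) (h : HerbrandDefinedCyclic G A σ)
    (h' : HerbrandDefinedCyclic G A' σ) :
    HerbrandDefinedCyclic G A'' σ ∧ herbrand G A σ = herbrand G A' σ * herbrand G A'' σ :=
  hIndexQ_mul_of_mid_left hi hp hex (hom_subOneHom i hiG σ) (hom_normHom i hiG)
    (hom_subOneHom p hpG σ) (hom_normHom p hpG) (subOneHom_normHom σ) (normHom_subOneHom σ) h h'

/-- Multiplicativity of the Herbrand quotient, from the middle and right terms. -/
theorem herbrand_mul_of_mid_right (σ : G) (h : HerbrandDefinedCyclic G A σ)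
    (h'' : HerbrandDefinedCyclic G A'' σ) :
    HerbrandDefinedCyclic G A' σ ∧ herbrand G A σ = herbrand G A' σ * herbrand G A'' σ :=
  hIndexQ_mul_of_mid_right hi hp hex (hom_subOneHom i hiG σ) (hom_normHom i hiG)
    (hom_subOneHom p hpG σ) (hom_normHom p hpG) (subOneHom_normHom σ) (normHom_subOneHom σ) h h''

/-- The unconditional six-term product formula for the orders of the Tate groups. -/
theorem tateCard_mul_mul_of_exact (σ : G) :
    tateH0Card G A σ * tateH1Card G A' σ * tateH1Card G A'' σ =
      tateH1Card G A σ * tateH0Card G A' σ * tateH0Card G A'' σ :=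
  hIndex_mul_mul_of_exact i p hi hp hex (hom_subOneHom i hiG σ) (hom_normHom i hiG)
    (hom_subOneHom p hpG σ) (hom_normHom p hpG) (subOneHom_normHom σ) (normHom_subOneHom σ)

end Exact

section FiniteModule

variable {G : Type*} [Group G] [Fintype G] {A : Type*} [AddCommGroup A] [DistribMulAction G A]

/-- A finite module has Herbrand quotient `1`. -/
theorem herbrand_of_finite [Finite A] (σ : G) : herbrand G A σ = 1 :=
  hIndexQ_of_finite (subOneHom_normHom σ) (normHom_subOneHom σ)

theorem herbrandDefinedCyclic_of_finite [Finite A] (σ : G) : HerbrandDefinedCyclic G A σ :=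
  herbrandDefined_of_finite (subOneHom_normHom σ) (normHom_subOneHom σ)

/-- `|Ĥ⁰| = |Ĥ¹|` for a finite module. -/
theorem tateH0Card_eq_tateH1Card_of_finite [Finite A] (σ : G) :
    tateH0Card G A σ = tateH1Card G A σ :=
  (hIndex_eq_of_finite (subOneHom_normHom σ) (normHom_subOneHom σ)).1

end FiniteModule

section FiniteIndex

variable {G : Type*} [Group G] [Fintype G] {A B : Type*} [AddCommGroup A] [AddCommGroup B]
  [DistribMulAction G A] [DistribMulAction G B]

/-- An injective `G`-equivariant map `j : B → A` with image of finite index does not change the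
Herbrand quotient (nor its definedness). -/
theorem herbrand_eq_of_injective_of_finiteIndex (j : B →+ A) (hj : Function.Injective j)
    (hjG : ∀ (τ : G) (b : B), j (τ • b) = τ • j b) [j.range.FiniteIndex] (σ : G) :
    herbrand G A σ = herbrand G B σ ∧
      (HerbrandDefinedCyclic G A σ ↔ HerbrandDefinedCyclic G B σ) := by
  have hf : ∀ a ∈ j.range, subOneHom A σ a ∈ j.range := by
    rintro _ ⟨b, rfl⟩
    exact ⟨subOneHom B σ b, hom_subOneHom j hjG σ b⟩
  have hg : ∀ a ∈ j.range, normHom G A a ∈ j.range := by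
    rintro _ ⟨b, rfl⟩
    exact ⟨normHom G B b, hom_normHom j hjG b⟩
  have h1 := hIndexQ_eq_of_finiteIndex' (subOneHom_normHom (A := A) σ) (normHom_subOneHom σ)
    j.range hf hg
  have h2 := herbrandDefined_iff_of_finiteIndex (subOneHom_normHom (A := A) σ)
    (normHom_subOneHom σ) j.range hf hg
  let e : B ≃+ j.range := AddMonoidHom.ofInjective hj
  have he : ∀ b, ((e b : j.range) : A) = j b := fun b => rfl
  have hef : ∀ b, e (subOneHom B σ b) = subHom (subOneHom A σ) j.range hf (e b) := by
    intro b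
    apply Subtype.ext
    rw [coe_subHom, he, he, hom_subOneHom j hjG]
  have heg : ∀ b, e (normHom G B b) = subHom (normHom G A) j.range hg (e b) := by
    intro b
    apply Subtype.ext
    rw [coe_subHom, he, he, hom_normHom j hjG]
  refine ⟨?_, ?_⟩
  · show hIndexQ _ _ = hIndexQ _ _
    rw [h1, hIndexQ_congr e hef heg]
  · show HerbrandDefined _ _ ↔ HerbrandDefined _ _
    rw [h2, herbrandDefined_congr e hef heg]

end FiniteIndex

end Fermat.Agent.CFT
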