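import Mathlib
import Fermat.Agent.CFT.Coh.CyclicHerbrand

set_option autoImplicit false

/-!
# Stream A (Coh), layer (A4): the Herbrand quotient of a lattice only depends on the real
representation it spans (Cassels–Fröhlich IV.8)

`G` a finite group acting `ℝ`-linearly on a finite dimensional real vector space `V`; `b₁ b₂` two
`ℝ`-bases of `V` whose `ℤ`-spans `L₁ L₂` are `G`-stable.  Then there is a `G`-equivariant
`ℝ`-linear automorphism `T` of `V` with `T L₁ ⊆ L₂` and `d • L₂ ⊆ T L₁` for some integer `d ≠ 0`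
(`exists_equivariant_lattice_map`); hence the Herbrand quotients of `L₁` and `L₂` agree
(`herbrand_eq_of_lattice_embeddings`, stated for arbitrary modules `A₁ A₂` equivariantly embedded
in `V` with images `L₁ L₂`).

Proof: average an integer matrix `X` over `G`: `T_X = ∑ g, g⁻¹ ∘ X ∘ g`.  The determinant of `T_X`
(in the bases `b₁ b₂`) is a real polynomial in the entries of `X`, nonzero at the change of basis
matrix (where `T_X = |G| • id`), hence nonzero at some integer point (`MvPolynomial.funext_set`).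
-/

namespace Fermat.Agent.CFT

open Matrix MvPolynomial

section LatticeIndep

variable {G : Type*} [Group G] [Fintype G]
variable {V : Type*} [AddCommGroup V] [Module ℝ V] [DistribMulAction G V] [SMulCommClass G ℝ V]
variable {n : Type*} [Fintype n] [DecidableEq n]

/-- The `ℤ`-lattice spanned by a real basis, as an additive subgroup. -/
def zLatticeOf (b : Module.Basis n ℝ V) : AddSubgroup V :=
  (Submodule.span ℤ (Set.range b)).toAddSubgroup

omit [DecidableEq n] [Fintype n] in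
theorem mem_zLatticeOf_iff (b : Module.Basis n ℝ V) (x : V) :
    x ∈ zLatticeOf b ↔ ∀ k, ∃ z : ℤ, (z : ℝ) = b.repr x k := by
  show x ∈ Submodule.span ℤ (Set.range b) ↔ _
  rw [b.mem_span_iff_repr_mem ℤ]
  simp only [Set.mem_range, algebraMap_int_eq, Int.coe_castRingHom]

omit [DecidableEq n] [Fintype n] in
theorem basis_mem_zLatticeOf (b : Module.Basis n ℝ V) (j : n) : b j ∈ zLatticeOf b :=
  Submodule.subset_span ⟨j, rfl⟩

omit [DecidableEq n] [Fintype n] in
/-- Induction principle for the lattice. -/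
theorem zLatticeOf_le_of_basis_mem (b : Module.Basis n ℝ V) (H : AddSubgroup V)
    (h : ∀ j, b j ∈ H) : zLatticeOf b ≤ H := by
  intro x hx
  have hx' : x ∈ (Submodule.span ℤ (Set.range b)).toAddSubgroup := hx
  rw [Submodule.span_int_eq_addSubgroupClosure] at hx'
  have : AddSubgroup.closure (Set.range b) ≤ H := by
    rw [AddSubgroup.closure_le]
    rintro _ ⟨j, rfl⟩
    exact h j
  exact this hx'

omit [Fintype G] in
/-- The action of `g` as a linear map. -/
def smulLin (g : G) : V →ₗ[ℝ] V where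
  toFun v := g • v
  map_add' := smul_add g
  map_smul' r v := smul_comm g r v

omit [Fintype G] in
@[simp] theorem smulLin_apply (g : G) (v : V) : smulLin g v = g • v := rfl

/-- The `G`-average `∑ g, g⁻¹ ∘ T₀ ∘ g` of a linear endomorphism. -/
noncomputable def avgLin (T₀ : V →ₗ[ℝ] V) : V →ₗ[ℝ] V :=
  ∑ g : G, (smulLin g⁻¹) ∘ₗ T₀ ∘ₗ (smulLin g)

theorem avgLin_apply (T₀ : V →ₗ[ℝ] V) (v : V) :
    avgLin (G := G) T₀ v = ∑ g : G, g⁻¹ • T₀ (g • v) := by
  simp [avgLin, LinearMap.sum_apply]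

theorem avgLin_smul (T₀ : V →ₗ[ℝ] V) (h : G) (v : V) :
    avgLin (G := G) T₀ (h • v) = h • avgLin (G := G) T₀ v := by
  rw [avgLin_apply, avgLin_apply, Finset.smul_sum]
  refine Fintype.sum_equiv (Equiv.mulRight h) _ _ fun g => ?_
  simp only [Equiv.coe_mulRight, _root_.mul_inv_rev, mul_smul, smul_inv_smul]

theorem avgLin_id : avgLin (G := G) (LinearMap.id : V →ₗ[ℝ] V) = (Fintype.card G : ℝ) • LinearMap.id := by
  ext v
  simp [avgLin_apply, Finset.card_univ, Nat.cast_smul_eq_nsmul]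

/-- The matrix of the average. -/
theorem toMatrix_avgLin (b₁ b₂ : Module.Basis n ℝ V) (T₀ : V →ₗ[ℝ] V) :
    LinearMap.toMatrix b₁ b₂ (avgLin (G := G) T₀) =
      ∑ g : G, LinearMap.toMatrix b₂ b₂ (smulLin (V := V) g⁻¹) *
        LinearMap.toMatrix b₁ b₂ T₀ * LinearMap.toMatrix b₁ b₁ (smulLin (V := V) g) := by
  rw [avgLin, map_sum]
  refine Finset.sum_congr rfl fun g _ => ?_
  rw [LinearMap.toMatrix_comp b₁ b₂ b₂, LinearMap.toMatrix_comp b₁ b₁ b₂, Matrix.mul_assoc]

/-- The determinant polynomial `X ↦ det (∑ g, A g * X * B g)`. -/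
noncomputable def avgDetPoly (A B : G → Matrix n n ℝ) : MvPolynomial (n × n) ℝ :=
  (∑ g : G, (A g).map C * mvPolynomialX n n ℝ * (B g).map C).det

omit [Group G] in
theorem eval_avgDetPoly (A B : G → Matrix n n ℝ) (X : Matrix n n ℝ) :
    MvPolynomial.eval (fun p : n × n => X p.1 p.2) (avgDetPoly A B) =
      (∑ g : G, A g * X * B g).det := by
  have hC : ∀ M : Matrix n n ℝ,
      (MvPolynomial.eval fun p : n × n => X p.1 p.2).mapMatrix (M.map C) = M := by
    intro M
    ext i j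
    simp
  rw [avgDetPoly, RingHom.map_det, map_sum]
  congr 1
  refine Finset.sum_congr rfl fun g _ => ?_
  rw [map_mul, map_mul, hC, hC, mvPolynomialX_mapMatrix_eval]

/-- **Key existence statement**: a `G`-equivariant linear map `T` with `T L₁ ⊆ L₂` and nonzero
determinant. -/
theorem exists_equivariant_det_ne_zero (b₁ b₂ : Module.Basis n ℝ V)
    (h₁ : ∀ (g : G), ∀ x ∈ zLatticeOf b₁, g • x ∈ zLatticeOf b₁)
    (h₂ : ∀ (g : G), ∀ x ∈ zLatticeOf b₂, g • x ∈ zLatticeOf b₂) :
    ∃ T : V →ₗ[ℝ] V, (∀ (g : G) (v : V), T (g • v) = g • T v) ∧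
      (∀ x ∈ zLatticeOf b₁, T x ∈ zLatticeOf b₂) ∧ (LinearMap.toMatrix b₁ b₂ T).det ≠ 0 := by
  classical
  set A : G → Matrix n n ℝ :=
    fun g => LinearMap.toMatrix b₂ b₂ (smulLin (V := V) g⁻¹) with hA
  set B : G → Matrix n n ℝ :=
    fun g => LinearMap.toMatrix b₁ b₁ (smulLin (V := V) g) with hB
  -- the polynomial is nonzero
  have hp : avgDetPoly A B ≠ 0 := by
    intro h0
    have h1 := eval_avgDetPoly A B (LinearMap.toMatrix b₁ b₂ LinearMap.id)
    rw [h0, map_zero, ← toMatrix_avgLin, avgLin_id, map_smul,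
      LinearMap.toMatrix_id_eq_basis_toMatrix, Matrix.det_smul] at h1
    have h2 : (b₂.toMatrix b₁).det ≠ 0 := by
      have : IsUnit (b₂.toMatrix b₁).det := by
        rw [← Matrix.isUnit_iff_isUnit_det]
        let _i := Module.Basis.invertibleToMatrix b₂ b₁
        exact isUnit_of_invertible _
      exact this.ne_zero
    have h3 : ((Fintype.card G : ℝ)) ^ Fintype.card n ≠ 0 :=
      pow_ne_zero _ (Nat.cast_ne_zero.mpr Fintype.card_ne_zero)
    exact mul_ne_zero h3 h2 h1.symm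
  -- hence nonzero at an integer point
  obtain ⟨x, hx, hxp⟩ : ∃ x : n × n → ℝ, (∀ p, x p ∈ Set.range ((↑) : ℤ → ℝ)) ∧
      MvPolynomial.eval x (avgDetPoly A B) ≠ 0 := by
    by_contra hcon
    push Not at hcon
    apply hp
    refine MvPolynomial.funext_set (fun _ : n × n => Set.range ((↑) : ℤ → ℝ))
      (fun _ => Set.infinite_range_of_injective Int.cast_injective) fun x hx => ?_
    rw [map_zero]
    exact hcon x fun p => hx p (Set.mem_univ p)
  set X : Matrix n n ℝ := Matrix.of fun i j => x (i, j) with hX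
  have hXx : (fun p : n × n => X p.1 p.2) = x := by
    funext p
    simp [hX]
  set T₀ : V →ₗ[ℝ] V := Matrix.toLin b₁ b₂ X with hT₀
  refine ⟨avgLin (G := G) T₀, fun g v => avgLin_smul T₀ g v, ?_, ?_⟩
  · -- maps `L₁` into `L₂`
    have hT₀L : ∀ y ∈ zLatticeOf b₁, T₀ y ∈ zLatticeOf b₂ := by
      have : zLatticeOf b₁ ≤ (zLatticeOf b₂).comap T₀.toAddMonoidHom := by
        refine zLatticeOf_le_of_basis_mem b₁ _ fun j => ?_
        show T₀ (b₁ j) ∈ zLatticeOf b₂
        rw [hT₀, Matrix.toLin_self]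
        refine sum_mem fun k _ => ?_
        obtain ⟨z, hz⟩ := hx (k, j)
        have : X k j • b₂ k = z • b₂ k := by
          rw [hX, Matrix.of_apply, ← hz, Int.cast_smul_eq_zsmul]
        rw [this]
        exact zsmul_mem (basis_mem_zLatticeOf b₂ k) z
      exact fun y hy => this hy
    intro y hy
    rw [avgLin_apply]
    exact sum_mem fun g _ => h₂ g⁻¹ _ (hT₀L _ (h₁ g y hy))
  · rw [toMatrix_avgLin, hT₀, LinearMap.toMatrix_toLin, ← eval_avgDetPoly A B X, hXx]
    exact hxp

/-- **C–F IV.8, lattice form**: there is a `G`-equivariant injective linear map `T` with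
`T L₁ ⊆ L₂` and `d • L₂ ⊆ T L₁` for some nonzero integer `d`. -/
theorem exists_equivariant_lattice_map (b₁ b₂ : Module.Basis n ℝ V)
    (h₁ : ∀ (g : G), ∀ x ∈ zLatticeOf b₁, g • x ∈ zLatticeOf b₁)
    (h₂ : ∀ (g : G), ∀ x ∈ zLatticeOf b₂, g • x ∈ zLatticeOf b₂) :
    ∃ (T : V →ₗ[ℝ] V) (d : ℤ), d ≠ 0 ∧ Function.Injective T ∧
      (∀ (g : G) (v : V), T (g • v) = g • T v) ∧
      (∀ x ∈ zLatticeOf b₁, T x ∈ zLatticeOf b₂) ∧
      (∀ y ∈ zLatticeOf b₂, ∃ x ∈ zLatticeOf b₁, T x = d • y) := by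
  classical
  obtain ⟨T, hTG, hTL, hdet⟩ := exists_equivariant_det_ne_zero b₁ b₂ h₁ h₂
  -- the integer matrix of `T`
  have hint : ∀ k j, ∃ z : ℤ, (z : ℝ) = LinearMap.toMatrix b₁ b₂ T k j := by
    intro k j
    rw [LinearMap.toMatrix_apply]
    exact (mem_zLatticeOf_iff b₂ _).mp (hTL _ (basis_mem_zLatticeOf b₁ j)) k
  choose Qz hQz using hint
  set Q : Matrix n n ℤ := Matrix.of Qz with hQ
  have hQmap : Q.map ((↑) : ℤ → ℝ) = LinearMap.toMatrix b₁ b₂ T := by
    ext k j
    simp [hQ, hQz]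
  have hdetQ : ((Q.det : ℤ) : ℝ) = (LinearMap.toMatrix b₁ b₂ T).det := by
    rw [← hQmap]
    exact (Int.castRingHom ℝ).map_det Q
  have hd : Q.det ≠ 0 := by
    intro h0
    apply hdet
    rw [← hdetQ, h0, Int.cast_zero]
  have hTb : ∀ j, T (b₁ j) = ∑ k, Q k j • b₂ k := by
    intro j
    have := (LinearMap.toMatrix b₁ b₂).symm_apply_apply T
    conv_lhs => rw [← this]
    rw [LinearMap.toMatrix_symm, Matrix.toLin_self]
    refine Finset.sum_congr rfl fun k _ => ?_
    rw [← hQmap, Matrix.map_apply, Int.cast_smul_eq_zsmul]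
  have hinj : Function.Injective T := by
    have hu : IsUnit (LinearMap.toMatrix b₁ b₂ T).det := isUnit_iff_ne_zero.mpr hdet
    exact (LinearEquiv.ofIsUnitDet hu).injective
  refine ⟨T, Q.det, hd, hinj, hTG, hTL, ?_⟩
  -- `d • L₂ ⊆ T L₁` via the adjugate
  have hgen : ∀ k, ∃ x ∈ zLatticeOf b₁, T x = Q.det • b₂ k := by
    intro k
    refine ⟨∑ j, Q.adjugate j k • b₁ j,
      sum_mem fun j _ => zsmul_mem (basis_mem_zLatticeOf b₁ j) _, ?_⟩
    rw [map_sum]
    have h1 : ∀ j, T (Q.adjugate j k • b₁ j) = ∑ i, (Q i j * Q.adjugate j k) • b₂ i := by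
      intro j
      rw [map_zsmul, hTb, Finset.smul_sum]
      refine Finset.sum_congr rfl fun i _ => ?_
      rw [smul_smul, mul_comm]
    simp_rw [h1]
    rw [Finset.sum_comm]
    have h2 : ∀ i, ∑ j, (Q i j * Q.adjugate j k) • b₂ i = ((Q * Q.adjugate) i k) • b₂ i := by
      intro i
      rw [Matrix.mul_apply, Finset.sum_smul]
    simp_rw [h2, Matrix.mul_adjugate, Matrix.smul_apply, Matrix.one_apply, smul_eq_mul]
    rw [Finset.sum_eq_single k]
    · simp
    · intro i _ hik
      simp [hik]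
    · intro hk
      exact absurd (Finset.mem_univ k) hk
  have hle : zLatticeOf b₂ ≤
      ((zLatticeOf b₁).map T.toAddMonoidHom).comap (zsmulAddGroupHom (α := V) Q.det) := by
    refine zLatticeOf_le_of_basis_mem b₂ _ fun k => ?_
    obtain ⟨x, hx, hTx⟩ := hgen k
    exact ⟨x, hx, hTx⟩
  intro y hy
  obtain ⟨x, hx, hTx⟩ := hle hy
  exact ⟨x, hx, hTx⟩

end LatticeIndep

section Herbrand

variable {G : Type*} [Group G] [Fintype G]
variable {V : Type*} [AddCommGroup V] [Module ℝ V] [DistribMulAction G V] [SMulCommClass G ℝ V]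
variable {n : Type*} [Fintype n]
variable {A₁ A₂ : Type*} [AddCommGroup A₁] [AddCommGroup A₂] [DistribMulAction G A₁]
  [DistribMulAction G A₂]

/-- An additive group equivariantly embedded in `V` with image the lattice of a basis is a finitely
generated `ℤ`-module. -/
theorem moduleFinite_of_lattice_embedding {A : Type*} [AddCommGroup A] (ι : A →+ V)
    (hι : Function.Injective ι) (b : Module.Basis n ℝ V) (hb : ι.range = zLatticeOf b) :
    Module.Finite ℤ A := by
  have h1 : Module.Finite ℤ (Submodule.span ℤ (Set.range b)) :=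
    Module.Finite.of_fg (Submodule.fg_span (Set.finite_range b))
  have hmem : ∀ a : A, ι a ∈ Submodule.span ℤ (Set.range b) := by
    intro a
    have : ι a ∈ zLatticeOf b := hb ▸ ⟨a, rfl⟩
    exact this
  let f : A →ₗ[ℤ] Submodule.span ℤ (Set.range b) :=
    (ι.toIntLinearMap).codRestrict _ hmem
  have hf : Function.Injective f := by
    intro a a' h
    apply hι
    exact congrArg Subtype.val h
  have hs : Function.Surjective f := by
    rintro ⟨y, hy⟩
    have : y ∈ ι.range := by rw [hb]; exact hy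
    obtain ⟨a, rfl⟩ := this
    exact ⟨a, rfl⟩
  exact Module.Finite.equiv (LinearEquiv.ofBijective f ⟨hf, hs⟩).symm

/-- **Herbrand quotient of a lattice depends only on the real representation** (C–F IV.8):
if `A₁ A₂` are `G`-modules equivariantly embedded in the real representation `V` with images the
`ℤ`-spans of two `ℝ`-bases of `V`, then `h(A₁) = h(A₂)` (and one is defined iff the other is). -/
theorem herbrand_eq_of_lattice_embeddings
    (ι₁ : A₁ →+ V) (ι₂ : A₂ →+ V) (hι₁ : Function.Injective ι₁) (hι₂ : Function.Injective ι₂)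
    (hG₁ : ∀ (g : G) (a : A₁), ι₁ (g • a) = g • ι₁ a)
    (hG₂ : ∀ (g : G) (a : A₂), ι₂ (g • a) = g • ι₂ a)
    (b₁ b₂ : Module.Basis n ℝ V) (hb₁ : ι₁.range = zLatticeOf b₁) (hb₂ : ι₂.range = zLatticeOf b₂)
    (σ : G) :
    herbrand G A₁ σ = herbrand G A₂ σ ∧
      (HerbrandDefinedCyclic G A₁ σ ↔ HerbrandDefinedCyclic G A₂ σ) := by
  classical
  have hs₁ : ∀ (g : G), ∀ x ∈ zLatticeOf b₁, g • x ∈ zLatticeOf b₁ := by
    intro g x hx
    rw [← hb₁] at hx ⊢
    obtain ⟨a, rfl⟩ := hx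
    exact ⟨g • a, hG₁ g a⟩
  have hs₂ : ∀ (g : G), ∀ x ∈ zLatticeOf b₂, g • x ∈ zLatticeOf b₂ := by
    intro g x hx
    rw [← hb₂] at hx ⊢
    obtain ⟨a, rfl⟩ := hx
    exact ⟨g • a, hG₂ g a⟩
  obtain ⟨T, d, hd, hTinj, hTG, hTL, hTd⟩ := exists_equivariant_lattice_map b₁ b₂ hs₁ hs₂
  -- the map `φ : A₁ → A₂`
  have hmem : ∀ a : A₁, (T.toAddMonoidHom.comp ι₁) a ∈ ι₂.range := by
    intro a
    rw [hb₂]
    exact hTL _ (hb₁ ▸ ⟨a, rfl⟩)
  let e₂ : A₂ ≃+ ι₂.range := AddMonoidHom.ofInjective hι₂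
  let φ : A₁ →+ A₂ :=
    e₂.symm.toAddMonoidHom.comp ((T.toAddMonoidHom.comp ι₁).codRestrict ι₂.range hmem)
  have hφ : ∀ a : A₁, ι₂ (φ a) = T (ι₁ a) := by
    intro a
    have : (e₂ (φ a) : V) = T (ι₁ a) := by
      show (e₂ (e₂.symm _) : V) = _
      rw [AddEquiv.apply_symm_apply]
      rfl
    exact this
  have hφinj : Function.Injective φ := by
    intro a a' h
    apply hι₁
    apply hTinj
    rw [← hφ, ← hφ, h]
  have hφG : ∀ (g : G) (a : A₁), φ (g • a) = g • φ a := by
    intro g a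
    apply hι₂
    rw [hφ, hG₁, hTG, hG₂, hφ]
  -- finite index
  have hdA : ∀ a₂ : A₂, d • a₂ ∈ φ.range := by
    intro a₂
    obtain ⟨x, hx, hTx⟩ := hTd (ι₂ a₂) (hb₂ ▸ ⟨a₂, rfl⟩)
    rw [← hb₁] at hx
    obtain ⟨a₁, rfl⟩ := hx
    refine ⟨a₁, hι₂ ?_⟩
    rw [hφ, hTx, map_zsmul]
  have : Module.Finite ℤ A₂ := moduleFinite_of_lattice_embedding ι₂ hι₂ b₂ hb₂
  have : φ.range.FiniteIndex := by
    have hfin : Finite (A₂ ⧸ φ.range) := by
      have : Module.Finite ℤ (A₂ ⧸ φ.range) :=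
        Module.Finite.of_surjective (QuotientAddGroup.mk' φ.range).toIntLinearMap
          (QuotientAddGroup.mk'_surjective _)
      refine Module.finite_of_fg_torsion (A₂ ⧸ φ.range) fun x => ?_
      refine ⟨⟨d, mem_nonZeroDivisors_of_ne_zero hd⟩, ?_⟩
      obtain ⟨a₂, rfl⟩ := QuotientAddGroup.mk_surjective x
      show d • (a₂ : A₂ ⧸ φ.range) = 0
      rw [← QuotientAddGroup.mk_zsmul, QuotientAddGroup.eq_zero_iff]
      exact hdA a₂
    exact AddSubgroup.finiteIndex_of_finite_quotient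
  have := herbrand_eq_of_injective_of_finiteIndex (G := G) φ hφinj hφG σ
  exact ⟨this.1.symm, this.2.symm⟩

/-- The `G`-action on a `G`-stable additive subgroup. -/
@[reducible] def distribMulActionOfStable {W : Type*} [AddCommGroup W] [DistribMulAction G W]
    (L : AddSubgroup W) (hL : ∀ (g : G), ∀ x ∈ L, g • x ∈ L) : DistribMulAction G L where
  smul g x := ⟨g • (x : W), hL g x x.2⟩
  one_smul x := Subtype.ext (one_smul G (x : W))
  mul_smul g h x := Subtype.ext (mul_smul g h (x : W))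
  smul_zero g := Subtype.ext (smul_zero g)
  smul_add g x y := Subtype.ext (smul_add g (x : W) (y : W))

/-- **C–F IV.8 for stable lattices inside `V`**: two `G`-stable lattices `L₁ L₂ ⊆ V`, each the
`ℤ`-span of an `ℝ`-basis, have the same Herbrand quotient (for the induced actions). -/
theorem herbrand_eq_of_stable_lattices (b₁ b₂ : Module.Basis n ℝ V)
    (h₁ : ∀ (g : G), ∀ x ∈ zLatticeOf b₁, g • x ∈ zLatticeOf b₁)
    (h₂ : ∀ (g : G), ∀ x ∈ zLatticeOf b₂, g • x ∈ zLatticeOf b₂) (σ : G) :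
    letI := distribMulActionOfStable (zLatticeOf b₁) h₁
    letI := distribMulActionOfStable (zLatticeOf b₂) h₂
    herbrand G (zLatticeOf b₁) σ = herbrand G (zLatticeOf b₂) σ ∧
      (HerbrandDefinedCyclic G (zLatticeOf b₁) σ ↔ HerbrandDefinedCyclic G (zLatticeOf b₂) σ) := by
  letI := distribMulActionOfStable (zLatticeOf b₁) h₁
  letI := distribMulActionOfStable (zLatticeOf b₂) h₂
  exact herbrand_eq_of_lattice_embeddings (zLatticeOf b₁).subtype (zLatticeOf b₂).subtype
    Subtype.coe_injective Subtype.coe_injective (fun _ _ => rfl) (fun _ _ => rfl) b₁ b₂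
    (AddSubgroup.range_subtype _) (AddSubgroup.range_subtype _) σ

end Herbrand

end Fermat.Agent.CFT
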