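import Mathlib.RepresentationTheory.Homological.GroupCohomology.Functoriality

set_option autoImplicit false

/-!
# Inflation-restriction in degree 2 (explicit cocycles)

For a normal subgroup `S ≤ G` and a `G`-representation `A` with `H¹(S, A) = 0` (in cocycle form,
`H1ResVanishes A S`), the sequence `0 ⟶ H²(G ⧸ S, A^S) ⟶ H²(G, A) ⟶ H²(S, A)` is exact.
-/

namespace Fermat.Agent.CFT

universe u

open CategoryTheory groupCohomology Rep

variable {k G : Type u} [CommRing k] [Group G] (A : Rep k G) (S : Subgroup G)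

/-- `H¹(S, A) = 0`, in cocycle form. -/
def H1ResVanishes : Prop :=
  ∀ x : S → A, (∀ s t : S, x (s * t) = A.ρ s (x t) + x s) → ∃ a : A, ∀ s : S, x s = A.ρ s a - a

/-- `H1ResVanishes` follows from the vanishing of Mathlib's `H¹(S, A)`. -/
lemma H1ResVanishes_of_subsingleton [Subsingleton (H1 (res S.subtype A))] :
    H1ResVanishes A S := by
  intro x hx
  have hx' : x ∈ cocycles₁ (res S.subtype A) := (mem_cocycles₁_iff (A := res S.subtype A) x).2 hx
  have h0 : H1π _ (⟨x, hx'⟩ : cocycles₁ (res S.subtype A)) = 0 := Subsingleton.elim _ _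
  obtain ⟨a, ha⟩ := (H1π_eq_zero_iff _).1 h0
  exact ⟨a, fun s => (congr_fun ha s).symm⟩

section Sub

variable {A}

/-- Subtracting a coboundary from a `2`-cocycle. -/
noncomputable def subD (F : cocycles₂ A) (u : G → A) : cocycles₂ A :=
  F - ⟨d₁₂ A u, d₁₂_apply_mem_cocycles₂ u⟩

@[simp]
lemma subD_apply (F : cocycles₂ A) (u : G → A) (g h : G) :
    subD F u (g, h) = F (g, h) - (A.ρ g (u h) - u (g * h) + u g) := rfl

lemma H2π_subD (F : cocycles₂ A) (u : G → A) : H2π A (subD F u) = H2π A F := by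
  rw [H2π_eq_iff]
  refine ⟨-u, ?_⟩
  ext ⟨g, h⟩
  change _ = (F (g, h) - (A.ρ g (u h) - u (g * h) + u g)) - F (g, h)
  simp
  abel

/-- The cocycle identity, in the form used below. -/
lemma cocycle_id (F : cocycles₂ A) (g h j : G) :
    F (g * h, j) + F (g, h) = A.ρ g (F (h, j)) + F (g, h * j) :=
  (mem_cocycles₂_iff F).1 F.2 g h j

/-- Step 1: if `F` restricted to `S × S` is a coboundary, modify `F` to vanish on `S × S`. -/
lemma exists_subD_vanish_SS (F : cocycles₂ A) (β : S → A)
    (hβ : ∀ s t : S, F ((s : G), (t : G)) = A.ρ s (β t) - β (s * t) + β s) :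
    ∃ u : G → A, ∀ s t : S, subD F u ((s : G), (t : G)) = 0 := by
  classical
  refine ⟨fun g => if h : g ∈ S then β ⟨g, h⟩ else 0, fun s t => ?_⟩
  have hst : (s : G) * (t : G) ∈ S := S.mul_mem s.2 t.2
  simp only [subD_apply, s.2, t.2, hst, dif_pos, Subtype.coe_eta, hβ s t]
  have : (⟨(s : G) * (t : G), hst⟩ : S) = s * t := rfl
  rw [this, sub_self]

/-- A coset representative of `g`, depending only on the coset `g S`. -/
noncomputable def cosetRep (g : G) : G := ((g : G ⧸ S)).out

lemma cosetRep_inv_mul_mem (g : G) : (cosetRep S g)⁻¹ * g ∈ S := by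
  rw [← QuotientGroup.eq]
  exact QuotientGroup.out_eq' _

lemma cosetRep_mul_of_mem (g : G) {t : G} (ht : t ∈ S) : cosetRep S (g * t) = cosetRep S g := by
  unfold cosetRep
  rw [QuotientGroup.mk_mul_of_mem g ht]

lemma cosetRep_mem_of_mem {t : G} (ht : t ∈ S) : cosetRep S t ∈ S := by
  have h := cosetRep_inv_mul_mem S t
  have h2 : (cosetRep S t)⁻¹ ∈ S := by
    have := S.mul_mem h (S.inv_mem ht)
    simpa using this
  simpa using S.inv_mem h2

/-- Step 2: if `F` vanishes on `S × S`, modify `F` to vanish on `G × S`. -/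
lemma exists_subD_vanish_GS (F : cocycles₂ A) (hF : ∀ s t : S, F ((s : G), (t : G)) = 0) :
    ∃ u : G → A, ∀ (g : G) (t : S), subD F u (g, (t : G)) = 0 := by
  refine ⟨fun g => - F (cosetRep S g, (cosetRep S g)⁻¹ * g), fun g t => ?_⟩
  have h1 : F (cosetRep S (t : G), (cosetRep S (t : G))⁻¹ * (t : G)) = 0 :=
    hF ⟨_, cosetRep_mem_of_mem S t.2⟩ ⟨_, cosetRep_inv_mul_mem S t⟩
  have h2 := cocycle_id F (cosetRep S g) ((cosetRep S g)⁻¹ * g) t
  have h3 : F ((cosetRep S g)⁻¹ * g, (t : G)) = 0 := hF ⟨_, cosetRep_inv_mul_mem S g⟩ t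
  rw [mul_inv_cancel_left, h3, map_zero, zero_add] at h2
  simp only [subD_apply, h1, neg_zero, map_zero, cosetRep_mul_of_mem S g t.2, ← mul_assoc]
  rw [← h2]
  abel

/-- If `F` vanishes on `G × S` then it is right `S`-invariant in the second variable. -/
lemma map_snd_mul_of_vanish_GS (F : cocycles₂ A) (hF : ∀ (g : G) (t : S), F (g, (t : G)) = 0)
    (g h : G) (t : S) : F (g, h * t) = F (g, h) := by
  have h1 := cocycle_id F g h t
  rw [hF, hF, map_zero, zero_add, zero_add] at h1
  exact h1.symm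

variable [S.Normal]

lemma cosetRep_mem_mul (g : G) {t : G} (ht : t ∈ S) : cosetRep S (t * g) = cosetRep S g := by
  have : t * g = g * (g⁻¹ * t * g) := by group
  rw [this]
  exact cosetRep_mul_of_mem S g (Subgroup.Normal.conj_mem' ‹_› t ht g)

/-- If `F` vanishes on `G × S` then `F (s, t * h) = F (s, h)` for `t ∈ S`. -/
lemma map_snd_mem_mul_of_vanish_GS (F : cocycles₂ A)
    (hF : ∀ (g : G) (t : S), F (g, (t : G)) = 0) (g h : G) (t : S) :
    F (g, t * h) = F (g, h) := by
  have : (t : G) * h = h * (h⁻¹ * t * h) := by group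
  rw [this]
  exact map_snd_mul_of_vanish_GS S F hF g h ⟨_, Subgroup.Normal.conj_mem' ‹_› (t : G) t.2 h⟩

/-- Step 3: if `F` vanishes on `G × S` and `H¹(S, A) = 0`, modify `F` to vanish on `G × S` and
`S × G`. -/
lemma exists_subD_vanish_SG (hS : H1ResVanishes A S) (F : cocycles₂ A)
    (hF : ∀ (g : G) (t : S), F (g, (t : G)) = 0) :
    ∃ u : G → A, (∀ (g : G) (t : S), subD F u (g, (t : G)) = 0) ∧
      ∀ (g : G) (t : S), subD F u ((t : G), g) = 0 := by
  have hcoc : ∀ h : G, ∀ s t : S, F (((s * t : S) : G), h) = A.ρ s (F ((t : G), h)) + F ((s : G), h) := by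
    intro h s t
    have h1 := cocycle_id F s t h
    rw [hF, add_zero, map_snd_mem_mul_of_vanish_GS S F hF] at h1
    exact h1
  choose a ha using fun h : G => hS (fun t => F ((t : G), h)) (hcoc h)
  -- make `a` depend only on the coset
  have hout : ∀ (h : G) (t : S), F ((t : G), cosetRep S h) = F ((t : G), h) := by
    intro h t
    have h1 : cosetRep S h = h * (h⁻¹ * cosetRep S h) := by group
    have h2 : h⁻¹ * cosetRep S h ∈ S := by
      have := S.inv_mem (cosetRep_inv_mul_mem S h)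
      simpa using this
    rw [h1]
    exact map_snd_mul_of_vanish_GS S F hF t h ⟨_, h2⟩
  have ha' : ∀ (h : G) (t : S), F ((t : G), h) = A.ρ t (a (cosetRep S h)) - a (cosetRep S h) := by
    intro h t
    rw [← hout h t]
    exact ha (cosetRep S h) t
  have hinv : ∀ t : S, A.ρ t (a (cosetRep S 1)) = a (cosetRep S 1) := by
    intro t
    have h1 := ha' 1 t
    have h2 : F ((t : G), (1 : G)) = 0 := hF t 1
    rw [h2] at h1
    exact (sub_eq_zero.1 h1.symm)
  refine ⟨fun h => a (cosetRep S h) - a (cosetRep S 1), fun g t => ?_, fun g t => ?_⟩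
  · have h1 : cosetRep S (t : G) = cosetRep S 1 := by
      have := cosetRep_mul_of_mem S 1 t.2
      rwa [one_mul] at this
    simp only [subD_apply, hF, cosetRep_mul_of_mem S g t.2, h1, sub_self, map_zero]
    abel
  · have h1 : cosetRep S (t : G) = cosetRep S 1 := by
      have := cosetRep_mul_of_mem S 1 t.2
      rwa [one_mul] at this
    simp only [subD_apply, ha' g t, cosetRep_mem_mul S g t.2, h1, sub_self, map_sub, hinv t]
    abel

/-- If `F` vanishes on `G × S` and `S × G` it is right `S`-invariant in the first variable. -/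
lemma map_fst_mul_of_vanish (F : cocycles₂ A) (hF : ∀ (g : G) (t : S), F (g, (t : G)) = 0)
    (hF' : ∀ (g : G) (t : S), F ((t : G), g) = 0) (g h : G) (t : S) :
    F (g * t, h) = F (g, h) := by
  have h1 := cocycle_id F g t h
  rw [hF, hF', map_zero, zero_add, add_zero, map_snd_mem_mul_of_vanish_GS S F hF] at h1
  exact h1

/-- If `F` vanishes on `G × S` and `S × G` its values are `S`-invariant. -/
lemma ρ_map_of_vanish (F : cocycles₂ A) (hF : ∀ (g : G) (t : S), F (g, (t : G)) = 0)
    (hF' : ∀ (g : G) (t : S), F ((t : G), g) = 0) (g h : G) (t : S) :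
    A.ρ t (F (g, h)) = F (g, h) := by
  have h1 := cocycle_id F t g h
  rw [hF', hF', add_zero, add_zero] at h1
  rw [← h1]
  have : (t : G) * g = g * (g⁻¹ * t * g) := by group
  rw [this]
  exact map_fst_mul_of_vanish S F hF hF' g h ⟨_, Subgroup.Normal.conj_mem' ‹_› (t : G) t.2 g⟩

omit [S.Normal] in
lemma cosetRep_eq_mul (g : G) : ∃ t : S, cosetRep S g = g * t :=
  ⟨⟨g⁻¹ * cosetRep S g, by
    have := S.inv_mem (cosetRep_inv_mul_mem S g)
    simpa using this⟩, by simp⟩

/-- Step 4: a cocycle vanishing on `G × S` and `S × G` is inflated from `G ⧸ S`. -/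
lemma exists_inf_eq_of_vanish (F : cocycles₂ A) (hF : ∀ (g : G) (t : S), F (g, (t : G)) = 0)
    (hF' : ∀ (g : G) (t : S), F ((t : G), g) = 0) :
    ∃ f : cocycles₂ (A.quotientToInvariants S), ∀ g h : G,
      ((f ((g : G ⧸ S), (h : G ⧸ S)) : (A.quotientToInvariants S)) : A) = F (g, h) := by
  have key : ∀ g h : G, F (cosetRep S g, cosetRep S h) = F (g, h) := by
    intro g h
    obtain ⟨t, ht⟩ := cosetRep_eq_mul S g
    obtain ⟨t', ht'⟩ := cosetRep_eq_mul S h
    rw [ht, ht', map_fst_mul_of_vanish S F hF hF', map_snd_mul_of_vanish_GS S F hF]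
  let f : (G ⧸ S) × (G ⧸ S) → (A.quotientToInvariants S) := fun p =>
    ⟨F (p.1.out, p.2.out), fun t => ρ_map_of_vanish S F hF hF' _ _ t⟩
  have hf : ∀ g h : G, ((f ((g : G ⧸ S), (h : G ⧸ S)) : (A.quotientToInvariants S)) : A) = F (g, h) :=
    fun g h => key g h
  refine ⟨⟨f, ?_⟩, hf⟩
  rw [mem_cocycles₂_iff]
  intro g h j
  induction g using QuotientGroup.induction_on with | @H g =>
  induction h using QuotientGroup.induction_on with | @H h =>
  induction j using QuotientGroup.induction_on with | @H j =>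
  apply Subtype.ext
  have := cocycle_id F g h j
  simp only [← QuotientGroup.mk_mul]
  rw [Submodule.coe_add, Submodule.coe_add, hf, hf, hf, this]
  congr 1
  change _ = A.ρ g (f (↑h, ↑j) : A)
  rw [hf]

/-- Core of the injectivity of inflation: if the inflation of `f` is the coboundary of `b`, then
`f` is a coboundary (assuming `H¹(S, A) = 0`). -/
lemma exists_d_eq_of_inf_eq_d (hS : H1ResVanishes A S) (f : cocycles₂ (A.quotientToInvariants S))
    (b : G → A)
    (hb : ∀ g h : G, A.ρ g (b h) - b (g * h) + b g =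
      ((f ((g : G ⧸ S), (h : G ⧸ S)) : (A.quotientToInvariants S)) : A)) :
    ∃ b' : G ⧸ S → (A.quotientToInvariants S), ∀ g h : G ⧸ S,
      (A.quotientToInvariants S).ρ g (b' h) - b' (g * h) + b' g = f (g, h) := by
  set c : A := ((f (1, 1) : (A.quotientToInvariants S)) : A) with hc
  have hcinv : ∀ s : S, A.ρ s c = c := fun s => (f (1, 1)).2 s
  have hmk : ∀ s : S, ((s : G) : G ⧸ S) = 1 := fun s => (QuotientGroup.eq_one_iff _).2 s.2
  -- `b - c` is a cocycle on `S`
  obtain ⟨a, ha⟩ := hS (fun s => b s - c) (by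
    intro s t
    have h1 := hb s t
    rw [hmk, hmk, ← hc] at h1
    simp only [Subgroup.coe_mul, map_sub, hcinv]
    rw [← h1]
    abel)
  -- the modified cochain
  set b₂ : G → A := fun g => b g - (A.ρ g a - a) with hb₂def
  have hb₂ : ∀ g h : G, A.ρ g (b₂ h) - b₂ (g * h) + b₂ g =
      ((f ((g : G ⧸ S), (h : G ⧸ S)) : (A.quotientToInvariants S)) : A) := by
    intro g h
    rw [← hb g h]
    simp only [hb₂def, map_sub, map_mul, Module.End.mul_apply]
    abel
  have hb₂S : ∀ s : S, b₂ s = c := by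
    intro s
    have := ha s
    simp only [hb₂def]
    rw [← this]
    abel
  have hsnd : ∀ g : G, ((f ((g : G ⧸ S), 1) : (A.quotientToInvariants S)) : A) = A.ρ g c := by
    intro g
    rw [cocycles₂_map_one_snd f (g : G ⧸ S)]
    rfl
  have hfst : ∀ g : G, ((f (1, (g : G ⧸ S)) : (A.quotientToInvariants S)) : A) = c := by
    intro g
    rw [cocycles₂_map_one_fst f (g : G ⧸ S)]
  have hr : ∀ (g : G) (s : S), b₂ (g * s) = b₂ g := by
    intro g s
    have h1 := hb₂ g s
    rw [hmk, hsnd, hb₂S] at h1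
    have : b₂ (g * s) = b₂ g - ((A.ρ g c - b₂ (g * s) + b₂ g) - A.ρ g c) := by abel
    conv_lhs => rw [this]
    rw [h1, sub_self, sub_zero]
  have hl : ∀ (g : G) (s : S), b₂ (s * g) = A.ρ s (b₂ g) := by
    intro g s
    have h1 := hb₂ s g
    rw [hmk, hfst, hb₂S] at h1
    have : b₂ (s * g) = A.ρ s (b₂ g) - ((A.ρ s (b₂ g) - b₂ (s * g) + c) - c) := by abel
    conv_lhs => rw [this]
    rw [h1, sub_self, sub_zero]
  have hinv : ∀ (g : G) (s : S), A.ρ s (b₂ g) = b₂ g := by
    intro g s
    rw [← hl]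
    have : (s : G) * g = g * (g⁻¹ * s * g) := by group
    rw [this]
    exact hr g ⟨_, Subgroup.Normal.conj_mem' ‹_› (s : G) s.2 g⟩
  let b' : G ⧸ S → (A.quotientToInvariants S) := fun q => ⟨b₂ q.out, fun s => hinv _ s⟩
  have hb' : ∀ g : G, ((b' (g : G ⧸ S) : (A.quotientToInvariants S)) : A) = b₂ g := by
    intro g
    obtain ⟨t, ht⟩ := cosetRep_eq_mul S g
    change b₂ (cosetRep S g) = b₂ g
    rw [ht, hr]
  refine ⟨b', fun g h => ?_⟩
  induction g using QuotientGroup.induction_on with | @H g =>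
  induction h using QuotientGroup.induction_on with | @H h =>
  apply Subtype.ext
  rw [← hb₂ g h, ← QuotientGroup.mk_mul, Submodule.coe_add, Submodule.coe_sub, hb', hb']
  congr 2
  change A.ρ g (b' (h : G ⧸ S) : A) = _
  rw [hb']

end Sub

section Main

variable [S.Normal]

/-- Inflation `H²(G ⧸ S, A^S) ⟶ H²(G, A)`. -/
noncomputable abbrev H2inf :
    groupCohomology (A.quotientToInvariants S) 2 ⟶ groupCohomology A 2 :=
  map (QuotientGroup.mk' S) (ofHom <| A.ρ.quotientToInvariants_lift S) 2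

/-- Restriction `H²(G, A) ⟶ H²(S, A)`. -/
noncomputable abbrev H2res :
    groupCohomology A 2 ⟶ groupCohomology (res S.subtype A) 2 :=
  map S.subtype (𝟙 _) 2

/-- If `H¹(S, A) = 0`, inflation `H²(G ⧸ S, A^S) ⟶ H²(G, A)` is injective. -/
theorem H2inf_injective (hS : H1ResVanishes A S) : Function.Injective (H2inf A S) := by
  rw [injective_iff_map_eq_zero]
  intro x hx
  induction x using H2_induction_on with | @h x =>
  rw [H2π_comp_map_apply (QuotientGroup.mk' S)] at hx
  rcases (H2π_eq_zero_iff _).1 hx with ⟨b, hb⟩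
  obtain ⟨b', hb'⟩ := exists_d_eq_of_inf_eq_d S hS x b (fun g h => by
    exact congr_fun hb (g, h))
  exact (H2π_eq_zero_iff _).2 ⟨b', funext fun ⟨g, h⟩ => hb' g h⟩

/-- If `H¹(S, A) = 0`, the sequence `H²(G ⧸ S, A^S) ⟶ H²(G, A) ⟶ H²(S, A)` is exact. -/
theorem H2InfRes_exact (hS : H1ResVanishes A S) (x : groupCohomology A 2)
    (hx : H2res A S x = 0) : ∃ y, H2inf A S y = x := by
  induction x using H2_induction_on with | @h F =>
  rw [H2π_comp_map_apply S.subtype] at hx
  rcases (H2π_eq_zero_iff _).1 hx with ⟨β, hβ⟩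
  obtain ⟨u₁, h₁⟩ := exists_subD_vanish_SS S F β (fun s t => (congr_fun hβ (s, t)).symm)
  obtain ⟨u₂, h₂⟩ := exists_subD_vanish_GS S (subD F u₁) h₁
  obtain ⟨u₃, h₃, h₃'⟩ := exists_subD_vanish_SG S hS (subD (subD F u₁) u₂) h₂
  obtain ⟨f, hf⟩ := exists_inf_eq_of_vanish S _ h₃ h₃'
  refine ⟨H2π _ f, ?_⟩
  have e : mapCocycles₂ (QuotientGroup.mk' S) (ofHom <| A.ρ.quotientToInvariants_lift S) f =
      subD (subD (subD F u₁) u₂) u₃ := by
    ext g h
    exact hf g h
  rw [H2π_comp_map_apply (QuotientGroup.mk' S), e, H2π_subD, H2π_subD, H2π_subD]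

/-- The composite `H²(G ⧸ S, A^S) ⟶ H²(G, A) ⟶ H²(S, A)` is zero. -/
theorem H2res_H2inf (y : groupCohomology (A.quotientToInvariants S) 2) :
    H2res A S (H2inf A S y) = 0 := by
  induction y using H2_induction_on with | @h f =>
  rw [H2π_comp_map_apply (QuotientGroup.mk' S), H2π_comp_map_apply S.subtype, H2π_eq_zero_iff]
  refine ⟨fun _ => ((f (1, 1) : (A.quotientToInvariants S)) : A), ?_⟩
  ext ⟨s, t⟩
  have hmk : ∀ s : S, ((s : G) : G ⧸ S) = 1 := fun s => (QuotientGroup.eq_one_iff _).2 s.2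
  have hinv : A.ρ s ((f (1, 1) : (A.quotientToInvariants S)) : A) = (f (1, 1) : _) :=
    (f (1, 1)).2 s
  change A.ρ s ((f (1, 1) : (A.quotientToInvariants S)) : A) - (f (1, 1) : _) + (f (1, 1) : _) =
    ((f (((s : G) : G ⧸ S), ((t : G) : G ⧸ S)) : (A.quotientToInvariants S)) : A)
  rw [hmk, hmk, hinv]
  abel

/-- If `H¹(S, A) = 0` then `|H²(G, A)|` divides `|H²(G ⧸ S, A^S)| * |H²(S, A)|`. -/
theorem natCard_H2_dvd_mul (hS : H1ResVanishes A S) :
    Nat.card (groupCohomology A 2) ∣
      Nat.card (groupCohomology (A.quotientToInvariants S) 2) *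
        Nat.card (groupCohomology (res S.subtype A) 2) := by
  set r : groupCohomology A 2 →+ groupCohomology (res S.subtype A) 2 :=
    (H2res A S).hom.toAddMonoidHom with hr
  set i : groupCohomology (A.quotientToInvariants S) 2 →+ groupCohomology A 2 :=
    (H2inf A S).hom.toAddMonoidHom with hi
  have hinj : Function.Injective i := H2inf_injective A S hS
  have hker : r.ker = i.range := by
    ext x
    constructor
    · intro hx
      obtain ⟨y, hy⟩ := H2InfRes_exact A S hS x hx
      exact ⟨y, hy⟩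
    · rintro ⟨y, rfl⟩
      exact H2res_H2inf A S y
  have h1 : Nat.card (groupCohomology A 2) = Nat.card r.ker * Nat.card r.range := by
    rw [← AddSubgroup.index_ker, AddSubgroup.card_mul_index]
  have h2 : Nat.card r.ker = Nat.card (groupCohomology (A.quotientToInvariants S) 2) := by
    rw [hker]
    exact Nat.card_congr (AddMonoidHom.ofInjective hinj).symm.toEquiv
  rw [h1, h2]
  exact Nat.mul_dvd_mul_left _ (AddSubgroup.card_addSubgroup_dvd_card _)

end Main

end Fermat.Agent.CFT
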