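import Mathlib

set_option autoImplicit false

/-!
# Stream A (Coh), chunk T2: the index trick

For a subgroup `S ≤ G` of finite index and `M : Rep k G`, the unit `M ⟶ Coind_S^G Res_S M`
followed by the trace `Coind_S^G Res_S M ⟶ M` is multiplication by the index `[G : S]`.  With
Shapiro's lemma `Hⁿ(G, Coind_S^G Res_S M) ≅ Hⁿ(S, Res_S M)` this shows: if `Hⁿ(S, M) = 0` then
`Hⁿ(G, M)` is killed by `[G : S]`.
-/

namespace Fermat.Agent.CFT

open CategoryTheory Rep

universe u

section RepLevel

variable {k G : Type u} [CommRing k] [Group G] (S : Subgroup G) (M : Rep k G)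

/-- The unit `M ⟶ Coind_S^G Res_S M`, `m ↦ (g ↦ g • m)`. -/
noncomputable def coindUnit : M ⟶ coind S.subtype (res S.subtype M) :=
  resCoindToHom S.subtype M (res S.subtype M) (𝟙 _)

theorem coindUnit_apply (m : M.V) (g : G) :
    ((coindUnit S M).hom m).1 g = M.ρ g m := rfl

/-- The summand of the trace, as a function on `G ⧸ S`: `gS ↦ g • f(g⁻¹)`. -/
noncomputable def coindTraceFun (f : (res S.subtype M).ρ.coindV S.subtype) : G ⧸ S → M.V :=
  fun x => Quotient.liftOn' x (fun g => M.ρ g (f.1 g⁻¹)) (by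
    intro a b hab
    have hs : a⁻¹ * b ∈ S := QuotientGroup.leftRel_apply.mp hab
    have hb : b = a * (a⁻¹ * b) := by group
    have h1 : f.1 b⁻¹ = M.ρ (a⁻¹ * b)⁻¹ (f.1 a⁻¹) := by
      have := f.2 (⟨a⁻¹ * b, hs⟩⁻¹ : S) a⁻¹
      have e : (S.subtype (⟨a⁻¹ * b, hs⟩⁻¹ : S)) * a⁻¹ = b⁻¹ := by
        simp
      rw [e] at this
      rw [this]
      rfl
    show M.ρ a (f.1 a⁻¹) = M.ρ b (f.1 b⁻¹)
    rw [h1, ← Module.End.mul_apply, ← map_mul]
    congr 2
    group)

theorem coindTraceFun_mk (f : (res S.subtype M).ρ.coindV S.subtype) (g : G) :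
    coindTraceFun S M f (QuotientGroup.mk g) = M.ρ g (f.1 g⁻¹) := rfl

variable [S.FiniteIndex]

noncomputable local instance : Fintype (G ⧸ S) := Subgroup.fintypeQuotientOfFiniteIndex

/-- The trace `Coind_S^G Res_S M → M`, `f ↦ ∑_{gS} g • f(g⁻¹)`, as a linear map. -/
noncomputable def coindTraceLin : (res S.subtype M).ρ.coindV S.subtype →ₗ[k] M.V where
  toFun f := ∑ x : G ⧸ S, coindTraceFun S M f x
  map_add' f f' := by
    rw [← Finset.sum_add_distrib]
    refine Finset.sum_congr rfl fun x _ => ?_
    induction x using QuotientGroup.induction_on with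
    | H g => simp [coindTraceFun_mk]
  map_smul' c f := by
    rw [RingHom.id_apply, Finset.smul_sum]
    refine Finset.sum_congr rfl fun x _ => ?_
    induction x using QuotientGroup.induction_on with
    | H g => simp [coindTraceFun_mk]

theorem coindTraceLin_apply (f : (res S.subtype M).ρ.coindV S.subtype) :
    coindTraceLin S M f = ∑ x : G ⧸ S, coindTraceFun S M f x := rfl

theorem coindTraceFun_smul (h : G) (f : (res S.subtype M).ρ.coindV S.subtype) (x : G ⧸ S) :
    coindTraceFun S M ((Representation.coind S.subtype (res S.subtype M).ρ) h f) x =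
      M.ρ h (coindTraceFun S M f (h⁻¹ • x)) := by
  induction x using QuotientGroup.induction_on with
  | H g =>
    have e : h⁻¹ • (QuotientGroup.mk g : G ⧸ S) = QuotientGroup.mk (h⁻¹ * g) := rfl
    rw [e, coindTraceFun_mk, coindTraceFun_mk, ← Module.End.mul_apply, ← map_mul]
    have e2 : h * (h⁻¹ * g) = g := by group
    have e3 : (h⁻¹ * g)⁻¹ = g⁻¹ * h := by group
    rw [e2, e3]
    rfl

theorem coindTraceLin_smul (h : G) (f : (res S.subtype M).ρ.coindV S.subtype) :
    coindTraceLin S M ((Representation.coind S.subtype (res S.subtype M).ρ) h f) =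
      M.ρ h (coindTraceLin S M f) := by
  rw [coindTraceLin_apply, coindTraceLin_apply, map_sum]
  have h1 : ∀ x : G ⧸ S,
      coindTraceFun S M ((Representation.coind S.subtype (res S.subtype M).ρ) h f) x =
        M.ρ h (coindTraceFun S M f (h⁻¹ • x)) := fun x => coindTraceFun_smul S M h f x
  rw [Finset.sum_congr rfl fun x _ => h1 x]
  exact Fintype.sum_equiv (MulAction.toPerm h⁻¹) _ _ fun x => rfl

/-- The trace `Coind_S^G Res_S M ⟶ M`. -/
noncomputable def coindTrace : coind S.subtype (res S.subtype M) ⟶ M :=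
  Rep.ofHom ⟨coindTraceLin S M, fun h => by
    ext f
    exact coindTraceLin_smul S M h f⟩

theorem coindTrace_apply (f : (res S.subtype M).ρ.coindV S.subtype) :
    (coindTrace S M).hom f = coindTraceLin S M f := rfl

/-- trace ∘ unit = multiplication by the index. -/
theorem coindUnit_comp_coindTrace : coindUnit S M ≫ coindTrace S M = S.index • 𝟙 M := by
  ext m
  show coindTraceLin S M ((coindUnit S M).hom m) = (S.index • 𝟙 M : M ⟶ M).hom m
  rw [coindTraceLin_apply]
  have : ∀ x : G ⧸ S, coindTraceFun S M ((coindUnit S M).hom m) x = m := by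
    intro x
    induction x using QuotientGroup.induction_on with
    | H g =>
      rw [coindTraceFun_mk, coindUnit_apply, ← Module.End.mul_apply, ← map_mul]
      simp
  simp_rw [this]
  rw [Finset.sum_const, Finset.card_univ, Subgroup.index_eq_card, Nat.card_eq_fintype_card]
  rfl

end RepLevel

section Cohomology

open groupCohomology

variable {k G : Type u} [CommRing k] [Group G]

/-- `Hⁿ(G, -)` is additive on morphisms: multiples. -/
theorem map_id_nsmul {A B : Rep k G} (φ : A ⟶ B) (m n : ℕ) :
    groupCohomology.map (MonoidHom.id G) (m • φ) n = m • groupCohomology.map (MonoidHom.id G) φ n := by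
  have h1 : cochainsMap (MonoidHom.id G) (m • φ) = m • cochainsMap (MonoidHom.id G) φ :=
    (cochainsFunctor k G).map_nsmul
  show HomologicalComplex.homologyMap (cochainsMap (MonoidHom.id G) (m • φ)) n = _
  rw [h1]
  exact (HomologicalComplex.homologyFunctor (ModuleCat k) _ n).map_nsmul

variable (S : Subgroup G) (M : Rep k G)

/-- The "restriction" map `Hⁿ(G, M) ⟶ Hⁿ(S, M)` obtained from the unit `M ⟶ Coind_S^G Res_S M` and
Shapiro's lemma. -/
noncomputable def shapiroRes (n : ℕ) :
    groupCohomology M n ⟶ groupCohomology (res S.subtype M) n :=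
  groupCohomology.map (MonoidHom.id G) (coindUnit S M) n ≫ (coindIso (res S.subtype M) n).hom

variable [S.FiniteIndex]

/-- **Index trick.** The kernel of `Hⁿ(G, M) ⟶ Hⁿ(S, M)` is killed by the index `[G : S]`. -/
theorem index_nsmul_eq_zero_of_shapiroRes_eq_zero (n : ℕ) (x : groupCohomology M n)
    (hx : (shapiroRes S M n).hom x = 0) : S.index • x = 0 := by
  have h1 : (groupCohomology.map (MonoidHom.id G) (coindUnit S M) n).hom x = 0 := by
    have : (coindIso (res S.subtype M) n).hom.hom
        ((groupCohomology.map (MonoidHom.id G) (coindUnit S M) n).hom x) = 0 := hx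
    have h2 := congrArg (coindIso (res S.subtype M) n).inv.hom this
    simpa using h2
  have h0 : groupCohomology.map (MonoidHom.id G) (coindUnit S M ≫ coindTrace S M) n =
      S.index • 𝟙 _ := by
    rw [coindUnit_comp_coindTrace S M, map_id_nsmul, groupCohomology.map_id]
  rw [map_id_comp] at h0
  have h3 := congrArg (fun f => f.hom x) h0
  simp only [ModuleCat.hom_comp, LinearMap.comp_apply] at h3
  rw [h1, map_zero] at h3
  simpa using h3.symm

/-- **Index trick, vanishing form.** If `Hⁿ(S, M) = 0` for a subgroup `S` of finite index, then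
`Hⁿ(G, M)` is killed by the index `[G : S]`. -/
theorem index_nsmul_eq_zero_of_isZero (n : ℕ)
    (hS : Limits.IsZero (groupCohomology (res S.subtype M) n)) (x : groupCohomology M n) :
    S.index • x = 0 :=
  index_nsmul_eq_zero_of_shapiroRes_eq_zero S M n x
    (congrArg (fun f => f.hom x) (hS.eq_of_tgt (shapiroRes S M n) 0))

end Cohomology

section Finite

open groupCohomology

variable {k G : Type u} [CommRing k] [Group G] [Finite G] (M : Rep k G)

/-- For a finite group `G`, the cohomology groups `Hⁿ⁺¹(G, M)` are killed by `|G|`. -/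
theorem natCard_nsmul_eq_zero (n : ℕ) (x : groupCohomology M (n + 1)) : Nat.card G • x = 0 := by
  have h := index_nsmul_eq_zero_of_isZero (⊥ : Subgroup G) M (n + 1)
    (isZero_groupCohomology_succ_of_subsingleton _ n) x
  rwa [Subgroup.index_bot] at h

/-- **Sylow criterion, elementwise form**: an element of `Hⁿ(G, M)` whose image in `Hⁿ(P, M)`
vanishes for one Sylow `p`-subgroup `P` for every prime `p` dividing `|G|`, and which is killed
by `|G|`, is zero. -/
theorem eq_zero_of_shapiroRes_sylow (n : ℕ) (x : groupCohomology M n)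
    (hG : Nat.card G • x = 0)
    (h : ∀ (p : ℕ) [Fact p.Prime], p ∣ Nat.card G →
      ∃ P : Sylow p G, (shapiroRes (P : Subgroup G) M n).hom x = 0) : x = 0 := by
  by_contra hx
  have hord : addOrderOf x ∣ Nat.card G := addOrderOf_dvd_of_nsmul_eq_zero hG
  have hne1 : addOrderOf x ≠ 1 := fun h1 => hx (AddMonoid.addOrderOf_eq_one_iff.mp h1)
  obtain ⟨q, hq, hqd⟩ := Nat.exists_prime_and_dvd hne1
  haveI : Fact q.Prime := ⟨hq⟩
  obtain ⟨P, hP⟩ := h q (hqd.trans hord)
  have h2 : (P : Subgroup G).index • x = 0 :=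
    index_nsmul_eq_zero_of_shapiroRes_eq_zero (P : Subgroup G) M n x hP
  have h3 : addOrderOf x ∣ (P : Subgroup G).index := addOrderOf_dvd_of_nsmul_eq_zero h2
  exact P.not_dvd_index (hqd.trans h3)

/-- **Sylow criterion**: if `Hⁿ⁺¹(P, M) = 0` for one Sylow `p`-subgroup `P` for every prime
`p ∣ |G|`, then `Hⁿ⁺¹(G, M) = 0`. -/
theorem isZero_of_sylow (n : ℕ)
    (h : ∀ (p : ℕ) [Fact p.Prime], p ∣ Nat.card G →
      ∃ P : Sylow p G, Limits.IsZero (groupCohomology (res (P : Subgroup G).subtype M) (n + 1))) :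
    Limits.IsZero (groupCohomology M (n + 1)) := by
  rw [ModuleCat.isZero_iff_subsingleton]
  refine ⟨fun x y => ?_⟩
  have hx : ∀ z : groupCohomology M (n + 1), z = 0 := by
    intro z
    refine eq_zero_of_shapiroRes_sylow M (n + 1) z (natCard_nsmul_eq_zero M n z) ?_
    intro p _ hp
    obtain ⟨P, hP⟩ := h p hp
    exact ⟨P, congrArg (fun f => f.hom z) (hP.eq_of_tgt (shapiroRes (P : Subgroup G) M (n + 1)) 0)⟩
  rw [hx x, hx y]

/-- The `p`-primary part of `Hⁿ(G, M)` injects into `Hⁿ(P, M)` for a Sylow `p`-subgroup `P`. -/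
theorem eq_zero_of_pPrimary_of_shapiroRes (n : ℕ) (p : ℕ) [Fact p.Prime] (P : Sylow p G)
    (x : groupCohomology M n) {j : ℕ} (hj : p ^ j • x = 0)
    (hP : (shapiroRes (P : Subgroup G) M n).hom x = 0) : x = 0 := by
  have h2 : (P : Subgroup G).index • x = 0 :=
    index_nsmul_eq_zero_of_shapiroRes_eq_zero (P : Subgroup G) M n x hP
  have h3 : addOrderOf x ∣ (P : Subgroup G).index := addOrderOf_dvd_of_nsmul_eq_zero h2
  have h4 : addOrderOf x ∣ p ^ j := addOrderOf_dvd_of_nsmul_eq_zero hj
  have hcop : Nat.Coprime (p ^ j) (P : Subgroup G).index :=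
    Nat.Coprime.pow_left j ((Nat.Prime.coprime_iff_not_dvd Fact.out).mpr P.not_dvd_index)
  have h1 : addOrderOf x = 1 := Nat.eq_one_of_dvd_coprimes hcop h4 h3
  exact AddMonoid.addOrderOf_eq_one_iff.mp h1

end Finite

end Fermat.Agent.CFT
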