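import Mathlib
import Fermat.Agent.CFT.Coh.H2InfRes
import Fermat.Agent.CFT.Coh.IndexKill

set_option autoImplicit false

/-!
# The upper bound `|H²(G, A)| ∣ |G|` (abstract form)

Let `G` be a finite group and `A` a `G`-module such that, for every subgroup `H` (here: every
injective homomorphism `φ : H →* G`), `H¹(H, A) = 0`, and for every normal subgroup `N ◁ H` of
prime index, `|H²(H/N, A^N)|` divides `[H : N]`.  Then `|H²(G, A)|` divides `|G|`
(`natCard_H2_dvd_card`).  This is the group-theoretic induction in the proof that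
`|H²(Gal(L/K), Lˣ)|` divides `[L : K]` for local fields (Serre, *Local Fields*, XI / Cassels-
Fröhlich VI.1.5): Sylow subgroups (`natCard_dvd_prod_of_sylow`) + induction along a normal
subgroup of index `p` in a `p`-group with inflation-restriction in degree two.
-/

namespace Fermat.Agent.CFT

open CategoryTheory Rep groupCohomology

universe u

section Sylow

variable {k G : Type u} [CommRing k] [Group G] [Finite G] (M : Rep k G)

/-- **Sylow bound for cardinalities**: if for every prime `p ∣ |G|` some Sylow `p`-subgroup `P` has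
`|Hⁿ⁺¹(P, M)| ∣ c p`, then `|Hⁿ⁺¹(G, M)| ∣ ∏_{p ∣ |G|} c p`. -/
theorem natCard_dvd_prod_of_sylow (n : ℕ) (c : ℕ → ℕ)
    (h : ∀ p : ℕ, p.Prime → p ∣ Nat.card G → ∃ P : Sylow p G,
      Nat.card (groupCohomology (res (P : Subgroup G).subtype M) (n + 1)) ∣ c p) :
    Nat.card (groupCohomology M (n + 1)) ∣ ∏ p ∈ (Nat.card G).primeFactors, c p := by
  classical
  have h' : ∀ p : (Nat.card G).primeFactors, ∃ P : Sylow (p : ℕ) G,
      Nat.card (groupCohomology (res (P : Subgroup G).subtype M) (n + 1)) ∣ c p := fun p =>
    h p (Nat.prime_of_mem_primeFactors p.2) (Nat.dvd_of_mem_primeFactors p.2)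
  choose P hP using h'
  let Φ : groupCohomology M (n + 1) →+
      ∀ p : (Nat.card G).primeFactors,
        groupCohomology (res ((P p : Sylow (p : ℕ) G) : Subgroup G).subtype M) (n + 1) :=
    AddMonoidHom.pi fun p =>
      (shapiroRes ((P p : Sylow (p : ℕ) G) : Subgroup G) M (n + 1)).hom.toAddMonoidHom
  have hΦ : Function.Injective Φ := by
    rw [injective_iff_map_eq_zero]
    intro x hx
    refine eq_zero_of_shapiroRes_sylow M (n + 1) x (natCard_nsmul_eq_zero M n x) ?_
    intro p hp hpd
    have hmem : p ∈ (Nat.card G).primeFactors :=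
      Nat.mem_primeFactors.mpr ⟨hp.out, hpd, Nat.card_pos.ne'⟩
    exact ⟨P ⟨p, hmem⟩, congrFun hx ⟨p, hmem⟩⟩
  have h1 : Nat.card (groupCohomology M (n + 1)) = Nat.card Φ.range :=
    Nat.card_congr (AddMonoidHom.ofInjective hΦ).toEquiv
  rw [h1]
  refine (AddSubgroup.card_addSubgroup_dvd_card Φ.range).trans ?_
  rw [Nat.card_pi, ← Finset.prod_coe_sort (Nat.card G).primeFactors c]
  exact Finset.prod_dvd_prod_of_dvd _ _ fun p _ => hP p

end Sylow

section Bound

variable {k G : Type u} [CommRing k] [Group G] (A : Rep k G)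

/-- The hypothesis of the upper bound: every subgroup has vanishing `H¹` and the layers of prime
index have `|H²|` dividing the index. -/
def H2BoundHyp : Prop :=
  ∀ (H : Type u) [Group H] (φ : H →* G), Function.Injective φ →
    (∀ x : H → A, (∀ s t : H, x (s * t) = A.ρ (φ s) (x t) + x s) →
      ∃ a : A, ∀ s : H, x s = A.ρ (φ s) a - a) ∧
    ∀ (N : Subgroup H) [N.Normal], N.index.Prime →
      Nat.card (groupCohomology ((res φ A).quotientToInvariants N) 2) ∣ N.index

variable {A}

/-- `H2BoundHyp` is inherited along injective homomorphisms. -/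
theorem H2BoundHyp.res (hA : H2BoundHyp A) {H : Type u} [Group H] (φ : H →* G)
    (hφ : Function.Injective φ) : H2BoundHyp (res φ A) := by
  intro H' _ ψ hψ
  exact hA H' (φ.comp ψ) (hφ.comp hψ)

theorem H2BoundHyp.h1ResVanishes (hA : H2BoundHyp A) (S : Subgroup G) : H1ResVanishes A S := by
  intro x hx
  exact (hA S S.subtype S.subtype_injective).1 x hx

variable [Finite G]

/-- the `p`-group case, by induction on the order -/
theorem natCard_H2_dvd_of_card_eq_prime_pow (p : ℕ) [hp : Fact p.Prime] :
    ∀ (m : ℕ) (H : Type u) [Group H] (B : Rep k H), H2BoundHyp B → Nat.card H = p ^ m →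
      Nat.card (groupCohomology B 2) ∣ p ^ m := by
  intro m
  induction m with
  | zero =>
    intro H _ B _ hcard
    rw [pow_zero] at hcard
    have : Subsingleton H := (Nat.card_eq_one_iff_unique.mp hcard).1
    have hz : Limits.IsZero (groupCohomology B (1 + 1)) :=
      isZero_groupCohomology_succ_of_subsingleton B 1
    have : Subsingleton (groupCohomology B 2) := ModuleCat.isZero_iff_subsingleton.mp hz
    rw [pow_zero, Nat.card_unique]
  | succ m ih =>
    intro H _ B hB hcard
    have : Finite H := Nat.finite_of_card_ne_zero (by rw [hcard]; exact pow_ne_zero _ hp.out.ne_zero)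
    obtain ⟨N, hN⟩ := Sylow.exists_subgroup_card_pow_prime (G := H) p (n := m)
      (by rw [hcard]; exact pow_dvd_pow p (Nat.le_succ m))
    have hidx : N.index = p := by
      have h1 := N.card_mul_index
      rw [hN, hcard, pow_succ] at h1
      exact Nat.eq_of_mul_eq_mul_left (pow_pos hp.out.pos m) h1
    have hnormal : N.Normal := by
      apply Subgroup.normal_of_index_eq_minFac_card
      rw [hidx, hcard, Nat.pow_minFac (Nat.succ_ne_zero m), hp.out.minFac_eq]
    have hS : H1ResVanishes B N := hB.h1ResVanishes N
    have h1 : Nat.card (groupCohomology (B.quotientToInvariants N) 2) ∣ p := by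
      have := (hB H (MonoidHom.id H) Function.injective_id).2 N (by rw [hidx]; exact hp.out)
      rwa [hidx] at this
    have h2 : Nat.card (groupCohomology (Rep.res N.subtype B) 2) ∣ p ^ m :=
      ih N (Rep.res N.subtype B) (hB.res N.subtype N.subtype_injective) hN
    refine (natCard_H2_dvd_mul B N hS).trans ?_
    rw [pow_succ, mul_comm (p ^ m) p]
    exact Nat.mul_dvd_mul h1 h2

/-- **The upper bound**: under `H2BoundHyp`, `|H²(G, A)|` divides `|G|`. -/
theorem natCard_H2_dvd_card (hA : H2BoundHyp A) :
    Nat.card (groupCohomology A 2) ∣ Nat.card G := by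
  have hG : Nat.card G ≠ 0 := Nat.card_pos.ne'
  have key := natCard_dvd_prod_of_sylow A 1 (fun p => p ^ (Nat.card G).factorization p) ?_
  · refine key.trans (dvd_of_eq ?_)
    exact Nat.prod_factorization_pow_eq_self hG
  · intro p hp _
    have : Fact p.Prime := ⟨hp⟩
    obtain ⟨P⟩ : Nonempty (Sylow p G) := inferInstance
    exact ⟨P, natCard_H2_dvd_of_card_eq_prime_pow p _ ↥(P : Subgroup G)
      (Rep.res (P : Subgroup G).subtype A)
      (hA.res (P : Subgroup G).subtype (P : Subgroup G).subtype_injective) P.card_eq_multiplicity⟩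

/-- In particular `H²(G, A)` is finite. -/
theorem finite_H2_of_h2BoundHyp (hA : H2BoundHyp A) : Finite (groupCohomology A 2) := by
  apply Nat.finite_of_card_ne_zero
  intro h0
  have := natCard_H2_dvd_card hA
  rw [h0, zero_dvd_iff] at this
  exact Nat.card_pos.ne' this

end Bound

end Fermat.Agent.CFT
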