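import Mathlib
import Fermat.Agent.CFT.Coh.H2CardBound

set_option autoImplicit false

/-!
# Devissage for `p`-groups: from cyclic layers of degree `p` to all `p`-subgroups

Let `G` be a group, `A` a `G`-module and `p` a prime such that for every `p`-layer, i.e. every
injective `φ : H →* G` and every normal subgroup `N ◁ H` of index `p`,
`H¹(H/N, A^N) = 0` and `|H²(H/N, A^N)|` divides `p` (`DvsLayerHyp p A`).  Then for every finite
`p`-group `P` with an injective `φ : P →* G`:

* `dvsP_subsingleton_H1` : `H¹(P, A) = 0`;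
* `dvsP_h2BoundHyp` : `H2BoundHyp (res φ A)`, hence
* `dvsP_natCard_H2_dvd` : `|H²(P, A)|` divides `|P|`.

This is the group-theoretic induction behind `H¹(P, C_L) = 0`, `|H²(P, C_L)| ∣ |P|` for the idele
class group (from the first and second inequalities in cyclic layers of degree `p`).
-/

namespace Fermat.Agent.CFT

open CategoryTheory Rep groupCohomology

universe u

variable {k G : Type u} [CommRing k] [Group G]

/-- the layer hypothesis: cyclic layers of degree `p` have trivial `H¹` and `|H²|` dividing `p`. -/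
def DvsLayerHyp (p : ℕ) (A : Rep k G) : Prop :=
  ∀ (H : Type u) [Group H] (φ : H →* G), Function.Injective φ →
    ∀ (N : Subgroup H) [N.Normal], N.index = p →
      Subsingleton (groupCohomology ((res φ A).quotientToInvariants N) 1) ∧
        Nat.card (groupCohomology ((res φ A).quotientToInvariants N) 2) ∣ p

variable {p : ℕ} {A : Rep k G}

theorem DvsLayerHyp.res (hA : DvsLayerHyp p A) {H : Type u} [Group H] (φ : H →* G)
    (hφ : Function.Injective φ) : DvsLayerHyp p (res φ A) := by
  intro H' _ ψ hψ
  exact hA H' (φ.comp ψ) (hφ.comp hψ)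

/-- `H¹` vanishes if it does so on a normal subgroup and on the quotient. -/
theorem dvsP_subsingleton_H1_of_normal (B : Rep k G) (N : Subgroup G) [N.Normal]
    (h1 : Subsingleton (groupCohomology (B.quotientToInvariants N) 1))
    (h2 : Subsingleton (groupCohomology (Rep.res N.subtype B) 1)) :
    Subsingleton (groupCohomology B 1) := by
  refine ⟨fun x y => ?_⟩
  have hex := H1InfRes_exact B N
  rw [ShortComplex.moduleCat_exact_iff] at hex
  have key : ∀ z : groupCohomology B 1, z = 0 := by
    intro z
    obtain ⟨w, hw⟩ := hex z (h2.elim _ _)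
    have hw0 : w = 0 := h1.elim w 0
    rw [← hw, hw0]
    exact map_zero (H1InfRes B N).f.hom
  rw [key x, key y]

variable [hp : Fact p.Prime]

/-- **devissage for `H¹`**: `H¹(P, A) = 0` for every finite `p`-group `P` mapping injectively to
`G`. -/
theorem dvsP_subsingleton_H1_aux :
    ∀ (m : ℕ) (H : Type u) [Group H] (B : Rep k H), DvsLayerHyp p B → Nat.card H = p ^ m →
      Subsingleton (groupCohomology B 1) := by
  intro m
  induction m with
  | zero =>
    intro H _ B _ hcard
    rw [pow_zero] at hcard
    have : Subsingleton H := (Nat.card_eq_one_iff_unique.mp hcard).1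
    have hz : Limits.IsZero (groupCohomology B (0 + 1)) :=
      isZero_groupCohomology_succ_of_subsingleton B 0
    exact ModuleCat.isZero_iff_subsingleton.mp hz
  | succ m ih =>
    intro H _ B hB hcard
    have : Finite H := Nat.finite_of_card_ne_zero (by rw [hcard]; exact pow_ne_zero _ hp.out.ne_zero)
    obtain ⟨N, hN⟩ := Sylow.exists_subgroup_card_pow_prime (G := H) p (n := m)
      (by rw [hcard]; exact pow_dvd_pow p (Nat.le_succ m))
    have hidx : N.index = p := by
      have h1 := N.card_mul_index
      rw [hN, hcard, pow_succ] at h1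
      exact Nat.eq_of_mul_eq_mul_left (pow_pos hp.out.pos m) h1
    have hnormal : N.Normal := by
      apply Subgroup.normal_of_index_eq_minFac_card
      rw [hidx, hcard, Nat.pow_minFac (Nat.succ_ne_zero m), hp.out.minFac_eq]
    have h1 : Subsingleton (groupCohomology (B.quotientToInvariants N) 1) :=
      ((hB H (MonoidHom.id H) Function.injective_id) N hidx).1
    have h2 : Subsingleton (groupCohomology (Rep.res N.subtype B) 1) :=
      ih N (Rep.res N.subtype B) (hB.res N.subtype N.subtype_injective) hN
    exact dvsP_subsingleton_H1_of_normal B N h1 h2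

theorem dvsP_subsingleton_H1 (hA : DvsLayerHyp p A) {P : Type u} [Group P] (φ : P →* G)
    (hφ : Function.Injective φ) {m : ℕ} (hP : Nat.card P = p ^ m) :
    Subsingleton (groupCohomology (res φ A) 1) :=
  dvsP_subsingleton_H1_aux m P (res φ A) (hA.res φ hφ) hP

/-- vanishing of `H¹` in the cocycle form used by `H2BoundHyp`. -/
theorem dvsP_cocycle_form {H : Type u} [Group H] (B : Rep k H)
    (h : Subsingleton (groupCohomology B 1)) (x : H → B)
    (hx : ∀ s t : H, x (s * t) = B.ρ s (x t) + x s) : ∃ a : B, ∀ s : H, x s = B.ρ s a - a := by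
  have hx' : x ∈ cocycles₁ B := (mem_cocycles₁_iff (A := B) x).2 hx
  have h0 : H1π _ (⟨x, hx'⟩ : cocycles₁ B) = 0 := Subsingleton.elim _ _
  obtain ⟨a, ha⟩ := (H1π_eq_zero_iff _).1 h0
  exact ⟨a, fun s => (congr_fun ha s).symm⟩

/-- **devissage for `H²`**: the layer hypothesis gives `H2BoundHyp` on every finite `p`-group. -/
theorem dvsP_h2BoundHyp (hA : DvsLayerHyp p A) {P : Type u} [Group P] (φ : P →* G)
    (hφ : Function.Injective φ) {m : ℕ} (hP : Nat.card P = p ^ m) :
    H2BoundHyp (res φ A) := by
  intro H' _ ψ hψ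
  have : Finite P := Nat.finite_of_card_ne_zero (by rw [hP]; exact pow_ne_zero _ hp.out.ne_zero)
  have : Finite H' := Finite.of_injective ψ hψ
  have hdvd : Nat.card H' ∣ p ^ m := by
    rw [← hP]
    exact Subgroup.card_dvd_of_injective ψ hψ
  obtain ⟨j, -, hj⟩ := (Nat.dvd_prime_pow hp.out).1 hdvd
  refine ⟨?_, ?_⟩
  · intro x hx
    exact dvsP_cocycle_form (res ψ (res φ A))
      (dvsP_subsingleton_H1 hA (φ.comp ψ) (hφ.comp hψ) hj) x hx
  · intro N _ hN
    have hNdvd : N.index ∣ p ^ j := by
      rw [← hj]
      exact N.index_dvd_card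
    have hidx : N.index = p := ((Nat.prime_dvd_prime_iff_eq hN hp.out).1
      (hN.dvd_of_dvd_pow hNdvd))
    have := ((hA H' (φ.comp ψ) (hφ.comp hψ)) N hidx).2
    rw [hidx]
    exact this

theorem dvsP_natCard_H2_dvd (hA : DvsLayerHyp p A) {P : Type u} [Group P] (φ : P →* G)
    (hφ : Function.Injective φ) {m : ℕ} (hP : Nat.card P = p ^ m) :
    Nat.card (groupCohomology (res φ A) 2) ∣ p ^ m := by
  have : Finite P := Nat.finite_of_card_ne_zero (by rw [hP]; exact pow_ne_zero _ hp.out.ne_zero)
  rw [← hP]
  exact natCard_H2_dvd_card (dvsP_h2BoundHyp hA φ hφ hP)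

section Sylow

variable [Finite G]

/-- **the `p`-primary part of `H¹(G, A)` vanishes** under the layer hypothesis (`G` finite). -/
theorem dvsP_pPrimary_H1_eq_zero (hA : DvsLayerHyp p A) (x : groupCohomology A 1) {j : ℕ}
    (hj : p ^ j • x = 0) : x = 0 := by
  obtain ⟨P⟩ : Nonempty (Sylow p G) := inferInstance
  have hsub : Subsingleton (groupCohomology (res (P : Subgroup G).subtype A) 1) :=
    dvsP_subsingleton_H1 hA (P : Subgroup G).subtype (P : Subgroup G).subtype_injective
      P.card_eq_multiplicity
  exact eq_zero_of_pPrimary_of_shapiroRes A 1 p P x hj (hsub.elim _ _)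

/-- the `p`-primary part of `H²(G, A)`. -/
def dvsP_pPrimary (p : ℕ) (X : Type*) [AddCommGroup X] : AddSubgroup X where
  carrier := {x | ∃ j : ℕ, p ^ j • x = 0}
  zero_mem' := ⟨0, smul_zero _⟩
  add_mem' := by
    rintro x y ⟨i, hi⟩ ⟨j, hj⟩
    refine ⟨i + j, ?_⟩
    have h1 : p ^ (i + j) • x = 0 := by rw [pow_add, mul_comm, mul_smul, hi, smul_zero]
    have h2 : p ^ (i + j) • y = 0 := by rw [pow_add, mul_smul, hj, smul_zero]
    rw [smul_add, h1, h2, add_zero]
  neg_mem' := by
    rintro x ⟨i, hi⟩
    exact ⟨i, by rw [smul_neg, hi, neg_zero]⟩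

/-- **the `p`-primary part of `H²(G, A)` has order dividing the order of a Sylow `p`-subgroup**
under the layer hypothesis. -/
theorem dvsP_natCard_pPrimary_H2_dvd (hA : DvsLayerHyp p A) :
    Nat.card (dvsP_pPrimary p (groupCohomology A 2)) ∣ p ^ (Nat.card G).factorization p := by
  obtain ⟨P⟩ : Nonempty (Sylow p G) := inferInstance
  have hcard := P.card_eq_multiplicity
  have hbound := dvsP_h2BoundHyp hA (P : Subgroup G).subtype (P : Subgroup G).subtype_injective
    hcard
  have : Finite (groupCohomology (res (P : Subgroup G).subtype A) 2) :=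
    finite_H2_of_h2BoundHyp hbound
  let f : dvsP_pPrimary p (groupCohomology A 2) →+
      groupCohomology (res (P : Subgroup G).subtype A) 2 :=
    (shapiroRes (P : Subgroup G) A 2).hom.toAddMonoidHom.comp
      (dvsP_pPrimary p (groupCohomology A 2)).subtype
  have hf : Function.Injective f := by
    rw [injective_iff_map_eq_zero]
    rintro ⟨x, j, hj⟩ hx
    apply Subtype.ext
    exact eq_zero_of_pPrimary_of_shapiroRes A 2 p P x hj hx
  exact (AddSubgroup.card_dvd_of_injective f hf).trans
    (dvsP_natCard_H2_dvd hA (P : Subgroup G).subtype (P : Subgroup G).subtype_injective hcard)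

end Sylow

end Fermat.Agent.CFT
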