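import Mathlib
import Fermat.Agent.CFT.Coh.DevissageP

set_option autoImplicit false

/-!
# The `p`-torsion of `H²` has at most `p` elements

Generic: if the `p`-primary part of an abelian group `X` has order dividing `p ^ a` and some
torsion element `w` has order divisible by `p ^ a`, then the `p`-primary part is cyclic of order
`p ^ a` and `X[p]` has at most `p` elements (`ptb_natCard_torsion_le`).

Application (`ptb_natCard_torsion_H2_le`): `G` finite, `A` with the layer hypothesis
`DvsLayerHyp p A` and a class `w ∈ H²(G, A)` whose order is divisible by the full power of `p`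
dividing `|G|` (the fundamental class): `|H²(G, A)[p]| ≤ p`.
-/

namespace Fermat.Agent.CFT

open CategoryTheory Rep groupCohomology

section Generic

variable {X : Type*} [AddCommGroup X] {p a : ℕ}

/-- the element `(ord w / p ^ a) • w` of order `p ^ a`. -/
theorem ptb_exists_addOrderOf_eq (w : X) (hw0 : IsOfFinAddOrder w)
    (hw : p ^ a ∣ addOrderOf w) : ∃ w' : X, addOrderOf w' = p ^ a :=
  ⟨(addOrderOf w / p ^ a) • w,
    addOrderOf_nsmul_addOrderOf_sub (addOrderOf_pos_iff.mpr hw0).ne' hw⟩

/-- **cyclicity of the `p`-primary part and the bound on the `p`-torsion.** -/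
theorem ptb_natCard_torsion_le (hp : p.Prime)
    (hcard : Nat.card (dvsP_pPrimary p X) ∣ p ^ a) (w : X) (hw0 : IsOfFinAddOrder w)
    (hw : p ^ a ∣ addOrderOf w) :
    Finite (nsmulAddMonoidHom (α := X) p).ker ∧
      Nat.card (nsmulAddMonoidHom (α := X) p).ker ≤ p := by
  classical
  set Y := dvsP_pPrimary p X with hY
  have hfinY : Finite Y :=
    Nat.finite_of_card_ne_zero (fun h => by
      rw [h] at hcard
      exact (pow_ne_zero a hp.ne_zero) (Nat.eq_zero_of_zero_dvd hcard))
  obtain ⟨w', hw'⟩ := ptb_exists_addOrderOf_eq w hw0 hw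
  have hw'Y : w' ∈ Y := ⟨a, by rw [← hw']; exact addOrderOf_nsmul_eq_zero w'⟩
  -- `Y` is cyclic
  have hord : addOrderOf (⟨w', hw'Y⟩ : Y) = p ^ a := by
    rw [← hw']
    exact AddSubgroup.addOrderOf_mk w' hw'Y
  have hcardY : Nat.card Y = p ^ a :=
    Nat.dvd_antisymm hcard (hord ▸ addOrderOf_dvd_natCard _)
  have hcyc : IsAddCyclic Y := isAddCyclic_of_addOrderOf_eq_card _ (hord.trans hcardY.symm)
  -- the `p`-torsion of `X` injects into the `p`-torsion of `Y`
  let φ : (nsmulAddMonoidHom (α := X) p).ker → (nsmulAddMonoidHom (α := Y) p).ker :=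
    fun x => ⟨⟨(x : X), ⟨1, by
      have hx := x.2
      rw [AddMonoidHom.mem_ker, nsmulAddMonoidHom_apply] at hx
      rw [pow_one]; exact hx⟩⟩, by
      have hx := x.2
      rw [AddMonoidHom.mem_ker, nsmulAddMonoidHom_apply] at hx ⊢
      exact Subtype.ext hx⟩
  have hφ : Function.Injective φ := by
    intro x y hxy
    have h1 := congrArg (fun z : (nsmulAddMonoidHom (α := Y) p).ker => ((z : Y) : X)) hxy
    exact Subtype.ext h1
  have hfinK : Finite (nsmulAddMonoidHom (α := Y) p).ker := inferInstance
  have hfin : Finite (nsmulAddMonoidHom (α := X) p).ker := Finite.of_injective φ hφ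
  refine ⟨hfin, (Nat.card_le_card_of_injective φ hφ).trans ?_⟩
  -- in a cyclic group the equation `p • y = 0` has at most `p` solutions
  have := Fintype.ofFinite Y
  have h2 := IsAddCyclic.card_nsmul_eq_zero_le (α := Y) hp.pos
  have h3 : Nat.card (nsmulAddMonoidHom (α := Y) p).ker =
      (Finset.univ.filter fun y : Y => p • y = 0).card := by
    rw [← Nat.card_eq_finsetCard]
    exact Nat.card_congr
      { toFun := fun y => ⟨(y : Y), by
          have hy := y.2
          rw [AddMonoidHom.mem_ker, nsmulAddMonoidHom_apply] at hy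
          exact Finset.mem_filter.mpr ⟨Finset.mem_univ _, hy⟩⟩
        invFun := fun y => ⟨(y : Y), by
          have hy := (Finset.mem_filter.mp y.2).2
          rw [AddMonoidHom.mem_ker, nsmulAddMonoidHom_apply]
          exact hy⟩
        left_inv := fun y => rfl
        right_inv := fun y => rfl }
  rw [h3]
  exact h2

end Generic

section H2

universe u

variable {k G : Type u} [CommRing k] [Group G] [Finite G] {A : Rep k G} {p : ℕ} [hp : Fact p.Prime]

/-- **`|H²(G, A)[p]| ≤ p`** from the layer hypothesis and a class of full `p`-order. -/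
theorem ptb_natCard_torsion_H2_le (hA : DvsLayerHyp p A) (w : groupCohomology A 2)
    (hw : p ^ (Nat.card G).factorization p ∣ addOrderOf w) :
    Finite (nsmulAddMonoidHom (α := groupCohomology A 2) p).ker ∧
      Nat.card (nsmulAddMonoidHom (α := groupCohomology A 2) p).ker ≤ p := by
  refine ptb_natCard_torsion_le hp.out (dvsP_natCard_pPrimary_H2_dvd hA) w ?_ hw
  exact isOfFinAddOrder_iff_nsmul_eq_zero.mpr ⟨Nat.card G, Nat.card_pos, natCard_nsmul_eq_zero A 1 w⟩

end H2

end Fermat.Agent.CFT
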