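import Fermat.Agent.CFT.Coh.CyclicInduced

set_option autoImplicit false

/-!
# Stream A (Coh), chunk (A3): concrete Shapiro lemma, transitive `G`-set form

`G = ⟨σ⟩` finite cyclic, `X` a finite transitive `G`-set, `A = ⨁_{x ∈ X} A_x` with
`τ • A_x ≤ A_{τ x}`.  If `ι : H →* G` identifies `H` with the stabiliser of `x₀` and
`j : B →+ A` identifies the `H`-module `B` with `A_{x₀}`, then
`|Ĥ⁰(G, A)| = |Ĥ⁰(H, B)|` and `|Ĥ¹(G, A)| = |Ĥ¹(H, B)|`.
-/

namespace Fermat.Agent.CFT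

open Finset Function

section Orbit

variable {G : Type*} [Group G] [Fintype G] {X : Type*} [MulAction G X]

/-- the period of `x₀` under `σ`. -/
noncomputable abbrev orbPeriod (σ : G) (x₀ : X) : ℕ := minimalPeriod (σ • ·) x₀

omit [Fintype G] in
theorem orbPeriod_dvd_orderOf (σ : G) (x₀ : X) : orbPeriod σ x₀ ∣ orderOf σ :=
  MulAction.pow_smul_eq_iff_minimalPeriod_dvd.mp (by rw [pow_orderOf_eq_one, one_smul])

theorem orbPeriod_pos (σ : G) (x₀ : X) : 0 < orbPeriod σ x₀ :=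
  Nat.pos_of_dvd_of_pos (orbPeriod_dvd_orderOf σ x₀) (orderOf_pos σ)

omit [Fintype G] in
theorem pow_orbPeriod_smul (σ : G) (x₀ : X) : σ ^ orbPeriod σ x₀ • x₀ = x₀ :=
  MulAction.pow_smul_eq_iff_minimalPeriod_dvd.mpr dvd_rfl

theorem orbPeriod_exists_pow_smul_eq [MulAction.IsPretransitive G X] {σ : G}
    (hσ : ∀ τ, τ ∈ Subgroup.zpowers σ) (x₀ x : X) :
    ∃ i < orbPeriod σ x₀, σ ^ i • x₀ = x := by
  obtain ⟨τ, rfl⟩ := MulAction.exists_smul_eq G x₀ x
  obtain ⟨z, rfl⟩ := Subgroup.mem_zpowers_iff.mp (hσ τ)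
  have hk : (0 : ℤ) < (orbPeriod σ x₀ : ℤ) := by exact_mod_cast orbPeriod_pos σ x₀
  refine ⟨(z % (orbPeriod σ x₀ : ℤ)).toNat, ?_, ?_⟩
  · have h1 := Int.emod_lt_of_pos z hk
    have h2 := Int.emod_nonneg z hk.ne'
    omega
  · have h2 := Int.emod_nonneg z hk.ne'
    rw [← zpow_natCast, Int.toNat_of_nonneg h2]
    exact MulAction.zpow_smul_mod_minimalPeriod σ x₀ z

omit [Fintype G] in
theorem orbPeriod_pow_smul_injOn (σ : G) (x₀ : X) {i i' : ℕ} (hi : i < orbPeriod σ x₀)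
    (hi' : i' < orbPeriod σ x₀) (h : σ ^ i • x₀ = σ ^ i' • x₀) : i = i' := by
  have := iterate_injOn_Iio_minimalPeriod (f := (σ • · : X → X)) (x := x₀)
    (Set.mem_Iio.mpr hi) (Set.mem_Iio.mpr hi')
  apply this
  simp only [smul_iterate_apply]
  exact h

/-- reindexing a sum over a transitive `⟨σ⟩`-set by the orbit of `x₀`. -/
theorem sum_univ_eq_sum_range_orbit [Fintype X] [MulAction.IsPretransitive G X] {σ : G}
    (hσ : ∀ τ, τ ∈ Subgroup.zpowers σ) (x₀ : X) {M : Type*} [AddCommMonoid M] (F : X → M) :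
    ∑ x, F x = ∑ i ∈ range (orbPeriod σ x₀), F (σ ^ i • x₀) := by
  classical
  have himg : Finset.image (fun i => σ ^ i • x₀) (range (orbPeriod σ x₀)) = univ := by
    ext x
    simp only [Finset.mem_image, Finset.mem_range, Finset.mem_univ, iff_true]
    obtain ⟨i, hi, h⟩ := orbPeriod_exists_pow_smul_eq hσ x₀ x
    exact ⟨i, hi, h⟩
  rw [← himg, Finset.sum_image]
  intro i hi i' hi' h
  exact orbPeriod_pow_smul_injOn σ x₀ (Finset.mem_range.mp hi) (Finset.mem_range.mp hi') h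

end Orbit

section Main

variable {G : Type*} [Group G] [Fintype G] {A : Type*} [AddCommGroup A] [DistribMulAction G A]
variable {H : Type*} [Group H] [Fintype H] {B : Type*} [AddCommGroup B] [DistribMulAction H B]
variable {X : Type*} [Fintype X] [MulAction G X] [MulAction.IsPretransitive G X]

/-- **Concrete Shapiro lemma** for a finite cyclic group, transitive `G`-set form. -/
theorem tateCard_induced {σ : G} (hσ : ∀ τ, τ ∈ Subgroup.zpowers σ) {σH : H}
    (hσH : ∀ h, h ∈ Subgroup.zpowers σH)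
    (Ax : X → AddSubgroup A)
    (hperm : ∀ (τ : G) (x : X) (a : A), a ∈ Ax x → τ • a ∈ Ax (τ • x))
    (hsumX : ∀ a : A, ∃ c : X → A, (∀ x, c x ∈ Ax x) ∧ a = ∑ x, c x)
    (hindX : ∀ c : X → A, (∀ x, c x ∈ Ax x) → ∑ x, c x = 0 → ∀ x, c x = 0)
    (x₀ : X) (ι : H →* G) (hι : Function.Injective ι)
    (hιrange : ∀ τ : G, τ ∈ ι.range ↔ τ • x₀ = x₀)
    (j : B →+ A) (hj : Function.Injective j) (hjrange : ∀ a : A, a ∈ j.range ↔ a ∈ Ax x₀)
    (hjι : ∀ (h : H) (b : B), j (h • b) = ι h • j b) :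
    tateH0Card G A σ = tateH0Card H B σH ∧ tateH1Card G A σ = tateH1Card H B σH := by
  classical
  set k := orbPeriod σ x₀ with hkdef
  have hk : 0 < k := orbPeriod_pos σ x₀
  have hkdvd : k ∣ orderOf σ := orbPeriod_dvd_orderOf σ x₀
  -- the generator of `H` lying over `σ ^ k`
  obtain ⟨σH', hσH'⟩ : ∃ σH' : H, ι σH' = σ ^ k :=
    (hιrange (σ ^ k)).mpr (pow_orbPeriod_smul σ x₀)
  have hgen : ∀ h : H, h ∈ Subgroup.zpowers σH' := by
    intro h
    have h1 : ι h • x₀ = x₀ := (hιrange (ι h)).mp ⟨h, rfl⟩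
    obtain ⟨z, hz⟩ := Subgroup.mem_zpowers_iff.mp (hσ (ι h))
    rw [← hz] at h1
    obtain ⟨z', rfl⟩ := MulAction.zpow_smul_eq_iff_minimalPeriod_dvd.mp h1
    refine Subgroup.mem_zpowers_iff.mpr ⟨z', hι ?_⟩
    rw [map_zpow, hσH', ← hz, zpow_mul, zpow_natCast]
  -- cardinalities
  have hkm : k * Fintype.card H = Fintype.card G := by
    have h1 : Fintype.card H = orderOf σH' := by
      rw [orderOf_eq_card_of_forall_mem_zpowers hgen, Nat.card_eq_fintype_card]
    have h2 : orderOf σH' = orderOf (σ ^ k) := by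
      rw [← hσH', orderOf_injective ι hι]
    have h3 : Fintype.card G = orderOf σ := by
      rw [orderOf_eq_card_of_forall_mem_zpowers hσ, Nat.card_eq_fintype_card]
    rw [h1, h2, h3, orderOf_pow_of_dvd hk.ne' hkdvd, Nat.mul_div_cancel' hkdvd]
  -- components
  have hcomp : ∀ (i : ℕ) (c : A), c ∈ Ax (σ ^ i • x₀) → ∃ b : B, σ ^ i • j b = c := by
    intro i c hc
    have h1 : (σ ^ i)⁻¹ • c ∈ Ax x₀ := by
      have := hperm (σ ^ i)⁻¹ _ _ hc
      rwa [inv_smul_smul] at this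
    obtain ⟨b, hb⟩ := (hjrange _).mpr h1
    exact ⟨b, by rw [hb, smul_inv_smul]⟩
  have hmem : ∀ (i : ℕ) (b : B), σ ^ i • j b ∈ Ax (σ ^ i • x₀) :=
    fun i b => hperm _ _ _ ((hjrange _).mp ⟨b, rfl⟩)
  have hsum : ∀ a : A, ∃ b : ℕ → B, a = ∑ i ∈ range k, σ ^ i • j (b i) := by
    intro a
    obtain ⟨c, hc, rfl⟩ := hsumX a
    choose b hb using fun i : ℕ => hcomp i (c (σ ^ i • x₀)) (hc _)
    refine ⟨b, ?_⟩
    rw [sum_univ_eq_sum_range_orbit hσ x₀ c]
    exact Finset.sum_congr rfl fun i _ => (hb i).symm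
  have hind : ∀ b : ℕ → B, ∑ i ∈ range k, σ ^ i • j (b i) = 0 → ∀ i < k, b i = 0 := by
    intro b hb i hi
    choose idx hidx hidx' using fun x : X => orbPeriod_exists_pow_smul_eq hσ x₀ x
    have hidxe : ∀ i < k, idx (σ ^ i • x₀) = i := fun i hi =>
      orbPeriod_pow_smul_injOn σ x₀ (hidx _) hi (hidx' _)
    let c : X → A := fun x => σ ^ idx x • j (b (idx x))
    have hc : ∀ x, c x ∈ Ax x := by
      intro x
      have := hmem (idx x) (b (idx x))
      rwa [hidx' x] at this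
    have hc0 : ∑ x, c x = 0 := by
      rw [sum_univ_eq_sum_range_orbit hσ x₀ c, ← hb]
      refine Finset.sum_congr rfl fun i hi => ?_
      show σ ^ idx (σ ^ i • x₀) • j (b (idx (σ ^ i • x₀))) = _
      rw [hidxe i (Finset.mem_range.mp hi)]
    have h0 := hindX c hc hc0 (σ ^ i • x₀)
    have h1 : σ ^ i • j (b i) = 0 := by
      have : c (σ ^ i • x₀) = σ ^ i • j (b i) := by
        show σ ^ idx (σ ^ i • x₀) • j (b (idx (σ ^ i • x₀))) = _
        rw [hidxe i hi]
      rw [← this, h0]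
    have h2 : j (b i) = 0 := (smul_eq_zero_iff_eq (σ ^ i)).mp h1
    exact (injective_iff_map_eq_zero j).mp hj _ h2
  have key := tateCard_induced_of_orbit hσ hgen ι hk hσH' hkm j hj hjι hsum hind
  rw [tateH0Card_generator (A := B) hσH hgen, tateH1Card_generator (A := B) hσH hgen]
  exact key

/-- Herbrand quotient form of `tateCard_induced`. -/
theorem herbrand_induced {σ : G} (hσ : ∀ τ, τ ∈ Subgroup.zpowers σ) {σH : H}
    (hσH : ∀ h, h ∈ Subgroup.zpowers σH)
    (Ax : X → AddSubgroup A)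
    (hperm : ∀ (τ : G) (x : X) (a : A), a ∈ Ax x → τ • a ∈ Ax (τ • x))
    (hsumX : ∀ a : A, ∃ c : X → A, (∀ x, c x ∈ Ax x) ∧ a = ∑ x, c x)
    (hindX : ∀ c : X → A, (∀ x, c x ∈ Ax x) → ∑ x, c x = 0 → ∀ x, c x = 0)
    (x₀ : X) (ι : H →* G) (hι : Function.Injective ι)
    (hιrange : ∀ τ : G, τ ∈ ι.range ↔ τ • x₀ = x₀)
    (j : B →+ A) (hj : Function.Injective j) (hjrange : ∀ a : A, a ∈ j.range ↔ a ∈ Ax x₀)
    (hjι : ∀ (h : H) (b : B), j (h • b) = ι h • j b) :
    herbrand G A σ = herbrand H B σH ∧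
      (HerbrandDefinedCyclic G A σ ↔ HerbrandDefinedCyclic H B σH) := by
  obtain ⟨h0, h1⟩ := tateCard_induced hσ hσH Ax hperm hsumX hindX x₀ ι hι hιrange j hj hjrange hjι
  refine ⟨by rw [herbrand_eq, herbrand_eq, h0, h1], ?_⟩
  unfold tateH0Card at h0
  unfold tateH1Card at h1
  unfold HerbrandDefinedCyclic HerbrandDefined
  rw [h0, h1]

end Main

section Corollaries

variable {G : Type*} [Group G] [Fintype G] {A : Type*} [AddCommGroup A] [DistribMulAction G A]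

/-- For the trivial group both Tate groups are trivial. -/
theorem tateH0Card_of_subsingleton [Subsingleton G] (σ : G) : tateH0Card G A σ = 1 := by
  unfold tateH0Card
  refine hIndex_eq_one_of_ker_le_range fun a _ => ⟨a, ?_⟩
  rw [normHom_apply, Finset.sum_eq_single (1 : G) (fun τ _ h => absurd (Subsingleton.elim τ 1) h)
    (fun h => absurd (Finset.mem_univ _) h), one_smul]

theorem tateH1Card_of_subsingleton [Subsingleton G] (σ : G) : tateH1Card G A σ = 1 := by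
  unfold tateH1Card
  refine hIndex_eq_one_of_ker_le_range fun a ha => ⟨0, ?_⟩
  have h : normHom G A a = a := by
    rw [normHom_apply, Finset.sum_eq_single (1 : G)
      (fun τ _ h => absurd (Subsingleton.elim τ 1) h)
      (fun h => absurd (Finset.mem_univ _) h), one_smul]
  rw [map_zero]
  exact (h.symm.trans ha).symm

variable {X : Type*} [Fintype X] [MulAction G X] [MulAction.IsPretransitive G X]

/-- **Induced from the trivial subgroup**: if `G = ⟨σ⟩` permutes the summands of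
`A = ⨁_{x ∈ X} A_x` simply transitively, then `Ĥ⁰(G, A) = Ĥ¹(G, A) = 0`. -/
theorem tateCard_induced_of_free {σ : G} (hσ : ∀ τ, τ ∈ Subgroup.zpowers σ)
    (Ax : X → AddSubgroup A)
    (hperm : ∀ (τ : G) (x : X) (a : A), a ∈ Ax x → τ • a ∈ Ax (τ • x))
    (hsumX : ∀ a : A, ∃ c : X → A, (∀ x, c x ∈ Ax x) ∧ a = ∑ x, c x)
    (hindX : ∀ c : X → A, (∀ x, c x ∈ Ax x) → ∑ x, c x = 0 → ∀ x, c x = 0)
    (x₀ : X) (hfree : ∀ τ : G, τ • x₀ = x₀ → τ = 1) :
    tateH0Card G A σ = 1 ∧ tateH1Card G A σ = 1 := by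
  let _ : DistribMulAction Unit ↥(Ax x₀) :=
    DistribMulAction.compHom ↥(Ax x₀) (1 : Unit →* AddMonoid.End ↥(Ax x₀))
  have key := tateCard_induced (H := Unit) (B := ↥(Ax x₀)) hσ (σH := ())
    (fun h => by rw [Subsingleton.elim h ()]; exact Subgroup.mem_zpowers _)
    Ax hperm hsumX hindX x₀ (1 : Unit →* G) (fun a b _ => Subsingleton.elim a b)
    (fun τ => by
      constructor
      · rintro ⟨u, rfl⟩
        rw [MonoidHom.one_apply, one_smul]
      · intro h
        exact ⟨(), by rw [MonoidHom.one_apply, hfree τ h]⟩)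
    (Ax x₀).subtype (Ax x₀).subtype_injective
    (fun a => by rw [AddSubgroup.range_subtype])
    (fun u b => by
      show (Ax x₀).subtype b = (1 : G) • (Ax x₀).subtype b
      rw [one_smul])
  rw [key.1, key.2]
  exact ⟨tateH0Card_of_subsingleton (), tateH1Card_of_subsingleton ()⟩

variable {H : Type*} [Group H] [Fintype H] {B : Type*} [AddCommGroup B] [DistribMulAction H B]

/-- **Permutation modules**: if `A = ⨁_{x ∈ X} A_x` with `A_{x₀} ≅ ℤ` on which the stabiliser `H`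
of `x₀` acts trivially, then `|Ĥ⁰(G, A)| = |H|` and `Ĥ¹(G, A) = 0`. -/
theorem tateCard_induced_of_equiv_int {σ : G} (hσ : ∀ τ, τ ∈ Subgroup.zpowers σ) {σH : H}
    (hσH : ∀ h, h ∈ Subgroup.zpowers σH)
    (Ax : X → AddSubgroup A)
    (hperm : ∀ (τ : G) (x : X) (a : A), a ∈ Ax x → τ • a ∈ Ax (τ • x))
    (hsumX : ∀ a : A, ∃ c : X → A, (∀ x, c x ∈ Ax x) ∧ a = ∑ x, c x)
    (hindX : ∀ c : X → A, (∀ x, c x ∈ Ax x) → ∑ x, c x = 0 → ∀ x, c x = 0)
    (x₀ : X) (ι : H →* G) (hι : Function.Injective ι)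
    (hιrange : ∀ τ : G, τ ∈ ι.range ↔ τ • x₀ = x₀)
    (j : B →+ A) (hj : Function.Injective j) (hjrange : ∀ a : A, a ∈ j.range ↔ a ∈ Ax x₀)
    (hjι : ∀ (h : H) (b : B), j (h • b) = ι h • j b)
    (e : B ≃+ ℤ) (htriv : ∀ (h : H) (b : B), h • b = b) :
    tateH0Card G A σ = Fintype.card H ∧ tateH1Card G A σ = 1 := by
  obtain ⟨h0, h1⟩ := tateCard_induced hσ hσH Ax hperm hsumX hindX x₀ ι hι hιrange j hj hjrange hjι
  rw [h0, h1]
  exact ⟨tateH0Card_of_equiv_int e htriv σH, tateH1Card_of_equiv_int e htriv σH⟩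

end Corollaries

end Fermat.Agent.CFT
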