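import Mathlib
import Fermat.Agent.CFT.Coh.CyclicInducedSet
import Fermat.Agent.CFT.Global.UnitsHerbrand
import Fermat.Agent.CFT.Idele.TateProd

set_option autoImplicit false
set_option linter.unusedSectionVars false
set_option linter.style.haveILetI false

/-!
# Concrete Shapiro lemma for a finite cyclic group: NON-transitive `G`-set form

`A` a `G`-module which is the internal direct sum of subgroups `Ax x` (`x : X`, a finite `G`-set,
not necessarily transitive) permuted by `G`.

* `indBlock Ax Y` : the block `⊕_{x ∈ Y} Ax x` of a subset `Y ⊆ X` (an additive subgroup of `A`,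
  `G`-stable when `Y` is: `indBlock_smul_mem`, action `indBlockAction`).
* `tateCard_blocks` : for a `G`-invariant map `p : X → I` the Tate cardinalities of `A` are the
  products over `i : I` of those of the blocks of the fibres of `p`.
* `tateCard_orbit_blocks` : the case `p = Quotient.mk''` (blocks = orbits).
* `tateCard_induced_block` : a block on which `G` acts transitively is induced from the stabiliser
  of a point (helper18's `tateCard_induced`).
-/

namespace Fermat.Agent.CFT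

open Finset

section Blocks

variable {G : Type*} [Group G] {A : Type*} [AddCommGroup A] [DistribMulAction G A]
variable {X : Type*} [Fintype X] [MulAction G X]

/-- the block `⊕_{x ∈ Y} Ax x` of a subset `Y ⊆ X`. -/
def indBlock (Ax : X → AddSubgroup A) (Y : Set X) : AddSubgroup A where
  carrier := {a | ∃ c : X → A, (∀ x, c x ∈ Ax x) ∧ (∀ x, x ∉ Y → c x = 0) ∧ a = ∑ x, c x}
  zero_mem' := ⟨fun _ => 0, fun x => (Ax x).zero_mem, fun _ _ => rfl, by simp⟩
  add_mem' := by
    rintro a b ⟨c, hc, hc0, rfl⟩ ⟨d, hd, hd0, rfl⟩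
    refine ⟨fun x => c x + d x, fun x => (Ax x).add_mem (hc x) (hd x), fun x hx => ?_, ?_⟩
    · show c x + d x = 0
      rw [hc0 x hx, hd0 x hx, add_zero]
    · rw [Finset.sum_add_distrib]
  neg_mem' := by
    rintro a ⟨c, hc, hc0, rfl⟩
    refine ⟨fun x => - c x, fun x => (Ax x).neg_mem (hc x), fun x hx => ?_, ?_⟩
    · show - c x = 0
      rw [hc0 x hx, neg_zero]
    · rw [Finset.sum_neg_distrib]

theorem mem_indBlock {Ax : X → AddSubgroup A} {Y : Set X} {a : A} :
    a ∈ indBlock Ax Y ↔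
      ∃ c : X → A, (∀ x, c x ∈ Ax x) ∧ (∀ x, x ∉ Y → c x = 0) ∧ a = ∑ x, c x := Iff.rfl

theorem le_indBlock (Ax : X → AddSubgroup A) {Y : Set X} {x : X} (hx : x ∈ Y) :
    Ax x ≤ indBlock Ax Y := by
  classical
  intro a ha
  refine ⟨Pi.single x a, fun y => ?_, fun y hy => ?_, ?_⟩
  · by_cases h : y = x
    · subst h
      rwa [Pi.single_eq_same]
    · rw [Pi.single_eq_of_ne h]
      exact (Ax y).zero_mem
  · have h : y ≠ x := fun h => hy (h ▸ hx)
    rw [Pi.single_eq_of_ne h]
  · rw [Finset.sum_pi_single']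
    simp

theorem indBlock_smul_mem (Ax : X → AddSubgroup A)
    (hperm : ∀ (τ : G) (x : X) (a : A), a ∈ Ax x → τ • a ∈ Ax (τ • x))
    (Y : Set X) (hY : ∀ (τ : G) (x : X), x ∈ Y → τ • x ∈ Y) (τ : G) :
    ∀ a ∈ indBlock Ax Y, τ • a ∈ indBlock Ax Y := by
  rintro a ⟨c, hc, hc0, rfl⟩
  refine ⟨fun x => τ • c (τ⁻¹ • x), fun x => ?_, fun x hx => ?_, ?_⟩
  · have := hperm τ (τ⁻¹ • x) _ (hc (τ⁻¹ • x))
    rwa [smul_inv_smul] at this
  · have h : τ⁻¹ • x ∉ Y := by
      intro h
      apply hx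
      have := hY τ _ h
      rwa [smul_inv_smul] at this
    show τ • c (τ⁻¹ • x) = 0
    rw [hc0 _ h, smul_zero]
  · rw [Finset.smul_sum]
    refine Fintype.sum_equiv (MulAction.toPerm τ) _ _ fun x => ?_
    show τ • c x = τ • c (τ⁻¹ • (τ • x))
    rw [inv_smul_smul]

/-- the `G`-action on a block of a `G`-stable subset. -/
@[reducible] def indBlockAction (Ax : X → AddSubgroup A)
    (hperm : ∀ (τ : G) (x : X) (a : A), a ∈ Ax x → τ • a ∈ Ax (τ • x))
    (Y : Set X) (hY : ∀ (τ : G) (x : X), x ∈ Y → τ • x ∈ Y) :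
    DistribMulAction G ↥(indBlock Ax Y) :=
  stableSubgroupAction (indBlock Ax Y) (indBlock_smul_mem Ax hperm Y hY)

end Blocks

section Product

variable {G : Type*} [Group G] [Fintype G] {A : Type*} [AddCommGroup A] [DistribMulAction G A]
variable {X : Type*} [Fintype X] [MulAction G X]

theorem preimage_singleton_smul_mem {I : Type*} (p : X → I) (hp : ∀ (τ : G) (x : X), p (τ • x) = p x)
    (i : I) (τ : G) (x : X) (hx : x ∈ p ⁻¹' {i}) : τ • x ∈ p ⁻¹' {i} := by
  rw [Set.mem_preimage, Set.mem_singleton_iff] at hx ⊢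
  rw [hp, hx]

/-- **Tate cardinalities multiply over the blocks of a `G`-invariant partition.** -/
theorem tateCard_blocks (Ax : X → AddSubgroup A)
    (hperm : ∀ (τ : G) (x : X) (a : A), a ∈ Ax x → τ • a ∈ Ax (τ • x))
    (hsumX : ∀ a : A, ∃ c : X → A, (∀ x, c x ∈ Ax x) ∧ a = ∑ x, c x)
    (hindX : ∀ c : X → A, (∀ x, c x ∈ Ax x) → ∑ x, c x = 0 → ∀ x, c x = 0)
    {I : Type*} [Fintype I] (p : X → I) (hp : ∀ (τ : G) (x : X), p (τ • x) = p x) (σ : G) :
    letI : ∀ i : I, DistribMulAction G ↥(indBlock Ax (p ⁻¹' {i})) := fun i =>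
      indBlockAction Ax hperm (p ⁻¹' {i}) (preimage_singleton_smul_mem p hp i)
    tateH0Card G A σ = ∏ i : I, tateH0Card G ↥(indBlock Ax (p ⁻¹' {i})) σ ∧
      tateH1Card G A σ = ∏ i : I, tateH1Card G ↥(indBlock Ax (p ⁻¹' {i})) σ := by
  classical
  letI : ∀ i : I, DistribMulAction G ↥(indBlock Ax (p ⁻¹' {i})) := fun i =>
    indBlockAction Ax hperm (p ⁻¹' {i}) (preimage_singleton_smul_mem p hp i)
  -- the sum map
  let E : (∀ i : I, ↥(indBlock Ax (p ⁻¹' {i}))) →+ A :=
    ∑ i : I, (indBlock Ax (p ⁻¹' {i})).subtype.comp (Pi.evalAddMonoidHom _ i)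
  have hE : ∀ f : (∀ i : I, ↥(indBlock Ax (p ⁻¹' {i}))), E f = ∑ i, (f i : A) := by
    intro f
    show (∑ i : I, (indBlock Ax (p ⁻¹' {i})).subtype.comp (Pi.evalAddMonoidHom _ i)) f = _
    rw [AddMonoidHom.finset_sum_apply]
    rfl
  have hsupp : ∀ (i : I) (c : X → A), (∀ x, x ∉ p ⁻¹' {i} → c x = 0) → ∀ x, p x ≠ i → c x = 0 :=
    fun i c h x hx => h x (by rwa [Set.mem_preimage, Set.mem_singleton_iff])
  have hinj : Function.Injective E := by
    rw [injective_iff_map_eq_zero]
    intro f hf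
    rw [hE] at hf
    choose c hc hc0 hcs using fun i => (f i).2
    have h1 : ∑ x, c (p x) x = 0 := by
      rw [← hf]
      have h2 : ∀ i, ((f i : ↥(indBlock Ax (p ⁻¹' {i}))) : A) = ∑ x, c i x := hcs
      simp_rw [h2]
      rw [Finset.sum_comm]
      refine Finset.sum_congr rfl fun x _ => ?_
      rw [Finset.sum_eq_single (p x)]
      · intro i _ hi
        exact hsupp i (c i) (hc0 i) x (Ne.symm hi)
      · intro h
        exact absurd (Finset.mem_univ _) h
    have h3 := hindX (fun x => c (p x) x) (fun x => hc (p x) x) h1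
    funext i
    apply Subtype.ext
    rw [hcs i]
    show ∑ x, c i x = 0
    refine Finset.sum_eq_zero fun x _ => ?_
    by_cases hx : p x = i
    · subst hx
      exact h3 x
    · exact hsupp i (c i) (hc0 i) x hx
  have hsurj : Function.Surjective E := by
    intro a
    obtain ⟨c, hc, rfl⟩ := hsumX a
    refine ⟨fun i => ⟨∑ x, (if p x = i then c x else 0),
      ⟨fun x => if p x = i then c x else 0, fun x => ?_, fun x hx => ?_, rfl⟩⟩, ?_⟩
    · show (if p x = i then c x else 0) ∈ Ax x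
      split_ifs
      · exact hc x
      · exact (Ax x).zero_mem
    · rw [Set.mem_preimage, Set.mem_singleton_iff] at hx
      show (if p x = i then c x else 0) = 0
      rw [if_neg hx]
    · rw [hE]
      show ∑ i, ∑ x, (if p x = i then c x else 0) = _
      rw [Finset.sum_comm]
      refine Finset.sum_congr rfl fun x _ => ?_
      rw [Finset.sum_ite_eq]
      simp
  let e : (∀ i : I, ↥(indBlock Ax (p ⁻¹' {i}))) ≃+ A := AddEquiv.ofBijective E ⟨hinj, hsurj⟩
  have he : ∀ (τ : G) (f : ∀ i : I, ↥(indBlock Ax (p ⁻¹' {i}))), e (τ • f) = τ • e f := by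
    intro τ f
    show E (τ • f) = τ • E f
    rw [hE, hE, Finset.smul_sum]
    rfl
  refine ⟨?_, ?_⟩
  · rw [← tateH0Card_congr e he σ, tateH0Card_pi_fintype]
  · rw [← tateH1Card_congr e he σ, tateH1Card_pi_fintype]

/-- **Tate cardinalities multiply over the orbit blocks.** -/
theorem tateCard_orbit_blocks (Ax : X → AddSubgroup A)
    (hperm : ∀ (τ : G) (x : X) (a : A), a ∈ Ax x → τ • a ∈ Ax (τ • x))
    (hsumX : ∀ a : A, ∃ c : X → A, (∀ x, c x ∈ Ax x) ∧ a = ∑ x, c x)
    (hindX : ∀ c : X → A, (∀ x, c x ∈ Ax x) → ∑ x, c x = 0 → ∀ x, c x = 0)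
    [Fintype (MulAction.orbitRel.Quotient G X)] (σ : G)
    (c0 c1 : X → ℕ)
    (hloc : ∀ (x₀ : X) (Y : Set X) (hY : ∀ (τ : G) (x : X), x ∈ Y → τ • x ∈ Y),
      x₀ ∈ Y → (∀ y ∈ Y, ∃ τ : G, τ • x₀ = y) →
      letI := indBlockAction Ax hperm Y hY
      tateH0Card G ↥(indBlock Ax Y) σ = c0 x₀ ∧ tateH1Card G ↥(indBlock Ax Y) σ = c1 x₀) :
    tateH0Card G A σ = ∏ o : MulAction.orbitRel.Quotient G X, c0 o.out ∧
      tateH1Card G A σ = ∏ o : MulAction.orbitRel.Quotient G X, c1 o.out := by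
  classical
  let p : X → MulAction.orbitRel.Quotient G X := fun x => Quotient.mk'' x
  have hp : ∀ (τ : G) (x : X), p (τ • x) = p x := by
    intro τ x
    apply Quotient.sound'
    show MulAction.orbitRel G X (τ • x) x
    rw [MulAction.orbitRel_apply]
    exact MulAction.mem_orbit x τ
  obtain ⟨h0, h1⟩ := tateCard_blocks Ax hperm hsumX hindX p hp σ
  have hl : ∀ o : MulAction.orbitRel.Quotient G X,
      letI := indBlockAction Ax hperm (p ⁻¹' {o}) (preimage_singleton_smul_mem p hp o)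
      tateH0Card G ↥(indBlock Ax (p ⁻¹' {o})) σ = c0 o.out ∧
        tateH1Card G ↥(indBlock Ax (p ⁻¹' {o})) σ = c1 o.out := by
    intro o
    refine hloc o.out (p ⁻¹' {o}) (preimage_singleton_smul_mem p hp o) ?_ ?_
    · rw [Set.mem_preimage, Set.mem_singleton_iff]
      exact Quotient.out_eq' o
    · intro y hy
      rw [Set.mem_preimage, Set.mem_singleton_iff] at hy
      have h2 : p y = p o.out := by rw [hy]; exact (Quotient.out_eq' o).symm
      have h3 : MulAction.orbitRel G X y o.out := Quotient.exact' h2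
      rw [MulAction.orbitRel_apply] at h3
      obtain ⟨τ, hτ⟩ := h3
      exact ⟨τ, hτ⟩
  refine ⟨?_, ?_⟩
  · rw [h0]
    exact Finset.prod_congr rfl fun o _ => (hl o).1
  · rw [h1]
    exact Finset.prod_congr rfl fun o _ => (hl o).2

end Product

section Block

variable {G : Type*} [Group G] [Fintype G] {A : Type*} [AddCommGroup A] [DistribMulAction G A]
variable {H : Type*} [Group H] [Fintype H] {B : Type*} [AddCommGroup B] [DistribMulAction H B]
variable {X : Type*} [Fintype X] [MulAction G X]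

/-- the action of `G` on a stable subset. -/
@[reducible] def stableSubsetAction (Y : Set X) (hY : ∀ (τ : G) (x : X), x ∈ Y → τ • x ∈ Y) :
    MulAction G ↥Y where
  smul τ y := ⟨τ • (y : X), hY τ y y.2⟩
  one_smul y := Subtype.ext (one_smul G (y : X))
  mul_smul τ τ' y := Subtype.ext (mul_smul τ τ' (y : X))

theorem sum_subtype_of_support {M : Type*} [AddCommMonoid M] (Y : Set X) [Fintype ↥Y] (c : X → M)
    (hc : ∀ x, x ∉ Y → c x = 0) : ∑ y : ↥Y, c y = ∑ x, c x := by
  classical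
  rw [← Finset.sum_subtype (Finset.univ.filter (· ∈ Y)) (fun x => by simp) c]
  refine Finset.sum_filter_of_ne fun x _ hx => ?_
  by_contra h
  exact hx (hc x h)

/-- **Shapiro for a transitive block**: a block of a `G`-stable subset `Y` on which `G` acts
transitively is induced from the stabiliser of a point of `Y`. -/
theorem tateCard_induced_block {σ : G} (hσ : ∀ τ, τ ∈ Subgroup.zpowers σ) {σH : H}
    (hσH : ∀ h, h ∈ Subgroup.zpowers σH)
    (Ax : X → AddSubgroup A)
    (hperm : ∀ (τ : G) (x : X) (a : A), a ∈ Ax x → τ • a ∈ Ax (τ • x))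
    (hindX : ∀ c : X → A, (∀ x, c x ∈ Ax x) → ∑ x, c x = 0 → ∀ x, c x = 0)
    (Y : Set X) (hY : ∀ (τ : G) (x : X), x ∈ Y → τ • x ∈ Y)
    (x₀ : X) (hx₀ : x₀ ∈ Y) (htrans : ∀ y ∈ Y, ∃ τ : G, τ • x₀ = y)
    (ι : H →* G) (hι : Function.Injective ι)
    (hιrange : ∀ τ : G, τ ∈ ι.range ↔ τ • x₀ = x₀)
    (j : B →+ A) (hj : Function.Injective j) (hjrange : ∀ a : A, a ∈ j.range ↔ a ∈ Ax x₀)
    (hjι : ∀ (h : H) (b : B), j (h • b) = ι h • j b) :
    letI := indBlockAction Ax hperm Y hY
    tateH0Card G ↥(indBlock Ax Y) σ = tateH0Card H B σH ∧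
      tateH1Card G ↥(indBlock Ax Y) σ = tateH1Card H B σH := by
  classical
  letI := indBlockAction Ax hperm Y hY
  letI : MulAction G ↥Y := stableSubsetAction Y hY
  letI : Fintype ↥Y := Fintype.ofFinite _
  haveI : MulAction.IsPretransitive G ↥Y := by
    refine ⟨fun y y' => ?_⟩
    obtain ⟨τ, hτ⟩ := htrans y y.2
    obtain ⟨τ', hτ'⟩ := htrans y' y'.2
    refine ⟨τ' * τ⁻¹, Subtype.ext ?_⟩
    show (τ' * τ⁻¹) • (y : X) = y'
    rw [← hτ, mul_smul, inv_smul_smul, hτ']
  have hmemB : ∀ b : B, j b ∈ indBlock Ax Y := fun b =>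
    le_indBlock Ax hx₀ ((hjrange _).mp ⟨b, rfl⟩)
  refine tateCard_induced (G := G) (A := ↥(indBlock Ax Y)) (X := ↥Y) hσ hσH
    (fun y => (Ax (y : X)).addSubgroupOf (indBlock Ax Y)) ?_ ?_ ?_ ⟨x₀, hx₀⟩ ι hι ?_
    (j.codRestrict (indBlock Ax Y) hmemB) ?_ ?_ ?_
  · intro τ y a ha
    rw [AddSubgroup.mem_addSubgroupOf] at ha ⊢
    exact hperm τ (y : X) (a : A) ha
  · rintro ⟨a, c, hc, hc0, rfl⟩
    refine ⟨fun y => ⟨c (y : X), le_indBlock Ax y.2 (hc (y : X))⟩, fun y => ?_, ?_⟩
    · rw [AddSubgroup.mem_addSubgroupOf]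
      exact hc (y : X)
    · apply Subtype.ext
      rw [AddSubgroup.val_finsetSum]
      exact (sum_subtype_of_support Y c hc0).symm
  · intro c' hc' hsum y
    let c : X → A := fun x => if h : x ∈ Y then ((c' ⟨x, h⟩ : ↥(indBlock Ax Y)) : A) else 0
    have hcY : ∀ y : ↥Y, c (y : X) = (c' y : A) := fun y => by
      show (if h : (y : X) ∈ Y then ((c' ⟨(y : X), h⟩ : ↥(indBlock Ax Y)) : A) else 0) = _
      rw [dif_pos y.2]
    have hc : ∀ x, c x ∈ Ax x := by
      intro x
      by_cases h : x ∈ Y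
      · have := hc' ⟨x, h⟩
        rw [AddSubgroup.mem_addSubgroupOf] at this
        rw [hcY ⟨x, h⟩]
        exact this
      · show (if h : x ∈ Y then ((c' ⟨x, h⟩ : ↥(indBlock Ax Y)) : A) else 0) ∈ Ax x
        rw [dif_neg h]
        exact (Ax x).zero_mem
    have hc0 : ∀ x, x ∉ Y → c x = 0 := fun x h => dif_neg h
    have h1 : ∑ x, c x = 0 := by
      rw [← sum_subtype_of_support Y c hc0]
      simp_rw [hcY]
      rw [← AddSubgroup.val_finsetSum, hsum]
      rfl
    have h2 := hindX c hc h1 (y : X)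
    apply Subtype.ext
    rw [← hcY y, h2]
    rfl
  · intro τ
    rw [hιrange τ]
    constructor
    · intro h
      exact Subtype.ext h
    · intro h
      exact congrArg Subtype.val h
  · intro b b' h
    apply hj
    exact congrArg Subtype.val h
  · intro a
    rw [AddSubgroup.mem_addSubgroupOf]
    constructor
    · rintro ⟨b, rfl⟩
      exact (hjrange _).mp ⟨b, rfl⟩
    · intro ha
      obtain ⟨b, hb⟩ := (hjrange _).mpr ha
      exact ⟨b, Subtype.ext hb⟩
  · intro h b
    exact Subtype.ext (hjι h b)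

end Block

end Fermat.Agent.CFT
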