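import Fermat.Agent.CFT.Coh.H2InfResGen

set_option autoImplicit false

/-!
# Inflation in degree 2 when `H¹` of the kernel is only killed by an integer `m`

If every `1`-cocycle of the normal subgroup `S` with values in `A` becomes a coboundary after
multiplication by `m` (`H1ResKilledBy A S m`), then the kernel of the inflation
`H²(G ⧸ S, A^S) ⟶ H²(G, A)` is killed by `m` (`H2inf_nsmul_eq_zero`, general form
`infGen_nsmul_eq_zero`).  In particular inflation preserves the order of classes whose order is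
prime to `m` (`addOrderOf_infGen_eq`).

`h1ResKilledBy_of_le`: if `P ≤ S` has finite index and `H¹(P, A) = 0` then `H¹(S, A)` is killed by
`[S : P]` (the corestriction argument, on cocycles).  With `P` a Sylow `p`-subgroup of `S` this
gives: inflation is injective on classes of `p`-power order as soon as `H¹(P, A) = 0`.
-/

namespace Fermat.Agent.CFT

universe u

open CategoryTheory groupCohomology Rep

variable {k G : Type u} [CommRing k] [Group G] (A : Rep k G) (S : Subgroup G)

/-- `m · H¹(S, A) = 0`, in cocycle form. -/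
def H1ResKilledBy (m : ℕ) : Prop :=
  ∀ x : S → A, (∀ s t : S, x (s * t) = A.ρ s (x t) + x s) →
    ∃ a : A, ∀ s : S, m • x s = A.ρ s a - a

variable {A S}

lemma H1ResVanishes.killedBy_one (h : H1ResVanishes A S) : H1ResKilledBy A S 1 := by
  intro x hx
  obtain ⟨a, ha⟩ := h x hx
  exact ⟨a, fun s => by rw [one_smul]; exact ha s⟩

section Cor

variable [Finite G]

/-- **Corestriction on cocycles**: if `P ≤ S` and `H¹(P, A) = 0` then `[S : P] · H¹(S, A) = 0`. -/
theorem h1ResKilledBy_of_le (P : Subgroup G) (hPS : P ≤ S) (hP : H1ResVanishes A P) :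
    H1ResKilledBy A S (P.relIndex S) := by
  classical
  intro x hx
  -- restrict to `P`
  let ι : P → S := fun p => ⟨(p : G), hPS p.2⟩
  have hιmul : ∀ p q : P, ι (p * q) = ι p * ι q := fun p q => rfl
  obtain ⟨a, ha⟩ := hP (fun p => x (ι p)) (fun p q => by
    have := hx (ι p) (ι q)
    rw [← hιmul] at this
    exact this)
  -- the modified cocycle vanishing on `P`
  set x' : S → A := fun s => x s - (A.ρ s a - a) with hx'def
  have hx' : ∀ s t : S, x' (s * t) = A.ρ s (x' t) + x' s := by
    intro s t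
    simp only [hx'def, hx s t, Subgroup.coe_mul, map_mul, Module.End.mul_apply, map_sub]
    abel
  have hx'P : ∀ p : P, x' (ι p) = 0 := by
    intro p
    simp only [hx'def]
    rw [ha p]
    exact sub_self _
  have hx'r : ∀ (s : S) (p : P), x' (s * ι p) = x' s := by
    intro s p
    rw [hx' s (ι p), hx'P, map_zero, zero_add]
  -- the quotient `S ⧸ P`
  let Q := S ⧸ (P.subgroupOf S)
  have : Fintype Q := Fintype.ofFinite Q
  have hout : ∀ (t : S) (q : Q), x' ((t • q : Q).out) = x' (t * q.out) := by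
    intro t q
    have h1 : ((t • q : Q).out : Q) = ((t * q.out : S) : Q) := by
      rw [QuotientGroup.out_eq']
      conv_lhs => rw [← QuotientGroup.out_eq' q]
      rfl
    have h2 := QuotientGroup.eq.mp h1
    -- `((t•q).out)⁻¹ * (t * q.out) ∈ P.subgroupOf S`
    rw [Subgroup.mem_subgroupOf] at h2
    set p : P := ⟨_, h2⟩ with hp
    have h3 : t * q.out = (t • q : Q).out * ι p := by
      apply Subtype.ext
      simp [hp, ι]
    rw [h3, hx'r]
  have hcard : Fintype.card Q = P.relIndex S := by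
    rw [← Nat.card_eq_fintype_card]
    rfl
  refine ⟨(P.relIndex S) • a - ∑ q : Q, x' q.out, fun t => ?_⟩
  have hsum : ∑ q : Q, x' q.out = A.ρ t (∑ q : Q, x' q.out) + (P.relIndex S) • x' t := by
    have e1 : ∑ q : Q, x' q.out = ∑ q : Q, x' ((t • q : Q).out) :=
      (Fintype.sum_equiv (MulAction.toPerm t) (fun q => x' ((t • q : Q).out))
        (fun q => x' q.out) (fun q => rfl)).symm
    have e2 : ∑ q : Q, x' ((t • q : Q).out) = ∑ q : Q, (A.ρ t (x' q.out) + x' t) :=
      Finset.sum_congr rfl fun q _ => by rw [hout, hx']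
    calc ∑ q : Q, x' q.out = ∑ q : Q, x' ((t • q : Q).out) := e1
      _ = ∑ q : Q, (A.ρ t (x' q.out) + x' t) := e2
      _ = A.ρ t (∑ q : Q, x' q.out) + (P.relIndex S) • x' t := by
        rw [Finset.sum_add_distrib, Finset.sum_const, Finset.card_univ, hcard, map_sum]
  have hxt : x t = x' t + (A.ρ t a - a) := by
    simp only [hx'def]
    abel
  have h3 : (P.relIndex S) • x' t = ∑ q : Q, x' q.out - A.ρ t (∑ q : Q, x' q.out) := by
    rw [eq_sub_iff_add_eq, add_comm]
    exact hsum.symm
  rw [hxt, smul_add, h3, map_sub, map_nsmul, smul_sub]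
  abel

end Cor

section Inf

variable [S.Normal]

/-- Variant of `exists_d_eq_of_inf_eq_d` where only the specific cocycle is assumed to be a
coboundary. -/
lemma exists_d_eq_of_inf_eq_d_of_cob (f : cocycles₂ (A.quotientToInvariants S))
    (b : G → A)
    (hb : ∀ g h : G, A.ρ g (b h) - b (g * h) + b g =
      ((f ((g : G ⧸ S), (h : G ⧸ S)) : (A.quotientToInvariants S)) : A))
    (hcob : ∃ a : A, ∀ s : S,
      b s - ((f (1, 1) : (A.quotientToInvariants S)) : A) = A.ρ s a - a) :
    ∃ b' : G ⧸ S → (A.quotientToInvariants S), ∀ g h : G ⧸ S,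
      (A.quotientToInvariants S).ρ g (b' h) - b' (g * h) + b' g = f (g, h) := by
  set c : A := ((f (1, 1) : (A.quotientToInvariants S)) : A) with hc
  have hcinv : ∀ s : S, A.ρ s c = c := fun s => (f (1, 1)).2 s
  have hmk : ∀ s : S, ((s : G) : G ⧸ S) = 1 := fun s => (QuotientGroup.eq_one_iff _).2 s.2
  obtain ⟨a, ha⟩ := hcob
  -- the modified cochain
  set b₂ : G → A := fun g => b g - (A.ρ g a - a) with hb₂def
  have hb₂ : ∀ g h : G, A.ρ g (b₂ h) - b₂ (g * h) + b₂ g =
      ((f ((g : G ⧸ S), (h : G ⧸ S)) : (A.quotientToInvariants S)) : A) := by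
    intro g h
    rw [← hb g h]
    simp only [hb₂def, map_sub, map_mul, Module.End.mul_apply]
    abel
  have hb₂S : ∀ s : S, b₂ s = c := by
    intro s
    have := ha s
    simp only [hb₂def]
    rw [← this]
    abel
  have hsnd : ∀ g : G, ((f ((g : G ⧸ S), 1) : (A.quotientToInvariants S)) : A) = A.ρ g c := by
    intro g
    rw [cocycles₂_map_one_snd f (g : G ⧸ S)]
    rfl
  have hfst : ∀ g : G, ((f (1, (g : G ⧸ S)) : (A.quotientToInvariants S)) : A) = c := by
    intro g
    rw [cocycles₂_map_one_fst f (g : G ⧸ S)]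
  have hr : ∀ (g : G) (s : S), b₂ (g * s) = b₂ g := by
    intro g s
    have h1 := hb₂ g s
    rw [hmk, hsnd, hb₂S] at h1
    have : b₂ (g * s) = b₂ g - ((A.ρ g c - b₂ (g * s) + b₂ g) - A.ρ g c) := by abel
    conv_lhs => rw [this]
    rw [h1, sub_self, sub_zero]
  have hl : ∀ (g : G) (s : S), b₂ (s * g) = A.ρ s (b₂ g) := by
    intro g s
    have h1 := hb₂ s g
    rw [hmk, hfst, hb₂S] at h1
    have : b₂ (s * g) = A.ρ s (b₂ g) - ((A.ρ s (b₂ g) - b₂ (s * g) + c) - c) := by abel
    conv_lhs => rw [this]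
    rw [h1, sub_self, sub_zero]
  have hinv : ∀ (g : G) (s : S), A.ρ s (b₂ g) = b₂ g := by
    intro g s
    rw [← hl]
    have : (s : G) * g = g * (g⁻¹ * s * g) := by group
    rw [this]
    exact hr g ⟨_, Subgroup.Normal.conj_mem' ‹_› (s : G) s.2 g⟩
  let b' : G ⧸ S → (A.quotientToInvariants S) := fun q => ⟨b₂ q.out, fun s => hinv _ s⟩
  have hb' : ∀ g : G, ((b' (g : G ⧸ S) : (A.quotientToInvariants S)) : A) = b₂ g := by
    intro g
    obtain ⟨t, ht⟩ := cosetRep_eq_mul S g
    change b₂ (cosetRep S g) = b₂ g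
    rw [ht, hr]
  refine ⟨b', fun g h => ?_⟩
  induction g using QuotientGroup.induction_on with | @H g =>
  induction h using QuotientGroup.induction_on with | @H h =>
  apply Subtype.ext
  rw [← hb₂ g h, ← QuotientGroup.mk_mul, Submodule.coe_add, Submodule.coe_sub, hb', hb']
  congr 2
  change A.ρ g (b' (h : G ⧸ S) : A) = _
  rw [hb']

/-- If `m · H¹(S, A) = 0`, the kernel of inflation `H²(G ⧸ S, A^S) ⟶ H²(G, A)` is killed by
`m`. -/
theorem H2inf_nsmul_eq_zero {m : ℕ} (hS : H1ResKilledBy A S m)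
    (y : groupCohomology (A.quotientToInvariants S) 2) (hy : H2inf A S y = 0) : m • y = 0 := by
  induction y using H2_induction_on with | @h f =>
  rw [H2π_comp_map_apply (QuotientGroup.mk' S)] at hy
  rcases (H2π_eq_zero_iff _).1 hy with ⟨b, hb⟩
  have hb' : ∀ g h : G, A.ρ g (b h) - b (g * h) + b g =
      ((f ((g : G ⧸ S), (h : G ⧸ S)) : (A.quotientToInvariants S)) : A) :=
    fun g h => congr_fun hb (g, h)
  set c : A := ((f (1, 1) : (A.quotientToInvariants S)) : A) with hc
  have hcinv : ∀ s : S, A.ρ s c = c := fun s => (f (1, 1)).2 s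
  have hmk : ∀ s : S, ((s : G) : G ⧸ S) = 1 := fun s => (QuotientGroup.eq_one_iff _).2 s.2
  -- `b - c` is a cocycle on `S`
  obtain ⟨a, ha⟩ := hS (fun s => b s - c) (by
    intro s t
    have h1 := hb' s t
    rw [hmk, hmk, ← hc] at h1
    simp only [Subgroup.coe_mul, map_sub, hcinv]
    rw [← h1]
    abel)
  obtain ⟨b'', hb''⟩ := exists_d_eq_of_inf_eq_d_of_cob (A := A) (S := S) (m • f) (m • b)
    (fun g h => by
      have := hb' g h
      simp only [Pi.smul_apply, map_nsmul]
      rw [← smul_sub, ← smul_add, this]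
      rfl)
    ⟨a, fun s => by
      have := ha s
      simp only [Pi.smul_apply]
      rw [← this, smul_sub]
      rfl⟩
  rw [← map_nsmul, H2π_eq_zero_iff]
  exact ⟨b'', funext fun ⟨g, h⟩ => hb'' g h⟩

end Inf

section Gen

variable {Q : Type u} [Group Q] {A' : Rep k Q} (π : G →* Q) (φ : res π A' ⟶ A)
  (hπ : Function.Surjective π) (hφi : Function.Injective φ.hom)
  (hφr : ∀ a : A, (∀ s ∈ π.ker, A.ρ s a = a) → ∃ a' : A', φ.hom a' = a)

include hπ hφi hφr in
/-- General form: if `m · H¹(ker π, A) = 0`, the kernel of the general inflation is killed by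
`m`. -/
theorem infGen_nsmul_eq_zero {m : ℕ} (h1 : H1ResKilledBy A π.ker m)
    (y : groupCohomology A' 2) (hy : map π φ 2 y = 0) : m • y = 0 := by
  rw [map_eq_toInvHom_comp π φ hπ 2] at hy
  have h2 := H2inf_nsmul_eq_zero h1
    (map (quotEquiv π hπ).toMonoidHom (toInvHom π φ hπ) 2 y) hy
  rw [← map_nsmul] at h2
  apply (map_toInvHom_bijective π φ hπ hφi hφr 2).1
  rw [map_zero]
  exact h2

include hπ hφi hφr in
/-- Inflation preserves the order of classes whose order is prime to `m`. -/
theorem addOrderOf_infGen_eq {m : ℕ} (h1 : H1ResKilledBy A π.ker m)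
    (y : groupCohomology A' 2) (hy : (addOrderOf y).Coprime m) :
    addOrderOf (map π φ 2 y) = addOrderOf y := by
  apply Nat.dvd_antisymm
  · rw [addOrderOf_dvd_iff_nsmul_eq_zero, ← map_nsmul, addOrderOf_nsmul_eq_zero, map_zero]
  · have h0 : map π φ 2 (addOrderOf (map π φ 2 y) • y) = 0 := by
      rw [map_nsmul]
      exact addOrderOf_nsmul_eq_zero _
    have h2 := infGen_nsmul_eq_zero π φ hπ hφi hφr h1 _ h0
    rw [← mul_nsmul] at h2
    have h3 := addOrderOf_dvd_of_nsmul_eq_zero h2
    exact (Nat.Coprime.dvd_mul_right hy).mp h3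

end Gen

end Fermat.Agent.CFT
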