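import Fermat.Agent.CFT.Coh.FundClassAbs
import Fermat.Agent.CFT.Coh.InfCoprime

set_option autoImplicit false

/-!
# The fundamental class by comparison with a cyclic layer, `p`-primary form

Same statement as `exists_addOrderOf_eq_card_of_cyclic_comparison`, but `H¹(ker π', MΓ)` is only
required to be killed by an integer `m` prime to `|G'|` (e.g. `H¹ = 0` on a Sylow `p`-subgroup of
`ker π'` when `G'` is a `p`-group: `h1ResKilledBy_of_le`).
-/

namespace Fermat.Agent.CFT

open CategoryTheory groupCohomology Rep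

variable {Γ G G' T : Type} [Group Γ] [Group G] [Group G'] [Group T] [Fintype G'] [Fintype T]
  {MΓ MG M' MT : Type} [CommGroup MΓ] [CommGroup MG] [CommGroup M'] [CommGroup MT]
  [MulDistribMulAction Γ MΓ] [MulDistribMulAction G MG] [MulDistribMulAction G' M']
  [MulDistribMulAction T MT]

/-- **The fundamental class by comparison with a cyclic layer, `p`-primary form.** -/
theorem exists_addOrderOf_eq_card_of_cyclic_comparison_of_coprime
    (π : Γ →* G) (hπ : Function.Surjective π)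
    (f : MG →* MΓ) (hf : ∀ γ m, f (π γ • m) = γ • f m) (hfi : Function.Injective f)
    (hfr : ∀ m : MΓ, (∀ γ ∈ π.ker, γ • m = m) → ∃ m', f m' = m)
    (π' : Γ →* G') (hπ' : Function.Surjective π')
    (f' : M' →* MΓ) (hf' : ∀ γ m, f' (π' γ • m) = γ • f' m) (hf'i : Function.Injective f')
    (hf'r : ∀ m : MΓ, (∀ γ ∈ π'.ker, γ • m = m) → ∃ m', f' m' = m)
    (ι : T →* Γ) (hι : Function.Injective ι) (hex : ι.range = π.ker)
    (e : MΓ →* MT) (he : ∀ t m, e (ι t • m) = t • e m) (hebij : Function.Bijective e)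
    (h1 : H1ResVanishes (Rep.ofMulDistribMulAction Γ MΓ) π.ker)
    {m : ℕ} (hm : (Nat.card G').Coprime m)
    (h1' : H1ResKilledBy (Rep.ofMulDistribMulAction Γ MΓ) π'.ker m)
    {σ : G'} (hσ : ∀ x, x ∈ Subgroup.zpowers σ) {τ : T} (hτ : ∀ x, x ∈ Subgroup.zpowers τ)
    {d : ℕ} (hd : π' (ι τ) = σ ^ d) (hcard : d * Nat.card T = Nat.card G')
    (c : M') (hc : ∀ g : G', g • c = c)
    (hord : ∀ k : ℕ, (∃ b : M', ∏ g : G', g • b = c ^ k) → Nat.card G' ∣ k)
    (hnorm : ∃ b : MT, ∏ t : T, t • b = e (f' c)) :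
    ∃ w : groupCohomology (Rep.ofMulDistribMulAction G MG) 2, addOrderOf w = Nat.card G' := by
  have hc' : ∀ t : T, t • e (f' c) = e (f' c) := by
    intro t
    rw [← he, ← hf', hc]
  set φ := fcRepHom π f hf with hφ
  set φ' := fcRepHom π' f' hf' with hφ'
  set ψ := fcRepResHom ι e he with hψ
  have hφi : Function.Injective φ.hom := fun y y' h =>
    congrArg Additive.ofMul (hfi (congrArg Additive.toMul h))
  have hφr : ∀ a : (Rep.ofMulDistribMulAction Γ MΓ),
      (∀ s ∈ π.ker, (Rep.ofMulDistribMulAction Γ MΓ).ρ s a = a) → ∃ a', φ.hom a' = a := by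
    intro a ha
    obtain ⟨m', hm'⟩ := hfr (Additive.toMul a) (fun γ hγ => congrArg Additive.toMul (ha γ hγ))
    exact ⟨Additive.ofMul m', congrArg Additive.ofMul hm'⟩
  have hφ'i : Function.Injective φ'.hom := fun y y' h =>
    congrArg Additive.ofMul (hf'i (congrArg Additive.toMul h))
  have hφ'r : ∀ a : (Rep.ofMulDistribMulAction Γ MΓ),
      (∀ s ∈ π'.ker, (Rep.ofMulDistribMulAction Γ MΓ).ρ s a = a) → ∃ a', φ'.hom a' = a := by
    intro a ha
    obtain ⟨m', hm'⟩ := hf'r (Additive.toMul a) (fun γ hγ => congrArg Additive.toMul (ha γ hγ))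
    exact ⟨Additive.ofMul m', congrArg Additive.ofMul hm'⟩
  have hψb : Function.Bijective ψ.hom :=
    ⟨fun y y' h => congrArg Additive.ofMul (hebij.1 (congrArg Additive.toMul h)),
      fun b => by
        obtain ⟨m, hm⟩ := hebij.2 (Additive.toMul b)
        exact ⟨Additive.ofMul m, congrArg Additive.ofMul hm⟩⟩
  set x := cycClass hσ c hc with hx
  have hxord : addOrderOf x = Nat.card G' := addOrderOf_cycClass_eq_card hσ c hc hord
  have hres : map ι ψ 2 (map π' φ' 2 x) = 0 := by
    rw [hx, hψ, hφ', map_map_cycClass π' f' hf' ι e he hσ hτ hd hcard c hc hc',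
      cycClass_eq_zero_iff]
    exact hnorm
  obtain ⟨w, hw⟩ := infResGen_exact π φ ι ψ hπ hι hex hφi hφr hψb h1 _ hres
  refine ⟨w, ?_⟩
  have e1 : addOrderOf (map π φ 2 w) = addOrderOf w :=
    addOrderOf_injective (map π φ 2).hom.toAddMonoidHom
      (infGen_injective π φ hπ hφi hφr h1) w
  have e2 : addOrderOf (map π' φ' 2 x) = addOrderOf x :=
    addOrderOf_infGen_eq π' φ' hπ' hφ'i hφ'r h1' x (by rw [hxord]; exact hm)
  rw [← e1, hw, e2, hxord]

/-- `H1ResKilledBy` from the multiplicative cocycle form. -/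
lemma h1ResKilledBy_of_mul (S : Subgroup Γ) (m : ℕ)
    (h : ∀ x : S → MΓ, (∀ s t : S, x (s * t) = (s : Γ) • x t * x s) →
      ∃ a : MΓ, ∀ s : S, x s ^ m = (s : Γ) • a / a) :
    H1ResKilledBy (Rep.ofMulDistribMulAction Γ MΓ) S m := by
  intro x hx
  obtain ⟨a, ha⟩ := h (fun s => Additive.toMul (x s)) (fun s t => congrArg Additive.toMul (hx s t))
  exact ⟨Additive.ofMul a, fun s => congrArg Additive.ofMul (ha s)⟩

end Fermat.Agent.CFT
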