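import Fermat.Agent.CFT.Coh.H2InfRes

set_option autoImplicit false

/-!
# Inflation-restriction in degree 2, general form

`π : G →* Q` surjective, `ι : T →* G` injective with `range ι = ker π`, `A' ≃ A^{ker π}` via `φ`,
`A ≃ B` via `ψ`: `0 ⟶ H²(Q, A') ⟶ H²(G, A) ⟶ H²(T, B)` is exact when `H¹(ker π, A) = 0`.
-/

namespace Fermat.Agent.CFT

universe u

open CategoryTheory groupCohomology Rep

section Inf

variable {k G Q : Type u} [CommRing k] [Group G] [Group Q]
  {A : Rep k G} {A' : Rep k Q} (π : G →* Q) (φ : res π A' ⟶ A)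

/-- The image of `φ` lies in the `ker π`-invariants. -/
lemma φ_mem_invariants (a' : A') :
    φ.hom a' ∈ Representation.invariants (A.ρ.comp (π.ker).subtype) := by
  intro s
  have h1 := hom_comm_apply φ (s : G) a'
  have h2 : π (s : G) = 1 := s.2
  change A.ρ (s : G) (φ.hom a') = φ.hom a'
  rw [← h1]
  change φ.hom (A'.ρ (π (s : G)) a') = _
  rw [h2, map_one]
  rfl

/-- `φ` corestricted to the invariants, as a linear map. -/
noncomputable def toInvLin : A'.V →ₗ[k] (A.quotientToInvariants π.ker).V :=
  φ.hom.toLinearMap.codRestrict _ (φ_mem_invariants π φ)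

lemma toInvLin_coe (a' : A') : ((toInvLin π φ a' : (A.quotientToInvariants π.ker).V) : A.V) =
    φ.hom a' := rfl

variable (hπ : Function.Surjective π)

/-- The isomorphism `G ⧸ ker π ≃* Q`. -/
noncomputable abbrev quotEquiv : G ⧸ π.ker ≃* Q := QuotientGroup.quotientKerEquivOfSurjective π hπ

lemma quotEquiv_mk (g : G) : quotEquiv π hπ (g : G ⧸ π.ker) = π g := rfl

lemma toInvLin_equivariant (q : G ⧸ π.ker) (a' : A') :
    toInvLin π φ (A'.ρ (quotEquiv π hπ q) a') =
      (A.quotientToInvariants π.ker).ρ q (toInvLin π φ a') := by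
  induction q using QuotientGroup.induction_on with | @H g =>
  apply Subtype.ext
  rw [quotEquiv_mk, toInvLin_coe]
  change _ = A.ρ g (φ.hom a')
  rw [← hom_comm_apply φ g a']
  rfl

/-- `φ` corestricted to the invariants, as a morphism of `G ⧸ ker π`-representations. -/
noncomputable def toInvHom :
    res (quotEquiv π hπ).toMonoidHom A' ⟶ A.quotientToInvariants π.ker :=
  ofHom ⟨toInvLin π φ, fun q => by
    refine LinearMap.ext fun a' => ?_
    exact toInvLin_equivariant π φ hπ q a'⟩

/-- Factorisation of the general inflation through the standard one. -/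
lemma map_eq_toInvHom_comp (n : ℕ) :
    map π φ n = map (quotEquiv π hπ).toMonoidHom (toInvHom π φ hπ) n ≫
      map (QuotientGroup.mk' π.ker) (ofHom <| A.ρ.quotientToInvariants_lift π.ker) n := by
  rw [← map_comp]
  refine map_congr ?_ ?_ n
  · ext g
    rfl
  · rfl

variable (hinj : Function.Injective φ.hom)
  (hrange : ∀ a : A, (∀ s ∈ π.ker, A.ρ s a = a) → ∃ a' : A', φ.hom a' = a)

include hinj hrange in
lemma toInvLin_bijective : Function.Bijective (toInvLin π φ) := by
  constructor
  · intro x y hxy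
    apply hinj
    have := congrArg Subtype.val hxy
    exact this
  · rintro ⟨a, ha⟩
    obtain ⟨a', ha'⟩ := hrange a (fun s hs => ha ⟨s, hs⟩)
    exact ⟨a', Subtype.ext ha'⟩

include hinj hrange in
/-- The comparison map `Hⁿ(Q, A') ⟶ Hⁿ(G ⧸ ker π, A^{ker π})` is bijective. -/
lemma map_toInvHom_bijective (n : ℕ) :
    Function.Bijective (map (quotEquiv π hπ).toMonoidHom (toInvHom π φ hπ) n) := by
  let e' : A'.V ≃ₗ[k] (A.quotientToInvariants π.ker).V :=
    LinearEquiv.ofBijective (toInvLin π φ) (toInvLin_bijective π φ hinj hrange)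
  have he : ∀ q : Q, e'.toLinearMap ∘ₗ A'.ρ q =
      (A.quotientToInvariants π.ker).ρ ((quotEquiv π hπ).symm q) ∘ₗ e'.toLinearMap := by
    intro q
    refine LinearMap.ext fun a' => ?_
    have := toInvLin_equivariant π φ hπ ((quotEquiv π hπ).symm q) a'
    rw [MulEquiv.apply_symm_apply] at this
    exact this
  have hiso : map (quotEquiv π hπ).toMonoidHom (toInvHom π φ hπ) n =
      (mapIso (quotEquiv π hπ).symm e' he n).hom := by
    refine map_congr ?_ ?_ n
    · ext q
      rfl
    · rfl
  rw [hiso]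
  exact ConcreteCategory.bijective_of_isIso _

end Inf

section Res

variable {k G T : Type u} [CommRing k] [Group G] [Group T]
  {A : Rep k G} {B : Rep k T} (S : Subgroup G) (ι : T →* G) (ψ : res ι A ⟶ B)
  (hι : Function.Injective ι) (hrange : ι.range = S)

/-- The isomorphism `T ≃* S` induced by an injective `ι : T →* G` with range `S`. -/
noncomputable def toSubEquiv : T ≃* S :=
  (MonoidHom.ofInjective hι).trans (MulEquiv.subgroupCongr hrange)

lemma coe_toSubEquiv (t : T) : ((toSubEquiv S ι hι hrange t : S) : G) = ι t := rfl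

/-- `ψ` as a morphism from the restriction of `Res_S A` along `T ≃* S`. -/
noncomputable def resHom :
    res (toSubEquiv S ι hι hrange).toMonoidHom (res S.subtype A) ⟶ B :=
  ofHom ⟨ψ.hom.toLinearMap, fun t => by
    refine LinearMap.ext fun a => ?_
    exact hom_comm_apply ψ t a⟩

/-- Factorisation of the general restriction through the standard one. -/
lemma map_eq_res_comp (n : ℕ) :
    map ι ψ n = map S.subtype (𝟙 (res S.subtype A)) n ≫
      map (toSubEquiv S ι hι hrange).toMonoidHom (resHom S ι ψ hι hrange) n := by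
  rw [← map_comp]
  refine map_congr ?_ ?_ n
  · ext t
    rfl
  · rfl

/-- The comparison map `Hⁿ(S, A) ⟶ Hⁿ(T, B)` is bijective. -/
lemma map_resHom_bijective (hψ : Function.Bijective ψ.hom) (n : ℕ) :
    Function.Bijective
      (map (toSubEquiv S ι hι hrange).toMonoidHom (resHom S ι ψ hι hrange) n) := by
  let e' : (res S.subtype A).V ≃ₗ[k] B.V := LinearEquiv.ofBijective ψ.hom.toLinearMap hψ
  have he : ∀ s : S, e'.toLinearMap ∘ₗ (res S.subtype A).ρ s =
      B.ρ ((toSubEquiv S ι hι hrange).symm s) ∘ₗ e'.toLinearMap := by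
    intro s
    refine LinearMap.ext fun a => ?_
    obtain ⟨t, rfl⟩ := (toSubEquiv S ι hι hrange).surjective s
    rw [MulEquiv.symm_apply_apply]
    exact hom_comm_apply ψ t a
  have hiso : map (toSubEquiv S ι hι hrange).toMonoidHom (resHom S ι ψ hι hrange) n =
      (mapIso (toSubEquiv S ι hι hrange).symm e' he n).hom := by
    refine map_congr ?_ ?_ n
    · ext t
      rfl
    · rfl
  rw [hiso]
  exact ConcreteCategory.bijective_of_isIso _

end Res

section Main

variable {k G Q T : Type u} [CommRing k] [Group G] [Group Q] [Group T]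
  {A : Rep k G} {A' : Rep k Q} {B : Rep k T}
  (π : G →* Q) (φ : res π A' ⟶ A) (ι : T →* G) (ψ : res ι A ⟶ B)
  (hπ : Function.Surjective π) (hι : Function.Injective ι) (hex : ι.range = π.ker)
  (hφi : Function.Injective φ.hom)
  (hφr : ∀ a : A, (∀ s ∈ π.ker, A.ρ s a = a) → ∃ a' : A', φ.hom a' = a)
  (hψ : Function.Bijective ψ.hom) (h1 : H1ResVanishes A π.ker)

include hπ hφi hφr h1 in
/-- General inflation is injective in degree `2` when `H¹(ker π, A) = 0`. -/
theorem infGen_injective : Function.Injective (map π φ 2) := by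
  rw [map_eq_toInvHom_comp π φ hπ 2]
  exact (H2inf_injective A π.ker h1).comp (map_toInvHom_bijective π φ hπ hφi hφr 2).1

include hπ hι hex hφi hφr hψ h1 in
/-- General inflation-restriction exactness in degree `2` when `H¹(ker π, A) = 0`. -/
theorem infResGen_exact (x : groupCohomology A 2) (hx : map ι ψ 2 x = 0) :
    ∃ y, map π φ 2 y = x := by
  rw [map_eq_res_comp π.ker ι ψ hι hex 2] at hx
  have hx' : H2res A π.ker x = 0 := by
    apply (map_resHom_bijective π.ker ι ψ hι hex hψ 2).1
    rw [map_zero]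
    exact hx
  obtain ⟨y₀, hy₀⟩ := H2InfRes_exact A π.ker h1 x hx'
  obtain ⟨y, hy⟩ := (map_toInvHom_bijective π φ hπ hφi hφr 2).2 y₀
  refine ⟨y, ?_⟩
  rw [map_eq_toInvHom_comp π φ hπ 2]
  change H2inf A π.ker (map (quotEquiv π hπ).toMonoidHom (toInvHom π φ hπ) 2 y) = x
  rw [hy, hy₀]

include hπ hι hex in
/-- General inflation followed by restriction vanishes in degree `2`. -/
theorem resGen_infGen (y : groupCohomology A' 2) : map ι ψ 2 (map π φ 2 y) = 0 := by
  rw [map_eq_res_comp π.ker ι ψ hι hex 2, map_eq_toInvHom_comp π φ hπ 2]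
  change map (toSubEquiv π.ker ι hι hex).toMonoidHom (resHom π.ker ι ψ hι hex) 2
    (H2res A π.ker (H2inf A π.ker _)) = 0
  rw [H2res_H2inf, map_zero]

include hπ hι hex hφi hφr hψ h1 in
/-- `|H²(G, A)|` divides `|H²(Q, A')| * |H²(T, B)|` when `H¹(ker π, A) = 0`. -/
theorem natCard_H2_dvd_mul_gen :
    Nat.card (groupCohomology A 2) ∣
      Nat.card (groupCohomology A' 2) * Nat.card (groupCohomology B 2) := by
  have h := natCard_H2_dvd_mul A π.ker h1
  rwa [← Nat.card_congr (Equiv.ofBijective _ (map_toInvHom_bijective π φ hπ hφi hφr 2)),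
    Nat.card_congr (Equiv.ofBijective _ (map_resHom_bijective π.ker ι ψ hι hex hψ 2))] at h

end Main

end Fermat.Agent.CFT
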