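import Fermat.Agent.CFT.Coh.InfRes

set_option autoImplicit false

/-!
# The kernel of restriction is killed by the index

For a subgroup `S ≤ G` of finite index, `A : Rep k G` and `q ≥ 1`: a class `x ∈ Hᵠ(G, A)` whose
(actual) restriction to `S` vanishes satisfies `[G : S] • x = 0`
(`index_nsmul_eq_zero_of_resH_eq_zero`).  Degree one is an explicit cocycle computation (sum over
the cosets), higher degrees follow by dimension shifting.
-/

namespace Fermat.Agent.CFT

open CategoryTheory groupCohomology Rep

universe u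

variable {k G : Type u} [CommRing k] [Group G] (S : Subgroup G) [S.FiniteIndex]

noncomputable local instance resIndexFintypeQuot : Fintype (G ⧸ S) :=
  Subgroup.fintypeQuotientOfFiniteIndex

/-- A `1`-cocycle vanishing on `S` becomes a coboundary after multiplication by the index. -/
theorem index_nsmul_mem_coboundaries₁ (A : Rep k G) (f : G → A) (hf : f ∈ cocycles₁ A)
    (hS : ∀ s : S, f (s : G) = 0) : S.index • f ∈ coboundaries₁ A := by
  have hmul : ∀ g h : G, f (g * h) = A.ρ g (f h) + f g := (mem_cocycles₁_iff f).1 hf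
  -- `f` is constant on left cosets
  let F : G ⧸ S → A.V := fun c => Quotient.liftOn' c f (by
    intro a b hab
    have hs : a⁻¹ * b ∈ S := QuotientGroup.leftRel_apply.mp hab
    have hb : b = a * (a⁻¹ * b) := by group
    rw [hb, hmul, hS ⟨a⁻¹ * b, hs⟩, map_zero, zero_add])
  have hF : ∀ g : G, F (QuotientGroup.mk g) = f g := fun g => rfl
  have hτ : ∀ (τ : G) (c : G ⧸ S), A.ρ τ (F c) = F (τ • c) - f τ := by
    intro τ c
    induction c using QuotientGroup.induction_on with
    | H g =>
      have e : τ • (QuotientGroup.mk g : G ⧸ S) = QuotientGroup.mk (τ * g) := rfl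
      rw [e, hF, hF, hmul, add_sub_cancel_right]
  refine ⟨-(∑ c : G ⧸ S, F c), ?_⟩
  funext τ
  rw [d₀₁_hom_apply, map_neg, map_sum]
  simp_rw [hτ]
  rw [Finset.sum_sub_distrib, Finset.sum_const, Finset.card_univ,
    Fintype.sum_equiv (MulAction.toPerm τ) (fun c => F (τ • c)) F (fun _ => rfl)]
  have hidx : S.index = Fintype.card (G ⧸ S) := by
    rw [Subgroup.index_eq_card, Nat.card_eq_fintype_card]
  rw [Pi.smul_apply, hidx]
  abel

/-- Degree one: the kernel of `res : H¹(G, A) ⟶ H¹(S, A)` is killed by the index. -/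
theorem index_nsmul_eq_zero_of_resH_one (A : Rep k G) (x : groupCohomology A 1)
    (hx : resH S A 1 x = 0) : S.index • x = 0 := by
  induction x using H1_induction_on with
  | h f =>
    have h1 : H1π (res S.subtype A) (mapCocycles₁ S.subtype (𝟙 (res S.subtype A)) f) = 0 :=
      (H1π_comp_map_apply S.subtype (𝟙 (res S.subtype A)) f).symm.trans hx
    rw [H1π_eq_zero_iff] at h1
    obtain ⟨a, ha⟩ := h1
    have ha' : ∀ s : S, f (s : G) = A.ρ (s : G) a - a := fun s => (congrFun ha s).symm
    -- subtract the coboundary of `a`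
    have hf' : (⇑f - (d₀₁ A).hom a) ∈ cocycles₁ A :=
      (cocycles₁ A).sub_mem f.2 (d₀₁_apply_mem_cocycles₁ a)
    have hS : ∀ s : S, (⇑f - (d₀₁ A).hom a) (s : G) = 0 := by
      intro s
      rw [Pi.sub_apply, d₀₁_hom_apply, ha' s, sub_self]
    have hcob := index_nsmul_mem_coboundaries₁ S A _ hf' hS
    have hclass : H1π A f = H1π A ⟨_, hf'⟩ := by
      rw [H1π_eq_iff]
      refine ⟨a, ?_⟩
      funext g
      simp
    rw [hclass, ← map_nsmul, H1π_eq_zero_iff]
    exact hcob

/-- **The kernel of restriction is killed by the index**, all degrees `q + 1`. -/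
theorem index_nsmul_eq_zero_of_resH_succ (q : ℕ) : ∀ (A : Rep k G)
    (x : groupCohomology A (q + 1)), resH S A (q + 1) x = 0 → S.index • x = 0 := by
  induction q with
  | zero => exact fun A x hx => index_nsmul_eq_zero_of_resH_one S A x hx
  | succ q ih =>
    intro A x hx
    have iG : IsIso (groupCohomology.δ (astarSC_shortExact A) (q + 1) (q + 2) rfl) :=
      isIso_δ_of_isZero _ (q + 1) (isZero_astar A q) (isZero_astar A (q + 1))
    have iS : IsIso (groupCohomology.δ (astarSC_res_shortExact S A) (q + 1) (q + 2) rfl) :=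
      isIso_δ_of_isZero _ (q + 1) (isZero_astar_res S A q) (isZero_astar_res S A (q + 1))
    have bG := (ConcreteCategory.isIso_iff_bijective _).1 iG
    have bS := (ConcreteCategory.isIso_iff_bijective _).1 iS
    have sqR := δ_comp_resH S A (q + 1) (q + 2) rfl
    have sqR' : ∀ y, resH S A (q + 2)
        (groupCohomology.δ (astarSC_shortExact A) (q + 1) (q + 2) rfl y)
        = groupCohomology.δ (astarSC_res_shortExact S A) (q + 1) (q + 2) rfl
            (resH S (aprime A) (q + 1) y) := fun y => by
      exact (ConcreteCategory.comp_apply _ _ y).symm.trans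
        ((ConcreteCategory.congr_hom sqR y).trans (ConcreteCategory.comp_apply _ _ y))
    obtain ⟨y, rfl⟩ := bG.2 x
    have hy2 := (sqR' y).symm.trans hx
    have h0 : resH S (aprime A) (q + 1) y = 0 := bS.1 (hy2.trans (map_zero _).symm)
    have h1 := ih (aprime A) y h0
    have h2 : (groupCohomology.δ (astarSC_shortExact A) (q + 1) (q + 2) rfl).hom (S.index • y)
        = 0 := by
      rw [h1]; exact map_zero _
    exact (map_nsmul (groupCohomology.δ (astarSC_shortExact A) (q + 1) (q + 2) rfl).hom
      S.index y).symm.trans h2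

/-- **The kernel of restriction is killed by the index** (`q ≥ 1`). -/
theorem index_nsmul_eq_zero_of_resH_eq_zero (A : Rep k G) (q : ℕ) (hq : 1 ≤ q)
    (x : groupCohomology A q) (hx : resH S A q x = 0) : S.index • x = 0 := by
  obtain ⟨n, rfl⟩ : ∃ n, q = n + 1 := ⟨q - 1, by omega⟩
  exact index_nsmul_eq_zero_of_resH_succ S n A x hx

end Fermat.Agent.CFT
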