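import Fermat.Agent.CFT.Coh.TateThm
import Fermat.Agent.CFT.Coh.ResIndex

set_option autoImplicit false

/-!
# Class cocycles from cardinalities

For `k = ℤ`: if `H¹(S, C) = 0` and `|H²(S, C)| = |S|` for every subgroup `S ≤ G`, then every
`2`-cocycle whose class has order `|G|` in `H²(G, C)` is a class cocycle: its restrictions have
order `|S|` because the kernel of restriction is killed by the index.  Hence Tate's theorem
applies (`tateIsoInt`, `isZero_H3_of_isClassCocycle_int`).
-/

namespace Fermat.Agent.CFT

open CategoryTheory groupCohomology Rep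

variable {G : Type} [Group G] [Fintype G] (C : Rep.{0} ℤ G) (φ : cocycles₂ C)

/-- The restriction of a class of order `|G|` has order `|S|` when `|H²(S, C)| = |S|`. -/
theorem addOrderOf_resCocycle₂ (S : Subgroup G)
    (hcard : Nat.card (groupCohomology (res S.subtype C) 2) = Nat.card S)
    (hγ : addOrderOf (H2π C φ) = Nat.card G) :
    addOrderOf (H2π (res S.subtype C) (resCocycle₂ C φ S)) = Nat.card S := by
  have hfin : Finite (groupCohomology (res S.subtype C) 2) :=
    Nat.finite_of_card_ne_zero (by rw [hcard]; exact Nat.card_pos.ne')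
  set y := H2π (res S.subtype C) (resCocycle₂ C φ S) with hy
  have hdvd : addOrderOf y ∣ Nat.card S := hcard ▸ addOrderOf_dvd_natCard y
  refine Nat.dvd_antisymm hdvd ?_
  -- `m • res γ = 0` gives `index • m • γ = 0`
  have h0 : resH S C 2 (addOrderOf y • H2π C φ) = 0 := by
    have h1 : resH S C 2 (addOrderOf y • H2π C φ) = addOrderOf y • resH S C 2 (H2π C φ) :=
      map_nsmul (resH S C 2).hom _ _
    rw [h1, resH_H2π]
    exact addOrderOf_nsmul_eq_zero y
  have h2 := index_nsmul_eq_zero_of_resH_eq_zero S C 2 (by omega) _ h0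
  rw [← mul_nsmul] at h2
  have h3 : addOrderOf (H2π C φ) ∣ addOrderOf y * S.index :=
    addOrderOf_dvd_of_nsmul_eq_zero h2
  rw [hγ, ← S.card_mul_index] at h3
  have hidx : 0 < S.index := Nat.pos_of_ne_zero Subgroup.FiniteIndex.index_ne_zero
  exact Nat.dvd_of_mul_dvd_mul_right hidx h3

/-- For `k = ℤ`: a `2`-cocycle whose class has order `|G|` is a class cocycle as soon as
`H¹(S, C) = 0` and `|H²(S, C)| = |S|` for every subgroup `S`. -/
theorem isClassCocycle_of_card_of_addOrderOf
    (h1 : ∀ S : Subgroup G, Limits.IsZero (groupCohomology (res S.subtype C) 1))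
    (hcard : ∀ S : Subgroup G, Nat.card (groupCohomology (res S.subtype C) 2) = Nat.card S)
    (hγ : addOrderOf (H2π C φ) = Nat.card G) : IsClassCocycle C φ :=
  isClassCocycle_of_card C φ h1 hcard fun S => addOrderOf_resCocycle₂ C φ S (hcard S) hγ

/-- Existence form: if some class of `H²(G, C)` has order `|G|`, there is a class cocycle. -/
theorem exists_isClassCocycle
    (h1 : ∀ S : Subgroup G, Limits.IsZero (groupCohomology (res S.subtype C) 1))
    (hcard : ∀ S : Subgroup G, Nat.card (groupCohomology (res S.subtype C) 2) = Nat.card S)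
    (hγ : ∃ w : groupCohomology C 2, addOrderOf w = Nat.card G) :
    ∃ φ : cocycles₂ C, IsClassCocycle C φ := by
  obtain ⟨w, hw⟩ := hγ
  induction w using H2_induction_on with
  | h φ => exact ⟨φ, isClassCocycle_of_card_of_addOrderOf C φ h1 hcard hw⟩

/-- **Tate, `n = 1`, cardinality form**: `H³(S, C) = 0` for all subgroups. -/
theorem isZero_H3_of_card
    (h1 : ∀ S : Subgroup G, Limits.IsZero (groupCohomology (res S.subtype C) 1))
    (hcard : ∀ S : Subgroup G, Nat.card (groupCohomology (res S.subtype C) 2) = Nat.card S)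
    (hγ : ∃ w : groupCohomology C 2, addOrderOf w = Nat.card G) (S : Subgroup G) :
    Limits.IsZero (groupCohomology (res S.subtype C) 3) := by
  obtain ⟨φ, hφ⟩ := exists_isClassCocycle C h1 hcard hγ
  exact isZero_H3_of_isClassCocycle_int C φ hφ S

end Fermat.Agent.CFT
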