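import Mathlib
import Fermat.Agent.CFT.Coh.TateClass
import Fermat.Agent.CFT.Coh.H2InfResGen
import Fermat.Agent.CFT.Coh.IndexKill

set_option autoImplicit false

/-!
# Sylow glue for Tate's theorem (`p`-local form)

`G` finite, `C : Rep ℤ G`, `p` prime.  Hypotheses:
* `h1` : `H¹(S, C) = 0` for all `p`-subgroups `S`;
* `h2` : `H²(S, C)` is finite of order dividing `|S|` for all `p`-subgroups `S`;
* `w ∈ H²(G, C)` whose order is divisible by the full power of `p` dividing `|G|`.

Then for every `p`-Sylow `P` and every `S ≤ P`: `res_S w` has order `|S|`, `|H²(S, C)| = |S|`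
(`tateSyl_addOrderOf_resH`, `tateSyl_natCard_H2`), `H³(S, C) = 0` (`tateSyl_isZero_H3`), and
`H³(G, C)` has no `p`-torsion (`tateSyl_eq_zero_of_pow_nsmul`).  If this holds for all primes,
`H³(G, C) = 0` (`tateSyl_isZero_H3_of_forall`).
-/

namespace Fermat.Agent.CFT

open CategoryTheory groupCohomology Rep

section Transport

variable {G : Type} [Group G] (C : Rep.{0} ℤ G) (P : Subgroup G) (S' : Subgroup ↥P)

/-- the inclusion `S' → P → G`. -/
noncomputable def tateSylIncl : ↥S' →* G := P.subtype.comp S'.subtype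

theorem tateSylIncl_injective : Function.Injective (tateSylIncl P S') :=
  P.subtype_injective.comp S'.subtype_injective

theorem tateSylIncl_range : (tateSylIncl P S').range = S'.map P.subtype := by
  unfold tateSylIncl
  rw [MonoidHom.range_comp, Subgroup.range_subtype]

/-- **Transport**: the cohomology of `S' ≤ P` (as a subgroup of the group `P`) with coefficients
in `res C` is in bijection with the cohomology of its image in `G`. -/
noncomputable def tateSylEquiv (n : ℕ) :
    groupCohomology (res (S'.map P.subtype).subtype C) n ≃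
      groupCohomology (res S'.subtype (res P.subtype C)) n :=
  Equiv.ofBijective _
    (map_resHom_bijective (A := C) (B := res S'.subtype (res P.subtype C))
      (S'.map P.subtype) (tateSylIncl P S') (𝟙 (res S'.subtype (res P.subtype C)))
      (tateSylIncl_injective P S') (tateSylIncl_range P S') Function.bijective_id n)

end Transport

section Main

variable {G : Type} [Group G] [Fintype G] (C : Rep.{0} ℤ G) (p : ℕ) [hp : Fact p.Prime]

/-- arithmetic: if `|S| = p ^ s`, `|S| * idx = n`, `m ∣ |S|` and `p ^ v_p(n) ∣ m * idx` then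
`m = |S|`. -/
theorem tateSyl_arith {n s m idx : ℕ} (hn : n ≠ 0) (hS : p ^ s * idx = n) (hm : m ∣ p ^ s)
    (hdvd : p ^ n.factorization p ∣ m * idx) : m = p ^ s := by
  obtain ⟨t, hts, rfl⟩ := (Nat.dvd_prime_pow hp.out).mp hm
  rcases Nat.lt_or_ge t s with hlt | hge
  · exfalso
    have h1 : p ^ (n.factorization p + 1) ∣ p ^ (t + 1) * idx := by
      rw [pow_succ, pow_succ, mul_comm (p ^ t) p, mul_assoc, mul_comm (p ^ n.factorization p) p]
      exact Nat.mul_dvd_mul_left p hdvd
    have h2 : p ^ (t + 1) * idx ∣ n := by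
      rw [← hS]
      exact Nat.mul_dvd_mul_right (pow_dvd_pow p hlt) idx
    exact Nat.pow_succ_factorization_not_dvd hn hp.out (h1.trans h2)
  · rw [le_antisymm hts hge]

variable {C p}

/-- **(b)** the restriction of `w` to a `p`-subgroup `S` has order `|S|`. -/
theorem tateSyl_addOrderOf_resH
    (h2 : ∀ S : Subgroup G, IsPGroup p S → Finite (groupCohomology (res S.subtype C) 2) ∧
      Nat.card (groupCohomology (res S.subtype C) 2) ∣ Nat.card S)
    {w : groupCohomology C 2} (hw : p ^ (Nat.card G).factorization p ∣ addOrderOf w)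
    (S : Subgroup G) (hS : IsPGroup p S) :
    addOrderOf (resH S C 2 w) = Nat.card S := by
  obtain ⟨hfin, hcard⟩ := h2 S hS
  obtain ⟨s, hs⟩ := hS.exists_card_eq
  set y := resH S C 2 w with hy
  have hdvd : addOrderOf y ∣ Nat.card S := (addOrderOf_dvd_natCard y).trans hcard
  have h0 : resH S C 2 (addOrderOf y • w) = 0 := by
    have h1 : resH S C 2 (addOrderOf y • w) = addOrderOf y • resH S C 2 w :=
      map_nsmul (resH S C 2).hom _ _
    rw [h1]
    exact addOrderOf_nsmul_eq_zero y
  have h3 := index_nsmul_eq_zero_of_resH_eq_zero S C 2 (by omega) _ h0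
  rw [← mul_nsmul] at h3
  have h4 : addOrderOf w ∣ addOrderOf y * S.index :=
    addOrderOf_dvd_of_nsmul_eq_zero h3
  rw [hs] at hdvd ⊢
  refine tateSyl_arith p (n := Nat.card G) Nat.card_pos.ne' ?_ hdvd (hw.trans h4)
  rw [← hs]
  exact S.card_mul_index

/-- **(b)** `|H²(S, C)| = |S|` for `p`-subgroups `S`. -/
theorem tateSyl_natCard_H2
    (h2 : ∀ S : Subgroup G, IsPGroup p S → Finite (groupCohomology (res S.subtype C) 2) ∧
      Nat.card (groupCohomology (res S.subtype C) 2) ∣ Nat.card S)
    {w : groupCohomology C 2} (hw : p ^ (Nat.card G).factorization p ∣ addOrderOf w)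
    (S : Subgroup G) (hS : IsPGroup p S) :
    Nat.card (groupCohomology (res S.subtype C) 2) = Nat.card S := by
  obtain ⟨hfin, hcard⟩ := h2 S hS
  refine Nat.dvd_antisymm hcard ?_
  rw [← tateSyl_addOrderOf_resH h2 hw S hS]
  exact addOrderOf_dvd_natCard _

/-- **(c)** `H³(S, C) = 0` for `p`-subgroups `S`. -/
theorem tateSyl_isZero_H3
    (h1 : ∀ S : Subgroup G, IsPGroup p S →
      Limits.IsZero (groupCohomology (res S.subtype C) 1))
    (h2 : ∀ S : Subgroup G, IsPGroup p S → Finite (groupCohomology (res S.subtype C) 2) ∧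
      Nat.card (groupCohomology (res S.subtype C) 2) ∣ Nat.card S)
    {w : groupCohomology C 2} (hw : p ^ (Nat.card G).factorization p ∣ addOrderOf w)
    (S : Subgroup G) (hS : IsPGroup p S) :
    Limits.IsZero (groupCohomology (res S.subtype C) 3) := by
  -- apply Tate's theorem to the group `S` itself
  have hsub : ∀ S' : Subgroup ↥S, IsPGroup p (S'.map S.subtype) := fun S' =>
    hS.to_le (Subgroup.map_subtype_le S')
  let _ : Fintype ↥S := Fintype.ofFinite ↥S
  have key : ∀ S' : Subgroup ↥S,
      Limits.IsZero (groupCohomology (res S'.subtype (res S.subtype C)) 3) := by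
    refine isZero_H3_of_card (res S.subtype C) ?_ ?_ ?_
    · intro S'
      rw [ModuleCat.isZero_iff_subsingleton]
      have := (ModuleCat.isZero_iff_subsingleton).mp (h1 (S'.map S.subtype) (hsub S'))
      exact (tateSylEquiv C S S' 1).symm.subsingleton
    · intro S'
      rw [← Nat.card_congr (tateSylEquiv C S S' 2), tateSyl_natCard_H2 h2 hw _ (hsub S')]
      exact Nat.card_congr (Subgroup.equivMapOfInjective S' S.subtype S.subtype_injective).symm.toEquiv
    · exact ⟨resH S C 2 w, tateSyl_addOrderOf_resH h2 hw S hS⟩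
  have h3 := key ⊤
  rw [ModuleCat.isZero_iff_subsingleton] at h3 ⊢
  have h4 := (tateSylEquiv C S ⊤ 3).subsingleton
  have h5 : ∀ X : Subgroup G, X = S → Subsingleton (groupCohomology (res X.subtype C) 3) →
      Subsingleton (groupCohomology (res S.subtype C) 3) := by
    rintro X rfl h
    exact h
  refine h5 _ ?_ h4
  rw [← MonoidHom.range_eq_map, Subgroup.range_subtype]

/-- **(d)** `H³(G, C)` has no `p`-torsion. -/
theorem tateSyl_eq_zero_of_pow_nsmul
    (h1 : ∀ S : Subgroup G, IsPGroup p S →
      Limits.IsZero (groupCohomology (res S.subtype C) 1))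
    (h2 : ∀ S : Subgroup G, IsPGroup p S → Finite (groupCohomology (res S.subtype C) 2) ∧
      Nat.card (groupCohomology (res S.subtype C) 2) ∣ Nat.card S)
    {w : groupCohomology C 2} (hw : p ^ (Nat.card G).factorization p ∣ addOrderOf w)
    (x : groupCohomology C 3) {j : ℕ} (hx : p ^ j • x = 0) : x = 0 := by
  obtain ⟨P⟩ : Nonempty (Sylow p G) := inferInstance
  have hz := tateSyl_isZero_H3 h1 h2 hw (P : Subgroup G) P.isPGroup'
  have h0 : resH (P : Subgroup G) C 3 x = 0 :=
    (ModuleCat.isZero_iff_subsingleton.mp hz).elim _ _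
  have h3 : (P : Subgroup G).index • x = 0 :=
    index_nsmul_eq_zero_of_resH_eq_zero (P : Subgroup G) C 3 (by omega) x h0
  have h4 : addOrderOf x ∣ (P : Subgroup G).index := addOrderOf_dvd_of_nsmul_eq_zero h3
  have h5 : addOrderOf x ∣ p ^ j := addOrderOf_dvd_of_nsmul_eq_zero hx
  have hcop : Nat.Coprime (p ^ j) (P : Subgroup G).index :=
    Nat.Coprime.pow_left j ((Nat.Prime.coprime_iff_not_dvd hp.out).mpr P.not_dvd_index)
  exact AddMonoid.addOrderOf_eq_one_iff.mp (Nat.eq_one_of_dvd_coprimes hcop h5 h4)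

end Main

section AllPrimes

variable {G : Type} [Group G] [Fintype G] {C : Rep.{0} ℤ G}

/-- **(e)** if the hypotheses hold at every prime then `H³(G, C) = 0`. -/
theorem tateSyl_isZero_H3_of_forall
    (h1 : ∀ (p : ℕ) [Fact p.Prime] (S : Subgroup G), IsPGroup p S →
      Limits.IsZero (groupCohomology (res S.subtype C) 1))
    (h2 : ∀ (p : ℕ) [Fact p.Prime] (S : Subgroup G), IsPGroup p S →
      Finite (groupCohomology (res S.subtype C) 2) ∧
        Nat.card (groupCohomology (res S.subtype C) 2) ∣ Nat.card S)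
    (hw : ∀ (p : ℕ) [Fact p.Prime], ∃ w : groupCohomology C 2,
      p ^ (Nat.card G).factorization p ∣ addOrderOf w) :
    Limits.IsZero (groupCohomology C 3) := by
  rw [ModuleCat.isZero_iff_subsingleton]
  have key : ∀ x : groupCohomology C 3, x = 0 := by
    intro x
    by_contra hx
    have hG : Nat.card G • x = 0 := natCard_nsmul_eq_zero C 2 x
    have hne1 : addOrderOf x ≠ 1 := fun h => hx (AddMonoid.addOrderOf_eq_one_iff.mp h)
    obtain ⟨q, hq, hqd⟩ := Nat.exists_prime_and_dvd hne1
    have : Fact q.Prime := ⟨hq⟩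
    obtain ⟨w, hw'⟩ := hw q
    obtain ⟨c, hc⟩ := hqd
    have hpos : 0 < addOrderOf x :=
      addOrderOf_pos_iff.mpr (isOfFinAddOrder_iff_nsmul_eq_zero.mpr ⟨Nat.card G, Nat.card_pos, hG⟩)
    have hc0 : 0 < c := by
      rcases Nat.eq_zero_or_pos c with rfl | h
      · rw [mul_zero] at hc; omega
      · exact h
    have hy : q ^ 1 • (c • x) = 0 := by
      rw [pow_one, ← mul_nsmul, mul_comm, ← hc]
      exact addOrderOf_nsmul_eq_zero x
    have h0 := tateSyl_eq_zero_of_pow_nsmul (h1 q) (h2 q) hw' (c • x) hy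
    have h6 : addOrderOf x ∣ c := addOrderOf_dvd_of_nsmul_eq_zero h0
    rw [hc] at h6
    have : q * c ≤ c := Nat.le_of_dvd hc0 h6
    have hq2 := hq.two_le
    nlinarith
  exact ⟨fun a b => by rw [key a, key b]⟩

end AllPrimes

end Fermat.Agent.CFT
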