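import Fermat.Agent.CFT.Coh.Interface

set_option autoImplicit false

/-!
# (A5) Mathlib's group cohomology of a finite cyclic group versus `hIndex`

For a finite cyclic group `G = ⟨g⟩` and `A : Rep k G`:
`|Hⁱ(G, A)| = [ker (ρ g - 1) : im N]` for even `i > 0` and `= [ker N : im (ρ g - 1)]` for odd `i`
(`Nat.card`, i.e. `0` when infinite).  For an additive group `A` with `DistribMulAction G A` this
reads `Nat.card (groupCohomology (Rep.of (ofDistribMulAction ℤ G A)) i) = tateH0Card G A g` resp.
`tateH1Card G A g`.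
-/

open CategoryTheory

namespace Fermat.Agent.CFT

universe u

section ShortComplexCard

variable {R : Type u} [Ring R]

/-- For a short complex of modules, `|homology| = [ker g : im f]` (`0` if infinite). -/
theorem natCard_homology_moduleCat (S : ShortComplex (ModuleCat.{u} R)) :
    Nat.card S.homology =
      (S.f.hom.toAddMonoidHom.range).relIndex (S.g.hom.toAddMonoidHom.ker) := by
  rw [Nat.card_congr S.moduleCatHomologyIso.toLinearEquiv.toEquiv]
  change Nat.card (LinearMap.ker S.g.hom ⧸ LinearMap.range S.moduleCatToCycles) = _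
  unfold AddSubgroup.relIndex AddSubgroup.index
  refine Nat.card_congr ?_
  let e : ↥(LinearMap.ker S.g.hom) ≃ ↥(S.g.hom.toAddMonoidHom.ker) :=
    Equiv.subtypeEquivRight fun x => by
      simp only [LinearMap.mem_ker, AddMonoidHom.mem_ker, LinearMap.toAddMonoidHom_coe]
  refine Quotient.congr e ?_
  intro x y
  change (LinearMap.range S.moduleCatToCycles).quotientRel x y ↔
    QuotientAddGroup.leftRel _ (e x) (e y)
  rw [Submodule.quotientRel_def, QuotientAddGroup.leftRel_apply]
  simp only [AddSubgroup.mem_addSubgroupOf, LinearMap.mem_range, AddMonoidHom.mem_range,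
    LinearMap.toAddMonoidHom_coe]
  constructor
  · rintro ⟨z, hz⟩
    refine ⟨-z, ?_⟩
    have h1 : S.f.hom z = (x : S.X₂) - (y : S.X₂) := congrArg Subtype.val hz
    have h2 : ((-e x + e y : ↥(S.g.hom.toAddMonoidHom.ker)) : S.X₂) = -(x : S.X₂) + (y : S.X₂) := rfl
    rw [h2, map_neg, h1]
    abel
  · rintro ⟨z, hz⟩
    refine ⟨-z, ?_⟩
    apply Subtype.ext
    have h2 : ((-e x + e y : ↥(S.g.hom.toAddMonoidHom.ker)) : S.X₂) = -(x : S.X₂) + (y : S.X₂) := rfl
    rw [h2] at hz
    change S.f.hom (-z) = (x : S.X₂) - (y : S.X₂)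
    rw [map_neg, hz]
    abel

end ShortComplexCard

section Cyclic

variable {k G : Type u} [CommRing k] [CommGroup G] [Fintype G] (A : Rep.{u} k G) (g : G)
  (hg : ∀ x, x ∈ Subgroup.zpowers g)

/-- `ρ(g) - 1` as an additive endomorphism of the underlying group of a representation. -/
def repSubOne : A.V →+ A.V := (A.ρ g - 1 : Module.End k A.V).toAddMonoidHom

/-- the norm `∑ τ, ρ(τ)` as an additive endomorphism of the underlying group. -/
def repNorm : A.V →+ A.V := (A.ρ.norm : Module.End k A.V).toAddMonoidHom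

@[simp] theorem repSubOne_apply (a : A.V) : repSubOne A g a = A.ρ g a - a := rfl

theorem repNorm_apply (a : A.V) : repNorm A a = ∑ τ : G, A.ρ τ a := by
  simp [repNorm, Representation.norm]

include hg in
/-- `|Hⁱ(G, A)| = [ker (ρ g - 1) : im N]` for `i > 0` even, `G = ⟨g⟩` finite cyclic. -/
theorem natCard_groupCohomology_even (i : ℕ) [NeZero i] (hi : Even i) :
    Nat.card (groupCohomology A i) = hIndex (repSubOne A g) (repNorm A) := by
  rw [Nat.card_congr (Rep.FiniteCyclicGroup.groupCohomologyIsoEven A g hg i hi).toLinearEquiv.toEquiv,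
    natCard_homology_moduleCat]
  rfl

include hg in
/-- `|Hⁱ(G, A)| = [ker N : im (ρ g - 1)]` for `i` odd, `G = ⟨g⟩` finite cyclic. -/
theorem natCard_groupCohomology_odd (i : ℕ) (hi : Odd i) :
    Nat.card (groupCohomology A i) = hIndex (repNorm A) (repSubOne A g) := by
  rw [Nat.card_congr (Rep.FiniteCyclicGroup.groupCohomologyIsoOdd A g hg i hi).toLinearEquiv.toEquiv,
    natCard_homology_moduleCat]
  rfl

end Cyclic

section DistribMulAction

/-! ### `ℤ`-coefficients, for an additive group with a `DistribMulAction`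
(universe `0`: Mathlib's `Rep.FiniteCyclicGroup` wants `k` and `G` in the same universe). -/

variable (G : Type) [CommGroup G] [Fintype G] (A : Type) [AddCommGroup A] [DistribMulAction G A]

/-- the `ℤ`-linear representation attached to a `DistribMulAction`. -/
noncomputable abbrev repOfAction : Rep.{0} ℤ G := Rep.of (Representation.ofDistribMulAction ℤ G A)

theorem repSubOne_repOfAction (σ : G) :
    repSubOne (repOfAction G A) σ = subOneHom A σ := by
  ext a
  rfl

theorem repNorm_repOfAction : repNorm (repOfAction G A) = normHom G A := by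
  ext a
  change (Representation.ofDistribMulAction ℤ G A).norm a = _
  rw [Representation.norm_ofDistribMulAction_eq]
  rfl

variable {G}

/-- `|Hⁱ(G, A)| = |Ĥ⁰(G, A)| = [A^G : N A]` for `i > 0` even, `G = ⟨σ⟩` finite cyclic. -/
theorem natCard_groupCohomology_even_eq_tateH0Card (σ : G) (hσ : ∀ x, x ∈ Subgroup.zpowers σ)
    (i : ℕ) [NeZero i] (hi : Even i) :
    Nat.card (groupCohomology (repOfAction G A) i) = tateH0Card G A σ := by
  rw [natCard_groupCohomology_even _ σ hσ i hi, repSubOne_repOfAction, repNorm_repOfAction]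
  rfl

/-- `|Hⁱ(G, A)| = |Ĥ¹(G, A)| = [ker N : (σ - 1) A]` for `i` odd, `G = ⟨σ⟩` finite cyclic. -/
theorem natCard_groupCohomology_odd_eq_tateH1Card (σ : G) (hσ : ∀ x, x ∈ Subgroup.zpowers σ)
    (i : ℕ) (hi : Odd i) :
    Nat.card (groupCohomology (repOfAction G A) i) = tateH1Card G A σ := by
  rw [natCard_groupCohomology_odd _ σ hσ i hi, repSubOne_repOfAction, repNorm_repOfAction]
  rfl

/-- the Herbrand quotient in terms of Mathlib's `H²` and `H¹`. -/
theorem herbrand_eq_card_H2_div_card_H1 (σ : G) (hσ : ∀ x, x ∈ Subgroup.zpowers σ) :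
    herbrand G A σ = (Nat.card (groupCohomology (repOfAction G A) 2) : ℚ) /
      (Nat.card (groupCohomology (repOfAction G A) 1) : ℚ) := by
  rw [natCard_groupCohomology_even_eq_tateH0Card A σ hσ 2 (by decide),
    natCard_groupCohomology_odd_eq_tateH1Card A σ hσ 1 (by decide)]
  rfl

end DistribMulAction

end Fermat.Agent.CFT
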