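import Fermat.Agent.CFT.Coh.H2InfResGen
import Mathlib.RepresentationTheory.Homological.GroupCohomology.Hilbert90
import Mathlib.FieldTheory.Galois.Basic

set_option autoImplicit false

/-!
# Inflation-restriction for `H²(Gal, Lˣ)` in a tower `K ⊆ F ⊆ L`

`0 ⟶ H²(Gal(F/K), Fˣ) ⟶ H²(Gal(L/K), Lˣ) ⟶ H²(Gal(L/F), Lˣ)` is exact (Hilbert 90 gives the
vanishing of `H¹`).
-/

namespace Fermat.Agent.CFT

open CategoryTheory groupCohomology Rep

section Tower

variable (K F L : Type) [Field K] [Field F] [Field L] [Algebra K F] [Algebra F L] [Algebra K L]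
  [IsScalarTower K F L]

/-- The inclusion `Gal(L/F) →* Gal(L/K)`. -/
abbrev galIncl : (L ≃ₐ[F] L) →* (L ≃ₐ[K] L) := AlgEquiv.restrictScalarsHom K

/-- The identity of `Lˣ`, as a morphism `Res (Lˣ as Gal(L/K)-module) ⟶ (Lˣ as Gal(L/F)-module)`. -/
noncomputable def unitsResHom :
    res (galIncl K F L) (Rep.ofAlgebraAutOnUnits K L) ⟶ Rep.ofAlgebraAutOnUnits F L :=
  ofHom ⟨LinearMap.id, fun _ => rfl⟩

/-- Restriction `H²(Gal(L/K), Lˣ) ⟶ H²(Gal(L/F), Lˣ)`. -/
noncomputable abbrev H2unitsRes :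
    groupCohomology (Rep.ofAlgebraAutOnUnits K L) 2 ⟶
      groupCohomology (Rep.ofAlgebraAutOnUnits F L) 2 :=
  map (galIncl K F L) (unitsResHom K F L) 2

variable [Normal K F]

/-- The projection `Gal(L/K) →* Gal(F/K)`. -/
noncomputable abbrev galProj : (L ≃ₐ[K] L) →* (F ≃ₐ[K] F) := AlgEquiv.restrictNormalHom F

/-- The inclusion `Fˣ → Lˣ` as a morphism of `Gal(L/K)`-representations. -/
noncomputable def unitsInfHom :
    res (galProj K F L) (Rep.ofAlgebraAutOnUnits K F) ⟶ Rep.ofAlgebraAutOnUnits K L :=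
  ofHom ⟨(Units.map (algebraMap F L : F →* L)).toAdditive.toIntLinearMap, fun σ => by
    refine LinearMap.ext fun y => ?_
    refine congrArg Additive.ofMul (Units.ext ?_)
    exact AlgEquiv.restrictNormal_commutes σ F ((Additive.toMul y : Fˣ) : F)⟩

/-- Inflation `H²(Gal(F/K), Fˣ) ⟶ H²(Gal(L/K), Lˣ)`. -/
noncomputable abbrev H2unitsInf :
    groupCohomology (Rep.ofAlgebraAutOnUnits K F) 2 ⟶
      groupCohomology (Rep.ofAlgebraAutOnUnits K L) 2 :=
  map (galProj K F L) (unitsInfHom K F L) 2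

omit [Normal K F] in
lemma galIncl_injective : Function.Injective (galIncl K F L) :=
  AlgEquiv.restrictScalarsHom_injective K

lemma mem_ker_galProj_iff (σ : L ≃ₐ[K] L) :
    σ ∈ (galProj K F L).ker ↔ ∀ x : F, σ (algebraMap F L x) = algebraMap F L x := by
  rw [MonoidHom.mem_ker]
  constructor
  · intro h x
    rw [← AlgEquiv.restrictNormal_commutes σ F x]
    have : σ.restrictNormal F = 1 := h
    rw [this]
    rfl
  · intro h
    ext x
    apply (algebraMap F L).injective
    have := AlgEquiv.restrictNormal_commutes σ F x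
    rw [h x] at this
    exact this

lemma range_galIncl : (galIncl K F L).range = (galProj K F L).ker := by
  ext σ
  rw [mem_ker_galProj_iff]
  constructor
  · rintro ⟨τ, rfl⟩ x
    exact τ.commutes x
  · intro h
    exact ⟨{ σ with commutes' := h }, by ext; rfl⟩

variable [FiniteDimensional K L]

/-- Hilbert 90 for `L/F`: `H¹(ker(Gal(L/K) → Gal(F/K)), Lˣ) = 0`. -/
lemma h1ResVanishes_units :
    H1ResVanishes (Rep.ofAlgebraAutOnUnits K L) (galProj K F L).ker := by
  have : FiniteDimensional F L := FiniteDimensional.right K F L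
  intro x hx
  have hmem : ∀ τ : L ≃ₐ[F] L, galIncl K F L τ ∈ (galProj K F L).ker := fun τ => by
    rw [← range_galIncl]; exact ⟨τ, rfl⟩
  let f : (L ≃ₐ[F] L) → Lˣ := fun τ => Additive.toMul (x ⟨galIncl K F L τ, hmem τ⟩)
  have hf : IsMulCocycle₁ f := by
    intro τ τ'
    have h := hx ⟨galIncl K F L τ, hmem τ⟩ ⟨galIncl K F L τ', hmem τ'⟩
    have h2 : (⟨galIncl K F L τ, hmem τ⟩ * ⟨galIncl K F L τ', hmem τ'⟩ : (galProj K F L).ker) =
        ⟨galIncl K F L (τ * τ'), hmem (τ * τ')⟩ := Subtype.ext (map_mul _ _ _).symm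
    rw [h2] at h
    exact congrArg Additive.toMul h
  obtain ⟨β, hβ⟩ := isMulCoboundary₁_of_isMulCocycle₁_of_aut_to_units f hf
  refine ⟨Additive.ofMul β, fun s => ?_⟩
  obtain ⟨τ, hτ⟩ : (s : L ≃ₐ[K] L) ∈ (galIncl K F L).range := by
    rw [range_galIncl]; exact s.2
  have hs : s = ⟨galIncl K F L τ, hmem τ⟩ := Subtype.ext hτ.symm
  rw [hs]
  have := hβ τ
  exact congrArg Additive.ofMul this.symm

variable [IsGalois K L]

/-- Galois descent: a unit of `L` fixed by `ker(Gal(L/K) → Gal(F/K))` comes from `Fˣ`. -/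
lemma exists_unitsInfHom_eq (a : (Rep.ofAlgebraAutOnUnits K L).V)
    (ha : ∀ s ∈ (galProj K F L).ker, (Rep.ofAlgebraAutOnUnits K L).ρ s a = a) :
    ∃ a' : (Rep.ofAlgebraAutOnUnits K F).V, (unitsInfHom K F L).hom a' = a := by
  set F' : IntermediateField K L := (IsScalarTower.toAlgHom K F L).fieldRange with hF'
  have hfix : ((Additive.toMul a : Lˣ) : L) ∈ IntermediateField.fixedField F'.fixingSubgroup := by
    intro s
    have hs : (s : L ≃ₐ[K] L) ∈ (galProj K F L).ker := by
      rw [mem_ker_galProj_iff]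
      intro x
      exact s.2 ⟨algebraMap F L x, ⟨x, rfl⟩⟩
    have := congrArg (fun u : Additive Lˣ => ((Additive.toMul u : Lˣ) : L)) (ha s hs)
    exact this
  rw [IsGalois.fixedField_fixingSubgroup] at hfix
  obtain ⟨y, hy⟩ := hfix
  have hy0 : y ≠ 0 := by
    rintro rfl
    have h0 : ((Additive.toMul a : Lˣ) : L) = 0 := by rw [← hy]; exact map_zero _
    exact (Additive.toMul a : Lˣ).ne_zero h0
  refine ⟨Additive.ofMul (Units.mk0 y hy0), ?_⟩
  refine congrArg Additive.ofMul (Units.ext ?_)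
  exact hy

omit [FiniteDimensional K L] [IsGalois K L] in
lemma unitsInfHom_injective : Function.Injective (unitsInfHom K F L).hom := by
  intro y y' h
  have h1 : Units.map (algebraMap F L : F →* L) (Additive.toMul y) =
      Units.map (algebraMap F L : F →* L) (Additive.toMul y') := congrArg Additive.toMul h
  have h2 := Units.map_injective (f := (algebraMap F L : F →* L)) (algebraMap F L).injective h1
  exact congrArg Additive.ofMul h2

/-- Inflation `H²(Gal(F/K), Fˣ) ⟶ H²(Gal(L/K), Lˣ)` is injective. -/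
theorem H2unitsInf_injective : Function.Injective (H2unitsInf K F L) :=
  infGen_injective (galProj K F L) (unitsInfHom K F L)
    (AlgEquiv.restrictNormalHom_surjective L) (unitsInfHom_injective K F L)
    (exists_unitsInfHom_eq K F L) (h1ResVanishes_units K F L)

/-- `H²(Gal(F/K), Fˣ) ⟶ H²(Gal(L/K), Lˣ) ⟶ H²(Gal(L/F), Lˣ)` is exact. -/
theorem H2units_exact (x : groupCohomology (Rep.ofAlgebraAutOnUnits K L) 2)
    (hx : H2unitsRes K F L x = 0) : ∃ y, H2unitsInf K F L y = x :=
  infResGen_exact (galProj K F L) (unitsInfHom K F L) (galIncl K F L) (unitsResHom K F L)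
    (AlgEquiv.restrictNormalHom_surjective L) (galIncl_injective K F L) (range_galIncl K F L)
    (unitsInfHom_injective K F L) (exists_unitsInfHom_eq K F L)
    ⟨fun _ _ h => h, fun b => ⟨b, rfl⟩⟩ (h1ResVanishes_units K F L) x hx

omit [FiniteDimensional K L] in
/-- The composite `H²(Gal(F/K), Fˣ) ⟶ H²(Gal(L/K), Lˣ) ⟶ H²(Gal(L/F), Lˣ)` vanishes. -/
theorem H2unitsRes_H2unitsInf (y : groupCohomology (Rep.ofAlgebraAutOnUnits K F) 2) :
    H2unitsRes K F L (H2unitsInf K F L y) = 0 :=
  resGen_infGen (galProj K F L) (unitsInfHom K F L) (galIncl K F L) (unitsResHom K F L)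
    (AlgEquiv.restrictNormalHom_surjective L) (galIncl_injective K F L) (range_galIncl K F L) y

/-- `|H²(L/K)|` divides `|H²(F/K)| * |H²(L/F)|`. -/
theorem natCard_H2_units_dvd_mul :
    Nat.card (groupCohomology (Rep.ofAlgebraAutOnUnits K L) 2) ∣
      Nat.card (groupCohomology (Rep.ofAlgebraAutOnUnits K F) 2) *
        Nat.card (groupCohomology (Rep.ofAlgebraAutOnUnits F L) 2) :=
  natCard_H2_dvd_mul_gen (galProj K F L) (unitsInfHom K F L) (galIncl K F L) (unitsResHom K F L)
    (AlgEquiv.restrictNormalHom_surjective L) (galIncl_injective K F L) (range_galIncl K F L)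
    (unitsInfHom_injective K F L) (exists_unitsInfHom_eq K F L)
    ⟨fun _ _ h => h, fun b => ⟨b, rfl⟩⟩ (h1ResVanishes_units K F L)

end Tower

end Fermat.Agent.CFT
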