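import Fermat.Agent.CFT.Coh.InfRes

set_option autoImplicit false

/-!
# The augmentation ideal (function model) and its cohomology

For a finite group `G` we use the function model `Fun(G, k)` (right translation) of the group
ring `k[G]`; it is acyclic on every subgroup.  The augmentation `f ↦ ∑ y, f y` is equivariant to
the trivial representation; its kernel `I` is the augmentation ideal.  We prove the short exact
sequence `0 ⟶ I ⟶ Fun(G, k) ⟶ k ⟶ 0` and compute the cohomology of `I` by dimension shifting.
-/

namespace Fermat.Agent.CFT

open CategoryTheory groupCohomology Rep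

universe u

variable (k G : Type u) [CommRing k] [Group G] [Fintype G]

/-- The augmentation `Fun(G, k) → k`. -/
def augLin : (G → k) →ₗ[k] k where
  toFun f := ∑ y, f y
  map_add' f f' := by simp [Finset.sum_add_distrib]
  map_smul' c f := by simp [Finset.mul_sum]

@[simp] theorem augLin_apply (f : G → k) : augLin k G f = ∑ y, f y := rfl

theorem augLin_translate (g : G) (f : G → k) :
    augLin k G (funRepresentation k G k g f) = augLin k G f := by
  simp only [augLin_apply, funRepresentation_apply]
  exact Fintype.sum_equiv (Equiv.mulRight g) _ _ fun _ => rfl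

/-- The augmentation ideal, as a submodule of `Fun(G, k)`. -/
def augSub : Submodule k (G → k) := LinearMap.ker (augLin k G)

theorem mem_augSub_iff (f : G → k) : f ∈ augSub k G ↔ ∑ y, f y = 0 := Iff.rfl

/-- The augmentation ideal as a representation of `G`. -/
def augRepresentation : Representation k G (augSub k G) :=
  (funRepresentation k G k).subrepresentation (augSub k G) fun g f hf => by
    rw [Submodule.mem_comap, augSub, LinearMap.mem_ker, augLin_translate]
    exact hf

@[simp] theorem augRepresentation_apply (g : G) (x : augSub k G) (y : G) :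
    (augRepresentation k G g x).1 y = x.1 (y * g) := rfl

/-- The augmentation ideal `I` as an object of `Rep k G`. -/
noncomputable abbrev augRep : Rep k G := Rep.of (augRepresentation k G)

/-- The inclusion `I ⟶ Fun(G, k)`. -/
noncomputable def augIncl : augRep k G ⟶ funRep k G k :=
  Rep.ofHom
    { toLinearMap := (augSub k G).subtype
      isIntertwining' := fun g => by
        ext x y
        rfl }

/-- The augmentation `Fun(G, k) ⟶ k`. -/
noncomputable def augHom : funRep k G k ⟶ Rep.trivial k G k :=
  Rep.ofHom
    { toLinearMap := augLin k G
      isIntertwining' := fun g => by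
        ext f
        exact augLin_translate k G g f }

@[simp] theorem augIncl_apply (x : augSub k G) : (augIncl k G).hom x = x.1 := rfl

@[simp] theorem augHom_apply (f : G → k) : (augHom k G).hom f = ∑ y, f y := rfl

theorem augIncl_comp_augHom : augIncl k G ≫ augHom k G = 0 := by
  ext x
  exact x.2

/-- The short complex `I ⟶ Fun(G, k) ⟶ k`. -/
noncomputable def augSC : ShortComplex (Rep k G) :=
  ShortComplex.mk (augIncl k G) (augHom k G) (augIncl_comp_augHom k G)

open Classical in
/-- The element `e_σ` of `Fun(G, k)` corresponding to `σ ∈ k[G]`: the indicator of `σ⁻¹`. -/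
noncomputable def gDelta (σ : G) : G → k := fun y => if y = σ⁻¹ then 1 else 0

variable {k G}

open Classical in
theorem gDelta_apply (σ y : G) : gDelta k G σ y = if y = σ⁻¹ then 1 else 0 := rfl

variable (k) in
theorem funRepresentation_gDelta (g σ : G) :
    funRepresentation k G k g (gDelta k G σ) = gDelta k G (g * σ) := by
  funext y
  simp only [funRepresentation_apply, gDelta_apply]
  by_cases h : y = (g * σ)⁻¹
  · rw [if_pos h, if_pos (by rw [h]; group)]
  · rw [if_neg h, if_neg (fun h' => h (by rw [eq_inv_iff_mul_eq_one] at h' ⊢; rw [← h']; group))]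

variable (k) in
theorem augLin_gDelta (σ : G) : augLin k G (gDelta k G σ) = 1 := by
  classical
  simp [augLin_apply, gDelta_apply]

theorem sum_gDelta_smul {M : Type*} [AddCommMonoid M] [Module k M] (σ : G) (F : G → M) :
    ∑ y, gDelta k G σ y • F y = F σ⁻¹ := by
  classical
  simp [gDelta_apply]

variable (k G)

theorem augSC_shortExact : (augSC k G).ShortExact := by
  have hM : Mono (augSC k G).f := by
    rw [Rep.mono_iff_injective]
    intro a b hab
    exact Subtype.ext hab
  have hP : Epi (augSC k G).g := by
    rw [Rep.epi_iff_surjective]
    intro c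
    change k at c
    refine ⟨c • gDelta k G 1, ?_⟩
    change augLin k G (c • gDelta k G 1) = c
    rw [map_smul, augLin_gDelta, smul_eq_mul, mul_one]
  have hE : (augSC k G).Exact := by
    rw [← ShortComplex.exact_map_iff_of_faithful _ (forget₂ (Rep k G) (ModuleCat k)),
      ShortComplex.moduleCat_exact_iff]
    intro x₂ hx₂
    exact ⟨(⟨x₂, hx₂⟩ : augSub k G), rfl⟩
  exact { exact := hE, mono_f := hM, epi_g := hP }

section Sub

variable (S : Subgroup G)

/-- The restricted sequence over a subgroup `S`. -/
theorem augSC_res_shortExact : ((augSC k G).map (resFunctor S.subtype)).ShortExact :=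
  (Rep.shortExact_res S.subtype).2 (augSC_shortExact k G)

/-- `z σ = e_σ - e_1`, an element of the augmentation ideal. -/
noncomputable def augCocycleFun (σ : G) : augSub k G :=
  ⟨gDelta k G σ - gDelta k G 1, by
    rw [augSub, LinearMap.mem_ker, map_sub, augLin_gDelta, augLin_gDelta, sub_self]⟩

theorem augCocycleFun_val (σ : G) :
    (augCocycleFun k G σ).1 = gDelta k G σ - gDelta k G 1 := rfl

theorem augCocycleFun_mul (σ τ : G) :
    augCocycleFun k G (σ * τ) =
      augRepresentation k G σ (augCocycleFun k G τ) + augCocycleFun k G σ := by
  apply Subtype.ext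
  have h1 : (augRepresentation k G σ (augCocycleFun k G τ)).1 =
      funRepresentation k G k σ (gDelta k G τ - gDelta k G 1) := rfl
  rw [Submodule.coe_add, h1, map_sub, funRepresentation_gDelta, funRepresentation_gDelta, mul_one,
    augCocycleFun_val, augCocycleFun_val]
  abel

theorem augCocycle_mem :
    (fun s : S => augCocycleFun k G (s : G)) ∈ cocycles₁ (res S.subtype (augRep k G)) := by
  rw [mem_cocycles₁_iff]
  intro s t
  exact augCocycleFun_mul k G (s : G) (t : G)

/-- The fundamental `1`-cocycle `s ↦ e_s - e_1` of `S` with values in `I`. -/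
noncomputable def augCocycle : cocycles₁ (res S.subtype (augRep k G)) :=
  ⟨_, augCocycle_mem k G S⟩

theorem augCocycle_apply (s : S) : augCocycle k G S s = augCocycleFun k G (s : G) := rfl

/-- `H¹(S, I)` is generated by the class of the fundamental cocycle. -/
theorem exists_eq_smul_augClass (x : groupCohomology (res S.subtype (augRep k G)) 1) :
    ∃ n : k, x = n • H1π _ (augCocycle k G S) := by
  induction x using H1_induction_on with
  | h f =>
    -- the cocycle with values in `Fun(G, k)`
    have hF : (fun s : S => (f s).1) ∈ cocycles₁ (res S.subtype (funRep k G k)) := by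
      rw [mem_cocycles₁_iff]
      intro s t
      have h := (mem_cocycles₁_iff (A := res S.subtype (augRep k G)) f).1 f.2 s t
      exact congrArg Subtype.val h
    obtain ⟨w, hw⟩ := exists_eq_d₀₁_of_isZero_H1 (res S.subtype (funRep k G k))
      (isZero_groupCohomology_res_funRep k S k 0) _ hF
    change G → k at w
    have hw' : ∀ (s : S) (y : G), (f s).1 y = w (y * s) - w y := fun s y => congrFun (hw s) y
    refine ⟨augLin k G w, ?_⟩
    rw [← map_smul, H1π_eq_iff]
    have hmem : w - augLin k G w • gDelta k G 1 ∈ augSub k G := by
      rw [augSub, LinearMap.mem_ker, map_sub, map_smul, augLin_gDelta, smul_eq_mul, mul_one,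
        sub_self]
    refine ⟨(⟨w - augLin k G w • gDelta k G 1, hmem⟩ : augSub k G), ?_⟩
    funext s
    apply Subtype.ext
    funext y
    have h1 : gDelta k G 1 (y * (s : G)) = gDelta k G (s : G) y := by
      have := congrFun (funRepresentation_gDelta k (s : G) 1) y
      rwa [mul_one] at this
    change (w (y * (s : G)) - augLin k G w • gDelta k G 1 (y * (s : G))) -
        (w y - augLin k G w • gDelta k G 1 y) =
      (f s).1 y - augLin k G w • (gDelta k G (s : G) y - gDelta k G 1 y)
    rw [hw', h1]
    simp only [smul_eq_mul]
    ring

end Sub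

end Fermat.Agent.CFT
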