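import Fermat.Agent.CFT.Coh.InfRes
import Fermat.Agent.CFT.Coh.IndexKill

set_option autoImplicit false

/-!
# Stream A (Coh), chunk T3: the twin number criterion (positive degrees)

Let `G` be a finite group and `A : Rep k G`.  If `H¹(H, A) = H²(H, A) = 0` for every subgroup
`H ≤ G`, then `Hᵠ(H, A) = 0` for every `q ≥ 1` and every subgroup `H`
(`isZero_groupCohomology_of_twinVanishing`).

Proof: Sylow reduction (`isZero_of_sylow`), then for a `p`-group induction on the order: a normal
subgroup `N` of index `p` has vanishing cohomology by induction, so inflation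
`Hᵠ(G/N, A^N) ⟶ Hᵠ(G, A)` is bijective in all degrees `q ≥ 1` (`infResExact`), and `G/N` is
cyclic, so the periodicity of the cohomology of finite cyclic groups propagates the vanishing
from `q = 1, 2` to all `q ≥ 1`.
-/

namespace Fermat.Agent.CFT

open CategoryTheory groupCohomology Rep

universe u

section Cyclic

variable {k G : Type u} [CommRing k] [Group G]

/-- Periodicity for a finite cyclic group: if `H¹` and `H²` vanish, so does every `Hᵠ`,
`q ≥ 1`. -/
theorem isZero_groupCohomology_of_isCyclic [Finite G] [IsCyclic G] (A : Rep k G)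
    (h1 : Limits.IsZero (groupCohomology A 1)) (h2 : Limits.IsZero (groupCohomology A 2))
    (q : ℕ) (hq : 0 < q) : Limits.IsZero (groupCohomology A q) := by
  obtain ⟨g, hg⟩ := IsCyclic.exists_generator (α := G)
  let _ : CommGroup G := IsCyclic.commGroup
  let _ : Fintype G := Fintype.ofFinite G
  rcases Nat.even_or_odd q with he | ho
  · have : NeZero q := ⟨hq.ne'⟩
    exact Limits.IsZero.of_iso
      (h2.of_iso (Rep.FiniteCyclicGroup.groupCohomologyIsoEven A g hg 2 (by decide)).symm)
      (Rep.FiniteCyclicGroup.groupCohomologyIsoEven A g hg q he)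
  · exact Limits.IsZero.of_iso
      (h1.of_iso (Rep.FiniteCyclicGroup.groupCohomologyIsoOdd A g hg 1 (by decide)).symm)
      (Rep.FiniteCyclicGroup.groupCohomologyIsoOdd A g hg q ho)

end Cyclic

section Twin

variable {k G : Type u} [CommRing k] [Group G] (A : Rep k G)

/-- The hypothesis of the twin number criterion, in hereditary form: `H¹` and `H²` of `A`
vanish on every group mapping injectively to `G`. -/
def TwinVanishing : Prop :=
  ∀ (H : Type u) [Group H] (φ : H →* G), Function.Injective φ →
    Limits.IsZero (groupCohomology (res φ A) 1) ∧ Limits.IsZero (groupCohomology (res φ A) 2)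

variable {A}

/-- `TwinVanishing` is inherited along injective homomorphisms. -/
theorem TwinVanishing.res (hA : TwinVanishing A) {H : Type u} [Group H] (φ : H →* G)
    (hφ : Function.Injective φ) : TwinVanishing (res φ A) := by
  intro H' _ ψ hψ
  exact hA H' (φ.comp ψ) (hφ.comp hψ)

theorem TwinVanishing.isZero_one (hA : TwinVanishing A) :
    Limits.IsZero (groupCohomology A 1) :=
  (hA G (MonoidHom.id G) Function.injective_id).1

theorem TwinVanishing.isZero_two (hA : TwinVanishing A) :
    Limits.IsZero (groupCohomology A 2) :=
  (hA G (MonoidHom.id G) Function.injective_id).2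

/-- Cohomology of the restriction along an injective homomorphism is the cohomology of the
restriction to the image subgroup. -/
noncomputable def resRangeIso (A : Rep k G) {H : Type u} [Group H] (φ : H →* G)
    (hφ : Function.Injective φ) (n : ℕ) :
    groupCohomology (res φ A) n ≅ groupCohomology (res φ.range.subtype A) n :=
  groupCohomology.mapIso (A := res φ.range.subtype A) (B := res φ A)
    (MonoidHom.ofInjective hφ) (LinearEquiv.refl k A.V) (fun _ => rfl) n

/-- Subgroup form of the hypothesis: it suffices to know the vanishing of `H¹` and `H²` on the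
subgroups of `G`. -/
theorem twinVanishing_of_subgroups
    (h : ∀ S : Subgroup G, Limits.IsZero (groupCohomology (res S.subtype A) 1) ∧
      Limits.IsZero (groupCohomology (res S.subtype A) 2)) : TwinVanishing A := by
  intro H _ φ hφ
  exact ⟨(h φ.range).1.of_iso (resRangeIso A φ hφ 1), (h φ.range).2.of_iso (resRangeIso A φ hφ 2)⟩

theorem TwinVanishing.subgroup (hA : TwinVanishing A) (S : Subgroup G) :
    Limits.IsZero (groupCohomology (Rep.res S.subtype A) 1) ∧
      Limits.IsZero (groupCohomology (Rep.res S.subtype A) 2) :=
  hA S S.subtype S.subtype_injective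


/-- the `p`-group case, by induction on the order -/
theorem isZero_groupCohomology_of_card_eq_prime_pow (p : ℕ) [hp : Fact p.Prime] :
    ∀ (m : ℕ) (H : Type u) [Group H] (B : Rep k H), TwinVanishing B → Nat.card H = p ^ m →
      ∀ q : ℕ, 0 < q → Limits.IsZero (groupCohomology B q) := by
  intro m
  induction m with
  | zero =>
    intro H _ B _ hcard q hq
    rw [pow_zero] at hcard
    have : Subsingleton H := (Nat.card_eq_one_iff_unique.mp hcard).1
    obtain ⟨n, rfl⟩ : ∃ n, q = n + 1 := ⟨q - 1, by omega⟩
    exact isZero_groupCohomology_succ_of_subsingleton B n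
  | succ m ih =>
    intro H _ B hB hcard q hq
    have : Finite H := Nat.finite_of_card_ne_zero (by rw [hcard]; exact pow_ne_zero _ hp.out.ne_zero)
    obtain ⟨N, hN⟩ := Sylow.exists_subgroup_card_pow_prime (G := H) p (n := m)
      (by rw [hcard]; exact pow_dvd_pow p (Nat.le_succ m))
    have hidx : N.index = p := by
      have h1 := N.card_mul_index
      rw [hN, hcard, pow_succ] at h1
      exact Nat.eq_of_mul_eq_mul_left (pow_pos hp.out.pos m) h1
    have hnormal : N.Normal := by
      apply Subgroup.normal_of_index_eq_minFac_card
      rw [hidx, hcard, Nat.pow_minFac (Nat.succ_ne_zero m), hp.out.minFac_eq]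
    -- the cohomology of `N` vanishes in all positive degrees
    have hNz : ∀ i : ℕ, 0 < i → Limits.IsZero (groupCohomology (Rep.res N.subtype B) i) :=
      ih N (Rep.res N.subtype B) (hB.res N.subtype N.subtype_injective) hN
    -- inflation is bijective in all positive degrees
    have hIR : ∀ i : ℕ, 0 < i → InfResExact N B i := fun i hi =>
      infResExact N B i hi fun j hj _ => hNz j hj
    have hinj : ∀ i : ℕ, 0 < i → Limits.IsZero (groupCohomology B i) →
        Limits.IsZero (groupCohomology (B.quotientToInvariants N) i) := by
      intro i hi hz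
      rw [ModuleCat.isZero_iff_subsingleton] at hz ⊢
      exact (hIR i hi).1.subsingleton
    -- the quotient is cyclic of order `p`
    have hcardQ : Nat.card (H ⧸ N) = p := by rw [← hidx]; rfl
    have : IsCyclic (H ⧸ N) := isCyclic_of_prime_card hcardQ
    have hQ : Limits.IsZero (groupCohomology (B.quotientToInvariants N) q) :=
      isZero_groupCohomology_of_isCyclic _ (hinj 1 one_pos hB.isZero_one)
        (hinj 2 two_pos hB.isZero_two) q hq
    rw [ModuleCat.isZero_iff_subsingleton] at hQ ⊢
    refine ⟨fun x y => ?_⟩
    have hres : ∀ z : groupCohomology B q, resH N B q z = 0 := fun z =>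
      (ModuleCat.isZero_iff_subsingleton.mp (hNz q hq)).elim _ _
    obtain ⟨x', rfl⟩ := (hIR q hq).2 x (hres x)
    obtain ⟨y', rfl⟩ := (hIR q hq).2 y (hres y)
    rw [hQ.elim x' y']

variable [Finite G]

/-- **Twin number criterion** (positive degrees): if `H¹` and `H²` of `A` vanish on all
subgroups of the finite group `G`, then `Hᵠ(G, A) = 0` for all `q ≥ 1`. -/
theorem isZero_groupCohomology_of_twinVanishing (hA : TwinVanishing A) (q : ℕ) (hq : 0 < q) :
    Limits.IsZero (groupCohomology A q) := by
  obtain ⟨n, rfl⟩ : ∃ n, q = n + 1 := ⟨q - 1, by omega⟩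
  refine isZero_of_sylow A n fun p _ _ => ?_
  obtain ⟨P⟩ : Nonempty (Sylow p G) := inferInstance
  exact ⟨P, isZero_groupCohomology_of_card_eq_prime_pow p _ ↥(P : Subgroup G)
    (Rep.res (P : Subgroup G).subtype A)
    (hA.res (P : Subgroup G).subtype (P : Subgroup G).subtype_injective) P.card_eq_multiplicity
    (n + 1) n.succ_pos⟩

/-- The same on every group mapping injectively to `G`. -/
theorem isZero_groupCohomology_res_of_twinVanishing (hA : TwinVanishing A) {H : Type u}
    [Group H] (φ : H →* G) (hφ : Function.Injective φ) (q : ℕ) (hq : 0 < q) :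
    Limits.IsZero (groupCohomology (res φ A) q) := by
  have : Finite H := Finite.of_injective φ hφ
  exact isZero_groupCohomology_of_twinVanishing (hA.res φ hφ) q hq

end Twin

end Fermat.Agent.CFT
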