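import Mathlib
import Fermat.Agent.CFT.Local.CyclicCocycle
import Fermat.Agent.CFT.PT.FiniteLevelNat

set_option autoImplicit false
set_option linter.unusedSectionVars false
set_option linter.style.haveILetI false

/-!
# CFT stream [A] Coh : the cyclic class in `H²(Q, A)` for an arbitrary representation

`Q = ⟨σ⟩` a finite cyclic group, `A : Rep ℤ Q`, `a ∈ A^Q`.  `cycRep_class hσ A a ha ∈ H²(Q, A)` is
the class of the cyclic cocycle `(σ ^ i, σ ^ j) ↦ ⌊(i + j) / n⌋ • a` (`Local/CyclicCocycle.lean`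
has it for `Rep.ofMulDistribMulAction` only).

* `cycRep_class_eq_zero_iff` : the class vanishes iff `a` is a norm;
* `cycRep_map_class`, `cycRep_map_class'` : naturality in the coefficients;
* `cycRep_class_add`, `cycRep_class_nsmul`, `cycRep_card_nsmul_class` (killed by `|Q|`);
* `cycRep_exists_class` : the finite-level input of (C-W) for the S55 engine: a level `U` with
  `G ⧸ U` cyclic of order `p`, `ι : J ⟶ C`, `b ∈ J^G` with `ι b` not a norm from `C^U` give
  `y₁ ∈ H²(G ⧸ U, J^U)` with `p • y₁ = 0` and `finMap ι y₁ ≠ 0`.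
-/

namespace Fermat.Agent.CFT

open CategoryTheory groupCohomology Rep

section Class

variable {Q : Type} [Group Q] [Fintype Q] {σ : Q}

/-- The `DistribMulAction` underlying a representation. -/
@[reducible] def cycRep_dma (A : Rep.{0} ℤ Q) : DistribMulAction Q A.V where
  smul g a := A.ρ g a
  one_smul a := by
    show A.ρ 1 a = a
    rw [map_one]; rfl
  mul_smul g h a := by
    show A.ρ (g * h) a = A.ρ g (A.ρ h a)
    rw [map_mul]; rfl
  smul_zero g := map_zero _
  smul_add g a b := map_add _ a b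

/-- The cyclic 2-cocycle `(σ ^ i, σ ^ j) ↦ ⌊(i + j) / n⌋ • a` attached to an invariant `a`. -/
noncomputable def cycRep_fun (σ : Q) (A : Rep.{0} ℤ Q) (a : A) : Q × Q → A :=
  letI := cycRep_dma A
  cycCocycle σ a

theorem cycRep_fun_apply (A : Rep.{0} ℤ Q) (a : A) (x y : Q) :
    cycRep_fun σ A a (x, y) = ((cycIdx σ x + cycIdx σ y) / orderOf σ) • a := rfl

theorem cycRep_mem_cocycles₂ (hσ : ∀ x, x ∈ Subgroup.zpowers σ) (A : Rep.{0} ℤ Q) (a : A)
    (ha : ∀ τ, A.ρ τ a = a) : cycRep_fun σ A a ∈ cocycles₂ A := by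
  letI := cycRep_dma A
  rw [mem_cocycles₂_iff]
  exact isCocycle₂_cycCocycle hσ ha

/-- The cyclic 2-cocycle as an element of `Z²(Q, A)`. -/
noncomputable def cycRep_cocycle (hσ : ∀ x, x ∈ Subgroup.zpowers σ) (A : Rep.{0} ℤ Q) (a : A)
    (ha : ∀ τ, A.ρ τ a = a) : cocycles₂ A :=
  ⟨cycRep_fun σ A a, cycRep_mem_cocycles₂ hσ A a ha⟩

/-- **The cyclic class** of an invariant `a ∈ A^Q` in `H²(Q, A)`, `Q = ⟨σ⟩` finite cyclic. -/
noncomputable def cycRep_class (hσ : ∀ x, x ∈ Subgroup.zpowers σ) (A : Rep.{0} ℤ Q) (a : A)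
    (ha : ∀ τ, A.ρ τ a = a) : groupCohomology A 2 :=
  H2π A (cycRep_cocycle hσ A a ha)

/-- **The cyclic class of `a` vanishes iff `a` is a norm.** -/
theorem cycRep_class_eq_zero_iff (hσ : ∀ x, x ∈ Subgroup.zpowers σ) (A : Rep.{0} ℤ Q) (a : A)
    (ha : ∀ τ, A.ρ τ a = a) :
    cycRep_class hσ A a ha = 0 ↔ ∃ b : A, ∑ τ : Q, A.ρ τ b = a := by
  letI := cycRep_dma A
  have h := isCoboundary₂_cycCocycle_iff (A := A.V) hσ (a := a) ha
  rw [cycRep_class, H2π_eq_zero_iff]
  refine Iff.trans ?_ h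
  constructor
  · rintro ⟨x, hx⟩
    exact ⟨x, fun g h => congr_fun hx (g, h)⟩
  · rintro ⟨x, hx⟩
    exact ⟨x, funext fun ⟨g, h⟩ => hx g h⟩

/-- Naturality of the cyclic class in the coefficients (over a group endomorphism which is the
identity as a function). -/
theorem cycRep_map_class' (hσ : ∀ x, x ∈ Subgroup.zpowers σ) {A B : Rep.{0} ℤ Q} (f : Q →* Q)
    (hf : ∀ x, f x = x) (φ : res f A ⟶ B) (a : A) (ha : ∀ τ, A.ρ τ a = a) :
    (groupCohomology.map f φ 2).hom (cycRep_class hσ A a ha) =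
      cycRep_class hσ B (φ.hom a) (fun τ => by
        have h := Rep.hom_comm_apply φ τ a
        rw [← h]
        change φ.hom (A.ρ (f τ) a) = φ.hom a
        rw [ha]) := by
  have h := congr($(H2π_comp_map f φ) (cycRep_cocycle hσ A a ha))
  refine h.trans ?_
  change H2π B _ = H2π B _
  congr 1
  apply Subtype.ext
  funext ⟨x, y⟩
  change φ.hom (cycRep_fun σ A a (f x, f y)) = cycRep_fun σ B (φ.hom a) (x, y)
  rw [hf, hf, cycRep_fun_apply, cycRep_fun_apply, map_nsmul]

/-- Naturality of the cyclic class in the coefficients. -/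
theorem cycRep_map_class (hσ : ∀ x, x ∈ Subgroup.zpowers σ) {A B : Rep.{0} ℤ Q} (φ : A ⟶ B)
    (a : A) (ha : ∀ τ, A.ρ τ a = a) :
    (groupCohomology.map (MonoidHom.id Q) φ 2).hom (cycRep_class hσ A a ha) =
      cycRep_class hσ B (φ.hom a) (fun τ => by
        rw [← Rep.hom_comm_apply φ τ a, ha τ]) :=
  cycRep_map_class' hσ (MonoidHom.id Q) (fun _ => rfl) φ a ha

theorem cycRep_class_add (hσ : ∀ x, x ∈ Subgroup.zpowers σ) (A : Rep.{0} ℤ Q) (a a' : A)
    (ha : ∀ τ, A.ρ τ a = a) (ha' : ∀ τ, A.ρ τ a' = a') :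
    cycRep_class hσ A (a + a') (fun τ => by rw [map_add, ha, ha']) =
      cycRep_class hσ A a ha + cycRep_class hσ A a' ha' := by
  unfold cycRep_class
  rw [← map_add]
  congr 1
  apply Subtype.ext
  funext ⟨x, y⟩
  change cycRep_fun σ A (a + a') (x, y) = cycRep_fun σ A a (x, y) + cycRep_fun σ A a' (x, y)
  rw [cycRep_fun_apply, cycRep_fun_apply, cycRep_fun_apply, smul_add]

theorem cycRep_class_nsmul (hσ : ∀ x, x ∈ Subgroup.zpowers σ) (A : Rep.{0} ℤ Q) (n : ℕ) (a : A)
    (ha : ∀ τ, A.ρ τ a = a) :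
    cycRep_class hσ A (n • a) (fun τ => by rw [map_nsmul, ha]) =
      n • cycRep_class hσ A a ha := by
  unfold cycRep_class
  rw [← map_nsmul]
  congr 1
  apply Subtype.ext
  funext ⟨x, y⟩
  change cycRep_fun σ A (n • a) (x, y) = n • cycRep_fun σ A a (x, y)
  rw [cycRep_fun_apply, cycRep_fun_apply, smul_comm]

/-- The cyclic class is killed by the order of the group. -/
theorem cycRep_card_nsmul_class (hσ : ∀ x, x ∈ Subgroup.zpowers σ) (A : Rep.{0} ℤ Q) (a : A)
    (ha : ∀ τ, A.ρ τ a = a) : Fintype.card Q • cycRep_class hσ A a ha = 0 := by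
  rw [← cycRep_class_nsmul, cycRep_class_eq_zero_iff]
  refine ⟨a, ?_⟩
  simp only [ha, Finset.sum_const, Finset.card_univ]

end Class

section Engine

open Fermat.Agent.PT

variable {G : Type} [Group G] {𝔉 : LevelFamily G}

/-- **The finite-level input of (C-W)**: `U` a level with `G ⧸ U = ⟨σ⟩` cyclic of order `p`,
`ι : J ⟶ C` a morphism of representations, `b ∈ J^G` whose image in `C^U` is not a norm from
`C^U`.  Then the cyclic class `y₁ ∈ H²(G ⧸ U, J^U)` of `b` is killed by `p` and its image in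
`H²(G ⧸ U, C^U)` is non-zero. -/
theorem cycRep_exists_class (U : ↥𝔉.sets) [Fintype (G ⧸ (U : Subgroup G))]
    {σ : G ⧸ (U : Subgroup G)} (hσ : ∀ x, x ∈ Subgroup.zpowers σ) {p : ℕ}
    (hcard : Fintype.card (G ⧸ (U : Subgroup G)) = p) {J C : Rep.{0} ℤ G} (ι : J ⟶ C) (b : J)
    (hb : ∀ g, J.ρ g b = b)
    (hnn : ∀ c : C.quotientToInvariants (U : Subgroup G),
      ((∑ τ : G ⧸ (U : Subgroup G), (C.quotientToInvariants (U : Subgroup G)).ρ τ c :
        C.quotientToInvariants (U : Subgroup G)) : C) ≠ ι.hom b) :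
    haveI := 𝔉.normal U U.2
    ∃ y₁ : groupCohomology (J.quotientToInvariants (U : Subgroup G)) 2, p • y₁ = 0 ∧
      (finMap (MonoidHom.id G) ι (U := (U : Subgroup G)) (V := (U : Subgroup G)) le_rfl 2).hom y₁
        ≠ 0 := by
  haveI := 𝔉.normal U U.2
  let b' : J.quotientToInvariants (U : Subgroup G) := ⟨b, fun u => hb u⟩
  have hb' : ∀ τ, (J.quotientToInvariants (U : Subgroup G)).ρ τ b' = b' := by
    intro τ
    induction τ using QuotientGroup.induction_on with | @H g =>
    exact Subtype.ext (hb g)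
  refine ⟨cycRep_class hσ _ b' hb', ?_, ?_⟩
  · rw [← hcard]
    exact cycRep_card_nsmul_class hσ _ b' hb'
  · have hq : ∀ x, quotMapGen (MonoidHom.id G) (U := (U : Subgroup G)) (V := (U : Subgroup G))
        le_rfl x = x := by
      intro x
      induction x using QuotientGroup.induction_on with | @H g => rfl
    rw [cycRep_map_class' hσ _ hq, Ne, cycRep_class_eq_zero_iff]
    rintro ⟨c, hc⟩
    exact hnn c (congrArg Subtype.val hc)

end Engine

end Fermat.Agent.CFT
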