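import Fermat.Agent.CFT.Coh.CyclicHerbrand

set_option autoImplicit false

/-!
# Stream A (Coh), chunk (A3): concrete Shapiro lemma for a finite cyclic group

`G = ⟨σ⟩` finite cyclic acting on `A = ⨁_{x ∈ X} A_x`, where `X` is a finite transitive `G`-set and
`τ • A_x = A_{τ x}`.  With `H` the stabiliser of `x₀` (generated by `σ ^ k`, `k = |X|`) we prove
`|Ĥ⁰(G, A)| = |Ĥ⁰(H, A_{x₀})|` and `|Ĥ¹(G, A)| = |Ĥ¹(H, A_{x₀})|` in the elementary `hIndex`
vocabulary of `Coh/HerbrandIndex.lean`, `Coh/Interface.lean`.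

The core (`section Core`) is group-free: an additive group `A` with an endomorphism `s` such that
`s ^ (k * m) = 1`, an additive group `B` with an endomorphism `t`, an injective `j : B →+ A` with
`j ∘ t = s ^ k ∘ j`, and `A = ⨁_{i < k} s ^ i (j B)`.
-/

namespace Fermat.Agent.CFT

open Finset AddSubgroup

section EndRing

variable {A : Type*} [AddCommGroup A]

/-- `1 + s + ⋯ + s ^ (n - 1)` in the endomorphism ring. -/
def geomEnd (s : AddMonoid.End A) (n : ℕ) : AddMonoid.End A := ∑ i ∈ range n, s ^ i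

theorem geomEnd_apply (s : AddMonoid.End A) (n : ℕ) (a : A) :
    geomEnd s n a = ∑ i ∈ range n, (s ^ i) a :=
  AddMonoidHom.finsetSum_apply _ _ _

theorem endMul_apply (s t : AddMonoid.End A) (a : A) : (s * t) a = s (t a) := rfl

theorem endSub_apply (s t : AddMonoid.End A) (a : A) : (s - t) a = s a - t a := rfl

theorem endOne_apply (a : A) : (1 : AddMonoid.End A) a = a := rfl

theorem endPow_succ_apply (s : AddMonoid.End A) (i : ℕ) (a : A) :
    (s ^ (i + 1)) a = s ((s ^ i) a) := by
  rw [pow_succ']; rfl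

theorem endPow_succ_apply' (s : AddMonoid.End A) (i : ℕ) (a : A) :
    (s ^ (i + 1)) a = (s ^ i) (s a) := by
  rw [pow_succ]; rfl

theorem endPow_zero_apply (s : AddMonoid.End A) (a : A) : (s ^ 0) a = a := by
  rw [pow_zero]; rfl

theorem sub_one_mul_geomEnd (s : AddMonoid.End A) (n : ℕ) :
    (s - 1) * geomEnd s n = s ^ n - 1 := mul_geom_sum s n

theorem geomEnd_mul_sub_one (s : AddMonoid.End A) (n : ℕ) :
    geomEnd s n * (s - 1) = s ^ n - 1 := geom_sum_mul s n

theorem geomEnd_mul_pow (s : AddMonoid.End A) (n i : ℕ) :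
    geomEnd s n * s ^ i = ∑ l ∈ range n, s ^ (i + l) := by
  rw [geomEnd, Finset.sum_mul]
  refine Finset.sum_congr rfl fun l _ => ?_
  rw [← pow_add, add_comm]

/-- `1 + s + ⋯ + s^(km-1) = (1 + s + ⋯ + s^(k-1)) (1 + s^k + ⋯ + s^(k(m-1)))`. -/
theorem geomEnd_mul (s : AddMonoid.End A) (k m : ℕ) :
    geomEnd s (k * m) = geomEnd s k * geomEnd (s ^ k) m := by
  induction m with
  | zero => simp [geomEnd]
  | succ m ih =>
    have h1 : geomEnd s (k * (m + 1)) = geomEnd s (k * m) + ∑ l ∈ range k, s ^ (k * m + l) := by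
      rw [geomEnd, Nat.mul_succ, Finset.sum_range_add]
      rfl
    have h2 : geomEnd (s ^ k) (m + 1) = geomEnd (s ^ k) m + (s ^ k) ^ m := by
      rw [geomEnd, Finset.sum_range_succ]
      rfl
    rw [h1, h2, mul_add, ← ih, ← pow_mul, geomEnd_mul_pow]

theorem geomEnd_mul_self (s : AddMonoid.End A) (n : ℕ) (hs : s ^ n = 1) :
    geomEnd s n * s = geomEnd s n := by
  have h := geomEnd_mul_sub_one s n
  rw [hs, sub_self, mul_sub, mul_one, sub_eq_zero] at h
  exact h

theorem geomEnd_mul_pow_self (s : AddMonoid.End A) (n : ℕ) (hs : s ^ n = 1) (i : ℕ) :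
    geomEnd s n * s ^ i = geomEnd s n := by
  induction i with
  | zero => rw [pow_zero, mul_one]
  | succ i ih => rw [pow_succ, ← mul_assoc, ih, geomEnd_mul_self s n hs]

end EndRing

section Core

variable {A B : Type*} [AddCommGroup A] [AddCommGroup B]
variable (s : AddMonoid.End A) (t : AddMonoid.End B) (j : B →+ A) (k m : ℕ)

/-- `∑_{i<k} s^i (j (b i))`. -/
def decSum (b : ℕ → B) : A := ∑ i ∈ range k, (s ^ i) (j (b i))

/-- `b ↦ ∑_{i<k} s^i (j b)`. -/
def indEmb : B →+ A := AddMonoidHom.comp (geomEnd s k) j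

theorem indEmb_apply (b : B) : indEmb s j k b = decSum s j k fun _ => b := by
  show geomEnd s k (j b) = _
  rw [geomEnd_apply]
  rfl

theorem decSum_sub (b b' : ℕ → B) :
    decSum s j k (fun i => b i - b' i) = decSum s j k b - decSum s j k b' := by
  unfold decSum
  rw [← Finset.sum_sub_distrib]
  refine Finset.sum_congr rfl fun i _ => ?_
  rw [map_sub, map_sub]

theorem decSum_single (hk : 0 < k) (b : B) :
    decSum s j k (fun i => if i = 0 then b else 0) = j b := by
  unfold decSum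
  rw [Finset.sum_eq_single 0]
  · dsimp only
    rw [if_pos rfl, endPow_zero_apply]
  · intro i _ hi
    dsimp only
    rw [if_neg hi, map_zero, map_zero]
  · intro h
    exact absurd (Finset.mem_range.mpr hk) h

/-- the effect of `s` on the components. -/
def shiftFn (b : ℕ → B) : ℕ → B := fun i => if i = 0 then t (b (k - 1)) else b (i - 1)

variable {s t j k m}

theorem apply_decSum (hk : 0 < k) (hjt : ∀ b, j (t b) = (s ^ k) (j b)) (b : ℕ → B) :
    s (decSum s j k b) = decSum s j k (shiftFn t k b) := by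
  obtain ⟨k', rfl⟩ : ∃ k', k = k' + 1 := ⟨k - 1, by omega⟩
  unfold decSum
  rw [map_sum, Finset.sum_range_succ, Finset.sum_range_succ']
  congr 1
  · refine Finset.sum_congr rfl fun i _ => ?_
    rw [← endPow_succ_apply]
    simp [shiftFn]
  · rw [← endPow_succ_apply, endPow_zero_apply]
    simp only [shiftFn, if_true, Nat.add_sub_cancel]
    rw [hjt]

theorem decSum_unique (hind : ∀ b : ℕ → B, decSum s j k b = 0 → ∀ i < k, b i = 0)
    {b b' : ℕ → B} (h : decSum s j k b = decSum s j k b') : ∀ i < k, b i = b' i := by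
  intro i hi
  have := hind (fun i => b i - b' i) (by rw [decSum_sub, h, sub_self]) i hi
  exact sub_eq_zero.mp this

theorem indEmb_injective (hk : 0 < k)
    (hind : ∀ b : ℕ → B, decSum s j k b = 0 → ∀ i < k, b i = 0) :
    Function.Injective (indEmb s j k) := by
  rw [injective_iff_map_eq_zero]
  intro b hb
  rw [indEmb_apply] at hb
  exact hind _ hb 0 hk

theorem cind_pow_apply_j (hjt : ∀ b, j (t b) = (s ^ k) (j b)) (l : ℕ) (b : B) :
    ((s ^ k) ^ l) (j b) = j ((t ^ l) b) := by
  induction l with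
  | zero => rw [endPow_zero_apply, endPow_zero_apply]
  | succ l ih => rw [endPow_succ_apply, ih, endPow_succ_apply, hjt]

theorem geomEnd_pow_apply_j (hjt : ∀ b, j (t b) = (s ^ k) (j b)) (b : B) :
    geomEnd (s ^ k) m (j b) = j (geomEnd t m b) := by
  rw [geomEnd_apply, geomEnd_apply, map_sum]
  refine Finset.sum_congr rfl fun l _ => ?_
  rw [cind_pow_apply_j hjt]

/-- `N_G (j b) = φ (N_H b)`. -/
theorem geomEnd_apply_j (hjt : ∀ b, j (t b) = (s ^ k) (j b)) (b : B) :
    geomEnd s (k * m) (j b) = indEmb s j k (geomEnd t m b) := by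
  rw [geomEnd_mul, endMul_apply, geomEnd_pow_apply_j hjt]
  rfl

theorem cind_pow_eq_one_of_injective (hs : s ^ (k * m) = 1) (hj : Function.Injective j)
    (hjt : ∀ b, j (t b) = (s ^ k) (j b)) : t ^ m = 1 := by
  refine DFunLike.ext _ _ fun b => hj ?_
  show j ((t ^ m) b) = j b
  rw [← cind_pow_apply_j hjt, ← pow_mul, hs]
  rfl

/-- `N_G` of a general element. -/
theorem geomEnd_apply_decSum (hs : s ^ (k * m) = 1) (hjt : ∀ b, j (t b) = (s ^ k) (j b))
    (b : ℕ → B) :
    geomEnd s (k * m) (decSum s j k b) = indEmb s j k (geomEnd t m (∑ i ∈ range k, b i)) := by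
  have h1 : geomEnd s (k * m) (decSum s j k b) =
      ∑ i ∈ range k, geomEnd s (k * m) (j (b i)) := by
    unfold decSum
    rw [map_sum]
    refine Finset.sum_congr rfl fun i _ => ?_
    rw [← endMul_apply, geomEnd_mul_pow_self s _ hs]
  rw [h1, Finset.sum_congr rfl fun i _ => geomEnd_apply_j (m := m) hjt (b i)]
  rw [← map_sum (indEmb s j k), ← map_sum (geomEnd t m)]

theorem cind_pow_sub_one_apply_mem_range (i : ℕ) (a : A) :
    (s ^ i) a - a ∈ AddMonoidHom.range (s - 1 : AddMonoid.End A) := by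
  have h : ((s - 1) * geomEnd s i) a = (s ^ i) a - a := by
    rw [sub_one_mul_geomEnd]; rfl
  exact ⟨geomEnd s i a, h⟩

/-- every element is congruent mod `(s - 1) A` to `j` of the sum of its components. -/
theorem decSum_sub_mem_range (b : ℕ → B) :
    decSum s j k b - j (∑ i ∈ range k, b i) ∈ AddMonoidHom.range (s - 1 : AddMonoid.End A) := by
  rw [decSum, map_sum, ← Finset.sum_sub_distrib]
  exact AddSubgroup.sum_mem _ fun i _ => cind_pow_sub_one_apply_mem_range i _

end Core

section CoreMain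

variable {A B : Type*} [AddCommGroup A] [AddCommGroup B]
variable {s : AddMonoid.End A} {t : AddMonoid.End B} {j : B →+ A} {k m : ℕ}

omit [AddCommGroup B] in
theorem cind_eq_zero_component {b : ℕ → B} (h : ∀ i, 0 < i → i < k → b (i - 1) = b i) :
    ∀ i < k, b i = b 0 := by
  intro i
  induction i with
  | zero => intro _; rfl
  | succ i ih =>
    intro hi
    rw [← h (i + 1) (Nat.succ_pos i) hi, Nat.add_sub_cancel]
    exact ih (by omega)

theorem shiftFn_zero (t : AddMonoid.End B) (k : ℕ) (b : ℕ → B) :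
    shiftFn t k b 0 = t (b (k - 1)) := by
  simp [shiftFn]

theorem shiftFn_pos (t : AddMonoid.End B) (k : ℕ) (b : ℕ → B) {i : ℕ} (hi : 0 < i) :
    shiftFn t k b i = b (i - 1) := by
  simp [shiftFn, Nat.pos_iff_ne_zero.mp hi]

variable (hk : 0 < k) (hs : s ^ (k * m) = 1) (hj : Function.Injective j)
  (hjt : ∀ b, j (t b) = (s ^ k) (j b))
  (hsum : ∀ a, ∃ b : ℕ → B, a = decSum s j k b)
  (hind : ∀ b : ℕ → B, decSum s j k b = 0 → ∀ i < k, b i = 0)

include hk hjt in
theorem apply_indEmb_of_fixed {b : B} (hb : t b = b) : s (indEmb s j k b) = indEmb s j k b := by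
  rw [indEmb_apply, apply_decSum hk hjt]
  unfold decSum
  refine Finset.sum_congr rfl fun i _ => ?_
  by_cases hi : i = 0
  · subst hi
    rw [shiftFn_zero, hb]
  · rw [shiftFn_pos _ _ _ (Nat.pos_of_ne_zero hi)]

include hk hjt hsum hind in
theorem cind_ker_sub_one_eq_map :
    AddMonoidHom.ker (s - 1 : AddMonoid.End A) =
      (AddMonoidHom.ker (t - 1 : AddMonoid.End B)).map (indEmb s j k) := by
  ext a
  constructor
  · intro ha
    have ha' : s a = a := sub_eq_zero.mp ha
    obtain ⟨b, rfl⟩ := hsum a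
    rw [apply_decSum hk hjt] at ha'
    have hu := decSum_unique hind ha'
    have hconst : ∀ i < k, b i = b 0 := cind_eq_zero_component fun i hi0 hik => by
      rw [← hu i hik, shiftFn_pos _ _ _ hi0]
    have ht : t (b 0) = b 0 := by
      have h0 := hu 0 hk
      rw [shiftFn_zero, hconst (k - 1) (by omega)] at h0
      exact h0
    refine ⟨b 0, ?_, ?_⟩
    · show t (b 0) - b 0 = 0
      rw [ht, sub_self]
    · rw [indEmb_apply]
      unfold decSum
      refine Finset.sum_congr rfl fun i hi => ?_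
      rw [hconst i (Finset.mem_range.mp hi)]
  · rintro ⟨b, hb, rfl⟩
    have hb' : t b = b := sub_eq_zero.mp hb
    show s (indEmb s j k b) - indEmb s j k b = 0
    rw [apply_indEmb_of_fixed hk hjt hb', sub_self]

include hs hjt hsum in
theorem range_geomEnd_eq_map :
    AddMonoidHom.range (geomEnd s (k * m)) =
      (AddMonoidHom.range (geomEnd t m)).map (indEmb s j k) := by
  ext x
  constructor
  · rintro ⟨a, rfl⟩
    obtain ⟨b, rfl⟩ := hsum a
    exact ⟨_, ⟨_, rfl⟩, (geomEnd_apply_decSum hs hjt b).symm⟩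
  · rintro ⟨_, ⟨b, rfl⟩, rfl⟩
    exact ⟨j b, geomEnd_apply_j hjt b⟩

include hk hs hjt hsum hind in
/-- `|Ĥ⁰|` of the induced module. -/
theorem hIndex_sub_one_geomEnd :
    hIndex (s - 1 : AddMonoid.End A) (geomEnd s (k * m)) =
      hIndex (t - 1 : AddMonoid.End B) (geomEnd t m) := by
  unfold hIndex
  rw [cind_ker_sub_one_eq_map hk hjt hsum hind, range_geomEnd_eq_map hs hjt hsum,
    relIndex_map_map_of_injective _ _ (indEmb_injective hk hind)]

include hk hs hjt hsum hind in
theorem ker_geomEnd_eq_sup :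
    AddMonoidHom.ker (geomEnd s (k * m)) =
      (AddMonoidHom.ker (geomEnd t m)).map j ⊔ AddMonoidHom.range (s - 1 : AddMonoid.End A) := by
  apply le_antisymm
  · intro a ha
    have ha' : geomEnd s (k * m) a = 0 := ha
    obtain ⟨b, rfl⟩ := hsum a
    rw [geomEnd_apply_decSum hs hjt] at ha'
    have hc : geomEnd t m (∑ i ∈ range k, b i) = 0 :=
      (injective_iff_map_eq_zero _).mp (indEmb_injective hk hind) _ ha'
    refine AddSubgroup.mem_sup.mpr
      ⟨j (∑ i ∈ range k, b i), ⟨_, hc, rfl⟩, decSum s j k b - j (∑ i ∈ range k, b i),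
        decSum_sub_mem_range (s := s) (j := j) (k := k) b, ?_⟩
    abel
  · refine sup_le ?_ ?_
    · rintro _ ⟨b, hb, rfl⟩
      have hb' : geomEnd t m b = 0 := hb
      show geomEnd s (k * m) (j b) = 0
      rw [geomEnd_apply_j hjt, hb', map_zero]
    · rintro _ ⟨a, rfl⟩
      show (geomEnd s (k * m) * (s - 1)) a = 0
      rw [geomEnd_mul_sub_one, hs, sub_self]
      rfl

include hk hs hj hjt hsum hind in
theorem cind_map_ker_inf_range_eq :
    (AddMonoidHom.ker (geomEnd t m)).map j ⊓ AddMonoidHom.range (s - 1 : AddMonoid.End A) =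
      (AddMonoidHom.range (t - 1 : AddMonoid.End B)).map j := by
  have htm : t ^ m = 1 := cind_pow_eq_one_of_injective hs hj hjt
  apply le_antisymm
  · rintro x ⟨⟨b₀, -, rfl⟩, ⟨a, ha⟩⟩
    have ha' : s a - a = j b₀ := ha
    obtain ⟨b, rfl⟩ := hsum a
    rw [apply_decSum hk hjt, ← decSum_sub, ← decSum_single s j k hk b₀] at ha'
    have hu := decSum_unique hind ha'
    have hconst : ∀ i < k, b i = b 0 := cind_eq_zero_component fun i hi0 hik => by
      have h := hu i hik
      rw [if_neg (Nat.pos_iff_ne_zero.mp hi0), shiftFn_pos _ _ _ hi0, sub_eq_zero] at h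
      exact h
    have h0 := hu 0 hk
    rw [if_pos rfl, shiftFn_zero, hconst (k - 1) (by omega)] at h0
    exact ⟨(t - 1 : AddMonoid.End B) (b 0), ⟨b 0, rfl⟩, congrArg j h0⟩
  · rintro _ ⟨_, ⟨b, rfl⟩, rfl⟩
    refine ⟨⟨_, ?_, rfl⟩, ?_⟩
    · show (geomEnd t m * (t - 1)) b = 0
      rw [geomEnd_mul_sub_one, htm, sub_self]
      rfl
    · have h : j ((t - 1 : AddMonoid.End B) b) = (s ^ k) (j b) - j b := by
        show j (t b - b) = _
        rw [map_sub, hjt]
      show j ((t - 1 : AddMonoid.End B) b) ∈ AddMonoidHom.range (s - 1 : AddMonoid.End A)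
      rw [h]
      exact cind_pow_sub_one_apply_mem_range k (j b)

include hk hs hj hjt hsum hind in
/-- `|Ĥ¹| = |Ĥ⁻¹|` of the induced module. -/
theorem hIndex_geomEnd_sub_one :
    hIndex (geomEnd s (k * m)) (s - 1 : AddMonoid.End A) =
      hIndex (geomEnd t m) (t - 1 : AddMonoid.End B) := by
  unfold hIndex
  rw [ker_geomEnd_eq_sup hk hs hjt hsum hind, relIndex_sup_right, ← inf_relIndex_right,
    inf_comm, cind_map_ker_inf_range_eq hk hs hj hjt hsum hind,
    relIndex_map_map_of_injective _ _ hj]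

end CoreMain

section GroupOrbit

variable {G : Type*} [Group G] [Fintype G] {A : Type*} [AddCommGroup A] [DistribMulAction G A]

/-- the endomorphism `a ↦ σ • a`. -/
abbrev smulEnd (A : Type*) [AddCommGroup A] [DistribMulAction G A] (σ : G) : AddMonoid.End A :=
  DistribMulAction.toAddMonoidEnd G A σ

omit [Fintype G] in
theorem smulEnd_pow_apply (σ : G) (i : ℕ) (a : A) : ((smulEnd A σ) ^ i) a = σ ^ i • a := by
  rw [smulEnd, ← map_pow]
  rfl

omit [Fintype G] in
theorem subOneHom_eq_smulEnd (σ : G) :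
    subOneHom A σ = (smulEnd A σ - 1 : AddMonoid.End A) := rfl

theorem normHom_eq_geomEnd {σ : G} (hσ : ∀ τ, τ ∈ Subgroup.zpowers σ) :
    normHom G A = geomEnd (smulEnd A σ) (Fintype.card G) := by
  classical
  refine AddMonoidHom.ext fun a => ?_
  show ∑ τ : G, τ • a = geomEnd (smulEnd A σ) (Fintype.card G) a
  rw [geomEnd_apply]
  have hn : orderOf σ = Fintype.card G := by
    rw [orderOf_eq_card_of_forall_mem_zpowers hσ, Nat.card_eq_fintype_card]
  have himg : Finset.image (fun i => σ ^ i) (range (Fintype.card G)) = univ := by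
    rw [← hn]
    exact IsCyclic.image_range_orderOf hσ
  rw [← himg, Finset.sum_image]
  · exact Finset.sum_congr rfl fun i _ => (smulEnd_pow_apply σ i a).symm
  · intro i hi i' hi' h
    rw [← hn] at hi hi'
    exact pow_injOn_Iio_orderOf (by simpa using hi) (by simpa using hi') h

theorem smulEnd_pow_card (σ : G) : (smulEnd A σ) ^ Fintype.card G = 1 := by
  rw [smulEnd, ← map_pow, pow_card_eq_one, map_one]

variable {H : Type*} [Group H] [Fintype H] {B : Type*} [AddCommGroup B] [DistribMulAction H B]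

/-- Concrete Shapiro lemma, orbit form: `A = ⨁_{i<k} σ^i (j B)`, `H = ⟨σ^k⟩`. -/
theorem tateCard_induced_of_orbit {σ : G} (hσ : ∀ τ, τ ∈ Subgroup.zpowers σ) {σH : H}
    (hσH : ∀ h, h ∈ Subgroup.zpowers σH) (ι : H →* G) {k : ℕ} (hk : 0 < k)
    (hι : ι σH = σ ^ k) (hkm : k * Fintype.card H = Fintype.card G)
    (j : B →+ A) (hj : Function.Injective j) (hjι : ∀ (h : H) (b : B), j (h • b) = ι h • j b)
    (hsum : ∀ a : A, ∃ b : ℕ → B, a = ∑ i ∈ range k, σ ^ i • j (b i))
    (hind : ∀ b : ℕ → B, ∑ i ∈ range k, σ ^ i • j (b i) = 0 → ∀ i < k, b i = 0) :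
    tateH0Card G A σ = tateH0Card H B σH ∧ tateH1Card G A σ = tateH1Card H B σH := by
  have hdec : ∀ b : ℕ → B, decSum (smulEnd A σ) j k b = ∑ i ∈ range k, σ ^ i • j (b i) :=
    fun b => Finset.sum_congr rfl fun i _ => smulEnd_pow_apply σ i _
  have hs : (smulEnd A σ) ^ (k * Fintype.card H) = 1 := by rw [hkm, smulEnd_pow_card]
  have hjt : ∀ b, j ((smulEnd B σH) b) = ((smulEnd A σ) ^ k) (j b) := by
    intro b
    rw [smulEnd_pow_apply, ← hι, ← hjι]
    rfl
  have hsum' : ∀ a : A, ∃ b : ℕ → B, a = decSum (smulEnd A σ) j k b := by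
    intro a
    obtain ⟨b, hb⟩ := hsum a
    exact ⟨b, by rw [hdec, hb]⟩
  have hind' : ∀ b : ℕ → B, decSum (smulEnd A σ) j k b = 0 → ∀ i < k, b i = 0 := by
    intro b hb
    exact hind b (by rw [← hdec, hb])
  constructor
  · unfold tateH0Card
    rw [normHom_eq_geomEnd hσ, normHom_eq_geomEnd hσH, subOneHom_eq_smulEnd, subOneHom_eq_smulEnd,
      ← hkm]
    exact hIndex_sub_one_geomEnd hk hs hjt hsum' hind'
  · unfold tateH1Card
    rw [normHom_eq_geomEnd hσ, normHom_eq_geomEnd hσH, subOneHom_eq_smulEnd, subOneHom_eq_smulEnd,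
      ← hkm]
    exact hIndex_geomEnd_sub_one hk hs hj hjt hsum' hind'

end GroupOrbit

end Fermat.Agent.CFT
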