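import Mathlib
import Fermat.Agent.CFT.Local.CyclicCocycle

set_option autoImplicit false

/-!
# (GT4b) cyclic towers: partial norms, injectivity of "inflation" on `Ĥ⁰`, cyclicity of `Ĥ⁰`

`G = ⟨g⟩` finite cyclic of order `n = m * d`, `C` a `G`-module (additive, `DistribMulAction`).
`τ = g ^ m` generates the subgroup `N` of order `d`; `cycPartial g · m = ∑_{i < m} g ^ i` restricted
to `C^τ` is the norm of `G/N` acting on `C^N`.

* `cycTower_norm_eq`: `N_G = ν_m ∘ ν'_d` where `ν_m = ∑_{i<m} g^i`, `ν'_d = ∑_{j<d} τ^j`.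
* `cycTower_exists_partial_eq`: **injectivity** of `x ↦ d • x : C^G / ν_m(C^N) → C^G / N_G C`
  when `Ĥ⁻¹(N, C) = 0` (i.e. `ker ν'_d = (τ - 1) C`).
* `cycTower_isAddCyclic_of_torsion_le`: a finite abelian `p`-group whose `p`-torsion has at most
  `p` elements is cyclic.
* `cycTower_isAddCyclic_tateH0`: **(I1)** `Ĥ⁰(G, C)` is cyclic of order `p ^ k`.
-/

namespace Fermat.Agent.CFT

open AddSubgroup

section Partial

variable {G : Type*} [Group G] {C : Type*} [AddCommGroup C] [DistribMulAction G C]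

/-- `ν_m = ∑_{i < m} g ^ i` as an additive endomorphism. -/
noncomputable def cycTowerNu (g : G) (m : ℕ) : C →+ C where
  toFun b := ∑ l ∈ Finset.range m, g ^ l • b
  map_zero' := by simp
  map_add' a b := by simp [smul_add, Finset.sum_add_distrib]

theorem cycTowerNu_apply (g : G) (m : ℕ) (b : C) :
    cycTowerNu g m b = ∑ l ∈ Finset.range m, g ^ l • b := rfl

theorem cycTowerNu_succ (g : G) (m : ℕ) (b : C) :
    cycTowerNu g (m + 1) b = cycTowerNu g m b + g ^ m • b := by
  simp [cycTowerNu_apply, Finset.sum_range_succ]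

/-- `ν_m` commutes with every element commuting with `g`. -/
theorem cycTowerNu_smul_comm (g x : G) (hx : Commute x g) (m : ℕ) (b : C) :
    cycTowerNu g m (x • b) = x • cycTowerNu g m b := by
  rw [cycTowerNu_apply, cycTowerNu_apply, Finset.smul_sum]
  refine Finset.sum_congr rfl fun l _ => ?_
  rw [← mul_smul, ← mul_smul, (hx.pow_right l).eq]

/-- `ν_m (g - 1) = g ^ m - 1`. -/
theorem cycTowerNu_sub_one (g : G) (m : ℕ) (v : C) :
    cycTowerNu g m (g • v - v) = g ^ m • v - v := by
  induction m with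
  | zero => simp [cycTowerNu_apply]
  | succ m ih =>
    rw [cycTowerNu_succ, ih, smul_sub, ← mul_smul, ← pow_succ]
    abel

/-- `(g - 1) ν_m = g ^ m - 1`. -/
theorem smul_cycTowerNu_sub (g : G) (m : ℕ) (y : C) :
    g • cycTowerNu g m y - cycTowerNu g m y = g ^ m • y - y := by
  rw [← cycTowerNu_smul_comm g g (Commute.refl g), ← map_sub, cycTowerNu_sub_one]

/-- `ν_{m d}(g) = ν_m(g) ∘ ν_d(g ^ m)`. -/
theorem cycTowerNu_mul (g : G) (m d : ℕ) (b : C) :
    cycTowerNu g (m * d) b = cycTowerNu g m (cycTowerNu (g ^ m) d b) := by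
  induction d with
  | zero => simp [cycTowerNu_apply]
  | succ d ih =>
    rw [cycTowerNu_succ, map_add, ← ih, Nat.mul_succ]
    have h1 : ∀ (j : ℕ) (c : C), cycTowerNu g (m * d + j) c =
        cycTowerNu g (m * d) c + g ^ (m * d) • cycTowerNu g j c := by
      intro j c
      induction j with
      | zero => simp [cycTowerNu_apply]
      | succ j ihj =>
        rw [← add_assoc, cycTowerNu_succ, ihj, cycTowerNu_succ, smul_add, ← mul_smul, ← pow_add]
        abel
    rw [h1, ← pow_mul, cycTowerNu_smul_comm g (g ^ (m * d)) ((Commute.refl g).pow_left _)]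

/-- on `τ`-invariants, `ν_d(τ)` is multiplication by `d`. -/
theorem cycTowerNu_of_fixed (t : G) (d : ℕ) {a : C} (ha : t • a = a) :
    cycTowerNu t d a = d • a := by
  have h : ∀ l : ℕ, t ^ l • a = a := by
    intro l
    induction l with
    | zero => simp
    | succ l ih => rw [pow_succ, mul_smul, ha, ih]
  rw [cycTowerNu_apply, Finset.sum_congr rfl fun l _ => h l]
  simp

end Partial

section Tower

variable {G : Type*} [Group G] [Fintype G] {C : Type*} [AddCommGroup C] [DistribMulAction G C]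
  {g : G}

/-- for a generator `g`, `ν_{|g|}(g)` is the norm. -/
theorem cycTowerNu_orderOf (hg : ∀ x, x ∈ Subgroup.zpowers g) (b : C) :
    cycTowerNu g (orderOf g) b = normHom G C b :=
  cycPartial_orderOf hg b

/-- `N_G = ν_m ∘ ν'_d` for `|G| = m d`. -/
theorem cycTower_norm_eq (hg : ∀ x, x ∈ Subgroup.zpowers g) {m d : ℕ} (hmd : orderOf g = m * d)
    (b : C) : normHom G C b = cycTowerNu g m (cycTowerNu (g ^ m) d b) := by
  rw [← cycTowerNu_orderOf hg, hmd, cycTowerNu_mul]

/-- **Injectivity of inflation on `Ĥ⁰`, elementwise.**  `G = ⟨g⟩` of order `m d`, `τ = g ^ m`.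
If `ker ν_d(τ) ⊆ (τ - 1) C` (that is `Ĥ⁻¹(⟨τ⟩, C) = 0`), then every `a ∈ C^G` such that `d • a` is
a norm from `C` is a partial norm `ν_m y` of a `τ`-invariant `y`. -/
theorem cycTower_exists_partial_eq (hg : ∀ x, x ∈ Subgroup.zpowers g) {m d : ℕ}
    (hmd : orderOf g = m * d)
    (hH1 : ∀ c : C, cycTowerNu (g ^ m) d c = 0 → ∃ v : C, c = g ^ m • v - v)
    {a : C} (ha : g • a = a) {z : C} (hz : normHom G C z = d • a) :
    ∃ y : C, g ^ m • y = y ∧ cycTowerNu g m y = a := by
  have hta : g ^ m • a = a := by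
    have h : ∀ l : ℕ, g ^ l • a = a := by
      intro l
      induction l with
      | zero => simp
      | succ l ih => rw [pow_succ, mul_smul, ha, ih]
    exact h m
  have hcomm : ∀ c : C, cycTowerNu (g ^ m) d (cycTowerNu g m c) =
      cycTowerNu g m (cycTowerNu (g ^ m) d c) := by
    intro c
    rw [cycTowerNu_apply g m, map_sum, cycTowerNu_apply g m]
    refine Finset.sum_congr rfl fun l _ => ?_
    exact cycTowerNu_smul_comm (g ^ m) (g ^ l) ((Commute.refl g).pow_pow l m) d c
  have hu : cycTowerNu (g ^ m) d (a - cycTowerNu g m z) = 0 := by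
    rw [map_sub, cycTowerNu_of_fixed (g ^ m) d hta, hcomm, ← cycTower_norm_eq hg hmd, hz, sub_self]
  obtain ⟨v, hv⟩ := hH1 _ hu
  refine ⟨z + (g • v - v), ?_, ?_⟩
  · have h1 : cycTowerNu g m (z + (g • v - v)) = a := by
      rw [map_add, cycTowerNu_sub_one, ← hv]; abel
    have h2 := smul_cycTowerNu_sub g m (z + (g • v - v))
    rw [h1, ha, sub_self] at h2
    exact (sub_eq_zero.mp h2.symm)
  · rw [map_add, cycTowerNu_sub_one, ← hv]; abel

end Tower

section PGroup

universe u v

/-- a finite abelian group killed by `p ^ j` whose `p`-torsion has at most `p` elements has at most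
`p ^ j` elements. -/
theorem cycTower_natCard_le_of_torsion_le {p : ℕ} :
    ∀ (j : ℕ) (X : Type u) [AddCommGroup X] [Finite X],
      Nat.card (nsmulAddMonoidHom (α := X) p).ker ≤ p → (∀ x : X, p ^ j • x = 0) →
        Nat.card X ≤ p ^ j := by
  intro j
  induction j with
  | zero =>
    intro X _ _ _ h0
    have : Subsingleton X := ⟨fun a b => by
      have ha := h0 a; have hb := h0 b
      simp only [pow_zero, one_smul] at ha hb
      rw [ha, hb]⟩
    simp
  | succ j ih =>
    intro X _ _ htors hkill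
    let f : X →+ X := nsmulAddMonoidHom p
    have hfin : Finite f.range := inferInstance
    have h1 : Nat.card f.range ≤ p ^ j := by
      refine ih f.range ?_ ?_
      · refine le_trans ?_ htors
        let φ : (nsmulAddMonoidHom (α := f.range) p).ker → (nsmulAddMonoidHom (α := X) p).ker :=
          fun x => ⟨(x : f.range), by
            have hx := x.2
            rw [AddMonoidHom.mem_ker, nsmulAddMonoidHom_apply] at hx ⊢
            have h : ((p • (x : f.range) : f.range) : X) = ((0 : f.range) : X) :=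
              congrArg Subtype.val hx
            rwa [AddSubgroup.coe_nsmul, AddSubgroup.coe_zero] at h⟩
        refine Nat.card_le_card_of_injective φ ?_
        intro x y hxy
        have := congrArg (fun z : (nsmulAddMonoidHom (α := X) p).ker => (z : X)) hxy
        exact Subtype.ext (Subtype.ext this)
      · rintro ⟨x, y, rfl⟩
        apply Subtype.ext
        have := hkill y
        simp only [AddSubgroup.coe_nsmul, AddSubgroup.coe_zero]
        show p ^ j • (p • y) = 0
        rw [← mul_smul, ← pow_succ]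
        exact this
    have h2 : Nat.card X = Nat.card (X ⧸ f.ker) * Nat.card f.ker :=
      AddSubgroup.card_eq_card_quotient_mul_card_addSubgroup f.ker
    have h3 : Nat.card (X ⧸ f.ker) = Nat.card f.range :=
      Nat.card_congr (QuotientAddGroup.quotientKerEquivRange f).toEquiv
    rw [h2, h3, pow_succ]
    exact Nat.mul_le_mul h1 htors

/-- **a finite abelian `p`-group whose `p`-torsion has at most `p` elements is cyclic.** -/
theorem cycTower_isAddCyclic_of_torsion_le {X : Type u} [AddCommGroup X] [Finite X] {p k : ℕ}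
    (hp : p.Prime) (hcard : Nat.card X = p ^ k)
    (htors : Nat.card (nsmulAddMonoidHom (α := X) p).ker ≤ p) : IsAddCyclic X := by
  apply IsAddCyclic.of_exponent_eq_card
  have hdvd : AddMonoid.exponent X ∣ p ^ k := hcard ▸ AddGroup.exponent_dvd_nat_card
  obtain ⟨j, hjk, hj⟩ := (Nat.dvd_prime_pow hp).mp hdvd
  have hle : Nat.card X ≤ p ^ j :=
    cycTower_natCard_le_of_torsion_le j X htors (fun x => hj ▸ AddMonoid.exponent_nsmul_eq_zero x)
  rw [hj, hcard]
  rw [hcard] at hle
  exact le_antisymm (Nat.pow_le_pow_right hp.pos hjk) hle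

/-- cyclicity from a factorisation of multiplication by `p` through a group of order `p ^ k`. -/
theorem cycTower_isAddCyclic_of_factor {X : Type u} {Y : Type v} [AddCommGroup X] [AddCommGroup Y]
    [Finite X] {p k : ℕ} (hp : p.Prime) (hX : Nat.card X = p ^ (k + 1)) (hY : Nat.card Y = p ^ k)
    (π : X →+ Y) (hπ : Function.Surjective π) (ι : Y →+ X) (hι : Function.Injective ι)
    (hιπ : ∀ x, ι (π x) = p • x) : IsAddCyclic X := by
  refine cycTower_isAddCyclic_of_torsion_le hp hX ?_
  have hker : (nsmulAddMonoidHom (α := X) p).ker = π.ker := by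
    ext x
    rw [AddMonoidHom.mem_ker, AddMonoidHom.mem_ker, nsmulAddMonoidHom_apply, ← hιπ,
      map_eq_zero_iff ι hι]
  rw [hker]
  have h2 : Nat.card X = Nat.card (X ⧸ π.ker) * Nat.card π.ker :=
    AddSubgroup.card_eq_card_quotient_mul_card_addSubgroup π.ker
  have h3 : Nat.card (X ⧸ π.ker) = Nat.card Y :=
    Nat.card_congr (QuotientAddGroup.quotientKerEquivOfSurjective π hπ).toEquiv
  rw [h3, hX, hY, pow_succ] at h2
  have hpos : 0 < p ^ k := pos_of_ne_zero (pow_ne_zero k hp.ne_zero)
  exact le_of_eq (Nat.eq_of_mul_eq_mul_left hpos h2).symm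

end PGroup

section TateH0

variable {G : Type*} [Group G] [Fintype G] {C : Type*} [AddCommGroup C] [DistribMulAction G C]
  {g : G}

/-- the subgroup `ν_m (C^τ)`, `τ = g ^ m`, of partial norms (the norm group of the layer `G/⟨τ⟩`
acting on `C^τ`). -/
noncomputable def cycTowerPartialNorms (C : Type*) [AddCommGroup C] [DistribMulAction G C]
    (g : G) (m : ℕ) : AddSubgroup C :=
  AddSubgroup.map (cycTowerNu g m) (subOneHom C (g ^ m)).ker

theorem mem_cycTowerPartialNorms {m : ℕ} {a : C} :
    a ∈ cycTowerPartialNorms C g m ↔ ∃ y : C, g ^ m • y = y ∧ cycTowerNu g m y = a := by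
  unfold cycTowerPartialNorms
  rw [AddSubgroup.mem_map]
  constructor
  · rintro ⟨y, hy, rfl⟩
    exact ⟨y, mem_ker_subOneHom.mp hy, rfl⟩
  · rintro ⟨y, hy, rfl⟩
    exact ⟨y, mem_ker_subOneHom.mpr hy, rfl⟩

/-- partial norms of `τ`-invariants are `G`-invariant. -/
theorem cycTowerPartialNorms_le_ker (m : ℕ) :
    cycTowerPartialNorms C g m ≤ (subOneHom C g).ker := by
  intro a ha
  obtain ⟨y, hy, rfl⟩ := mem_cycTowerPartialNorms.mp ha
  rw [AddMonoidHom.mem_ker, subOneHom_apply, smul_cycTowerNu_sub, hy, sub_self]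

/-- norms are partial norms. -/
theorem range_normHom_le_cycTowerPartialNorms (hg : ∀ x, x ∈ Subgroup.zpowers g) {m d : ℕ}
    (hmd : orderOf g = m * d) : (normHom G C).range ≤ cycTowerPartialNorms C g m := by
  rintro _ ⟨z, rfl⟩
  refine mem_cycTowerPartialNorms.mpr ⟨cycTowerNu (g ^ m) d z, ?_, (cycTower_norm_eq hg hmd z).symm⟩
  have h := smul_cycTowerNu_sub (g ^ m) d z
  rw [← pow_mul, ← hmd, pow_orderOf_eq_one, one_smul, sub_self] at h
  exact sub_eq_zero.mp h

/-- `d •` maps partial norms into norms. -/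
theorem nsmul_mem_range_normHom_of_mem_cycTowerPartialNorms (hg : ∀ x, x ∈ Subgroup.zpowers g)
    {m d : ℕ} (hmd : orderOf g = m * d) {a : C} (ha : a ∈ cycTowerPartialNorms C g m) :
    d • a ∈ (normHom G C).range := by
  obtain ⟨y, hy, rfl⟩ := mem_cycTowerPartialNorms.mp ha
  refine ⟨y, ?_⟩
  rw [cycTower_norm_eq hg hmd, cycTowerNu_of_fixed (g ^ m) d hy, map_nsmul]

/-- **(I1)**: `G = ⟨g⟩` cyclic of order `p ^ (k+1)`, `τ = g ^ (p ^ k)` of order `p`.  If
`Ĥ⁻¹(⟨τ⟩, C) = 0`, `|Ĥ⁰(G, C)| = p ^ (k+1)` and the norm index of the layer `G/⟨τ⟩` on `C^τ` is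
`p ^ k`, then `Ĥ⁰(G, C) = C^G / N_G C` is cyclic. -/
theorem cycTower_isAddCyclic_tateH0 {p k : ℕ} (hp : p.Prime) (hg : ∀ x, x ∈ Subgroup.zpowers g)
    (hord : orderOf g = p ^ k * p)
    (hH1 : ∀ c : C, cycTowerNu (g ^ (p ^ k)) p c = 0 → ∃ v : C, c = g ^ (p ^ k) • v - v)
    (hX : tateH0Card G C g = p ^ (k + 1))
    (hY : (cycTowerPartialNorms C g (p ^ k)).relIndex (subOneHom C g).ker = p ^ k) :
    IsAddCyclic (tateH0 G C g) := by
  set Z : AddSubgroup C := (subOneHom C g).ker with hZ
  set B : AddSubgroup C := (normHom G C).range with hB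
  set B' : AddSubgroup C := cycTowerPartialNorms C g (p ^ k) with hB'
  have hBB' : B ≤ B' := range_normHom_le_cycTowerPartialNorms hg hord
  -- the two quotients
  have hXcard : Nat.card (↥Z ⧸ B.addSubgroupOf Z) = p ^ (k + 1) := hX
  have hYcard : Nat.card (↥Z ⧸ B'.addSubgroupOf Z) = p ^ k := hY
  have hfin : Finite (↥Z ⧸ B.addSubgroupOf Z) :=
    Nat.finite_of_card_ne_zero (by rw [hXcard]; exact pow_ne_zero _ hp.ne_zero)
  let π : (↥Z ⧸ B.addSubgroupOf Z) →+ (↥Z ⧸ B'.addSubgroupOf Z) :=
    QuotientAddGroup.map _ _ (AddMonoidHom.id ↥Z) (by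
      intro z hz
      rw [AddSubgroup.mem_addSubgroupOf] at hz
      exact AddSubgroup.mem_addSubgroupOf.mpr (hBB' hz))
  have hπ : Function.Surjective π := by
    intro y
    induction y using QuotientAddGroup.induction_on with
    | H z => exact ⟨QuotientAddGroup.mk z, rfl⟩
  let ι : (↥Z ⧸ B'.addSubgroupOf Z) →+ (↥Z ⧸ B.addSubgroupOf Z) :=
    QuotientAddGroup.map _ _ (nsmulAddMonoidHom (α := ↥Z) p) (by
      intro z hz
      rw [AddSubgroup.mem_addSubgroupOf] at hz
      rw [AddSubgroup.mem_comap, AddSubgroup.mem_addSubgroupOf, nsmulAddMonoidHom_apply,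
        AddSubgroup.coe_nsmul]
      exact nsmul_mem_range_normHom_of_mem_cycTowerPartialNorms hg hord hz)
  have hι : Function.Injective ι := by
    rw [injective_iff_map_eq_zero]
    intro y hy
    induction y using QuotientAddGroup.induction_on with
    | H z =>
      have h1 : ι (QuotientAddGroup.mk z) = QuotientAddGroup.mk (p • z) := rfl
      rw [h1, QuotientAddGroup.eq_zero_iff, AddSubgroup.mem_addSubgroupOf,
        AddSubgroup.coe_nsmul] at hy
      obtain ⟨w, hw⟩ := hy
      have hz : g • (z : C) = z := mem_ker_subOneHom.mp z.2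
      obtain ⟨y, hy1, hy2⟩ := cycTower_exists_partial_eq hg hord hH1 hz hw
      rw [QuotientAddGroup.eq_zero_iff, AddSubgroup.mem_addSubgroupOf]
      exact mem_cycTowerPartialNorms.mpr ⟨y, hy1, hy2⟩
  have hιπ : ∀ x, ι (π x) = p • x := by
    intro x
    induction x using QuotientAddGroup.induction_on with
    | H z => rfl
  exact cycTower_isAddCyclic_of_factor hp hXcard hYcard π hπ ι hι hιπ

end TateH0

end Fermat.Agent.CFT
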