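import Mathlib
import Fermat.Agent.CFT.Coh.CyclicTower

set_option autoImplicit false

/-!
# (GT4b) part 2: bridges for `Coh/CyclicTower.lean` and the cocycle dictionary

* `cycTower_relIndex_eq_tateH0Card`: the norm index of the lower layer `(G', C', g')`, mapped into
  `C` by an injective equivariant `j : C' →+ C` with image `C^τ`, is the index of the partial norms.
* `cycTower_hH1_of_tateH1Card`: the hypothesis `hH1` of `cycTower_exists_partial_eq` from
  `tateH1Card T C t = 1` for a cyclic group `T = ⟨t⟩` acting on `C` through `t ↦ g ^ m`.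
* `cycTower_isCoboundary₂_pullback`: **dictionary**.  For a homomorphism `φ : H → G` of finite
  cyclic groups with `φ h = g ^ e`, `e |H| = t |G|`, and a `φ`-equivariant `f : C →+ D`, the
  pull-back of the cyclic cocycle of `a ∈ C^G` is cohomologous to the cyclic cocycle of `t • f a`.
  (inflation along `G → G/N`: `e = 1`, `t = |N|`; restriction to a subgroup of index `e`: `t = 1`.)
-/

namespace Fermat.Agent.CFT

open AddSubgroup groupCohomology

section Bridge

variable {G : Type*} [Group G] [Fintype G] {C : Type*} [AddCommGroup C] [DistribMulAction G C]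
  {g : G}

omit [Fintype G] in
/-- `hH1` from `tateH1Card = 1`. -/
theorem cycTower_hH1_of_tateH1Card {T : Type*} [Group T] [Fintype T] [DistribMulAction T C] {t : T}
    (ht : ∀ x, x ∈ Subgroup.zpowers t) {m d : ℕ} (hcompat : ∀ c : C, t • c = g ^ m • c)
    (hd : orderOf t = d) (h1 : tateH1Card T C t = 1) :
    ∀ c : C, cycTowerNu (g ^ m) d c = 0 → ∃ v : C, c = g ^ m • v - v := by
  have hpow : ∀ (l : ℕ) (c : C), t ^ l • c = (g ^ m) ^ l • c := by
    intro l
    induction l with
    | zero => intro c; simp
    | succ l ih => intro c; rw [pow_succ, mul_smul, hcompat, ih, pow_succ, mul_smul]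
  have hle : (normHom T C).ker ≤ (subOneHom C t).range := hIndex_eq_one_iff.mp h1
  intro c hc
  have hN : normHom T C c = 0 := by
    rw [← cycTowerNu_orderOf ht, hd, cycTowerNu_apply]
    rw [cycTowerNu_apply] at hc
    rw [← hc]
    exact Finset.sum_congr rfl fun l _ => hpow l c
  obtain ⟨v, hv⟩ := hle hN
  exact ⟨v, by rw [← hv, subOneHom_apply, hcompat]⟩

/-- the norm index of the lower layer equals the index of the partial norms. -/
theorem cycTower_relIndex_eq_tateH0Card
    {G' : Type*} [Group G'] [Fintype G'] {C' : Type*} [AddCommGroup C'] [DistribMulAction G' C']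
    {g' : G'} (hg' : ∀ x, x ∈ Subgroup.zpowers g') {m : ℕ} (hm : orderOf g' = m)
    (j : C' →+ C) (hj : Function.Injective j) (hjg : ∀ c : C', j (g' • c) = g • j c)
    (hrange : j.range = (subOneHom C (g ^ m)).ker) :
    (cycTowerPartialNorms C g m).relIndex (subOneHom C g).ker = tateH0Card G' C' g' := by
  have hpow : ∀ (l : ℕ) (c : C'), j (g' ^ l • c) = g ^ l • j c := by
    intro l
    induction l with
    | zero => intro c; simp
    | succ l ih => intro c; rw [pow_succ, mul_smul, ih, hjg, pow_succ, mul_smul]
  have hnorm : ∀ c : C', j (normHom G' C' c) = cycTowerNu g m (j c) := by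
    intro c
    rw [← cycTowerNu_orderOf hg', hm, cycTowerNu_apply, cycTowerNu_apply, map_sum]
    exact Finset.sum_congr rfl fun l _ => hpow l c
  have h1 : (normHom G' C').range.map j = cycTowerPartialNorms C g m := by
    ext a
    rw [AddSubgroup.mem_map, mem_cycTowerPartialNorms]
    constructor
    · rintro ⟨_, ⟨c, rfl⟩, rfl⟩
      refine ⟨j c, ?_, (hnorm c).symm⟩
      have : j c ∈ (subOneHom C (g ^ m)).ker := hrange ▸ ⟨c, rfl⟩
      exact mem_ker_subOneHom.mp this
    · rintro ⟨y, hy, rfl⟩
      have : y ∈ j.range := hrange ▸ (mem_ker_subOneHom.mpr hy)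
      obtain ⟨c, rfl⟩ := this
      exact ⟨normHom G' C' c, ⟨c, rfl⟩, hnorm c⟩
  have h2 : (subOneHom C' g').ker.map j = (subOneHom C g).ker := by
    ext a
    rw [AddSubgroup.mem_map]
    constructor
    · rintro ⟨c, hc, rfl⟩
      rw [mem_ker_subOneHom] at hc ⊢
      rw [← hjg, hc]
    · intro ha
      have hga : g • a = a := mem_ker_subOneHom.mp ha
      have hta : g ^ m • a = a := by
        have h : ∀ l : ℕ, g ^ l • a = a := by
          intro l
          induction l with
          | zero => simp
          | succ l ih => rw [pow_succ, mul_smul, hga, ih]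
        exact h m
      have : a ∈ j.range := hrange ▸ (mem_ker_subOneHom.mpr hta)
      obtain ⟨c, rfl⟩ := this
      refine ⟨c, ?_, rfl⟩
      rw [mem_ker_subOneHom]
      apply hj
      rw [hjg, hga]
  unfold tateH0Card hIndex
  rw [← h1, ← h2, AddSubgroup.relIndex_map_map_of_injective _ _ hj]

end Bridge

section Dictionary

variable {G H : Type*} [Group G] [Fintype G] [Group H] [Fintype H] {g : G} {h : H}
  {C D : Type*} [AddCommGroup C] [DistribMulAction G C] [AddCommGroup D] [DistribMulAction H D]

/-- the arithmetic identity behind the dictionary. -/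
theorem cycTower_carry_identity {n r e t : ℕ} (hn : 0 < n) (het : e * r = t * n) (i j : ℕ) :
    (e * i % n + e * j % n) / n + e * i / n + e * j / n =
      (i + j) / r * t + e * ((i + j) % r) / n := by
  have h1 : (e * i % n + e * j % n) / n + e * i / n + e * j / n = (e * i + e * j) / n := by
    have := nat_carry_identity n (e * i) (e * j % n)
    have h2 := nat_carry_identity n (e * j) (e * i)
    -- (e*i % n + e*j % n)/n + e*i/n = (e*i + e*j % n)/n ; (e*j % n + e*i)/n + e*j/n = (e*j+e*i)/n
    rw [this, add_comm (e * i) (e * j % n), h2, add_comm]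
  rw [h1, ← mul_add]
  conv_lhs => rw [← Nat.div_add_mod (i + j) r]
  rw [mul_add, ← mul_assoc, het, mul_comm t n, mul_assoc, Nat.mul_add_div hn, mul_comm t]

/-- **Dictionary for cyclic cocycles.** -/
theorem cycTower_isCoboundary₂_pullback
    (hh : ∀ x, x ∈ Subgroup.zpowers h) (φ : H →* G) {e t : ℕ} (hφ : φ h = g ^ e)
    (het : e * orderOf h = t * orderOf g) (f : C →+ D)
    (hf : ∀ (x : H) (c : C), f (φ x • c) = x • f c) {a : C} (ha : ∀ x : G, x • a = a) :
    IsCoboundary₂ (fun xy : H × H =>
      f (cycCocycle g a (φ xy.1, φ xy.2)) - cycCocycle h (t • f a) xy) := by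
  have hfa : ∀ x : H, x • f a = f a := fun x => by rw [← hf, ha]
  have hidx : ∀ x : H, cycIdx g (φ x) = e * cycIdx h x % orderOf g := by
    intro x
    conv_lhs => rw [← pow_cycIdx hh x, map_pow, hφ, ← pow_mul]
    exact cycIdx_pow g _
  refine ⟨fun z => -((e * cycIdx h z / orderOf g) • f a), ?_⟩
  intro x y
  simp only [cycCocycle_apply, map_nsmul, smul_neg, smul_comm x (_ : ℕ) (f a), hfa]
  rw [hidx x, hidx y, cycIdx_mul hh x y]
  have key := cycTower_carry_identity (orderOf_pos g) het (cycIdx h x) (cycIdx h y)
  have key2 := congrArg (fun k : ℕ => k • f a) key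
  simp only [add_smul, mul_smul] at key2
  set X := ((e * cycIdx h x % orderOf g + e * cycIdx h y % orderOf g) / orderOf g) • f a
  set Qi := (e * cycIdx h x / orderOf g) • f a
  set Qj := (e * cycIdx h y / orderOf g) • f a
  set Y := ((cycIdx h x + cycIdx h y) / orderOf h) • t • f a
  set Qs := (e * ((cycIdx h x + cycIdx h y) % orderOf h) / orderOf g) • f a
  have h3 : X = Y + Qs - Qj - Qi := by
    rw [eq_sub_iff_add_eq, eq_sub_iff_add_eq]
    exact key2
  rw [h3]
  abel

end Dictionary

end Fermat.Agent.CFT
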