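import Fermat.Agent.CFT.Coh.H2InfResGen
import Fermat.Agent.CFT.Local.CyclicCocyclePullback

set_option autoImplicit false

/-!
# The fundamental class by comparison with a cyclic layer (abstract form)

`Γ` a group with two quotients `π : Γ ↠ G`, `π' : Γ ↠ G'`, `G'` finite cyclic generated by `σ`;
`T` finite cyclic generated by `τ` with `ι : T ↪ Γ`, `range ι = ker π`.  Modules (multiplicative):
`MΓ` for `Γ`, `MG ≃ MΓ^{ker π}` for `G`, `M' ≃ MΓ^{ker π'}` for `G'`, `MT ≃ MΓ` for `T`.
If `H¹(ker π, MΓ) = 0 = H¹(ker π', MΓ)`, and `c ∈ M'^{G'}` is such that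
* `c ^ k` is a `G'`-norm only if `|G'| ∣ k`,
* the image of `c` in `MT` is a `T`-norm,
then `H²(G, MG)` contains an element of order `|G'|`
(`exists_addOrderOf_eq_card_of_cyclic_comparison`).

This is the module-agnostic skeleton of the Artin–Tate construction of the fundamental class
(`L' / M` cyclic cyclotomic of degree `[L : M]`, `Γ = Gal(L L' / M)`, `c` a Frobenius idele class).
-/

namespace Fermat.Agent.CFT

open CategoryTheory groupCohomology Rep

section Hom

variable {Γ G : Type} [Group Γ] [Group G] {MΓ MG : Type} [CommGroup MΓ] [CommGroup MG]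
  [MulDistribMulAction Γ MΓ] [MulDistribMulAction G MG]

/-- An equivariant homomorphism of multiplicative modules along `π : Γ →* G`, as a morphism of
representations. -/
noncomputable def fcRepHom (π : Γ →* G) (f : MG →* MΓ) (hf : ∀ γ m, f (π γ • m) = γ • f m) :
    res π (Rep.ofMulDistribMulAction G MG) ⟶ Rep.ofMulDistribMulAction Γ MΓ :=
  ofHom ⟨f.toAdditive.toIntLinearMap, fun γ => by
    refine LinearMap.ext fun y => ?_
    exact congrArg Additive.ofMul (hf γ (Additive.toMul y))⟩

omit [MulDistribMulAction Γ MΓ] [MulDistribMulAction G MG] in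
lemma fcRepHom_hom_apply [MulDistribMulAction Γ MΓ] [MulDistribMulAction G MG]
    (π : Γ →* G) (f : MG →* MΓ) (hf : ∀ γ m, f (π γ • m) = γ • f m)
    (y : (Rep.ofMulDistribMulAction G MG).V) :
    (fcRepHom π f hf).hom y = Additive.ofMul (f (Additive.toMul y)) := rfl

/-- An equivariant homomorphism of multiplicative modules along `ι : Γ →* G` in the other
direction (restriction), as a morphism of representations. -/
noncomputable def fcRepResHom (ι : Γ →* G) (e : MG →* MΓ) (he : ∀ γ m, e (ι γ • m) = γ • e m) :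
    res ι (Rep.ofMulDistribMulAction G MG) ⟶ Rep.ofMulDistribMulAction Γ MΓ :=
  ofHom ⟨e.toAdditive.toIntLinearMap, fun γ => by
    refine LinearMap.ext fun y => ?_
    exact congrArg Additive.ofMul (he γ (Additive.toMul y))⟩

/-- `H¹(S, M) = 0` in multiplicative cocycle form implies `H1ResVanishes`. -/
lemma h1ResVanishes_of_mul (S : Subgroup Γ)
    (h : ∀ x : S → MΓ, (∀ s t : S, x (s * t) = (s : Γ) • x t * x s) →
      ∃ a : MΓ, ∀ s : S, x s = (s : Γ) • a / a) :
    H1ResVanishes (Rep.ofMulDistribMulAction Γ MΓ) S := by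
  intro x hx
  obtain ⟨a, ha⟩ := h (fun s => Additive.toMul (x s)) (fun s t => congrArg Additive.toMul (hx s t))
  exact ⟨Additive.ofMul a, fun s => congrArg Additive.ofMul (ha s)⟩

end Hom

section CycPow

variable {G M : Type} [Group G] [Fintype G] [CommGroup M] [MulDistribMulAction G M] {g : G}

theorem cycClass_pow (hg : ∀ x, x ∈ Subgroup.zpowers g) (a : M) (ha : ∀ x : G, x • a = a)
    (k : ℕ) :
    cycClass hg (a ^ k) (fun x => by rw [smul_pow', ha]) = k • cycClass hg a ha := by
  unfold cycClass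
  rw [← map_nsmul]
  congr 1
  apply Subtype.ext
  funext p
  change Additive.ofMul ((a ^ k) ^ _) = k • Additive.ofMul (a ^ _)
  rw [← pow_mul, mul_comm, pow_mul]
  rfl

/-- The order of the cyclic class of `a` is `|G|` as soon as `a ^ k` is a norm only for
`|G| ∣ k`. -/
theorem addOrderOf_cycClass_eq_card (hg : ∀ x, x ∈ Subgroup.zpowers g) (a : M)
    (ha : ∀ x : G, x • a = a)
    (hord : ∀ k : ℕ, (∃ b : M, ∏ τ : G, τ • b = a ^ k) → Nat.card G ∣ k) :
    addOrderOf (cycClass hg a ha) = Nat.card G := by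
  apply Nat.dvd_antisymm
  · rw [addOrderOf_dvd_iff_nsmul_eq_zero, ← cycClass_pow hg a ha, cycClass_eq_zero_iff]
    refine ⟨a, ?_⟩
    rw [Finset.prod_congr rfl (fun τ _ => ha τ), Finset.prod_const, Finset.card_univ,
      Nat.card_eq_fintype_card]
  · apply hord
    rw [← cycClass_eq_zero_iff hg (a ^ addOrderOf (cycClass hg a ha))
      (fun x => by rw [smul_pow', ha]), cycClass_pow hg a ha]
    exact addOrderOf_nsmul_eq_zero _

end CycPow

section Main

variable {Γ G G' T : Type} [Group Γ] [Group G] [Group G'] [Group T] [Fintype G'] [Fintype T]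
  {MΓ MG M' MT : Type} [CommGroup MΓ] [CommGroup MG] [CommGroup M'] [CommGroup MT]
  [MulDistribMulAction Γ MΓ] [MulDistribMulAction G MG] [MulDistribMulAction G' M']
  [MulDistribMulAction T MT]

/-- Restricting to `T` the inflation of the cyclic class of `c` for `(G', σ)` gives the cyclic
class of the image of `c` for `(T, τ)`. -/
theorem map_map_cycClass
    (π' : Γ →* G') (f' : M' →* MΓ) (hf' : ∀ γ m, f' (π' γ • m) = γ • f' m)
    (ι : T →* Γ) (e : MΓ →* MT) (he : ∀ t m, e (ι t • m) = t • e m)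
    {σ : G'} (hσ : ∀ x, x ∈ Subgroup.zpowers σ) {τ : T} (hτ : ∀ x, x ∈ Subgroup.zpowers τ)
    {d : ℕ} (hd : π' (ι τ) = σ ^ d) (hcard : d * Nat.card T = Nat.card G')
    (c : M') (hc : ∀ g : G', g • c = c) (hc' : ∀ t : T, t • e (f' c) = e (f' c)) :
    map ι (fcRepResHom ι e he) 2 (map π' (fcRepHom π' f' hf') 2 (cycClass hσ c hc)) =
      cycClass hτ (e (f' c)) hc' := by
  have hoσ : orderOf σ = Nat.card G' := orderOf_eq_card_of_forall_mem_zpowers hσ
  have hoτ : orderOf τ = Nat.card T := orderOf_eq_card_of_forall_mem_zpowers hτ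
  have hcard' : d * orderOf τ = orderOf σ := by rw [hoσ, hoτ, hcard]
  unfold cycClass
  rw [H2π_comp_map_apply π', H2π_comp_map_apply ι]
  congr 1
  apply Subtype.ext
  funext ⟨x, y⟩
  have key := cycIdx_add_div_eq (g := σ) (h := τ) (π'.comp ι) hτ
    (by rw [MonoidHom.comp_apply]; exact hd) hcard' x y
  simp only [MonoidHom.comp_apply] at key
  change Additive.ofMul (e (f' (mulCycCocycle σ c (π' (ι x), π' (ι y))))) =
    Additive.ofMul (mulCycCocycle τ (e (f' c)) (x, y))
  rw [mulCycCocycle_apply, mulCycCocycle_apply, map_pow, map_pow, key]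

/-- **The fundamental class by comparison with a cyclic layer.** -/
theorem exists_addOrderOf_eq_card_of_cyclic_comparison
    (π : Γ →* G) (hπ : Function.Surjective π)
    (f : MG →* MΓ) (hf : ∀ γ m, f (π γ • m) = γ • f m) (hfi : Function.Injective f)
    (hfr : ∀ m : MΓ, (∀ γ ∈ π.ker, γ • m = m) → ∃ m', f m' = m)
    (π' : Γ →* G') (hπ' : Function.Surjective π')
    (f' : M' →* MΓ) (hf' : ∀ γ m, f' (π' γ • m) = γ • f' m) (hf'i : Function.Injective f')
    (hf'r : ∀ m : MΓ, (∀ γ ∈ π'.ker, γ • m = m) → ∃ m', f' m' = m)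
    (ι : T →* Γ) (hι : Function.Injective ι) (hex : ι.range = π.ker)
    (e : MΓ →* MT) (he : ∀ t m, e (ι t • m) = t • e m) (hebij : Function.Bijective e)
    (h1 : H1ResVanishes (Rep.ofMulDistribMulAction Γ MΓ) π.ker)
    (h1' : H1ResVanishes (Rep.ofMulDistribMulAction Γ MΓ) π'.ker)
    {σ : G'} (hσ : ∀ x, x ∈ Subgroup.zpowers σ) {τ : T} (hτ : ∀ x, x ∈ Subgroup.zpowers τ)
    {d : ℕ} (hd : π' (ι τ) = σ ^ d) (hcard : d * Nat.card T = Nat.card G')
    (c : M') (hc : ∀ g : G', g • c = c)
    (hord : ∀ k : ℕ, (∃ b : M', ∏ g : G', g • b = c ^ k) → Nat.card G' ∣ k)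
    (hnorm : ∃ b : MT, ∏ t : T, t • b = e (f' c)) :
    ∃ w : groupCohomology (Rep.ofMulDistribMulAction G MG) 2, addOrderOf w = Nat.card G' := by
  have hc' : ∀ t : T, t • e (f' c) = e (f' c) := by
    intro t
    rw [← he, ← hf', hc]
  set φ := fcRepHom π f hf with hφ
  set φ' := fcRepHom π' f' hf' with hφ'
  set ψ := fcRepResHom ι e he with hψ
  have hφi : Function.Injective φ.hom := fun y y' h =>
    congrArg Additive.ofMul (hfi (congrArg Additive.toMul h))
  have hφr : ∀ a : (Rep.ofMulDistribMulAction Γ MΓ),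
      (∀ s ∈ π.ker, (Rep.ofMulDistribMulAction Γ MΓ).ρ s a = a) → ∃ a', φ.hom a' = a := by
    intro a ha
    obtain ⟨m', hm'⟩ := hfr (Additive.toMul a) (fun γ hγ => congrArg Additive.toMul (ha γ hγ))
    exact ⟨Additive.ofMul m', congrArg Additive.ofMul hm'⟩
  have hφ'i : Function.Injective φ'.hom := fun y y' h =>
    congrArg Additive.ofMul (hf'i (congrArg Additive.toMul h))
  have hφ'r : ∀ a : (Rep.ofMulDistribMulAction Γ MΓ),
      (∀ s ∈ π'.ker, (Rep.ofMulDistribMulAction Γ MΓ).ρ s a = a) → ∃ a', φ'.hom a' = a := by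
    intro a ha
    obtain ⟨m', hm'⟩ := hf'r (Additive.toMul a) (fun γ hγ => congrArg Additive.toMul (ha γ hγ))
    exact ⟨Additive.ofMul m', congrArg Additive.ofMul hm'⟩
  have hψb : Function.Bijective ψ.hom :=
    ⟨fun y y' h => congrArg Additive.ofMul (hebij.1 (congrArg Additive.toMul h)),
      fun b => by
        obtain ⟨m, hm⟩ := hebij.2 (Additive.toMul b)
        exact ⟨Additive.ofMul m, congrArg Additive.ofMul hm⟩⟩
  set x := cycClass hσ c hc with hx
  have hxord : addOrderOf x = Nat.card G' := addOrderOf_cycClass_eq_card hσ c hc hord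
  have hres : map ι ψ 2 (map π' φ' 2 x) = 0 := by
    rw [hx, hψ, hφ', map_map_cycClass π' f' hf' ι e he hσ hτ hd hcard c hc hc',
      cycClass_eq_zero_iff]
    exact hnorm
  obtain ⟨w, hw⟩ := infResGen_exact π φ ι ψ hπ hι hex hφi hφr hψb h1 _ hres
  refine ⟨w, ?_⟩
  have e1 : addOrderOf (map π φ 2 w) = addOrderOf w :=
    addOrderOf_injective (map π φ 2).hom.toAddMonoidHom
      (infGen_injective π φ hπ hφi hφr h1) w
  have e2 : addOrderOf (map π' φ' 2 x) = addOrderOf x :=
    addOrderOf_injective (map π' φ' 2).hom.toAddMonoidHom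
      (infGen_injective π' φ' hπ' hφ'i hφ'r h1') x
  rw [← e1, hw, e2, hxord]

end Main

end Fermat.Agent.CFT
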