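import Fermat.Agent.CFT.Coh.H2InfResGen

set_option autoImplicit false

/-!
# Inflation-restriction in degree 1, general form (S55 pool, (GL12)(a), helper4)

Same data as `Coh/H2InfResGen.lean`: `π : G →* Q` surjective, `ι : T →* G` injective with
`range ι = ker π`, `A' ≃ A^{ker π}` via `φ`, `A ≃ B` via `ψ`.  Then
`0 ⟶ H¹(Q, A') ⟶ H¹(G, A) ⟶ H¹(T, B)` is exact (Mathlib's `H1InfRes_exact` + transport), so

* `subsingleton_H1_gen` : `H¹(Q, A') = 0` and `H¹(T, B) = 0` imply `H¹(G, A) = 0`;
* `h1ResVanishes_ker_gen` : `H¹(T, B) = 0` implies `H1ResVanishes A (ker π)` (the hypothesis of the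
  degree-2 statements of `H2InfResGen`).
-/

namespace Fermat.Agent.CFT

universe u

open CategoryTheory groupCohomology Rep

section Main

variable {k G Q T : Type u} [CommRing k] [Group G] [Group Q] [Group T]
  {A : Rep k G} {A' : Rep k Q} {B : Rep k T}
  (π : G →* Q) (φ : res π A' ⟶ A) (ι : T →* G) (ψ : res ι A ⟶ B)
  (hπ : Function.Surjective π) (hι : Function.Injective ι) (hex : ι.range = π.ker)
  (hφi : Function.Injective φ.hom)
  (hφr : ∀ a : A, (∀ s ∈ π.ker, A.ρ s a = a) → ∃ a' : A', φ.hom a' = a)
  (hψ : Function.Bijective ψ.hom)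

include hι hex hψ in
/-- `H¹(ker π, A) = 0` (Mathlib form) if `H¹(T, B) = 0`. -/
theorem subsingleton_H1_res_ker_gen (hT : Subsingleton (groupCohomology B 1)) :
    Subsingleton (groupCohomology (res π.ker.subtype A) 1) := by
  have hb := map_resHom_bijective π.ker ι ψ hι hex hψ 1
  exact hb.1.subsingleton

include hι hex hψ in
/-- `H¹(ker π, A) = 0` (cocycle form) if `H¹(T, B) = 0`. -/
theorem h1ResVanishes_ker_gen (hT : Subsingleton (groupCohomology B 1)) :
    H1ResVanishes A π.ker := by
  have : Subsingleton (H1 (res π.ker.subtype A)) :=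
    subsingleton_H1_res_ker_gen π ι ψ hι hex hψ hT
  exact H1ResVanishes_of_subsingleton A π.ker

include hπ hι hex hφi hφr hψ in
/-- **Inflation-restriction in degree `1`, general form**: `H¹(Q, A') = 0` and `H¹(T, B) = 0`
imply `H¹(G, A) = 0`. -/
theorem subsingleton_H1_gen (hQ : Subsingleton (groupCohomology A' 1))
    (hT : Subsingleton (groupCohomology B 1)) : Subsingleton (groupCohomology A 1) := by
  have hK : Subsingleton (groupCohomology (res π.ker.subtype A) 1) :=
    subsingleton_H1_res_ker_gen π ι ψ hι hex hψ hT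
  have hI : Subsingleton (groupCohomology (A.quotientToInvariants π.ker) 1) := by
    have hb := map_toInvHom_bijective π φ hπ hφi hφr 1
    exact (Equiv.ofBijective _ hb).symm.injective.subsingleton
  refine ⟨fun x y => ?_⟩
  have key : ∀ z : groupCohomology A 1, z = 0 := by
    intro z
    have hex1 := H1InfRes_exact A π.ker
    rw [ShortComplex.moduleCat_exact_iff] at hex1
    have hX3 : Subsingleton (H1InfRes A π.ker).X₃ := hK
    have hX1 : Subsingleton (H1InfRes A π.ker).X₁ := hI
    obtain ⟨w, hw⟩ := hex1 z (Subsingleton.elim _ _)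
    have hw0 : w = 0 := Subsingleton.elim _ _
    rw [← hw, hw0]
    exact map_zero _
  rw [key x, key y]

end Main

end Fermat.Agent.CFT
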