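import Fermat.Agent.CFT.Coh.IndexKill

set_option autoImplicit false
set_option linter.unusedSectionVars false

/-!
# Stream A (Coh): `H²(S, ℤ) ≅ Hom(S, ℚ/ℤ)` for a finite group `S`

* `isZero_groupCohomology_trivial_rat` : `Hᵠ⁺¹(S, ℚ) = 0` (uniquely divisible and killed by `|S|`);
* `qzSC S` : the short exact sequence `0 → ℤ → ℚ → ℚ/ℤ → 0` of trivial representations;
* `h2IntShiftIso S q : Hᵠ⁺¹(S, ℚ/ℤ) ≅ Hᵠ⁺²(S, ℤ)` (the connecting homomorphism);
* `h2IntEquivHom S : H²(S, ℤ) ≃+ (Additive S →+ ℚ/ℤ)`.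
-/

namespace Fermat.Agent.CFT

open CategoryTheory groupCohomology Rep

section General

universe u

/-- element-wise criterion for short exactness in `Rep k G` -/
theorem h2Int_shortExact_of_apply {k G : Type u} [CommRing k] [Group G]
    (X : ShortComplex (Rep.{u} k G)) (hinj : Function.Injective X.f.hom)
    (hsurj : Function.Surjective X.g.hom)
    (hex : ∀ x : X.X₂, X.g.hom x = 0 → ∃ y : X.X₁, X.f.hom y = x) : X.ShortExact where
  exact := by
    rw [← ShortComplex.exact_map_iff_of_faithful _ (forget₂ (Rep k G) (ModuleCat k)),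
      ShortComplex.moduleCat_exact_iff]
    intro x hx
    exact hex x hx
  mono_f := (Rep.mono_iff_injective _).2 hinj
  epi_g := (Rep.epi_iff_surjective _).2 hsurj

end General

section Rat

variable (S : Type) [Group S] [Finite S]

/-- multiplication by a nonzero integer on `ℚ`, as an automorphism of the trivial
representation -/
noncomputable def h2Int_mulIso (n : ℕ) (hn : n ≠ 0) :
    Rep.trivial ℤ S ℚ ≅ Rep.trivial ℤ S ℚ :=
  Rep.mkIso
    { toLinearEquiv :=
        { toFun := fun x => (n : ℚ) * x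
          map_add' := fun x y => mul_add _ x y
          map_smul' := fun c x => by simp [mul_left_comm]
          invFun := fun x => (n : ℚ)⁻¹ * x
          left_inv := fun x => by
            have : (n : ℚ) ≠ 0 := by exact_mod_cast hn
            field_simp
          right_inv := fun x => by
            have : (n : ℚ) ≠ 0 := by exact_mod_cast hn
            field_simp }
      isIntertwining' := fun g => by
        ext x
        rfl }

theorem h2Int_mulIso_hom (n : ℕ) (hn : n ≠ 0) :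
    (h2Int_mulIso S n hn).hom = n • 𝟙 (Rep.trivial ℤ S ℚ) := by
  ext x
  change (n : ℚ) * x = n • x
  rw [nsmul_eq_mul]

/-- `Hᵠ⁺¹(S, ℚ) = 0` for a finite group `S`. -/
theorem isZero_groupCohomology_trivial_rat (q : ℕ) :
    Limits.IsZero (groupCohomology (Rep.trivial ℤ S ℚ) (q + 1)) := by
  have hn : Nat.card S ≠ 0 := Nat.card_pos.ne'
  have he : (groupCohomology.functor ℤ S (q + 1)).map (h2Int_mulIso S (Nat.card S) hn).hom = 0 := by
    rw [functor_map, h2Int_mulIso_hom, map_id_nsmul, groupCohomology.map_id]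
    refine ModuleCat.hom_ext (LinearMap.ext fun x => ?_)
    exact natCard_nsmul_eq_zero (Rep.trivial ℤ S ℚ) q x
  have hid := ((groupCohomology.functor ℤ S (q + 1)).mapIso
    (h2Int_mulIso S (Nat.card S) hn)).hom_inv_id
  rw [Functor.mapIso_hom, he, Limits.zero_comp] at hid
  rw [Limits.IsZero.iff_id_eq_zero]
  exact hid.symm

end Rat

/-! ### The sequence `0 → ℤ → ℚ → ℚ/ℤ → 0` -/

section QZ

/-- `ℤ` as a `ℤ`-submodule of `ℚ` -/
def intSubQ : Submodule ℤ ℚ := LinearMap.range (Algebra.linearMap ℤ ℚ)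

/-- `ℚ/ℤ` -/
abbrev QModZ : Type := ℚ ⧸ intSubQ

variable (S : Type) [Group S]

/-- `ℤ ⟶ ℚ` as a morphism of trivial representations -/
noncomputable def qzIncl : Rep.trivial ℤ S ℤ ⟶ Rep.trivial ℤ S ℚ :=
  Rep.ofHom
    { toLinearMap := Algebra.linearMap ℤ ℚ
      isIntertwining' := fun _ => LinearMap.ext fun _ => rfl }

/-- `ℚ ⟶ ℚ/ℤ` as a morphism of trivial representations -/
noncomputable def qzProj : Rep.trivial ℤ S ℚ ⟶ Rep.trivial ℤ S QModZ :=
  Rep.ofHom
    { toLinearMap := intSubQ.mkQ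
      isIntertwining' := fun _ => LinearMap.ext fun _ => rfl }

theorem qzIncl_comp_qzProj : qzIncl S ≫ qzProj S = 0 := by
  ext
  change intSubQ.mkQ (Algebra.linearMap ℤ ℚ 1) = 0
  rw [Submodule.mkQ_apply, Submodule.Quotient.mk_eq_zero]
  exact ⟨1, rfl⟩

/-- the short complex `ℤ ⟶ ℚ ⟶ ℚ/ℤ` of trivial representations of `S` -/
noncomputable def qzSC : ShortComplex (Rep.{0} ℤ S) :=
  ShortComplex.mk (qzIncl S) (qzProj S) (qzIncl_comp_qzProj S)

theorem qzSC_shortExact : (qzSC S).ShortExact := by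
  refine h2Int_shortExact_of_apply (qzSC S) ?_ ?_ ?_
  · intro (a : ℤ) (b : ℤ) (h : ((a : ℤ) : ℚ) = ((b : ℤ) : ℚ))
    exact_mod_cast h
  · exact Submodule.mkQ_surjective intSubQ
  · intro (x : ℚ) (hx : intSubQ.mkQ x = 0)
    rw [Submodule.mkQ_apply, Submodule.Quotient.mk_eq_zero] at hx
    obtain ⟨n, hn⟩ := hx
    exact ⟨n, hn⟩

variable [Finite S]

/-- the connecting isomorphism `Hᵠ⁺¹(S, ℚ/ℤ) ≅ Hᵠ⁺²(S, ℤ)` -/
noncomputable def h2IntShiftIso (q : ℕ) :
    groupCohomology (Rep.trivial ℤ S QModZ) (q + 1) ≅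
      groupCohomology (Rep.trivial ℤ S ℤ) (q + 2) :=
  @asIso _ _ _ _ (groupCohomology.δ (qzSC_shortExact S) (q + 1) (q + 2) rfl)
    (isIso_δ_of_isZero _ (q + 1) (isZero_groupCohomology_trivial_rat S q)
      (isZero_groupCohomology_trivial_rat S (q + 1)))

theorem h2IntShiftIso_hom (q : ℕ) :
    (h2IntShiftIso S q).hom = groupCohomology.δ (qzSC_shortExact S) (q + 1) (q + 2) rfl := rfl

/-- `H²(S, ℤ) ≅ Hom(S, ℚ/ℤ)` for a finite group `S` -/
noncomputable def h2IntIsoHom :
    groupCohomology (Rep.trivial ℤ S ℤ) 2 ≅ ModuleCat.of ℤ (Additive S →+ QModZ) :=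
  (h2IntShiftIso S 0).symm ≪≫ H1IsoOfIsTrivial (Rep.trivial ℤ S QModZ)

/-- `H²(S, ℤ) ≃+ Hom(S, ℚ/ℤ)` for a finite group `S` -/
noncomputable def h2IntEquivHom :
    groupCohomology (Rep.trivial ℤ S ℤ) 2 ≃+ (Additive S →+ QModZ) :=
  (h2IntIsoHom S).toLinearEquiv.toAddEquiv

end QZ

end Fermat.Agent.CFT
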