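import Mathlib

set_option autoImplicit false

/-!
# Herbrand quotients, elementary form (CFT stream [A])

For an abelian group `A` with two endomorphisms `f g` such that `f ∘ g = 0 = g ∘ f` we put
`hIndex f g = [ker f : im g]` (a natural number, `0` if infinite).  For a cyclic group `G = ⟨σ⟩`
acting on `A`, `f = σ - 1`, `g = N` this gives `|Ĥ⁰(G, A)| = hIndex (σ - 1) N` and
`|Ĥ⁻¹(G, A)| = |H¹(G, A)| = hIndex N (σ - 1)`.

Main result: for a subgroup `A'` stable under `f` and `g`,
`hIndex f g * hIndex g' f' * hIndex g'' f'' = hIndex g f * hIndex f' g' * hIndex f'' g''`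
(`'` = restriction to `A'`, `''` = induced on `A ⧸ A'`), *unconditionally* in `ℕ`, together with
the "two out of three" finiteness statement.  The proof is pure index calculus: each of the six
numbers is a product of two of six "atomic" indices.
-/

namespace Fermat.Agent.CFT

open AddSubgroup

section IndexFormula

variable {G H : Type*} [AddCommGroup G] [AddCommGroup H]

/-- Index formula for a homomorphism: `[X : X₀] = [φ X : φ X₀] * [X ∩ ker φ : X₀ ∩ ker φ]`. -/
theorem relIndex_eq_map_mul_ker (φ : G →+ H) {X₀ X : AddSubgroup G} (h : X₀ ≤ X) :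
    X₀.relIndex X = (X₀.map φ).relIndex (X.map φ) * X₀.relIndex (X ⊓ φ.ker) := by
  have hY₁ : X₀ ≤ X₀ ⊔ (X ⊓ φ.ker) := le_sup_left
  have hY₂ : X₀ ⊔ (X ⊓ φ.ker) ≤ X := sup_le h inf_le_left
  rw [← relIndex_mul_relIndex _ _ _ hY₁ hY₂, mul_comm]
  congr 1
  · rw [← relIndex_comap, comap_map_eq, ← inf_relIndex_right (X₀ ⊔ φ.ker) X,
      sup_inf_assoc_of_le _ h, inf_comm φ.ker X]
  · exact relIndex_sup_left _ _

end IndexFormula

section Herbrand

variable {A : Type*} [AddCommGroup A]

/-- `hIndex f g = [ker f : im g]` (`0` if infinite); meaningful when `f ∘ g = 0`. -/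
noncomputable def hIndex (f g : A →+ A) : ℕ := g.range.relIndex f.ker

theorem range_le_ker {f g : A →+ A} (hfg : ∀ a, f (g a) = 0) : g.range ≤ f.ker := by
  rintro _ ⟨a, rfl⟩
  exact hfg a

/-- restriction of an endomorphism to a stable subgroup -/
def subHom (f : A →+ A) (A' : AddSubgroup A) (hf : ∀ a ∈ A', f a ∈ A') : A' →+ A' :=
  (f.comp A'.subtype).codRestrict A' fun a => hf a a.2

@[simp]
theorem coe_subHom (f : A →+ A) (A' : AddSubgroup A) (hf : ∀ a ∈ A', f a ∈ A') (a : A') :
    (subHom f A' hf a : A) = f a := rfl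

/-- the endomorphism induced on the quotient by a stable subgroup -/
def quotHom (f : A →+ A) (A' : AddSubgroup A) (hf : ∀ a ∈ A', f a ∈ A') : A ⧸ A' →+ A ⧸ A' :=
  QuotientAddGroup.map A' A' f fun a ha => hf a ha

@[simp]
theorem quotHom_mk (f : A →+ A) (A' : AddSubgroup A) (hf : ∀ a ∈ A', f a ∈ A') (a : A) :
    quotHom f A' hf (QuotientAddGroup.mk a) = QuotientAddGroup.mk (f a) := rfl

/-- atomic index `α = [ker f : im g + (A' ∩ ker f)]` -/
noncomputable def hAlpha (f g : A →+ A) (A' : AddSubgroup A) : ℕ :=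
  (g.range ⊔ (A' ⊓ f.ker)).relIndex f.ker

/-- atomic index `β = [A' ∩ ker f : A' ∩ im g]` -/
noncomputable def hBeta (f g : A →+ A) (A' : AddSubgroup A) : ℕ :=
  (A' ⊓ g.range).relIndex (A' ⊓ f.ker)

/-- atomic index `γ = [A' ∩ im f : f A']` -/
noncomputable def hGamma (f : A →+ A) (A' : AddSubgroup A) : ℕ :=
  (A'.map f).relIndex (A' ⊓ f.range)

variable {f g : A →+ A} (hfg : ∀ a, f (g a) = 0) (A' : AddSubgroup A)
  (hf : ∀ a ∈ A', f a ∈ A') (hg : ∀ a ∈ A', g a ∈ A')

include hfg in
theorem hIndex_eq_alpha_mul_beta : hIndex f g = hAlpha f g A' * hBeta f g A' := by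
  have hle := range_le_ker hfg
  unfold hIndex hAlpha hBeta
  have h1 : g.range ≤ g.range ⊔ (A' ⊓ f.ker) := le_sup_left
  have h2 : g.range ⊔ (A' ⊓ f.ker) ≤ f.ker := sup_le hle inf_le_right
  rw [← relIndex_mul_relIndex _ _ _ h1 h2, mul_comm]
  congr 1
  rw [relIndex_sup_left, ← inf_relIndex_right g.range (A' ⊓ f.ker)]
  congr 1
  rw [inf_comm, inf_assoc, inf_eq_right.mpr hle]

include hfg hg in
theorem hIndex_subHom :
    hIndex (subHom f A' hf) (subHom g A' hg) = hBeta f g A' * hGamma g A' := by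
  have hle := range_le_ker hfg
  unfold hIndex hBeta hGamma
  have e1 : (subHom g A' hg).range.map A'.subtype = A'.map g := by
    ext x
    simp only [AddSubgroup.mem_map, AddMonoidHom.mem_range, AddSubgroup.coe_subtype]
    constructor
    · rintro ⟨_, ⟨a, rfl⟩, rfl⟩
      exact ⟨a, a.2, rfl⟩
    · rintro ⟨a, ha, rfl⟩
      exact ⟨subHom g A' hg ⟨a, ha⟩, ⟨⟨a, ha⟩, rfl⟩, rfl⟩
  have e2 : (subHom f A' hf).ker.map A'.subtype = A' ⊓ f.ker := by
    ext x
    simp only [AddSubgroup.mem_map, AddMonoidHom.mem_ker, AddSubgroup.coe_subtype,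
      AddSubgroup.mem_inf]
    constructor
    · rintro ⟨a, ha, rfl⟩
      exact ⟨a.2, by simpa using congrArg Subtype.val ha⟩
    · rintro ⟨hx, hx0⟩
      exact ⟨⟨x, hx⟩, Subtype.ext (by simpa using hx0), rfl⟩
  rw [← relIndex_map_map_of_injective _ _ A'.subtype_injective, e1, e2]
  have h1 : A'.map g ≤ A' ⊓ g.range := by
    rintro _ ⟨a, ha, rfl⟩
    exact ⟨hg a ha, a, rfl⟩
  have h2 : A' ⊓ g.range ≤ A' ⊓ f.ker := inf_le_inf_left _ hle
  rw [← relIndex_mul_relIndex _ _ _ h1 h2, mul_comm]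

include hfg in
theorem hIndex_quotHom :
    hIndex (quotHom f A' hf) (quotHom g A' hg) = hGamma f A' * hAlpha f g A' := by
  have hle := range_le_ker hfg
  unfold hIndex hGamma hAlpha
  have hsurj : Function.Surjective (QuotientAddGroup.mk' A') := QuotientAddGroup.mk'_surjective A'
  -- pull back along the projection
  have e1 : (quotHom g A' hg).range.comap (QuotientAddGroup.mk' A') = g.range ⊔ A' := by
    ext x
    simp only [AddSubgroup.mem_comap, AddMonoidHom.mem_range, QuotientAddGroup.mk'_apply]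
    constructor
    · rintro ⟨y, hy⟩
      obtain ⟨a, rfl⟩ := hsurj y
      rw [QuotientAddGroup.mk'_apply, quotHom_mk, QuotientAddGroup.eq] at hy
      have : x = g a + (-(g a) + x) := by abel
      rw [this]
      exact AddSubgroup.add_mem_sup ⟨a, rfl⟩ hy
    · intro hx
      obtain ⟨y, ⟨a, rfl⟩, z, hz, rfl⟩ := AddSubgroup.mem_sup.mp hx
      refine ⟨QuotientAddGroup.mk a, ?_⟩
      rw [quotHom_mk, QuotientAddGroup.eq]
      simpa using hz
  have e2 : (quotHom f A' hf).ker.comap (QuotientAddGroup.mk' A') = A'.comap f := by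
    ext x
    simp only [AddSubgroup.mem_comap, AddMonoidHom.mem_ker, QuotientAddGroup.mk'_apply, quotHom_mk,
      QuotientAddGroup.eq_zero_iff]
  have e3 : (quotHom g A' hg).range.relIndex (quotHom f A' hf).ker =
      (g.range ⊔ A').relIndex (A'.comap f) := by
    rw [← e1, ← e2, relIndex_comap, AddSubgroup.map_comap_eq_self_of_surjective hsurj]
  rw [e3]
  have hX : g.range ⊔ A' ≤ A'.comap f := by
    refine sup_le ?_ fun a ha => hf a ha
    rintro _ ⟨a, rfl⟩
    simp [hfg a]
  rw [relIndex_eq_map_mul_ker f hX]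
  congr 1
  · congr 1
    · -- f (im g + A') = f A'
      rw [AddSubgroup.map_sup]
      have : g.range.map f = ⊥ := by
        rw [eq_bot_iff]
        rintro _ ⟨_, ⟨a, rfl⟩, rfl⟩
        simp [hfg a]
      rw [this, bot_sup_eq]
    · rw [AddSubgroup.map_comap_eq, inf_comm]
  · -- [f⁻¹ A' ∩ ker f : im g + A'] = [ker f : im g + (A' ∩ ker f)]
    have hk : A'.comap f ⊓ f.ker = f.ker := by
      apply inf_eq_right.mpr
      intro a ha
      simp only [AddSubgroup.mem_comap]
      rw [AddMonoidHom.mem_ker.mp ha]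
      exact A'.zero_mem
    rw [hk, ← inf_relIndex_right (g.range ⊔ A') f.ker, sup_inf_assoc_of_le _ hle]

variable (hgf : ∀ a, g (f a) = 0)

include hfg hgf in
/-- **Multiplicativity of the Herbrand quotient**, unconditional form in `ℕ`. -/
theorem hIndex_mul_mul :
    hIndex f g * hIndex (subHom g A' hg) (subHom f A' hf) * hIndex (quotHom g A' hg) (quotHom f A' hf)
      = hIndex g f * hIndex (subHom f A' hf) (subHom g A' hg) *
        hIndex (quotHom f A' hf) (quotHom g A' hg) := by
  rw [hIndex_eq_alpha_mul_beta hfg A', hIndex_eq_alpha_mul_beta hgf A',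
    hIndex_subHom hfg A' hf hg, hIndex_subHom hgf A' hg hf,
    hIndex_quotHom hfg A' hf hg, hIndex_quotHom hgf A' hg hf]
  ring

include hfg hgf in
/-- all six atomic indices are nonzero iff the Herbrand quotients of `A` and `A'` are defined -/
theorem atoms_ne_zero_of_total_of_sub
    (h1 : hIndex f g ≠ 0) (h2 : hIndex g f ≠ 0)
    (h3 : hIndex (subHom f A' hf) (subHom g A' hg) ≠ 0)
    (h4 : hIndex (subHom g A' hg) (subHom f A' hf) ≠ 0) :
    hIndex (quotHom f A' hf) (quotHom g A' hg) ≠ 0 ∧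
      hIndex (quotHom g A' hg) (quotHom f A' hf) ≠ 0 := by
  rw [hIndex_eq_alpha_mul_beta hfg A'] at h1
  rw [hIndex_eq_alpha_mul_beta hgf A'] at h2
  rw [hIndex_subHom hfg A' hf hg] at h3
  rw [hIndex_subHom hgf A' hg hf] at h4
  rw [hIndex_quotHom hfg A' hf hg, hIndex_quotHom hgf A' hg hf]
  exact ⟨mul_ne_zero (right_ne_zero_of_mul h4) (left_ne_zero_of_mul h1),
    mul_ne_zero (right_ne_zero_of_mul h3) (left_ne_zero_of_mul h2)⟩

include hfg hgf in
theorem atoms_ne_zero_of_total_of_quot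
    (h1 : hIndex f g ≠ 0) (h2 : hIndex g f ≠ 0)
    (h5 : hIndex (quotHom f A' hf) (quotHom g A' hg) ≠ 0)
    (h6 : hIndex (quotHom g A' hg) (quotHom f A' hf) ≠ 0) :
    hIndex (subHom f A' hf) (subHom g A' hg) ≠ 0 ∧
      hIndex (subHom g A' hg) (subHom f A' hf) ≠ 0 := by
  rw [hIndex_eq_alpha_mul_beta hfg A'] at h1
  rw [hIndex_eq_alpha_mul_beta hgf A'] at h2
  rw [hIndex_quotHom hfg A' hf hg] at h5
  rw [hIndex_quotHom hgf A' hg hf] at h6
  rw [hIndex_subHom hfg A' hf hg, hIndex_subHom hgf A' hg hf]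
  exact ⟨mul_ne_zero (right_ne_zero_of_mul h1) (left_ne_zero_of_mul h6),
    mul_ne_zero (right_ne_zero_of_mul h2) (left_ne_zero_of_mul h5)⟩

include hfg hgf in
theorem atoms_ne_zero_of_sub_of_quot
    (h3 : hIndex (subHom f A' hf) (subHom g A' hg) ≠ 0)
    (h4 : hIndex (subHom g A' hg) (subHom f A' hf) ≠ 0)
    (h5 : hIndex (quotHom f A' hf) (quotHom g A' hg) ≠ 0)
    (h6 : hIndex (quotHom g A' hg) (quotHom f A' hf) ≠ 0) :
    hIndex f g ≠ 0 ∧ hIndex g f ≠ 0 := by
  rw [hIndex_subHom hfg A' hf hg] at h3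
  rw [hIndex_subHom hgf A' hg hf] at h4
  rw [hIndex_quotHom hfg A' hf hg] at h5
  rw [hIndex_quotHom hgf A' hg hf] at h6
  rw [hIndex_eq_alpha_mul_beta hfg A', hIndex_eq_alpha_mul_beta hgf A']
  exact ⟨mul_ne_zero (right_ne_zero_of_mul h5) (left_ne_zero_of_mul h3),
    mul_ne_zero (right_ne_zero_of_mul h6) (left_ne_zero_of_mul h4)⟩

end Herbrand

section Quotient

variable {A : Type*} [AddCommGroup A]

/-- The Herbrand quotient `q(A) = [ker f : im g] / [ker g : im f]` as a rational number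
(junk value `0` or `x / 0 = 0` when not defined). -/
noncomputable def hIndexQ (f g : A →+ A) : ℚ := (hIndex f g : ℚ) / (hIndex g f : ℚ)

/-- the Herbrand quotient is defined: both indices are finite -/
def HerbrandDefined (f g : A →+ A) : Prop := hIndex f g ≠ 0 ∧ hIndex g f ≠ 0

theorem HerbrandDefined.symm {f g : A →+ A} (h : HerbrandDefined f g) : HerbrandDefined g f :=
  ⟨h.2, h.1⟩

theorem hIndexQ_ne_zero {f g : A →+ A} (h : HerbrandDefined f g) : hIndexQ f g ≠ 0 := by
  unfold hIndexQ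
  exact div_ne_zero (Nat.cast_ne_zero.mpr h.1) (Nat.cast_ne_zero.mpr h.2)

variable {f g : A →+ A} (hfg : ∀ a, f (g a) = 0) (hgf : ∀ a, g (f a) = 0) (A' : AddSubgroup A)
  (hf : ∀ a ∈ A', f a ∈ A') (hg : ∀ a ∈ A', g a ∈ A')

include hfg hgf in
/-- **Multiplicativity of the Herbrand quotient** `q(A) = q(A') q(A/A')`, valid as soon as all
three are defined (see the `atoms_ne_zero_*` lemmas / `HerbrandDefined.of_*` for two-out-of-three).
-/
theorem hIndexQ_eq_mul
    (h : HerbrandDefined f g)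
    (h' : HerbrandDefined (subHom f A' hf) (subHom g A' hg))
    (h'' : HerbrandDefined (quotHom f A' hf) (quotHom g A' hg)) :
    hIndexQ f g = hIndexQ (subHom f A' hf) (subHom g A' hg) *
      hIndexQ (quotHom f A' hf) (quotHom g A' hg) := by
  have key := hIndex_mul_mul hfg A' hf hg hgf
  unfold hIndexQ
  have e : ((hIndex f g : ℚ) * hIndex (subHom g A' hg) (subHom f A' hf) *
      hIndex (quotHom g A' hg) (quotHom f A' hf)) =
      (hIndex g f : ℚ) * hIndex (subHom f A' hf) (subHom g A' hg) *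
        hIndex (quotHom f A' hf) (quotHom g A' hg) := by exact_mod_cast key
  have n1 : (hIndex g f : ℚ) ≠ 0 := Nat.cast_ne_zero.mpr h.2
  have n2 : (hIndex (subHom g A' hg) (subHom f A' hf) : ℚ) ≠ 0 := Nat.cast_ne_zero.mpr h'.2
  have n3 : (hIndex (quotHom g A' hg) (quotHom f A' hf) : ℚ) ≠ 0 := Nat.cast_ne_zero.mpr h''.2
  field_simp
  linear_combination e

include hfg hgf in
theorem HerbrandDefined.quot_of_total_of_sub (h : HerbrandDefined f g)
    (h' : HerbrandDefined (subHom f A' hf) (subHom g A' hg)) :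
    HerbrandDefined (quotHom f A' hf) (quotHom g A' hg) :=
  atoms_ne_zero_of_total_of_sub hfg A' hf hg hgf h.1 h.2 h'.1 h'.2

include hfg hgf in
theorem HerbrandDefined.sub_of_total_of_quot (h : HerbrandDefined f g)
    (h'' : HerbrandDefined (quotHom f A' hf) (quotHom g A' hg)) :
    HerbrandDefined (subHom f A' hf) (subHom g A' hg) :=
  atoms_ne_zero_of_total_of_quot hfg A' hf hg hgf h.1 h.2 h''.1 h''.2

include hfg hgf in
theorem HerbrandDefined.total_of_sub_of_quot
    (h' : HerbrandDefined (subHom f A' hf) (subHom g A' hg))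
    (h'' : HerbrandDefined (quotHom f A' hf) (quotHom g A' hg)) :
    HerbrandDefined f g :=
  atoms_ne_zero_of_sub_of_quot hfg A' hf hg hgf h'.1 h'.2 h''.1 h''.2

end Quotient

section Finite

variable {A : Type*} [AddCommGroup A]

/-- For a finite group, `[ker f : im g] = [ker g : im f]` and both are positive: `q(A) = 1`. -/
theorem hIndex_eq_of_finite [Finite A] {f g : A →+ A} (hfg : ∀ a, f (g a) = 0)
    (hgf : ∀ a, g (f a) = 0) : hIndex f g = hIndex g f ∧ hIndex f g ≠ 0 := by
  have hle := range_le_ker hfg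
  have hle' := range_le_ker hgf
  -- |ker f| * |im f| = |A| = |ker g| * |im g|
  have c1 : Nat.card f.ker * Nat.card f.range = Nat.card A := by
    have := AddSubgroup.card_mul_index f.ker
    rwa [AddSubgroup.index_ker] at this
  have c2 : Nat.card g.ker * Nat.card g.range = Nat.card A := by
    have := AddSubgroup.card_mul_index g.ker
    rwa [AddSubgroup.index_ker] at this
  -- [ker f : im g] * |im g| = |ker f|
  have d1 : hIndex f g * Nat.card g.range = Nat.card f.ker := by
    unfold hIndex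
    rw [mul_comm, ← AddSubgroup.relIndex_bot_left, ← AddSubgroup.relIndex_bot_left,
      relIndex_mul_relIndex _ _ _ bot_le hle]
  have d2 : hIndex g f * Nat.card f.range = Nat.card g.ker := by
    unfold hIndex
    rw [mul_comm, ← AddSubgroup.relIndex_bot_left, ← AddSubgroup.relIndex_bot_left,
      relIndex_mul_relIndex _ _ _ bot_le hle']
  have pA : 0 < Nat.card A := Nat.card_pos
  have p1 : 0 < Nat.card f.range := Nat.card_pos
  have p2 : 0 < Nat.card g.range := Nat.card_pos
  have key : hIndex f g * (Nat.card g.range * Nat.card f.range) =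
      hIndex g f * (Nat.card g.range * Nat.card f.range) := by
    calc hIndex f g * (Nat.card g.range * Nat.card f.range)
        = (hIndex f g * Nat.card g.range) * Nat.card f.range := by ring
      _ = Nat.card A := by rw [d1, c1]
      _ = (hIndex g f * Nat.card f.range) * Nat.card g.range := by rw [d2, c2]
      _ = hIndex g f * (Nat.card g.range * Nat.card f.range) := by ring
  refine ⟨Nat.eq_of_mul_eq_mul_right (Nat.mul_pos p2 p1) key, ?_⟩
  intro h0
  rw [h0, zero_mul] at d1
  have : 0 < Nat.card f.ker := Nat.card_pos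
  omega

theorem herbrandDefined_of_finite [Finite A] {f g : A →+ A} (hfg : ∀ a, f (g a) = 0)
    (hgf : ∀ a, g (f a) = 0) : HerbrandDefined f g := by
  obtain ⟨h1, h2⟩ := hIndex_eq_of_finite hfg hgf
  exact ⟨h2, h1 ▸ h2⟩

theorem hIndexQ_of_finite [Finite A] {f g : A →+ A} (hfg : ∀ a, f (g a) = 0)
    (hgf : ∀ a, g (f a) = 0) : hIndexQ f g = 1 := by
  obtain ⟨h1, h2⟩ := hIndex_eq_of_finite hfg hgf
  unfold hIndexQ
  rw [← h1]
  exact div_self (Nat.cast_ne_zero.mpr h2)

end Finite

section FiniteIndex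

variable {A : Type*} [AddCommGroup A]
variable {f g : A →+ A} (hfg : ∀ a, f (g a) = 0) (hgf : ∀ a, g (f a) = 0) (A' : AddSubgroup A)
  (hf : ∀ a ∈ A', f a ∈ A') (hg : ∀ a ∈ A', g a ∈ A')

theorem quotHom_comp_eq_zero {f g : A →+ A} (hfg : ∀ a, f (g a) = 0) (A' : AddSubgroup A)
    (hf : ∀ a ∈ A', f a ∈ A') (hg : ∀ a ∈ A', g a ∈ A') (x : A ⧸ A') :
    quotHom f A' hf (quotHom g A' hg x) = 0 := by
  obtain ⟨a, rfl⟩ := QuotientAddGroup.mk_surjective x
  rw [quotHom_mk, quotHom_mk, hfg, QuotientAddGroup.mk_zero]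

theorem subHom_comp_eq_zero {f g : A →+ A} (hfg : ∀ a, f (g a) = 0) (A' : AddSubgroup A)
    (hf : ∀ a ∈ A', f a ∈ A') (hg : ∀ a ∈ A', g a ∈ A') (x : A') :
    subHom f A' hf (subHom g A' hg x) = 0 :=
  Subtype.ext (by simp [hfg])

include hfg hgf in
/-- A stable subgroup of finite index has the same Herbrand quotient (definedness). -/
theorem herbrandDefined_iff_of_finiteIndex [A'.FiniteIndex] :
    HerbrandDefined f g ↔ HerbrandDefined (subHom f A' hf) (subHom g A' hg) := by
  have : Finite (A ⧸ A') := A'.finite_quotient_of_finiteIndex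
  have hq : HerbrandDefined (quotHom f A' hf) (quotHom g A' hg) :=
    herbrandDefined_of_finite (quotHom_comp_eq_zero hfg A' hf hg)
      (quotHom_comp_eq_zero hgf A' hg hf)
  exact ⟨fun h => h.sub_of_total_of_quot hfg hgf A' hf hg hq,
    fun h => h.total_of_sub_of_quot hfg hgf A' hf hg hq⟩

include hfg hgf in
/-- A stable subgroup of finite index has the same Herbrand quotient. -/
theorem hIndexQ_eq_of_finiteIndex [A'.FiniteIndex] (h : HerbrandDefined f g) :
    hIndexQ f g = hIndexQ (subHom f A' hf) (subHom g A' hg) := by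
  have : Finite (A ⧸ A') := A'.finite_quotient_of_finiteIndex
  have hq : HerbrandDefined (quotHom f A' hf) (quotHom g A' hg) :=
    herbrandDefined_of_finite (quotHom_comp_eq_zero hfg A' hf hg)
      (quotHom_comp_eq_zero hgf A' hg hf)
  rw [hIndexQ_eq_mul hfg hgf A' hf hg h (h.sub_of_total_of_quot hfg hgf A' hf hg hq) hq,
    hIndexQ_of_finite (quotHom_comp_eq_zero hfg A' hf hg) (quotHom_comp_eq_zero hgf A' hg hf),
    mul_one]

end FiniteIndex

section Equiv

variable {A B : Type*} [AddCommGroup A] [AddCommGroup B]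

/-- invariance under isomorphism -/
theorem hIndex_congr (e : A ≃+ B) {f g : A →+ A} {f₂ g₂ : B →+ B}
    (hf : ∀ a, e (f a) = f₂ (e a)) (hg : ∀ a, e (g a) = g₂ (e a)) :
    hIndex f g = hIndex f₂ g₂ := by
  unfold hIndex
  have e1 : g.range.map e.toAddMonoidHom = g₂.range := by
    ext b
    simp only [AddSubgroup.mem_map, AddMonoidHom.mem_range, AddEquiv.coe_toAddMonoidHom]
    constructor
    · rintro ⟨_, ⟨a, rfl⟩, rfl⟩
      exact ⟨e a, (hg a).symm⟩
    · rintro ⟨b', rfl⟩
      refine ⟨g (e.symm b'), ⟨_, rfl⟩, ?_⟩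
      rw [hg, e.apply_symm_apply]
  have e2 : f.ker.map e.toAddMonoidHom = f₂.ker := by
    ext b
    simp only [AddSubgroup.mem_map, AddMonoidHom.mem_ker, AddEquiv.coe_toAddMonoidHom]
    constructor
    · rintro ⟨a, ha, rfl⟩
      rw [← hf, ha, map_zero]
    · intro hb
      refine ⟨e.symm b, ?_, e.apply_symm_apply b⟩
      apply e.injective
      rw [hf, e.apply_symm_apply, hb, map_zero]
  rw [← e1, ← e2, relIndex_map_map_of_injective _ _ e.injective]

theorem hIndexQ_congr (e : A ≃+ B) {f g : A →+ A} {f₂ g₂ : B →+ B}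
    (hf : ∀ a, e (f a) = f₂ (e a)) (hg : ∀ a, e (g a) = g₂ (e a)) :
    hIndexQ f g = hIndexQ f₂ g₂ := by
  unfold hIndexQ
  rw [hIndex_congr e hf hg, hIndex_congr e hg hf]

theorem herbrandDefined_congr (e : A ≃+ B) {f g : A →+ A} {f₂ g₂ : B →+ B}
    (hf : ∀ a, e (f a) = f₂ (e a)) (hg : ∀ a, e (g a) = g₂ (e a)) :
    HerbrandDefined f g ↔ HerbrandDefined f₂ g₂ := by
  unfold HerbrandDefined
  rw [hIndex_congr e hf hg, hIndex_congr e hg hf]

end Equiv

section Exact

/-! ### Short exact sequences `0 → A' → A → A'' → 0` with compatible endomorphisms -/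

variable {A' A A'' : Type*} [AddCommGroup A'] [AddCommGroup A] [AddCommGroup A'']
variable (ι : A' →+ A) (π : A →+ A'') (hι : Function.Injective ι) (hπ : Function.Surjective π)
  (hex : ι.range = π.ker)
variable {f' g' : A' →+ A'} {f g : A →+ A} {f'' g'' : A'' →+ A''}
  (hfι : ∀ a, ι (f' a) = f (ι a)) (hgι : ∀ a, ι (g' a) = g (ι a))
  (hfπ : ∀ a, π (f a) = f'' (π a)) (hgπ : ∀ a, π (g a) = g'' (π a))

include hfι in
theorem range_stable : ∀ a ∈ ι.range, f a ∈ ι.range := by
  rintro _ ⟨a, rfl⟩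
  exact ⟨f' a, hfι a⟩

include hι hfι hgι in
theorem hIndex_sub_eq :
    hIndex (subHom f ι.range (range_stable ι hfι)) (subHom g ι.range (range_stable ι hgι)) =
      hIndex f' g' := by
  symm
  refine hIndex_congr (AddMonoidHom.ofInjective hι) ?_ ?_
  · intro a
    apply Subtype.ext
    exact hfι a
  · intro a
    apply Subtype.ext
    exact hgι a

include hπ hex hfπ hgπ hfι hgι in
theorem hIndex_quot_eq :
    hIndex (quotHom f ι.range (range_stable ι hfι)) (quotHom g ι.range (range_stable ι hgι)) =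
      hIndex f'' g'' := by
  let e : A ⧸ ι.range ≃+ A'' :=
    (QuotientAddGroup.quotientAddEquivOfEq hex).trans
      (QuotientAddGroup.quotientKerEquivOfSurjective π hπ)
  have he : ∀ a : A, e (QuotientAddGroup.mk a) = π a := fun a => rfl
  refine hIndex_congr e ?_ ?_
  · intro x
    obtain ⟨a, rfl⟩ := QuotientAddGroup.mk_surjective x
    rw [quotHom_mk, he, he, hfπ]
  · intro x
    obtain ⟨a, rfl⟩ := QuotientAddGroup.mk_surjective x
    rw [quotHom_mk, he, he, hgπ]

variable (hfg : ∀ a, f (g a) = 0) (hgf : ∀ a, g (f a) = 0)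

include hι hπ hex hfι hgι hfπ hgπ hfg hgf in
/-- **Multiplicativity of the Herbrand quotient for a short exact sequence**, in `ℕ`. -/
theorem hIndex_mul_mul_of_exact :
    hIndex f g * hIndex g' f' * hIndex g'' f'' = hIndex g f * hIndex f' g' * hIndex f'' g'' := by
  have key := hIndex_mul_mul hfg ι.range (range_stable ι hfι) (range_stable ι hgι) hgf
  rw [hIndex_sub_eq ι hι hfι hgι, hIndex_sub_eq ι hι hgι hfι,
    hIndex_quot_eq ι π hπ hex hfι hgι hfπ hgπ, hIndex_quot_eq ι π hπ hex hgι hfι hgπ hfπ] at key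
  exact key

include hι hπ hex hfι hgι hfπ hgπ hfg hgf in
theorem herbrandDefined_of_exact_left_right (h' : HerbrandDefined f' g')
    (h'' : HerbrandDefined f'' g'') : HerbrandDefined f g := by
  have a := h'
  have b := h''
  unfold HerbrandDefined at a b
  rw [← hIndex_sub_eq ι hι hfι hgι, ← hIndex_sub_eq ι hι hgι hfι] at a
  rw [← hIndex_quot_eq ι π hπ hex hfι hgι hfπ hgπ, ← hIndex_quot_eq ι π hπ hex hgι hfι hgπ hfπ] at b
  exact HerbrandDefined.total_of_sub_of_quot hfg hgf ι.range _ _ a b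

include hι hπ hex hfι hgι hfπ hgπ hfg hgf in
theorem herbrandDefined_of_exact_mid_left (h : HerbrandDefined f g)
    (h' : HerbrandDefined f' g') : HerbrandDefined f'' g'' := by
  have a := h'
  unfold HerbrandDefined at a
  rw [← hIndex_sub_eq ι hι hfι hgι, ← hIndex_sub_eq ι hι hgι hfι] at a
  have := HerbrandDefined.quot_of_total_of_sub hfg hgf ι.range _ _ h a
  unfold HerbrandDefined at this
  rwa [hIndex_quot_eq ι π hπ hex hfι hgι hfπ hgπ, hIndex_quot_eq ι π hπ hex hgι hfι hgπ hfπ] at this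

include hι hπ hex hfι hgι hfπ hgπ hfg hgf in
theorem herbrandDefined_of_exact_mid_right (h : HerbrandDefined f g)
    (h'' : HerbrandDefined f'' g'') : HerbrandDefined f' g' := by
  have b := h''
  unfold HerbrandDefined at b
  rw [← hIndex_quot_eq ι π hπ hex hfι hgι hfπ hgπ, ← hIndex_quot_eq ι π hπ hex hgι hfι hgπ hfπ] at b
  have := HerbrandDefined.sub_of_total_of_quot hfg hgf ι.range _ _ h b
  unfold HerbrandDefined at this
  rwa [hIndex_sub_eq ι hι hfι hgι, hIndex_sub_eq ι hι hgι hfι] at this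

include hι hπ hex hfι hgι hfπ hgπ hfg hgf in
/-- `q(A) = q(A') q(A'')` for a short exact sequence, when all three are defined. -/
theorem hIndexQ_eq_mul_of_exact (h : HerbrandDefined f g) (h' : HerbrandDefined f' g')
    (h'' : HerbrandDefined f'' g'') :
    hIndexQ f g = hIndexQ f' g' * hIndexQ f'' g'' := by
  have key := hIndex_mul_mul_of_exact ι π hι hπ hex hfι hgι hfπ hgπ hfg hgf
  unfold hIndexQ
  have e : ((hIndex f g : ℚ) * hIndex g' f' * hIndex g'' f'') =
      (hIndex g f : ℚ) * hIndex f' g' * hIndex f'' g'' := by exact_mod_cast key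
  have n1 : (hIndex g f : ℚ) ≠ 0 := Nat.cast_ne_zero.mpr h.2
  have n2 : (hIndex g' f' : ℚ) ≠ 0 := Nat.cast_ne_zero.mpr h'.2
  have n3 : (hIndex g'' f'' : ℚ) ≠ 0 := Nat.cast_ne_zero.mpr h''.2
  field_simp
  linear_combination e

end Exact

end Fermat.Agent.CFT
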