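import Mathlib
import Fermat.Agent.CFT.Coh.IndexKill

/-!
# Sylow bound for the order of a cohomology group

For a finite group `G` and a representation `M`: if for every prime `p ∣ |G|` there is a Sylow
`p`-subgroup `P` with `Hⁿ⁺¹(P, M)` finite of order dividing `|P|`, then `Hⁿ⁺¹(G, M)` is finite of
order dividing `|G|`.
-/

namespace Fermat.Agent.CFT

open CategoryTheory Rep groupCohomology

universe u

section IndexCard

variable {k G : Type u} [CommRing k] [Group G] [Finite G] (M : Rep k G)

/-- **Finiteness from Sylow subgroups.** If `Hⁿ⁺¹(P, M)` is finite for one Sylow `p`-subgroup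
`P` for every prime `p ∣ |G|`, then `Hⁿ⁺¹(G, M)` is finite. -/
theorem finite_groupCohomology_of_sylow (n : ℕ)
    (h : ∀ (p : ℕ) [Fact p.Prime], p ∣ Nat.card G → ∃ P : Sylow p G,
      Finite (groupCohomology (res (P : Subgroup G).subtype M) (n + 1))) :
    Finite (groupCohomology M (n + 1)) := by
  classical
  have key : ∀ p : (Nat.card G).primeFactors, ∃ P : Sylow p.1 G,
      Finite (groupCohomology (res (P : Subgroup G).subtype M) (n + 1)) := fun p =>
    @h p.1 ⟨Nat.prime_of_mem_primeFactors p.2⟩ (Nat.dvd_of_mem_primeFactors p.2)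
  choose P hP using key
  have : ∀ p, Finite (groupCohomology (res (P p : Subgroup G).subtype M) (n + 1)) := hP
  let φ : groupCohomology M (n + 1) →
      ∀ p : (Nat.card G).primeFactors, groupCohomology (res (P p : Subgroup G).subtype M) (n + 1) :=
    fun x p => (shapiroRes (P p : Subgroup G) M (n + 1)).hom x
  have hφ : Function.Injective φ := by
    intro x y hxy
    have h0 : x - y = 0 := by
      refine eq_zero_of_shapiroRes_sylow M (n + 1) (x - y) (natCard_nsmul_eq_zero M n _) ?_
      intro p _ hp
      have hmem : p ∈ (Nat.card G).primeFactors :=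
        Nat.mem_primeFactors.mpr ⟨Fact.out, hp, Nat.card_pos.ne'⟩
      refine ⟨P ⟨p, hmem⟩, ?_⟩
      have h1 := congrFun hxy ⟨p, hmem⟩
      simp only [φ] at h1
      rw [map_sub, h1, sub_self]
    exact sub_eq_zero.mp h0
  exact Finite.of_injective φ hφ

/-- **Order bound from Sylow subgroups.** -/
theorem natCard_groupCohomology_dvd_of_sylow (n : ℕ) [Finite (groupCohomology M (n + 1))]
    (h : ∀ (p : ℕ) [Fact p.Prime], p ∣ Nat.card G → ∃ P : Sylow p G,
      Finite (groupCohomology (res (P : Subgroup G).subtype M) (n + 1)) ∧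
      Nat.card (groupCohomology (res (P : Subgroup G).subtype M) (n + 1)) ∣
        Nat.card (P : Subgroup G)) :
    Nat.card (groupCohomology M (n + 1)) ∣ Nat.card G := by
  classical
  rw [Nat.dvd_iff_prime_pow_dvd_dvd]
  intro p j hp hpj
  have : Fact p.Prime := ⟨hp⟩
  obtain ⟨K, hK⟩ := Sylow.exists_subgroup_card_pow_prime
    (G := Multiplicative (groupCohomology M (n + 1))) p (n := j) hpj
  -- every element of `K` is killed by `p ^ j`
  have hkill : ∀ x : K, p ^ j • Multiplicative.toAdd (x : Multiplicative (groupCohomology M (n + 1))) = 0 := by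
    intro x
    have h1 : x ^ Nat.card K = 1 := pow_card_eq_one'
    rw [hK] at h1
    have h2 := congrArg (fun y : K => Multiplicative.toAdd (y : Multiplicative (groupCohomology M (n + 1)))) h1
    simpa using h2
  by_cases hpG : p ∣ Nat.card G
  · obtain ⟨P, hfin, hdvd⟩ := h p hpG
    let ψ : groupCohomology M (n + 1) →+ groupCohomology (res (P : Subgroup G).subtype M) (n + 1) :=
      (shapiroRes (P : Subgroup G) M (n + 1)).hom.toAddMonoidHom
    let f : K →* Multiplicative (groupCohomology (res (P : Subgroup G).subtype M) (n + 1)) :=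
      (AddMonoidHom.toMultiplicative ψ).comp K.subtype
    have hf : Function.Injective f := by
      rw [injective_iff_map_eq_one]
      intro x hx
      have h1 : (shapiroRes (P : Subgroup G) M (n + 1)).hom
          (Multiplicative.toAdd (x : Multiplicative (groupCohomology M (n + 1)))) = 0 := by
        have := congrArg Multiplicative.toAdd hx
        simpa [f, ψ] using this
      have h2 := eq_zero_of_pPrimary_of_shapiroRes M (n + 1) p P _ (hkill x) h1
      apply Subtype.ext
      exact congrArg Multiplicative.ofAdd h2
    have h3 := Subgroup.card_dvd_of_injective f hf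
    rw [hK] at h3
    have h4 : Nat.card (Multiplicative (groupCohomology (res (P : Subgroup G).subtype M) (n + 1))) =
        Nat.card (groupCohomology (res (P : Subgroup G).subtype M) (n + 1)) := rfl
    rw [h4] at h3
    exact (h3.trans hdvd).trans (Subgroup.card_subgroup_dvd_card _)
  · -- `K` is trivial
    have hcop : Nat.Coprime (p ^ j) (Nat.card G) :=
      Nat.Coprime.pow_left j ((Nat.Prime.coprime_iff_not_dvd hp).mpr hpG)
    have htriv : ∀ x : K, x = 1 := by
      intro x
      have h1 := hkill x
      have h2 := natCard_nsmul_eq_zero M n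
        (Multiplicative.toAdd (x : Multiplicative (groupCohomology M (n + 1))))
      have h3 : addOrderOf (Multiplicative.toAdd (x : Multiplicative (groupCohomology M (n + 1)))) = 1 :=
        Nat.eq_one_of_dvd_coprimes hcop (addOrderOf_dvd_of_nsmul_eq_zero h1)
          (addOrderOf_dvd_of_nsmul_eq_zero h2)
      have h4 := AddMonoid.addOrderOf_eq_one_iff.mp h3
      apply Subtype.ext
      exact congrArg Multiplicative.ofAdd h4
    have hsub : Subsingleton K := ⟨fun a b => by rw [htriv a, htriv b]⟩
    have h5 : Nat.card K = 1 := Nat.card_unique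
    rw [← hK, h5]
    exact one_dvd _

/-- **(L1a)** Finiteness and order bound for `Hⁿ⁺¹(G, M)` from the Sylow subgroups. -/
theorem finite_and_natCard_dvd_of_sylow (n : ℕ)
    (h : ∀ (p : ℕ) [Fact p.Prime], p ∣ Nat.card G → ∃ P : Sylow p G,
      Finite (groupCohomology (res (P : Subgroup G).subtype M) (n + 1)) ∧
      Nat.card (groupCohomology (res (P : Subgroup G).subtype M) (n + 1)) ∣
        Nat.card (P : Subgroup G)) :
    Finite (groupCohomology M (n + 1)) ∧ Nat.card (groupCohomology M (n + 1)) ∣ Nat.card G := by
  have hfin : Finite (groupCohomology M (n + 1)) :=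
    finite_groupCohomology_of_sylow M n (fun p _ hp => by
      obtain ⟨P, h1, -⟩ := h p hp
      exact ⟨P, h1⟩)
  exact ⟨hfin, natCard_groupCohomology_dvd_of_sylow M n h⟩

end IndexCard

end Fermat.Agent.CFT
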