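import Mathlib

set_option autoImplicit false

namespace Fermat.Agent.CFT

open CategoryTheory groupCohomology Rep

universe u

variable {k : Type u} [CommRing k]

section Def

variable (k) (Γ : Type u) [Group Γ] (B : Type u) [AddCommGroup B] [Module k B]

/-- Right translation representation on functions `Γ → B`. -/
def funRepresentation : Representation k Γ (Γ → B) where
  toFun g := LinearMap.funLeft k B (· * g)
  map_one' := by ext; simp
  map_mul' _ _ := by ext; simp [mul_assoc]

@[simp] theorem funRepresentation_apply (g : Γ) (f : Γ → B) (x : Γ) :
    funRepresentation k Γ B g f x = f (x * g) := rfl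

/-- The `Γ`-representation `Fun(Γ, B)` (right translation): coinduced from the trivial subgroup. -/
noncomputable abbrev funRep : Rep k Γ := Rep.of (funRepresentation k Γ B)

/-- `Fun(Γ, B)` is the coinduction of the trivial representation of the trivial subgroup. -/
noncomputable def funRepIsoCoind :
    funRep k Γ B ≅ coind (⊥ : Subgroup Γ).subtype (Rep.trivial k (⊥ : Subgroup Γ) B) :=
  Rep.mkIso
    { toLinearEquiv :=
        { toFun := fun f => ⟨f, fun g h => by
            have : (g : Γ) = 1 := Subgroup.mem_bot.1 g.2
            simp [this]⟩
          map_add' := fun _ _ => rfl
          map_smul' := fun _ _ => rfl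
          invFun := fun f => f.1
          left_inv := fun _ => rfl
          right_inv := fun _ => rfl }
      isIntertwining' := fun g => by ext; rfl }

theorem isZero_groupCohomology_funRep (n : ℕ) :
    Limits.IsZero (groupCohomology (funRep k Γ B) (n + 1)) := by
  have h1 : Limits.IsZero (groupCohomology (Rep.trivial k (⊥ : Subgroup Γ) B) (n + 1)) :=
    isZero_groupCohomology_succ_of_subsingleton _ n
  have e := (groupCohomology.functor k Γ (n + 1)).mapIso (funRepIsoCoind k Γ B) ≪≫
    coindIso (Rep.trivial k (⊥ : Subgroup Γ) B) (n + 1)
  exact h1.of_iso e

end Def

end Fermat.Agent.CFT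

namespace Fermat.Agent.CFT

open CategoryTheory groupCohomology Rep

universe u

variable {k G : Type u} [CommRing k] [Group G]

section Unit

variable (A : Rep k G)

/-- `A* = Fun(G, A)`. -/
noncomputable abbrev astar : Rep k G := funRep k G A.V

/-- The unit `A ⟶ A*`, `a ↦ (x ↦ x • a)`. -/
noncomputable def astarUnit : A ⟶ astar A :=
  Rep.ofHom
    { toLinearMap := LinearMap.pi fun x => A.ρ x
      isIntertwining' := fun g => by
        ext a x
        simp }

@[simp] theorem astarUnit_apply (a : A) (x : G) : (astarUnit A).hom a x = A.ρ x a := rfl

theorem astarUnit_injective : Function.Injective (astarUnit A).hom := by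
  intro a b h
  have := congrFun h 1
  rw [astarUnit_apply, astarUnit_apply] at this
  simpa using this

instance : Mono (astarUnit A) := (Rep.mono_iff_injective _).2 (astarUnit_injective A)

end Unit

end Fermat.Agent.CFT

namespace Fermat.Agent.CFT

open CategoryTheory groupCohomology Rep

universe u

variable {k G : Type u} [CommRing k] [Group G]

section Restrict

variable (k) (S : Subgroup G) (B : Type u) [AddCommGroup B] [Module k B]

theorem out_inv_mul_mem (g : G) : ((g : G ⧸ S).out)⁻¹ * g ∈ S := by
  rw [← QuotientGroup.eq]
  exact QuotientGroup.out_eq' _

/-- The restriction of `Fun(G, B)` to a subgroup `S` is `Fun(S, Fun(G/S, B))`. -/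
noncomputable def resFunRepIso :
    res S.subtype (funRep k G B) ≅ funRep k S ((G ⧸ S) → B) :=
  Rep.mkIso
    { toLinearEquiv :=
        { toFun := fun f s c => f (c.out * (s : G))
          map_add' := fun _ _ => rfl
          map_smul' := fun _ _ => rfl
          invFun := fun F g => F ⟨((g : G ⧸ S).out)⁻¹ * g, out_inv_mul_mem S g⟩ (g : G ⧸ S)
          left_inv := fun f => by
            funext g
            simp
          right_inv := fun F => by
            funext s c
            have h1 : ((c.out * (s : G) : G) : G ⧸ S) = c := by
              rw [QuotientGroup.mk_mul_of_mem _ s.2]
              exact QuotientGroup.out_eq' _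
            simp only [h1]
            congr 1
            apply Subtype.ext
            simp }
      isIntertwining' := fun s => by
        ext f s' c
        simp [mul_assoc] }

theorem isZero_groupCohomology_res_funRep (n : ℕ) :
    Limits.IsZero (groupCohomology (res S.subtype (funRep k G B)) (n + 1)) :=
  (isZero_groupCohomology_funRep k S ((G ⧸ S) → B) n).of_iso
    ((groupCohomology.functor k S (n + 1)).mapIso (resFunRepIso k S B))

end Restrict

end Fermat.Agent.CFT

namespace Fermat.Agent.CFT

open CategoryTheory groupCohomology Rep

universe u

variable {k G : Type u} [CommRing k] [Group G]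

section Invariants

variable (k) (S : Subgroup G) [S.Normal] (B : Type u) [AddCommGroup B] [Module k B]

/-- The `S`-invariants of `Fun(G, B)` are `Fun(G/S, B)` as a `G/S`-representation. -/
noncomputable def funRepInvariantsIso :
    (funRep k G B).quotientToInvariants S ≅ funRep k (G ⧸ S) B :=
  Rep.mkIso
    { toLinearEquiv :=
        { toFun := fun f c => Quotient.liftOn' c (f.1 : G → B) (fun a b hab => by
            have hmem : a⁻¹ * b ∈ S := QuotientGroup.leftRel_apply.1 hab
            have := congrFun (f.2 ⟨a⁻¹ * b, hmem⟩) a
            simpa using this.symm)
          map_add' := fun f g => by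
            funext c
            induction c using QuotientGroup.induction_on
            rfl
          map_smul' := fun r f => by
            funext c
            induction c using QuotientGroup.induction_on
            rfl
          invFun := fun F => ⟨fun g => F (g : G ⧸ S), fun s => by
            funext x
            simp [QuotientGroup.mk_mul_of_mem _ s.2]⟩
          left_inv := fun f => by
            apply Subtype.ext
            funext g
            rfl
          right_inv := fun F => by
            funext c
            induction c using QuotientGroup.induction_on
            rfl }
      isIntertwining' := fun g => by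
        induction g using QuotientGroup.induction_on
        ext f c
        induction c using QuotientGroup.induction_on
        rfl }

theorem isZero_groupCohomology_invariants_funRep (n : ℕ) :
    Limits.IsZero (groupCohomology ((funRep k G B).quotientToInvariants S) (n + 1)) :=
  (isZero_groupCohomology_funRep k (G ⧸ S) B n).of_iso
    ((groupCohomology.functor k (G ⧸ S) (n + 1)).mapIso (funRepInvariantsIso k S B))

end Invariants

end Fermat.Agent.CFT
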