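import Mathlib

set_option autoImplicit false

namespace Fermat.Agent.CFT

open CategoryTheory groupCohomology Rep

universe u

variable {k G : Type u} [CommRing k] [Group G]

instance qti_preservesZeroMorphisms (S : Subgroup G) [S.Normal] :
    (quotientToInvariantsFunctor k S).PreservesZeroMorphisms where
  map_zero A B := by
    ext x
    rfl

theorem qti_map_apply (S : Subgroup G) [S.Normal] {A B : Rep k G} (f : A ⟶ B)
    (x : (A.quotientToInvariants S)) :
    (((quotientToInvariantsFunctor k S).map f).hom x).1 = f.hom x.1 := rfl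

/-- every 1-cocycle is a coboundary when `H¹ = 0` -/
theorem exists_eq_d₀₁_of_isZero_H1 {Γ : Type u} [Group Γ] (A : Rep k Γ)
    (h1 : Limits.IsZero (groupCohomology A 1)) (x : Γ → A) (hx : x ∈ cocycles₁ A) :
    ∃ a : A, ∀ g, x g = A.ρ g a - a := by
  have hsub : Subsingleton (groupCohomology A 1) := ModuleCat.isZero_iff_subsingleton.1 h1
  have h0 : H1π A ⟨x, hx⟩ = 0 := Subsingleton.elim _ _
  rw [H1π_eq_zero_iff] at h0
  obtain ⟨a, ha⟩ := h0
  exact ⟨a, fun g => (congrFun ha g).symm⟩

/-- If `H¹(S, X₁) = 0`, taking `S`-invariants preserves a short exact sequence of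
`G`-representations. -/
theorem shortExact_quotientToInvariants {X : ShortComplex (Rep k G)} (hX : X.ShortExact)
    (S : Subgroup G) [S.Normal]
    (h1 : Limits.IsZero (groupCohomology (res S.subtype X.X₁) 1)) :
    (X.map (quotientToInvariantsFunctor k S)).ShortExact := by
  have hinj : Function.Injective X.f.hom := (Rep.mono_iff_injective X.f).1 hX.2
  have hsurj : Function.Surjective X.g.hom := (Rep.epi_iff_surjective X.g).1 hX.3
  have hex : LinearMap.range X.f.hom.toLinearMap = LinearMap.ker X.g.hom.toLinearMap :=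
    (hX.exact.map (forget₂ (Rep k G) (ModuleCat k))).moduleCat_range_eq_ker
  have hE : (X.map (quotientToInvariantsFunctor k S)).Exact := by
    rw [← ShortComplex.exact_map_iff_of_faithful _ (forget₂ (Rep k (G ⧸ S)) (ModuleCat k)),
      ShortComplex.moduleCat_exact_iff]
    intro x₂ hx₂
    change (X.X₂.quotientToInvariants S) at x₂
    have h0 : X.g.hom x₂.1 = 0 := congrArg Subtype.val hx₂
    have hmem : x₂.1 ∈ LinearMap.range X.f.hom.toLinearMap := by
      rw [hex]; exact h0
    obtain ⟨a, ha⟩ := hmem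
    have hainv : a ∈ Representation.invariants (X.X₁.ρ.comp S.subtype) := by
      intro s
      apply hinj
      have h2 := x₂.2 s
      have h3 : X.f.hom (X.X₁.ρ s a) = X.X₂.ρ s (X.f.hom a) := hom_comm_apply X.f s a
      show X.f.hom (X.X₁.ρ s a) = X.f.hom a
      rw [h3]
      show X.X₂.ρ s (X.f.hom.toLinearMap a) = X.f.hom.toLinearMap a
      rw [ha]
      exact h2
    refine ⟨(⟨a, hainv⟩ : X.X₁.quotientToInvariants S), ?_⟩
    apply Subtype.ext
    exact ha
  have hM : Mono (X.map (quotientToInvariantsFunctor k S)).f := by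
    rw [Rep.mono_iff_injective]
    intro a b hab
    change (X.X₁.quotientToInvariants S) at a b
    apply Subtype.ext
    apply hinj
    exact congrArg Subtype.val hab
  have hP : Epi (X.map (quotientToInvariantsFunctor k S)).g := by
    rw [Rep.epi_iff_surjective]
    intro c
    change (X.X₃.quotientToInvariants S) at c
    obtain ⟨b, hb⟩ := hsurj c.1
    -- the cocycle s ↦ a_s
    have hker : ∀ s : S, X.X₂.ρ s b - b ∈ LinearMap.range X.f.hom.toLinearMap := by
      intro s
      rw [hex, LinearMap.mem_ker]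
      show X.g.hom (X.X₂.ρ s b - b) = 0
      rw [map_sub, hom_comm_apply X.g s b, hb]
      exact sub_eq_zero.2 (c.2 s)
    choose a ha using hker
    have hcoc : a ∈ cocycles₁ (res S.subtype X.X₁) := by
      rw [mem_cocycles₁_iff]
      intro s t
      apply hinj
      show X.f.hom.toLinearMap (a (s * t)) =
        X.f.hom.toLinearMap ((X.X₁.ρ s) (a t) + a s)
      rw [map_add, ha, ha]
      have h3 : X.f.hom.toLinearMap (X.X₁.ρ s (a t)) = X.X₂.ρ s (X.f.hom.toLinearMap (a t)) :=
        hom_comm_apply X.f s (a t)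
      rw [h3, ha]
      simp only [Subgroup.coe_mul, map_mul, Module.End.mul_apply, map_sub]
      abel
    obtain ⟨a₀, ha₀⟩ := exists_eq_d₀₁_of_isZero_H1 _ h1 a hcoc
    have hinv : b - X.f.hom a₀ ∈ Representation.invariants (X.X₂.ρ.comp S.subtype) := by
      intro s
      show X.X₂.ρ s (b - X.f.hom a₀) = b - X.f.hom a₀
      have h4 : X.f.hom.toLinearMap (a s) = X.X₂.ρ s b - b := ha s
      rw [ha₀ s] at h4
      have h5 : X.f.hom.toLinearMap ((X.X₁.ρ s) a₀ - a₀) =
          X.X₂.ρ s (X.f.hom a₀) - X.f.hom a₀ := by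
        rw [map_sub]
        congr 1
        exact hom_comm_apply X.f s a₀
      have h4' : (X.f.hom.toLinearMap ((X.X₁.ρ s) a₀ - a₀)) = X.X₂.ρ s b - b := h4
      rw [h5] at h4'
      replace h4 := h4'
      rw [map_sub]
      have h6 : X.X₂.ρ s b - X.X₂.ρ s (X.f.hom a₀) - (b - X.f.hom a₀) = 0 := by
        have h7 : X.X₂.ρ s b - X.X₂.ρ s (X.f.hom a₀) - (b - X.f.hom a₀) =
            (X.X₂.ρ s b - b) - (X.X₂.ρ s (X.f.hom a₀) - X.f.hom a₀) := by abel
        rw [h7, h4, sub_self]
      exact sub_eq_zero.1 h6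
    refine ⟨(⟨b - X.f.hom a₀, hinv⟩ : X.X₂.quotientToInvariants S), ?_⟩
    apply Subtype.ext
    show X.g.hom (b - X.f.hom a₀) = c.1
    rw [map_sub, hb]
    have : X.g.hom (X.f.hom a₀) = 0 := by
      have hmem : X.f.hom.toLinearMap a₀ ∈ LinearMap.ker X.g.hom.toLinearMap := by
        rw [← hex]; exact ⟨a₀, rfl⟩
      exact hmem
    rw [this, sub_zero]
  exact { exact := hE, mono_f := hM, epi_g := hP }

end Fermat.Agent.CFT
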