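import Fermat.Agent.CFT.Coh.InfResDelta
import Fermat.Agent.CFT.Coh.InfResFunRep
import Fermat.Agent.CFT.Coh.InfResInv

set_option autoImplicit false

/-!
# Inflation-restriction in all degrees (dimension shifting)

For a normal subgroup `S ≤ G` and `A : Rep k G` with `Hⁱ(S, A) = 0` for `1 ≤ i < q` (`q ≥ 1`),
the sequence `0 ⟶ Hᵠ(G ⧸ S, A^S) ⟶ Hᵠ(G, A) ⟶ Hᵠ(S, A)` is exact (`infResExact`).
Proof: induction on `q` from Mathlib's `H1InfRes`, shifting with `0 ⟶ A ⟶ Fun(G, A) ⟶ A' ⟶ 0`
(`Fun(G, A)` is acyclic for `G`, for `S` and its `S`-invariants are acyclic for `G ⧸ S`), and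
naturality of the connecting homomorphisms under change of groups (`δ_naturality_map`).
(Design and most of the code: helper29; finished by helper13.)
-/

namespace Fermat.Agent.CFT

open CategoryTheory groupCohomology Rep

universe u

variable {k G : Type u} [CommRing k] [Group G]

section SES

variable (A : Rep k G)

/-- The short complex `A ⟶ A* ⟶ A*/A`. -/
noncomputable def astarSC : ShortComplex (Rep k G) :=
  ShortComplex.mk (astarUnit A) (Limits.cokernel.π (astarUnit A)) (Limits.cokernel.condition _)

theorem astarSC_shortExact : (astarSC A).ShortExact :=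
  { exact := ShortComplex.exact_cokernel _
    mono_f := inferInstanceAs (Mono (astarUnit A))
    epi_g := inferInstanceAs (Epi (Limits.cokernel.π (astarUnit A))) }

/-- `A' = A*/A`. -/
noncomputable abbrev aprime : Rep k G := (astarSC A).X₃

end SES

section Maps

variable (S : Subgroup G) [S.Normal] (A : Rep k G)

/-- inflation `Hᵠ(G/S, A^S) ⟶ Hᵠ(G, A)` -/
noncomputable def infH (q : ℕ) :
    groupCohomology (A.quotientToInvariants S) q ⟶ groupCohomology A q :=
  groupCohomology.map (QuotientGroup.mk' S) (Rep.ofHom <| A.ρ.quotientToInvariants_lift S) q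

/-- restriction `Hᵠ(G, A) ⟶ Hᵠ(S, A)` -/
noncomputable def resH (q : ℕ) :
    groupCohomology A q ⟶ groupCohomology (res S.subtype A) q :=
  groupCohomology.map S.subtype (𝟙 (res S.subtype A)) q

/-- exactness of `0 ⟶ Hᵠ(G/S, A^S) ⟶ Hᵠ(G, A) ⟶ Hᵠ(S, A)` -/
def InfResExact (q : ℕ) : Prop :=
  Function.Injective (infH S A q) ∧
    ∀ x : groupCohomology A q, resH S A q x = 0 → ∃ y, infH S A q y = x

end Maps

end Fermat.Agent.CFT

namespace Fermat.Agent.CFT

open CategoryTheory groupCohomology Rep

universe u

variable {k G : Type u} [CommRing k] [Group G]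

section Step

variable (S : Subgroup G) [S.Normal] (A : Rep k G)

omit [S.Normal] in
/-- the restricted sequence over `S` -/
theorem astarSC_res_shortExact : ((astarSC A).map (resFunctor S.subtype)).ShortExact :=
  (Rep.shortExact_res S.subtype).2 (astarSC_shortExact A)

/-- the sequence of invariants over `G ⧸ S`, exact when `H¹(S, A) = 0` -/
theorem astarSC_inv_shortExact
    (h1 : Limits.IsZero (groupCohomology (res S.subtype A) 1)) :
    ((astarSC A).map (quotientToInvariantsFunctor k S)).ShortExact :=
  shortExact_quotientToInvariants (astarSC_shortExact A) S h1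

theorem isZero_astar (n : ℕ) : Limits.IsZero (groupCohomology (astarSC A).X₂ (n + 1)) :=
  isZero_groupCohomology_funRep k G A.V n

omit [S.Normal] in
theorem isZero_astar_res (n : ℕ) :
    Limits.IsZero (groupCohomology ((astarSC A).map (resFunctor S.subtype)).X₂ (n + 1)) :=
  isZero_groupCohomology_res_funRep k S A.V n

theorem isZero_astar_inv (n : ℕ) :
    Limits.IsZero
      (groupCohomology ((astarSC A).map (quotientToInvariantsFunctor k S)).X₂ (n + 1)) :=
  isZero_groupCohomology_invariants_funRep k S A.V n

omit [S.Normal] in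
/-- `δ` commutes with restriction. -/
theorem δ_comp_resH (i j : ℕ) (hij : i + 1 = j) :
    groupCohomology.δ (astarSC_shortExact A) i j hij ≫ resH S A j =
      resH S (aprime A) i ≫ groupCohomology.δ (astarSC_res_shortExact S A) i j hij :=
  δ_naturality_map S.subtype (astarSC_shortExact A) (astarSC_res_shortExact S A)
    (𝟙 _) (𝟙 _) (𝟙 _) ((Category.comp_id _).trans (Category.id_comp _).symm)
    ((Category.comp_id _).trans (Category.id_comp _).symm) i j hij

/-- `δ` commutes with inflation. -/
theorem δ_comp_infH (h1 : Limits.IsZero (groupCohomology (res S.subtype A) 1))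
    (i j : ℕ) (hij : i + 1 = j) :
    groupCohomology.δ (astarSC_inv_shortExact S A h1) i j hij ≫ infH S A j =
      infH S (aprime A) i ≫ groupCohomology.δ (astarSC_shortExact A) i j hij :=
  δ_naturality_map (QuotientGroup.mk' S) (astarSC_inv_shortExact S A h1) (astarSC_shortExact A)
    (Rep.ofHom <| (astarSC A).X₁.ρ.quotientToInvariants_lift S)
    (Rep.ofHom <| (astarSC A).X₂.ρ.quotientToInvariants_lift S)
    (Rep.ofHom <| (astarSC A).X₃.ρ.quotientToInvariants_lift S)
    (by ext x; rfl) (by ext x; rfl) i j hij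

end Step

end Fermat.Agent.CFT

namespace Fermat.Agent.CFT

open CategoryTheory groupCohomology Rep

universe u

variable {k G : Type u} [CommRing k] [Group G]

section Induction

variable (S : Subgroup G) [S.Normal]

/-- base case: Mathlib's `H1InfRes`. -/
theorem infResExact_one (A : Rep k G) : InfResExact S A 1 := by
  constructor
  · have : Mono (H1InfRes A S).f := inferInstance
    exact (ModuleCat.mono_iff_injective _).1 this
  · intro x hx
    have hex := H1InfRes_exact A S
    rw [ShortComplex.moduleCat_exact_iff] at hex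
    exact hex x hx

/-- dimension shifting step -/
theorem infResExact_succ (A : Rep k G) (q : ℕ)
    (h1 : Limits.IsZero (groupCohomology (res S.subtype A) 1))
    (hA' : InfResExact S (aprime A) (q + 1)) : InfResExact S A (q + 2) := by
  -- the three connecting isomorphisms
  have iG : IsIso (groupCohomology.δ (astarSC_shortExact A) (q + 1) (q + 2) rfl) :=
    isIso_δ_of_isZero _ (q + 1) (isZero_astar A q) (isZero_astar A (q + 1))
  have iS : IsIso (groupCohomology.δ (astarSC_res_shortExact S A) (q + 1) (q + 2) rfl) :=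
    isIso_δ_of_isZero _ (q + 1) (isZero_astar_res S A q) (isZero_astar_res S A (q + 1))
  have iQ : IsIso (groupCohomology.δ (astarSC_inv_shortExact S A h1) (q + 1) (q + 2) rfl) :=
    isIso_δ_of_isZero _ (q + 1) (isZero_astar_inv S A q) (isZero_astar_inv S A (q + 1))
  have bG := (ConcreteCategory.isIso_iff_bijective _).1 iG
  have bS := (ConcreteCategory.isIso_iff_bijective _).1 iS
  have bQ := (ConcreteCategory.isIso_iff_bijective _).1 iQ
  have sqR := δ_comp_resH S A (q + 1) (q + 2) rfl
  have sqI := δ_comp_infH S A h1 (q + 1) (q + 2) rfl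
  have sqR' : ∀ x, resH S A (q + 2) (groupCohomology.δ (astarSC_shortExact A) (q + 1) (q + 2) rfl x)
      = groupCohomology.δ (astarSC_res_shortExact S A) (q + 1) (q + 2) rfl
          (resH S (aprime A) (q + 1) x) := fun x => by
    exact (ConcreteCategory.comp_apply _ _ x).symm.trans
      ((ConcreteCategory.congr_hom sqR x).trans (ConcreteCategory.comp_apply _ _ x))
  have sqI' : ∀ y, infH S A (q + 2)
      (groupCohomology.δ (astarSC_inv_shortExact S A h1) (q + 1) (q + 2) rfl y)
      = groupCohomology.δ (astarSC_shortExact A) (q + 1) (q + 2) rfl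
          (infH S (aprime A) (q + 1) y) := fun y => by
    exact (ConcreteCategory.comp_apply _ _ y).symm.trans
      ((ConcreteCategory.congr_hom sqI y).trans (ConcreteCategory.comp_apply _ _ y))
  constructor
  · -- injectivity
    rw [injective_iff_map_eq_zero]
    intro y hy
    obtain ⟨y', rfl⟩ := bQ.2 y
    have hy2 := (sqI' y').symm.trans hy
    have h0 : infH S (aprime A) (q + 1) y' = 0 := bG.1 (hy2.trans (map_zero _).symm)
    have h3 : y' = 0 := hA'.1 (h0.trans (map_zero _).symm)
    exact (congrArg _ h3).trans (map_zero _)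
  · intro x hx
    obtain ⟨x', rfl⟩ := bG.2 x
    have hx2 := (sqR' x').symm.trans hx
    have h0 : resH S (aprime A) (q + 1) x' = 0 := bS.1 (hx2.trans (map_zero _).symm)
    obtain ⟨y', hy'⟩ := hA'.2 x' h0
    exact ⟨groupCohomology.δ (astarSC_inv_shortExact S A h1) (q + 1) (q + 2) rfl y',
      (sqI' y').trans (congrArg _ hy')⟩

omit [S.Normal] in
/-- dimension shifting for the cohomology of the subgroup: `Hⁱ⁺¹(S, A') ≅ Hⁱ⁺²(S, A)` -/
theorem isZero_res_aprime (A : Rep k G) (i : ℕ)
    (h : Limits.IsZero (groupCohomology (res S.subtype A) (i + 2))) :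
    Limits.IsZero (groupCohomology (res S.subtype (aprime A)) (i + 1)) := by
  have iS : IsIso (groupCohomology.δ (astarSC_res_shortExact S A) (i + 1) (i + 2) rfl) :=
    isIso_δ_of_isZero _ (i + 1) (isZero_astar_res S A i) (isZero_astar_res S A (i + 1))
  exact Limits.IsZero.of_iso h
    (@asIso _ _ _ _ (groupCohomology.δ (astarSC_res_shortExact S A) (i + 1) (i + 2) rfl) iS)

/-- **Inflation-restriction in all degrees**: if `Hⁱ(S, A) = 0` for `1 ≤ i < q` then
`0 ⟶ Hᵠ(G/S, A^S) ⟶ Hᵠ(G, A) ⟶ Hᵠ(S, A)` is exact (`q ≥ 1`). -/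
theorem infResExact_succ_of_isZero (q : ℕ) : ∀ (A : Rep k G),
    (∀ i, 1 ≤ i → i < q + 1 → Limits.IsZero (groupCohomology (res S.subtype A) i)) →
    InfResExact S A (q + 1) := by
  induction q with
  | zero => exact fun A _ => infResExact_one S A
  | succ q ih =>
    intro A hA
    have h1 : Limits.IsZero (groupCohomology (res S.subtype A) 1) := hA 1 le_rfl (by omega)
    have hA' : ∀ i, 1 ≤ i → i < q + 1 →
        Limits.IsZero (groupCohomology (res S.subtype (aprime A)) i) := by
      intro i hi1 hiq
      obtain ⟨j, rfl⟩ : ∃ j, i = j + 1 := ⟨i - 1, by omega⟩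
      exact isZero_res_aprime S A j (hA (j + 2) (by omega) (by omega))
    exact infResExact_succ S A q h1 (ih (aprime A) hA')

theorem infResExact (A : Rep k G) (q : ℕ) (hq : 1 ≤ q)
    (hA : ∀ i, 1 ≤ i → i < q → Limits.IsZero (groupCohomology (res S.subtype A) i)) :
    InfResExact S A q := by
  obtain ⟨n, rfl⟩ : ∃ n, q = n + 1 := ⟨q - 1, by omega⟩
  exact infResExact_succ_of_isZero S n A hA

/-- degree 2: if `H¹(S, A) = 0` then `0 ⟶ H²(G/S, A^S) ⟶ H²(G, A) ⟶ H²(S, A)` is exact. -/
theorem infResExact_two (A : Rep k G)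
    (h1 : Limits.IsZero (groupCohomology (res S.subtype A) 1)) : InfResExact S A 2 := by
  refine infResExact S A 2 (by omega) fun i hi1 hi2 => ?_
  obtain rfl : i = 1 := by omega
  exact h1

end Induction

end Fermat.Agent.CFT
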