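import Mathlib

set_option autoImplicit false

namespace Fermat.Agent.CFT

open CategoryTheory groupCohomology Rep

universe u

variable {k G H : Type u} [CommRing k] [Group G] [Group H]

/-- Naturality of the connecting homomorphism of group cohomology under a change of groups
`f : G →* H`. -/
theorem δ_naturality_map (f : G →* H) {X : ShortComplex (Rep k H)} {Y : ShortComplex (Rep k G)}
    (hX : X.ShortExact) (hY : Y.ShortExact)
    (φ₁ : res f X.X₁ ⟶ Y.X₁) (φ₂ : res f X.X₂ ⟶ Y.X₂) (φ₃ : res f X.X₃ ⟶ Y.X₃)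
    (h₁₂ : (resFunctor f).map X.f ≫ φ₂ = φ₁ ≫ Y.f)
    (h₂₃ : (resFunctor f).map X.g ≫ φ₃ = φ₂ ≫ Y.g)
    (i j : ℕ) (hij : i + 1 = j) :
    groupCohomology.δ hX i j hij ≫ groupCohomology.map f φ₁ j =
      groupCohomology.map f φ₃ i ≫ groupCohomology.δ hY i j hij := by
  let F : X.map (cochainsFunctor k H) ⟶ Y.map (cochainsFunctor k G) :=
    { τ₁ := cochainsMap f φ₁
      τ₂ := cochainsMap f φ₂
      τ₃ := cochainsMap f φ₃
      comm₁₂ := by
        show cochainsMap f φ₁ ≫ cochainsMap (MonoidHom.id G) Y.f =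
          cochainsMap (MonoidHom.id H) X.f ≫ cochainsMap f φ₂
        rw [← cochainsMap_comp, ← cochainsMap_comp]
        exact congrArg (cochainsMap f) h₁₂.symm
      comm₂₃ := by
        show cochainsMap f φ₂ ≫ cochainsMap (MonoidHom.id G) Y.g =
          cochainsMap (MonoidHom.id H) X.g ≫ cochainsMap f φ₃
        rw [← cochainsMap_comp, ← cochainsMap_comp]
        exact congrArg (cochainsMap f) h₂₃.symm }
  exact HomologicalComplex.HomologySequence.δ_naturality F
    (map_cochainsFunctor_shortExact hX) (map_cochainsFunctor_shortExact hY) i j hij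

end Fermat.Agent.CFT
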