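import Mathlib

set_option autoImplicit false

/-!
# Stream A (Coh), core of (A4): integral intertwiners

If two families of integer matrices `A₁ t`, `A₂ t` are intertwined by an invertible *real* matrix,
they are intertwined by an integer matrix with nonzero determinant.
-/

namespace Fermat.Agent.CFT

open Matrix

variable {ι T : Type*} [Fintype ι] [DecidableEq ι]

/-- Clearing denominators in a rational matrix. -/
theorem exists_int_matrix_eq_smul (Y : Matrix ι ι ℚ) :
    ∃ (d : ℕ) (X : Matrix ι ι ℤ), d ≠ 0 ∧ X.map (Int.cast : ℤ → ℚ) = (d : ℚ) • Y := by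
  classical
  let d : ℕ := ∏ p : ι × ι, (Y p.1 p.2).den
  have hd : d ≠ 0 := Finset.prod_ne_zero_iff.mpr fun p _ => (Y p.1 p.2).den_ne_zero
  have hdvd : ∀ a c, (Y a c).den ∣ d := fun a c =>
    Finset.dvd_prod_of_mem (fun p : ι × ι => (Y p.1 p.2).den) (Finset.mem_univ (a, c))
  refine ⟨d, fun a c => (Y a c).num * ((d / (Y a c).den : ℕ) : ℤ), hd, ?_⟩
  ext a c
  simp only [Matrix.map_apply, Matrix.smul_apply, smul_eq_mul]
  obtain ⟨e, he⟩ := hdvd a c
  have hden : ((Y a c).den : ℚ) ≠ 0 := by exact_mod_cast (Y a c).den_ne_zero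
  have h1 : d / (Y a c).den = e := by
    rw [he, Nat.mul_div_cancel_left _ (Nat.pos_of_ne_zero (Y a c).den_ne_zero)]
  rw [h1]
  push_cast
  have h2 : (d : ℚ) = (Y a c).den * e := by exact_mod_cast he
  rw [h2]
  have hy := Rat.num_div_den (Y a c)
  calc ((Y a c).num : ℚ) * (e : ℚ) = ((Y a c).den : ℚ) * e * (((Y a c).num : ℚ) / (Y a c).den) := by
        field_simp
    _ = ((Y a c).den : ℚ) * e * Y a c := by rw [hy]

/-- Rational version: an invertible real intertwiner of integer matrices gives an invertible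
rational one. -/
theorem exists_rat_intertwiner (A₁ A₂ : T → Matrix ι ι ℤ) (X₀ : Matrix ι ι ℝ) (hdet : X₀.det ≠ 0)
    (h : ∀ t, X₀ * (A₁ t).map (Int.cast : ℤ → ℝ) = (A₂ t).map (Int.cast : ℤ → ℝ) * X₀) :
    ∃ Y : Matrix ι ι ℚ, Y.det ≠ 0 ∧
      ∀ t, Y * (A₁ t).map (Int.cast : ℤ → ℚ) = (A₂ t).map (Int.cast : ℤ → ℚ) * Y := by
  classical
  let b := Module.Basis.ofVectorSpace ℚ ℝ
  -- the rational components of `X₀`
  let Xj : Module.Basis.ofVectorSpaceIndex ℚ ℝ → Matrix ι ι ℚ := fun j a c => b.repr (X₀ a c) j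
  have hXj : ∀ j t, Xj j * (A₁ t).map (Int.cast : ℤ → ℚ) =
      (A₂ t).map (Int.cast : ℤ → ℚ) * Xj j := by
    intro j t
    ext a c
    have h1 := congrFun (congrFun (h t) a) c
    simp only [Matrix.mul_apply, Matrix.map_apply] at h1 ⊢
    have h2 := congrArg (fun x => b.repr x j) h1
    simp only [map_sum, Finsupp.coe_finset_sum, Finset.sum_apply] at h2
    have e1 : ∀ d, b.repr (X₀ a d * ((A₁ t d c : ℤ) : ℝ)) j =
        b.repr (X₀ a d) j * ((A₁ t d c : ℤ) : ℚ) := by
      intro d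
      have : X₀ a d * ((A₁ t d c : ℤ) : ℝ) = ((A₁ t d c : ℤ) : ℚ) • X₀ a d := by
        rw [Rat.smul_def]; push_cast; ring
      rw [this, map_smul, Finsupp.smul_apply, smul_eq_mul, mul_comm]
    have e2 : ∀ d, b.repr (((A₂ t a d : ℤ) : ℝ) * X₀ d c) j =
        ((A₂ t a d : ℤ) : ℚ) * b.repr (X₀ d c) j := by
      intro d
      have : ((A₂ t a d : ℤ) : ℝ) * X₀ d c = ((A₂ t a d : ℤ) : ℚ) • X₀ d c := by
        rw [Rat.smul_def]; push_cast; ring
      rw [this, map_smul, Finsupp.smul_apply, smul_eq_mul]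
    simp only [e1, e2] at h2
    exact h2
  -- finite support
  let J : Finset (Module.Basis.ofVectorSpaceIndex ℚ ℝ) :=
    Finset.univ.biUnion fun p : ι × ι => (b.repr (X₀ p.1 p.2)).support
  have hJ : ∀ a c, X₀ a c = ∑ j ∈ J, ((Xj j a c : ℚ) : ℝ) * b j := by
    intro a c
    have h1 : X₀ a c = (b.repr (X₀ a c)).sum fun i q => q • b i := by
      conv_lhs => rw [← b.linearCombination_repr (X₀ a c)]
      rw [Finsupp.linearCombination_apply]
    rw [h1, Finsupp.sum_of_support_subset (s := J)]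
    · refine Finset.sum_congr rfl fun j _ => ?_
      rw [Rat.smul_def]
    · intro j hj
      exact Finset.mem_biUnion.mpr ⟨(a, c), Finset.mem_univ _, hj⟩
    · intro j _
      simp
  -- the determinant polynomial
  let Mp : Matrix ι ι (MvPolynomial J ℚ) := fun a c =>
    ∑ j : J, MvPolynomial.C (Xj j a c) * MvPolynomial.X j
  let φ : MvPolynomial J ℚ →+* ℝ := (MvPolynomial.aeval fun j : J => b (j : _)).toRingHom
  have hφ : φ.mapMatrix Mp = X₀ := by
    ext a c
    simp only [RingHom.mapMatrix_apply, Matrix.map_apply, Mp, φ, AlgHom.toRingHom_eq_coe,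
      RingHom.coe_coe, map_sum, map_mul, MvPolynomial.aeval_C, MvPolynomial.aeval_X]
    rw [hJ a c, ← Finset.sum_coe_sort J]
    rfl
  have hP : Mp.det ≠ 0 := by
    intro h0
    have : φ Mp.det = X₀.det := by rw [RingHom.map_det, hφ]
    rw [h0, map_zero] at this
    exact hdet this.symm
  obtain ⟨q, hq⟩ : ∃ q : J → ℚ, MvPolynomial.eval q Mp.det ≠ 0 := by
    by_contra hcon
    push Not at hcon
    exact hP (MvPolynomial.funext fun x => by rw [hcon x, map_zero])
  let Y : Matrix ι ι ℚ := ∑ j : J, q j • Xj j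
  have hY : (MvPolynomial.eval q).mapMatrix Mp = Y := by
    ext a c
    simp only [RingHom.mapMatrix_apply, Matrix.map_apply, Mp, Y, map_sum, map_mul,
      MvPolynomial.eval_C, MvPolynomial.eval_X, Matrix.sum_apply, Matrix.smul_apply, smul_eq_mul]
    exact Finset.sum_congr rfl fun j _ => mul_comm _ _
  refine ⟨Y, ?_, ?_⟩
  · rw [← hY, ← RingHom.map_det]
    exact hq
  · intro t
    simp only [Y, Finset.sum_mul, Finset.mul_sum, Matrix.smul_mul, Matrix.mul_smul, hXj]

/-- **Integral intertwiners.** If two families of integer matrices are intertwined by an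
invertible real matrix, they are intertwined by an integer matrix of nonzero determinant. -/
theorem exists_int_intertwiner (A₁ A₂ : T → Matrix ι ι ℤ) (X₀ : Matrix ι ι ℝ) (hdet : X₀.det ≠ 0)
    (h : ∀ t, X₀ * (A₁ t).map (Int.cast : ℤ → ℝ) = (A₂ t).map (Int.cast : ℤ → ℝ) * X₀) :
    ∃ X : Matrix ι ι ℤ, X.det ≠ 0 ∧ ∀ t, X * A₁ t = A₂ t * X := by
  obtain ⟨Y, hYdet, hY⟩ := exists_rat_intertwiner A₁ A₂ X₀ hdet h
  obtain ⟨d, X, hd, hX⟩ := exists_int_matrix_eq_smul Y
  have hdq : (d : ℚ) ≠ 0 := by exact_mod_cast hd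
  refine ⟨X, ?_, ?_⟩
  · intro h0
    have h1 : (X.map (Int.cast : ℤ → ℚ)).det = ((X.det : ℤ) : ℚ) := by
      rw [Int.cast_det]
    rw [hX, Matrix.det_smul, h0, Int.cast_zero] at h1
    rcases mul_eq_zero.mp h1 with h2 | h2
    · exact pow_ne_zero _ hdq h2
    · exact hYdet h2
  · intro t
    have hinj : Function.Injective (fun M : Matrix ι ι ℤ => M.map (Int.cast : ℤ → ℚ)) :=
      Matrix.map_injective Int.cast_injective
    apply hinj
    show (X * A₁ t).map (Int.cast : ℤ → ℚ) = (A₂ t * X).map (Int.cast : ℤ → ℚ)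
    have e1 : (X * A₁ t).map (Int.cast : ℤ → ℚ) =
        X.map (Int.cast : ℤ → ℚ) * (A₁ t).map (Int.cast : ℤ → ℚ) :=
      Matrix.map_mul (f := Int.castRingHom ℚ)
    have e2 : (A₂ t * X).map (Int.cast : ℤ → ℚ) =
        (A₂ t).map (Int.cast : ℤ → ℚ) * X.map (Int.cast : ℤ → ℚ) :=
      Matrix.map_mul (f := Int.castRingHom ℚ)
    rw [e1, e2, hX, Matrix.smul_mul, Matrix.mul_smul, hY t]

end Fermat.Agent.CFT
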