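import Fermat.Agent.CFT.Coh.H2InfResGen

/-!
# Transport of finite-level cohomology along an identification of a quotient

`π : G →* Q` surjective, `φ : res π A' ⟶ A` injective with image the `ker π`-invariants of `A`.
Then `Hⁿ(Q, A') ≃ Hⁿ(G ⧸ N, A^N)` for every normal subgroup `N` of `G` with `N = ker π`
(`N` is given separately, so that the statement applies verbatim to a level `N` of a level family
once `ker π = N` is known propositionally).

* `lvlT_equiv` : the linear equivalence;
* `lvlT_isZero`, `lvlT_subsingleton` : vanishing transfers;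
* `lvlT_eq_zero_of_smul_eq_zero` : absence of `r`-torsion transfers;
* `lvlT_exists_smul_eq` : `r`-divisibility transfers.
-/

set_option autoImplicit false

namespace Fermat.Agent.CFT

universe u

open CategoryTheory groupCohomology Rep

variable {k G Q : Type u} [CommRing k] [Group G] [Group Q]
  {A : Rep k G} {A' : Rep k Q} (π : G →* Q) (φ : res π A' ⟶ A)
  (hπ : Function.Surjective π) (hinj : Function.Injective φ.hom)
  (hrange : ∀ a : A, (∀ s ∈ π.ker, A.ρ s a = a) → ∃ a' : A', φ.hom a' = a)

include hπ hinj hrange in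
/-- `Hⁿ(Q, A') ≃ Hⁿ(G ⧸ N, A^N)` for `N = ker π`. -/
theorem lvlT_nonempty_equiv (N : Subgroup G) [N.Normal] (hN : N = π.ker) (n : ℕ) :
    Nonempty (groupCohomology A' n ≃ₗ[k] groupCohomology (A.quotientToInvariants N) n) := by
  subst hN
  exact ⟨LinearEquiv.ofBijective
    (map (quotEquiv π hπ).toMonoidHom (toInvHom π φ hπ) n).hom
    (map_toInvHom_bijective π φ hπ hinj hrange n)⟩

/-- `Hⁿ(Q, A') ≃ Hⁿ(G ⧸ N, A^N)` for `N = ker π`, as a (non-canonical choice of) linear
equivalence. -/
noncomputable def lvlT_equiv (N : Subgroup G) [N.Normal] (hN : N = π.ker) (n : ℕ) :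
    groupCohomology A' n ≃ₗ[k] groupCohomology (A.quotientToInvariants N) n :=
  (lvlT_nonempty_equiv π φ hπ hinj hrange N hN n).some

include hπ hinj hrange in
theorem lvlT_subsingleton (N : Subgroup G) [N.Normal] (hN : N = π.ker) (n : ℕ)
    (h : Subsingleton (groupCohomology A' n)) :
    Subsingleton (groupCohomology (A.quotientToInvariants N) n) :=
  (lvlT_equiv π φ hπ hinj hrange N hN n).symm.injective.subsingleton

include hπ hinj hrange in
theorem lvlT_isZero (N : Subgroup G) [N.Normal] (hN : N = π.ker) (n : ℕ)
    (h : Limits.IsZero (groupCohomology A' n)) :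
    Limits.IsZero (groupCohomology (A.quotientToInvariants N) n) := by
  have := ModuleCat.subsingleton_of_isZero h
  have := lvlT_subsingleton π φ hπ hinj hrange N hN n this
  exact ModuleCat.isZero_of_subsingleton _

include hπ hinj hrange in
/-- absence of `r`-torsion transfers to the finite level. -/
theorem lvlT_eq_zero_of_smul_eq_zero (N : Subgroup G) [N.Normal] (hN : N = π.ker) (n : ℕ) (r : k)
    (h : ∀ y : groupCohomology A' n, r • y = 0 → y = 0)
    (y : groupCohomology (A.quotientToInvariants N) n) (hy : r • y = 0) : y = 0 := by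
  have h1 := h ((lvlT_equiv π φ hπ hinj hrange N hN n).symm y) (by rw [← map_smul, hy, map_zero])
  exact (lvlT_equiv π φ hπ hinj hrange N hN n).symm.map_eq_zero_iff.1 h1

include hπ hinj hrange in
/-- `r`-divisibility transfers to the finite level. -/
theorem lvlT_exists_smul_eq (N : Subgroup G) [N.Normal] (hN : N = π.ker) (n : ℕ) (r : k)
    (h : ∀ y : groupCohomology A' n, ∃ z, r • z = y)
    (y : groupCohomology (A.quotientToInvariants N) n) : ∃ z, r • z = y := by
  obtain ⟨z, hz⟩ := h ((lvlT_equiv π φ hπ hinj hrange N hN n).symm y)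
  refine ⟨lvlT_equiv π φ hπ hinj hrange N hN n z, ?_⟩
  rw [← map_smul, hz, LinearEquiv.apply_symm_apply]

include hπ hinj hrange in
/-- cardinalities agree. -/
theorem lvlT_natCard_eq (N : Subgroup G) [N.Normal] (hN : N = π.ker) (n : ℕ) :
    Nat.card (groupCohomology (A.quotientToInvariants N) n) = Nat.card (groupCohomology A' n) :=
  (Nat.card_congr (lvlT_equiv π φ hπ hinj hrange N hN n).toEquiv).symm

end Fermat.Agent.CFT
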