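/-
CFT, S55 pool, (K9)/(C-FI) support (helper25): groups of PRIME ORDER.

A group `Q` with `Nat.card Q = p` prime is generated by any `q ≠ 1`; `i ↦ q ^ i` is a bijection
`Fin p → Q`; products / sums over `Q` are products / sums over `i ∈ range p` of `F (q ^ i)`.
Version through a surjective `π : H →* Q` with kernel of index `p` (`Gal(L/M)` for a layer `V' ⊴ V`
of index `p`, `q = π σ`, `σ ∈ V ∖ V'`).  Everything generic, `import Mathlib` only, prefix `prCard_`.
-/
import Mathlib

set_option autoImplicit false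
set_option linter.style.haveILetI false
set_option linter.unusedVariables false

namespace Fermat.Agent.CFT

section PrimeCard

variable {Q : Type*} [Group Q] {p : ℕ}

theorem prCard_mem_zpowers (hp : p.Prime) (hcard : Nat.card Q = p) {q : Q} (hq : q ≠ 1) (t : Q) :
    t ∈ Subgroup.zpowers q :=
  haveI : Fact p.Prime := ⟨hp⟩
  mem_zpowers_of_prime_card hcard hq

theorem prCard_zpowers_eq_top (hp : p.Prime) (hcard : Nat.card Q = p) {q : Q} (hq : q ≠ 1) :
    Subgroup.zpowers q = ⊤ :=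
  (Subgroup.eq_top_iff' _).2 (prCard_mem_zpowers hp hcard hq)

theorem prCard_orderOf (hp : p.Prime) (hcard : Nat.card Q = p) {q : Q} (hq : q ≠ 1) :
    orderOf q = p := by
  have h1 : orderOf q ∣ p := hcard ▸ orderOf_dvd_natCard q
  rcases (Nat.dvd_prime hp).1 h1 with h | h
  · exact absurd (orderOf_eq_one_iff.1 h) hq
  · exact h

theorem prCard_pow_card (hp : p.Prime) (hcard : Nat.card Q = p) (q : Q) : q ^ p = 1 := by
  haveI : Finite Q := Nat.finite_of_card_ne_zero (hcard ▸ hp.ne_zero)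
  rw [← hcard]
  exact pow_card_eq_one'

/-- `i ↦ q ^ i` is a bijection `Fin p → Q`. -/
theorem prCard_pow_bijective (hp : p.Prime) (hcard : Nat.card Q = p) {q : Q} (hq : q ≠ 1) :
    Function.Bijective (fun i : Fin p => q ^ (i : ℕ)) := by
  haveI : Finite Q := Nat.finite_of_card_ne_zero (hcard ▸ hp.ne_zero)
  have hord := prCard_orderOf hp hcard hq
  have hinj : Function.Injective (fun i : Fin p => q ^ (i : ℕ)) := by
    intro i j hij
    apply Fin.ext
    refine pow_injOn_Iio_orderOf (x := q) ?_ ?_ hij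
    · rw [hord]; exact i.2
    · rw [hord]; exact j.2
  refine hinj.bijective_of_nat_card_le ?_
  rw [hcard, Nat.card_eq_fintype_card, Fintype.card_fin]

/-- every element is a power `q ^ i` with `i < p`. -/
theorem prCard_exists_pow_eq (hp : p.Prime) (hcard : Nat.card Q = p) {q : Q} (hq : q ≠ 1) (t : Q) :
    ∃ i : ℕ, i < p ∧ q ^ i = t := by
  obtain ⟨i, hi⟩ := (prCard_pow_bijective hp hcard hq).2 t
  exact ⟨i, i.2, hi⟩

/-- products over a group of prime order. -/
theorem prCard_prod_eq [Fintype Q] {M : Type*} [CommMonoid M] (hp : p.Prime)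
    (hcard : Nat.card Q = p) {q : Q} (hq : q ≠ 1) (F : Q → M) :
    ∏ t : Q, F t = ∏ i ∈ Finset.range p, F (q ^ i) := by
  rw [← Fin.prod_univ_eq_prod_range (fun i => F (q ^ i)) p]
  exact (Fintype.prod_bijective _ (prCard_pow_bijective hp hcard hq) _ _ (fun _ => rfl)).symm

/-- sums over a group of prime order. -/
theorem prCard_sum_eq [Fintype Q] {M : Type*} [AddCommMonoid M] (hp : p.Prime)
    (hcard : Nat.card Q = p) {q : Q} (hq : q ≠ 1) (F : Q → M) :
    ∑ t : Q, F t = ∑ i ∈ Finset.range p, F (q ^ i) := by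
  rw [← Fin.sum_univ_eq_sum_range (fun i => F (q ^ i)) p]
  exact (Fintype.sum_bijective _ (prCard_pow_bijective hp hcard hq) _ _ (fun _ => rfl)).symm

end PrimeCard

section Quotient

variable {G Q : Type*} [Group G] [Group Q] {p : ℕ}

/-- for `π : H →* Q` onto with kernel `N.subgroupOf H`: `|Q| = [H : N]`. -/
theorem prCard_natCard_of_ker {H N : Subgroup G} (π : H →* Q) (hπ : Function.Surjective π)
    (hker : π.ker = N.subgroupOf H) : Nat.card Q = N.relIndex H := by
  rw [Subgroup.relIndex, ← hker, Subgroup.index, Nat.card_congr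
    (QuotientGroup.quotientKerEquivOfSurjective π hπ).toEquiv]

/-- for `π : H →* Q` with kernel `N.subgroupOf H`: `π s ≠ 1` iff `s ∉ N`. -/
theorem prCard_map_ne_one_iff {H N : Subgroup G} (π : H →* Q) (hker : π.ker = N.subgroupOf H)
    (s : H) : π s ≠ 1 ↔ (s : G) ∉ N := by
  rw [Ne, ← MonoidHom.mem_ker, hker, Subgroup.mem_subgroupOf]

variable {H N : Subgroup G} (π : H →* Q) (hπ : Function.Surjective π)
  (hker : π.ker = N.subgroupOf H) (hp : p.Prime) (hidx : N.relIndex H = p)
  {s : G} (hsH : s ∈ H) (hsN : s ∉ N)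

include hπ hker hp hidx hsN

/-- **prime-index layer**: `π σ` generates `Q`. -/
theorem prCard_layer_mem_zpowers (t : Q) : t ∈ Subgroup.zpowers (π ⟨s, hsH⟩) :=
  prCard_mem_zpowers hp ((prCard_natCard_of_ker π hπ hker).trans hidx)
    ((prCard_map_ne_one_iff π hker ⟨s, hsH⟩).2 hsN) t

theorem prCard_layer_pow_bijective :
    Function.Bijective (fun i : Fin p => π ⟨s, hsH⟩ ^ (i : ℕ)) :=
  prCard_pow_bijective hp ((prCard_natCard_of_ker π hπ hker).trans hidx)
    ((prCard_map_ne_one_iff π hker ⟨s, hsH⟩).2 hsN)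

theorem prCard_layer_prod_eq [Fintype Q] {M : Type*} [CommMonoid M] (F : Q → M) :
    ∏ t : Q, F t = ∏ i ∈ Finset.range p, F (π ⟨s, hsH⟩ ^ i) :=
  prCard_prod_eq hp ((prCard_natCard_of_ker π hπ hker).trans hidx)
    ((prCard_map_ne_one_iff π hker ⟨s, hsH⟩).2 hsN) F

theorem prCard_layer_sum_eq [Fintype Q] {M : Type*} [AddCommMonoid M] (F : Q → M) :
    ∑ t : Q, F t = ∑ i ∈ Finset.range p, F (π ⟨s, hsH⟩ ^ i) :=
  prCard_sum_eq hp ((prCard_natCard_of_ker π hπ hker).trans hidx)
    ((prCard_map_ne_one_iff π hker ⟨s, hsH⟩).2 hsN) F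

/-- the same with `π (σ ^ i)` (`σ ^ i` computed in `G`). -/
theorem prCard_layer_prod_eq' [Fintype Q] {M : Type*} [CommMonoid M] (F : Q → M) :
    ∏ t : Q, F t = ∏ i ∈ Finset.range p, F (π ⟨s ^ i, H.pow_mem hsH i⟩) := by
  rw [prCard_layer_prod_eq π hπ hker hp hidx hsH hsN F]
  refine Finset.prod_congr rfl fun i _ => ?_
  rw [← map_pow]
  rfl

theorem prCard_layer_sum_eq' [Fintype Q] {M : Type*} [AddCommMonoid M] (F : Q → M) :
    ∑ t : Q, F t = ∑ i ∈ Finset.range p, F (π ⟨s ^ i, H.pow_mem hsH i⟩) := by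
  rw [prCard_layer_sum_eq π hπ hker hp hidx hsH hsN F]
  refine Finset.sum_congr rfl fun i _ => ?_
  rw [← map_pow]
  rfl

end Quotient

end Fermat.Agent.CFT
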