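/-
CFT, S55 pool, GLOBAL-IDELIC layer (K3), generic part (helper23).

**Group cohomology of an (infinite) product vanishes if it vanishes on every factor.**
`A : Rep k G`, `B i : Rep k G` (`i : ι`, any index type), morphisms `π i : A ⟶ B i` such that
`a ↦ (i ↦ π i a) : A → ∏ i, B i` is bijective.  If `Hⁿ⁺¹(G, B i) = 0` for all `i`, then
`Hⁿ⁺¹(G, A) = 0` (`prodV_subsingleton`).  Proof on explicit inhomogeneous cochains: the components
of a cocycle are coboundaries, and the componentwise primitives assemble into one cochain.

Also: `prodV_subsingleton_of_retract` (a retract of a representation with vanishing `Hⁿ` has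
vanishing `Hⁿ`), `prodV_subsingleton_of_tateCard` (a finite cyclic group whose two Tate groups are
trivial has `Hⁿ⁺¹ = 0` for all `n`), `prodV_ofMulDistribMulAction_eq` (the two shapes of the
representation attached to a multiplicative action agree).
-/
import Mathlib
import Fermat.Agent.CFT.PT.Smooth
import Fermat.Agent.CFT.Coh.CyclicBridge
import Fermat.Agent.CFT.Local.UnitsCoh

set_option autoImplicit false
set_option linter.unusedSectionVars false
set_option linter.style.haveILetI false

namespace Fermat.Agent.CFT

open CategoryTheory groupCohomology Rep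

universe u w

variable {k G : Type u} [CommRing k] [Group G] {ι : Type w}

/-- every class of `Hⁿ⁺¹(G, A)` whose images in all `Hⁿ⁺¹(G, B i)` vanish is zero, if
`A → ∏ i, B i` is bijective. -/
theorem prodV_eq_zero (A : Rep.{u} k G) (B : ι → Rep.{u} k G) (π : ∀ i, A ⟶ B i)
    (hinj : ∀ a : A, (∀ i, (π i).hom a = 0) → a = 0)
    (hsurj : ∀ b : ∀ i, B i, ∃ a : A, ∀ i, (π i).hom a = b i) (n : ℕ)
    (x : groupCohomology A (n + 1))
    (hx : ∀ i, (groupCohomology.map (MonoidHom.id G) (π i) (n + 1)).hom x = 0) : x = 0 := by
  induction x using groupCohomology_induction_on with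
  | h z =>
    -- the components of `z` are coboundaries
    have hi : ∀ i, ∃ y : (Fin n → G) → B i,
        (inhomogeneousCochains.d (B i) n).hom y =
          fun g => (π i).hom ((iCocycles A (n + 1)).hom z g) := by
      intro i
      have h0 := hx i
      have h1 : (groupCohomology.map (MonoidHom.id G) (π i) (n + 1)).hom
          ((groupCohomology.π A (n + 1)).hom z) =
          (groupCohomology.π (B i) (n + 1)).hom
            ((cocyclesMap (MonoidHom.id G) (π i) (n + 1)).hom z) :=
        congr($(π_map (MonoidHom.id G) (π i) (n + 1)) z)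
      rw [h1] at h0
      obtain ⟨y, hy⟩ := (Fermat.Agent.PT.homologyπ_eq_zero_iff (inhomogeneousCochains (B i)) n
        ((cocyclesMap (MonoidHom.id G) (π i) (n + 1)).hom z)).1 h0
      refine ⟨y, ?_⟩
      rw [inhomogeneousCochains.d_def] at hy
      refine hy.trans ?_
      have h2 := congr($(HomologicalComplex.cyclesMap_i (cochainsMap (MonoidHom.id G) (π i))
        (n + 1)) z)
      exact h2
    choose y hy using hi
    choose s hs using hsurj
    refine (Fermat.Agent.PT.homologyπ_eq_zero_iff (inhomogeneousCochains A) n z).2
      ⟨fun g => s fun i => y i g, ?_⟩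
    rw [inhomogeneousCochains.d_def]
    funext g
    have hsub : ∀ a b : A, (∀ i, (π i).hom a = (π i).hom b) → a = b := by
      intro a b hab
      have := hinj (a - b) fun i => by rw [map_sub, hab i, sub_self]
      exact sub_eq_zero.mp this
    apply hsub
    intro i
    have h3 : (π i).hom ((iCocycles A (n + 1)).hom z g) =
        (inhomogeneousCochains.d (B i) n).hom (y i) g := by rw [hy i]
    rw [h3]
    -- `π i` commutes with `d`
    have hc := (cochainsMap (MonoidHom.id G) (π i)).comm n (n + 1)
    rw [inhomogeneousCochains.d_def, inhomogeneousCochains.d_def] at hc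
    have hc' := congr($hc (fun g => s fun i => y i g))
    have hc'' := congrFun hc' g
    refine Eq.trans ?_ (Eq.trans hc''.symm ?_)
    · rfl
    · have : ((cochainsMap (MonoidHom.id G) (π i)).f n).hom (fun g => s fun i => y i g) = y i := by
        funext g'
        exact hs (fun i => y i g') i
      show (inhomogeneousCochains.d (B i) n).hom
        (((cochainsMap (MonoidHom.id G) (π i)).f n).hom (fun g => s fun i => y i g)) g = _
      rw [this]

/-- **`Hⁿ⁺¹` of a product vanishes if it vanishes on every factor.** -/
theorem prodV_subsingleton (A : Rep.{u} k G) (B : ι → Rep.{u} k G) (π : ∀ i, A ⟶ B i)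
    (hinj : ∀ a : A, (∀ i, (π i).hom a = 0) → a = 0)
    (hsurj : ∀ b : ∀ i, B i, ∃ a : A, ∀ i, (π i).hom a = b i) (n : ℕ)
    (h : ∀ i, Subsingleton (groupCohomology (B i) (n + 1))) :
    Subsingleton (groupCohomology A (n + 1)) := by
  refine ⟨fun x x' => ?_⟩
  rw [prodV_eq_zero A B π hinj hsurj n x fun i => Subsingleton.elim _ _,
    prodV_eq_zero A B π hinj hsurj n x' fun i => Subsingleton.elim _ _]

/-- a retract of a representation with vanishing `Hⁿ` has vanishing `Hⁿ`. -/
theorem prodV_subsingleton_of_retract {A B : Rep.{u} k G} (φ : A ⟶ B) (ψ : B ⟶ A)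
    (h : φ ≫ ψ = 𝟙 A) (n : ℕ) (hB : Subsingleton (groupCohomology B n)) :
    Subsingleton (groupCohomology A n) := by
  have hid : ∀ x : groupCohomology A n,
      (groupCohomology.map (MonoidHom.id G) ψ n).hom
        ((groupCohomology.map (MonoidHom.id G) φ n).hom x) = x := by
    intro x
    have h1 := groupCohomology.map_id_comp φ ψ n
    rw [h, groupCohomology.map_id] at h1
    exact (congr($h1 x)).symm
  refine ⟨fun x y => ?_⟩
  rw [← hid x, ← hid y, Subsingleton.elim ((groupCohomology.map (MonoidHom.id G) φ n).hom x)
    ((groupCohomology.map (MonoidHom.id G) φ n).hom y)]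

section Cyclic

attribute [local instance] additiveDistribMulAction

/-- the two shapes of the representation attached to a multiplicative action. -/
theorem prodV_ofMulDistribMulAction_eq (D W : Type) [Group D] [CommGroup W]
    [MulDistribMulAction D W] :
    Rep.ofMulDistribMulAction D W =
      Rep.of (Representation.ofDistribMulAction ℤ D (Additive W)) := by
  refine congrArg (fun ρ => Rep.of ρ) ?_
  ext g a
  rfl

set_option maxRecDepth 8000 in
attribute [local instance] IsCyclic.commGroup in
/-- **Periodicity**: a finite cyclic group `G = ⟨σ⟩` acting on `A` with `|Ĥ⁰| = |Ĥ¹| = 1` has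
`Hⁿ⁺¹(G, A) = 0` for all `n`. -/
theorem prodV_subsingleton_of_tateCard {G : Type} [Group G] [Fintype G] (A : Type)
    [AddCommGroup A] [DistribMulAction G A] {σ : G} (hσ : ∀ x, x ∈ Subgroup.zpowers σ)
    (h0 : tateH0Card G A σ = 1) (h1 : tateH1Card G A σ = 1) (n : ℕ) :
    Subsingleton
      (groupCohomology (Rep.of (Representation.ofDistribMulAction ℤ G A)) (n + 1)) := by
  haveI : IsCyclic G := ⟨σ, hσ⟩
  set R : Rep.{0} ℤ G := Rep.of (Representation.ofDistribMulAction ℤ G A) with hR
  have hs : repSubOne R σ = subOneHom A σ := by
    ext a; rfl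
  have hn : repNorm R = normHom G A := by
    ext a
    rw [repNorm_apply]
    rfl
  have hcard : Nat.card (groupCohomology R (n + 1)) = 1 := by
    rcases Nat.even_or_odd (n + 1) with hev | hodd
    · have e := natCard_groupCohomology_even R σ hσ (n + 1) hev
      rw [hs, hn] at e
      rw [e]
      exact h0
    · have e := natCard_groupCohomology_odd R σ hσ (n + 1) hodd
      rw [hs, hn] at e
      rw [e]
      exact h1
  exact (Nat.card_eq_one_iff_unique.mp hcard).1

end Cyclic

end Fermat.Agent.CFT
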