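import Fermat.Agent.CFT.PT.SmoothShapiro

/-!
# CFT, S55 global pool, (GT2-fin) part 1 : explicit Shapiro in ordinary group cohomology

The S55 engine proves Shapiro's lemma for the *explicit* map "restrict to `H`, evaluate at `1`"
on level-constant cohomology (`shapMap_bijective`, `PT/SmoothShapiro.lean`).  For a finite group
with the discrete family `famBot G = {⊥}` level-constant cohomology is ordinary group cohomology
(`expShap_lcToH_bijective`), which gives:

* `expShap_map_coindEv_bijective` : `Hⁿ(G, Coind_H^G B) ⟶ Hⁿ(H, B)`, restrict + evaluate at `1`,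
  is bijective (`G` finite);
* `expShap_bijective` : **decomposed-module form**.  `A : Rep k G`, finitely many subgroups `H i`
  with `B i : Rep k (H i)` and "projections" `π i : res (H i) A ⟶ B i` such that
  `a ↦ (i ↦ (g ↦ π i (g • a))) : A → ∏ i, Coind (B i)` is bijective.  Then
  `x ↦ (i ↦ (π i)_* (res x)) : Hⁿ(G, A) → ∏ i, Hⁿ(H i, B i)` is bijective.
-/

set_option autoImplicit false
set_option linter.unusedSectionVars false

namespace Fermat.Agent.PT

open CategoryTheory groupCohomology Rep

universe u

section Bot

variable {k G : Type u} [CommRing k] [Group G]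

/-- the discrete level family `{⊥}`. -/
def famBot (G : Type u) [Group G] : LevelFamily G where
  sets := {⊥}
  normal := by
    rintro U rfl
    infer_instance
  nonempty := ⟨⊥, rfl⟩
  directed := by
    rintro U rfl V rfl
    exact ⟨⊥, rfl, bot_le⟩

theorem bot_mem_famBot : (⊥ : Subgroup G) ∈ (famBot G).sets := rfl

theorem expShap_isLevel_bot (A : Rep.{u} k G) (n : ℕ) (f : (Fin n → G) → A) :
    IsLevel A n ⊥ f := by
  refine ⟨fun g h hgh => ?_, fun g u hu => ?_⟩
  · have : g = h := by
      funext i
      have := hgh i
      rw [Subgroup.mem_bot, inv_mul_eq_one] at this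
      exact this
    rw [this]
  · rw [Subgroup.mem_bot] at hu
    subst hu
    simp

theorem expShap_lcCochains_eq_top (𝔉 : LevelFamily G) (h : ⊥ ∈ 𝔉.sets) (A : Rep.{u} k G)
    (n : ℕ) : lcCochains 𝔉 A n = ⊤ :=
  eq_top_iff.mpr fun f _ => ⟨⊥, h, expShap_isLevel_bot A n f⟩

/-- if `⊥` is a level, level-constant cohomology is ordinary group cohomology. -/
theorem expShap_lcToH_bijective (𝔉 : LevelFamily G) (h : ⊥ ∈ 𝔉.sets) (A : Rep.{u} k G) (n : ℕ) :
    Function.Bijective (lcToH 𝔉 A n).hom := by
  have hiso : ∀ m, IsIso ((lcι 𝔉 A).f m) := by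
    intro m
    rw [ConcreteCategory.isIso_iff_bijective]
    constructor
    · intro x y hxy
      exact Subtype.ext hxy
    · intro f
      exact ⟨⟨f, by rw [expShap_lcCochains_eq_top 𝔉 h A m]; trivial⟩, rfl⟩
  have h1 : IsIso (lcι 𝔉 A) := HomologicalComplex.Hom.isIso_of_components _
  have h2 : IsIso (lcToH 𝔉 A n) :=
    (inferInstance : IsIso ((HomologicalComplex.homologyFunctor (ModuleCat k) _ n).map (lcι 𝔉 A)))
  exact (ConcreteCategory.isIso_iff_bijective _).mp h2

theorem finiteIndex_famBot [Finite G] : (famBot G).FiniteIndex := by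
  rintro U rfl
  infer_instance

theorem isSmooth_famBot (A : Rep.{u} k G) : IsSmooth (famBot G) A := by
  intro a
  refine ⟨⊥, rfl, fun u hu => ?_⟩
  rw [Subgroup.mem_bot] at hu
  subst hu
  simp

theorem bot_mem_restrict_famBot (H : Subgroup G) :
    (⊥ : Subgroup H) ∈ ((famBot G).restrict H).sets :=
  ⟨⊥, rfl, (Subgroup.bot_subgroupOf H).symm⟩

theorem isSmooth_restrict_famBot (H : Subgroup G) (B : Rep.{u} k H) :
    IsSmooth ((famBot G).restrict H) B := by
  intro b
  refine ⟨⊥, bot_mem_restrict_famBot H, fun u hu => ?_⟩
  rw [Subgroup.mem_bot] at hu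
  subst hu
  simp

end Bot

section Explicit

variable {k G : Type u} [CommRing k] [Group G] [Finite G]

/-- **Explicit Shapiro lemma** in ordinary group cohomology: restriction to `H` followed by
evaluation at `1` is an isomorphism `Hⁿ(G, Coind_H^G B) ≅ Hⁿ(H, B)`. -/
theorem expShap_map_coindEv_bijective (H : Subgroup G) (B : Rep.{u} k H) (n : ℕ) :
    Function.Bijective (groupCohomology.map H.subtype (coindEv H B) n).hom := by
  have h1 : Function.Bijective (shapMap (famBot G) H B n).hom :=
    shapMap_bijective finiteIndex_famBot ⟨⊥, rfl, bot_le⟩ n B (isSmooth_restrict_famBot H B)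
  have h2 := expShap_lcToH_bijective (k := k) ((famBot G).restrict H)
    (bot_mem_restrict_famBot H) B n
  have h3 := expShap_lcToH_bijective (k := k) (famBot G) rfl (coind H.subtype B) n
  have hcomm := HlcMap_comp_lcToH (A := coind H.subtype B) (B := B) H.subtype (coindEv H B)
    ((famBot G).compat_subtype H) n
  have hcomm' : ∀ x, (lcToH ((famBot G).restrict H) B n).hom
      ((shapMap (famBot G) H B n).hom x) =
      (groupCohomology.map H.subtype (coindEv H B) n).hom
        ((lcToH (famBot G) (coind H.subtype B) n).hom x) := fun x => congr($hcomm x)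
  have h4 : Function.Bijective ((groupCohomology.map H.subtype (coindEv H B) n).hom ∘
      (lcToH (famBot G) (coind H.subtype B) n).hom) := by
    have : (groupCohomology.map H.subtype (coindEv H B) n).hom ∘
        (lcToH (famBot G) (coind H.subtype B) n).hom =
        (lcToH ((famBot G).restrict H) B n).hom ∘ (shapMap (famBot G) H B n).hom := by
      funext x
      exact (hcomm' x).symm
    rw [this]
    exact h2.comp h1
  exact (Function.Bijective.of_comp_iff _ h3).mp h4

end Explicit

section Additive

variable {k G : Type u} [CommRing k] [Group G]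

/-- `Hⁿ(G, -)` is additive on morphisms. -/
theorem expShap_map_id_add {A B : Rep.{u} k G} (φ ψ : A ⟶ B) (n : ℕ) :
    groupCohomology.map (MonoidHom.id G) (φ + ψ) n =
      groupCohomology.map (MonoidHom.id G) φ n + groupCohomology.map (MonoidHom.id G) ψ n := by
  have h1 : cochainsMap (MonoidHom.id G) (φ + ψ) =
      cochainsMap (MonoidHom.id G) φ + cochainsMap (MonoidHom.id G) ψ :=
    (cochainsFunctor k G).map_add
  show HomologicalComplex.homologyMap (cochainsMap (MonoidHom.id G) (φ + ψ)) n = _
  rw [h1]
  exact (HomologicalComplex.homologyFunctor (ModuleCat k) _ n).map_add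

theorem expShap_map_id_zero {A B : Rep.{u} k G} (n : ℕ) :
    groupCohomology.map (MonoidHom.id G) (0 : A ⟶ B) n = 0 := by
  have h1 : cochainsMap (MonoidHom.id G) (0 : A ⟶ B) = 0 :=
    (cochainsFunctor k G).map_zero _ _
  show HomologicalComplex.homologyMap (cochainsMap (MonoidHom.id G) (0 : A ⟶ B)) n = _
  rw [h1]
  exact (HomologicalComplex.homologyFunctor (ModuleCat k) _ n).map_zero _ _

theorem expShap_map_id_sum {A B : Rep.{u} k G} {ι : Type*} (s : Finset ι) (φ : ι → (A ⟶ B))
    (n : ℕ) :
    groupCohomology.map (MonoidHom.id G) (∑ i ∈ s, φ i) n =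
      ∑ i ∈ s, groupCohomology.map (MonoidHom.id G) (φ i) n := by
  classical
  induction s using Finset.induction_on with
  | empty => simpa using expShap_map_id_zero (A := A) (B := B) n
  | insert a s ha ih => rw [Finset.sum_insert ha, Finset.sum_insert ha, expShap_map_id_add, ih]

end Additive

section Decomposed

variable {k G : Type u} [CommRing k] [Group G]
  {ι : Type*} [Fintype ι]
  (A : Rep.{u} k G) (H : ι → Subgroup G) (B : ∀ i, Rep.{u} k (H i))
  (π : ∀ i, res (H i).subtype A ⟶ B i)

/-- the adjunct `A ⟶ Coind (B i)`, `a ↦ (g ↦ π i (g • a))`. -/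
noncomputable def expShapθ (i : ι) : A ⟶ coind (H i).subtype (B i) :=
  resCoindToHom (H i).subtype A (B i) (π i)

theorem expShapθ_apply (i : ι) (a : A) (g : G) :
    ((expShapθ A H B π i).hom a).1 g = (π i).hom (A.ρ g a) := rfl

/-- the total map `A → ∏ i, Coind (B i)`. -/
noncomputable def expShapΘ : A.V →ₗ[k] (∀ i, (B i).ρ.coindV (H i).subtype) :=
  LinearMap.pi fun i => (expShapθ A H B π i).hom.toLinearMap

theorem expShapΘ_apply (a : A) (i : ι) :
    expShapΘ A H B π a i = (expShapθ A H B π i).hom a := rfl

variable (hΘ : Function.Bijective (expShapΘ A H B π))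

/-- the inverse of the total map. -/
noncomputable def expShapE : A.V ≃ₗ[k] (∀ i, (B i).ρ.coindV (H i).subtype) :=
  LinearEquiv.ofBijective (expShapΘ A H B π) hΘ

theorem expShapE_apply (a : A) : expShapE A H B π hΘ a = expShapΘ A H B π a := rfl

/-- the section `Coind (B i) ⟶ A` of the `i`-th adjunct. -/
noncomputable def expShapS [DecidableEq ι] (i : ι) : coind (H i).subtype (B i) ⟶ A :=
  Rep.ofHom
    ⟨(expShapE A H B π hΘ).symm.toLinearMap ∘ₗ
      LinearMap.single k (fun j => (B j).ρ.coindV (H j).subtype) i,
    fun g => by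
      apply LinearMap.ext
      intro f
      apply (expShapE A H B π hΘ).injective
      funext j
      change expShapE A H B π hΘ ((expShapE A H B π hΘ).symm
          (Pi.single i ((coind (H i).subtype (B i)).ρ g f))) j =
        expShapE A H B π hΘ (A.ρ g ((expShapE A H B π hΘ).symm (Pi.single i f))) j
      rw [LinearEquiv.apply_symm_apply, expShapE_apply, expShapΘ_apply, Rep.hom_comm_apply,
        ← expShapΘ_apply, ← expShapE_apply A H B π hΘ, LinearEquiv.apply_symm_apply]
      by_cases hij : j = i
      · subst hij
        rw [Pi.single_eq_same, Pi.single_eq_same]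
      · rw [Pi.single_eq_of_ne hij, Pi.single_eq_of_ne hij, map_zero]⟩

theorem expShapS_apply [DecidableEq ι] (i : ι) (f : (B i).ρ.coindV (H i).subtype) :
    (expShapS A H B π hΘ i).hom f = (expShapE A H B π hΘ).symm (Pi.single i f) := rfl

theorem expShapθ_S_self [DecidableEq ι] (i : ι) (f : (B i).ρ.coindV (H i).subtype) :
    (expShapθ A H B π i).hom ((expShapS A H B π hΘ i).hom f) = f := by
  rw [expShapS_apply, ← expShapΘ_apply, ← expShapE_apply A H B π hΘ,
    LinearEquiv.apply_symm_apply, Pi.single_eq_same]

theorem expShapθ_S_of_ne [DecidableEq ι] {i j : ι} (hij : j ≠ i)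
    (f : (B i).ρ.coindV (H i).subtype) :
    (expShapθ A H B π j).hom ((expShapS A H B π hΘ i).hom f) = 0 := by
  rw [expShapS_apply, ← expShapΘ_apply, ← expShapE_apply A H B π hΘ,
    LinearEquiv.apply_symm_apply, Pi.single_eq_of_ne hij]

theorem expShapS_comp_θ_self [DecidableEq ι] (i : ι) :
    expShapS A H B π hΘ i ≫ expShapθ A H B π i = 𝟙 _ := by
  apply Rep.hom_ext
  apply Representation.IntertwiningMap.ext
  apply LinearMap.ext
  intro f
  exact expShapθ_S_self A H B π hΘ i f

theorem expShapS_comp_θ_of_ne [DecidableEq ι] {i j : ι} (hij : j ≠ i) :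
    expShapS A H B π hΘ i ≫ expShapθ A H B π j = 0 := by
  apply Rep.hom_ext
  apply Representation.IntertwiningMap.ext
  apply LinearMap.ext
  intro f
  exact expShapθ_S_of_ne A H B π hΘ hij f

theorem expShap_sum_S_θ [DecidableEq ι] (a : A) :
    ∑ i, (expShapS A H B π hΘ i).hom ((expShapθ A H B π i).hom a) = a := by
  apply (expShapE A H B π hΘ).injective
  rw [map_sum]
  have h1 : ∀ i, expShapE A H B π hΘ ((expShapS A H B π hΘ i).hom ((expShapθ A H B π i).hom a)) =
      Pi.single i (expShapE A H B π hΘ a i) := by
    intro i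
    rw [expShapS_apply, LinearEquiv.apply_symm_apply]
    rfl
  rw [Finset.sum_congr rfl fun i _ => h1 i]
  exact Finset.univ_sum_single _

theorem expShap_sum_θ_comp_S [DecidableEq ι] :
    ∑ i, expShapθ A H B π i ≫ expShapS A H B π hΘ i = 𝟙 A := by
  apply Rep.hom_ext
  apply Representation.IntertwiningMap.ext
  apply LinearMap.ext
  intro a
  rw [Rep.sum_hom]
  change (∑ i, (expShapθ A H B π i ≫ expShapS A H B π hΘ i).hom) a = a
  rw [Representation.IntertwiningMap.sum_apply]
  exact expShap_sum_S_θ A H B π hΘ a

/-! ### cohomology -/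

theorem expShap_res_θ_comp_ev (i : ι) :
    (resFunctor (H i).subtype).map (expShapθ A H B π i) ≫ coindEv (H i) (B i) = π i := by
  apply Rep.hom_ext
  apply Representation.IntertwiningMap.ext
  apply LinearMap.ext
  intro a
  change ((expShapθ A H B π i).hom a).1 1 = (π i).hom a
  rw [expShapθ_apply, map_one]
  rfl

/-- the explicit map `res + project` factors through the adjunct and the Shapiro map. -/
theorem expShap_map_eq (n : ℕ) (i : ι) :
    groupCohomology.map (H i).subtype (π i) n =
      groupCohomology.map (MonoidHom.id G) (expShapθ A H B π i) n ≫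
        groupCohomology.map (H i).subtype (coindEv (H i) (B i)) n := by
  have h := groupCohomology.map_comp (k := k) (A := A) (B := coind (H i).subtype (B i))
    (C := B i) (MonoidHom.id G) (H i).subtype (expShapθ A H B π i) (coindEv (H i) (B i)) n
  have h0 := expShap_res_θ_comp_ev A H B π i
  exact (congrArg (fun f => groupCohomology.map (H i).subtype f n) h0).symm.trans h

include hΘ in
/-- the components of a class in the cohomology of the coinduced modules determine it, and are
arbitrary. -/
theorem expShap_θ_bijective (n : ℕ) :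
    Function.Bijective (fun (x : groupCohomology A n) (i : ι) =>
      (groupCohomology.map (MonoidHom.id G) (expShapθ A H B π i) n).hom x) := by
  classical
  constructor
  · intro x y hxy
    have hx : ∀ z : groupCohomology A n, z = ∑ i,
        (groupCohomology.map (MonoidHom.id G) (expShapS A H B π hΘ i) n).hom
          ((groupCohomology.map (MonoidHom.id G) (expShapθ A H B π i) n).hom z) := by
      intro z
      have h1 := expShap_map_id_sum (k := k) (G := G) Finset.univ
        (fun i => expShapθ A H B π i ≫ expShapS A H B π hΘ i) n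
      rw [expShap_sum_θ_comp_S, groupCohomology.map_id] at h1
      have h2 : (𝟙 (groupCohomology A n) : groupCohomology A n ⟶ _).hom z =
          (∑ i, groupCohomology.map (MonoidHom.id G)
            (expShapθ A H B π i ≫ expShapS A H B π hΘ i) n).hom z := by rw [← h1]
      rw [ModuleCat.hom_sum, LinearMap.sum_apply] at h2
      refine h2.trans (Finset.sum_congr rfl fun i _ => ?_)
      rw [groupCohomology.map_id_comp]
      rfl
    rw [hx x, hx y]
    refine Finset.sum_congr rfl fun i _ => ?_
    rw [show (groupCohomology.map (MonoidHom.id G) (expShapθ A H B π i) n).hom x =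
      (groupCohomology.map (MonoidHom.id G) (expShapθ A H B π i) n).hom y from congrFun hxy i]
  · intro y
    refine ⟨∑ i, (groupCohomology.map (MonoidHom.id G) (expShapS A H B π hΘ i) n).hom (y i), ?_⟩
    funext j
    change (groupCohomology.map (MonoidHom.id G) (expShapθ A H B π j) n).hom _ = y j
    rw [map_sum, Finset.sum_eq_single j]
    · have h1 := groupCohomology.map_id_comp (k := k) (expShapS A H B π hΘ j)
        (expShapθ A H B π j) n
      rw [expShapS_comp_θ_self, groupCohomology.map_id] at h1
      have h2 := congr($h1 (y j))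
      rw [ModuleCat.id_apply] at h2
      exact h2.symm
    · intro i _ hij
      have h1 := groupCohomology.map_id_comp (k := k) (expShapS A H B π hΘ i)
        (expShapθ A H B π j) n
      rw [expShapS_comp_θ_of_ne A H B π hΘ (Ne.symm hij), expShap_map_id_zero] at h1
      have h2 := congr($h1 (y i))
      exact h2.symm
    · intro h
      exact absurd (Finset.mem_univ j) h

include hΘ in
/-- **Explicit Shapiro lemma, decomposed-module form**: if `A ≅ ∏ i, Coind_{H i}^G (B i)` via the
adjuncts of the projections `π i`, then `x ↦ (i ↦ (π i)_* (res_{H i} x))` is a bijection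
`Hⁿ(G, A) ≅ ∏ i, Hⁿ(H i, B i)`. -/
theorem expShap_bijective [Finite G] (n : ℕ) :
    Function.Bijective (fun (x : groupCohomology A n) (i : ι) =>
      (groupCohomology.map (H i).subtype (π i) n).hom x) := by
  have h1 := expShap_θ_bijective A H B π hΘ n
  have h2 : Function.Bijective (fun (y : ∀ i, groupCohomology (coind (H i).subtype (B i)) n)
      (i : ι) => (groupCohomology.map (H i).subtype (coindEv (H i) (B i)) n).hom (y i)) := by
    constructor
    · intro y y' hyy
      funext i
      exact (expShap_map_coindEv_bijective (H i) (B i) n).1 (congrFun hyy i)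
    · intro z
      choose y hy using fun i => (expShap_map_coindEv_bijective (H i) (B i) n).2 (z i)
      exact ⟨y, funext hy⟩
  have h3 := h2.comp h1
  convert h3 using 1
  funext x i
  rw [expShap_map_eq]
  rfl

include hΘ in
/-- vanishing: if all `Hⁿ(H i, B i)` vanish then so does `Hⁿ(G, A)`. -/
theorem expShap_isZero [Finite G] (n : ℕ)
    (h : ∀ i, Limits.IsZero (groupCohomology (B i) n)) :
    Limits.IsZero (groupCohomology A n) := by
  haveI : Subsingleton (groupCohomology A n) := by
    refine ⟨fun x y => (expShap_bijective A H B π hΘ n).1 ?_⟩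
    funext i
    exact (ModuleCat.subsingleton_of_isZero (h i)).elim _ _
  exact ModuleCat.isZero_of_subsingleton _

include hΘ in
/-- cardinalities: `|Hⁿ(G, A)| = ∏ i, |Hⁿ(H i, B i)|`. -/
theorem expShap_natCard [Finite G] (n : ℕ) :
    Nat.card (groupCohomology A n) = ∏ i, Nat.card (groupCohomology (B i) n) := by
  rw [Nat.card_congr (Equiv.ofBijective _ (expShap_bijective A H B π hΘ n)), Nat.card_pi]

end Decomposed

end Fermat.Agent.PT
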