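import Fermat.Agent.CFT.Coh.AugIdeal

set_option autoImplicit false

/-!
# Stream A (Coh), chunk T4: the splitting module of a `2`-cocycle

For a finite group `G`, `C : Rep k G` and a `2`-cocycle `φ`, the splitting module is
`C(φ) = C × I` (`I` the augmentation ideal, function model) with the twisted action
`τ • (c, x) = (τ • c + Φ_τ x, τ • x)`, `Φ_τ x = ∑ y, x y • φ (τ, y⁻¹)`.
There is a short exact sequence `0 ⟶ C ⟶ C(φ) ⟶ I ⟶ 0`, and the connecting homomorphism
`H¹(S, I) ⟶ H²(S, C)` sends the fundamental class to the restriction of the class of `φ`.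
-/

namespace Fermat.Agent.CFT

open CategoryTheory groupCohomology Rep

universe u

variable {k G : Type u} [CommRing k] [Group G] [Fintype G] (C : Rep.{u} k G) (φ : cocycles₂ C)

/-- `Φ_τ x = ∑ y, x y • φ (τ, y⁻¹)`. -/
def twistLin (τ : G) : (G → k) →ₗ[k] C.V where
  toFun x := ∑ y, x y • φ (τ, y⁻¹)
  map_add' x x' := by simp [add_smul, Finset.sum_add_distrib]
  map_smul' c x := by simp [mul_smul, Finset.smul_sum]

theorem twistLin_apply (τ : G) (x : G → k) : twistLin C φ τ x = ∑ y, x y • φ (τ, y⁻¹) := rfl

theorem twistLin_gDelta (τ σ : G) : twistLin C φ τ (gDelta k G σ) = φ (τ, σ) := by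
  rw [twistLin_apply, sum_gDelta_smul σ (fun y => φ (τ, y⁻¹)), inv_inv]

theorem twistLin_one (x : G → k) (hx : x ∈ augSub k G) : twistLin C φ 1 x = 0 := by
  rw [twistLin_apply]
  simp_rw [cocycles₂_map_one_fst]
  rw [← Finset.sum_smul, (mem_augSub_iff k G x).1 hx, zero_smul]

theorem twistLin_mul (τ' τ : G) (x : G → k) (hx : x ∈ augSub k G) :
    twistLin C φ (τ' * τ) x =
      C.ρ τ' (twistLin C φ τ x) + twistLin C φ τ' (funRepresentation k G k τ x) := by
  have h2 : twistLin C φ τ' (funRepresentation k G k τ x) = ∑ z, x z • φ (τ', τ * z⁻¹) := by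
    rw [twistLin_apply]
    refine Fintype.sum_equiv (Equiv.mulRight τ) _ _ fun y => ?_
    simp [mul_inv_rev]
  rw [h2, twistLin_apply, twistLin_apply, map_sum, ← Finset.sum_add_distrib]
  have h3 : ∀ y : G, x y • φ (τ' * τ, y⁻¹) =
      (C.ρ τ' (x y • φ (τ, y⁻¹)) + x y • φ (τ', τ * y⁻¹)) - x y • φ (τ', τ) := by
    intro y
    have hc := (mem_cocycles₂_iff (A := C) φ).1 φ.2 τ' τ y⁻¹
    rw [map_smul, ← smul_add, ← smul_sub, ← hc, add_sub_cancel_right]
  rw [Finset.sum_congr rfl fun y _ => h3 y, Finset.sum_sub_distrib, ← Finset.sum_smul,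
    (mem_augSub_iff k G x).1 hx, zero_smul, sub_zero]

/-- The twisted action of `τ` on `C × I`. -/
def splitAct (τ : G) : (C.V × augSub k G) →ₗ[k] (C.V × augSub k G) :=
  LinearMap.prod
    (C.ρ τ ∘ₗ LinearMap.fst k _ _ +
      twistLin C φ τ ∘ₗ (augSub k G).subtype ∘ₗ LinearMap.snd k _ _)
    (augRepresentation k G τ ∘ₗ LinearMap.snd k _ _)

theorem splitAct_apply (τ : G) (c : C.V) (x : augSub k G) :
    splitAct C φ τ (c, x) = (C.ρ τ c + twistLin C φ τ x.1, augRepresentation k G τ x) := rfl

/-- The splitting module as a representation. -/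
def splitRepresentation : Representation k G (C.V × augSub k G) where
  toFun := splitAct C φ
  map_one' := by
    apply LinearMap.ext
    rintro ⟨c, x⟩
    rw [splitAct_apply, twistLin_one C φ x.1 x.2, map_one, map_one]
    simp
  map_mul' τ' τ := by
    apply LinearMap.ext
    rintro ⟨c, x⟩
    rw [Module.End.mul_apply, splitAct_apply, splitAct_apply, splitAct_apply,
      twistLin_mul C φ τ' τ x.1 x.2, map_mul, map_mul, map_add]
    refine Prod.ext ?_ rfl
    simp only [Module.End.mul_apply]
    have : (augRepresentation k G τ x).1 = funRepresentation k G k τ x.1 := rfl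
    rw [this]
    abel

/-- The splitting module `C(φ)`. -/
noncomputable abbrev splitRep : Rep k G := Rep.of (splitRepresentation C φ)

theorem splitRep_ρ_apply (τ : G) (c : C.V) (x : augSub k G) :
    (splitRep C φ).ρ τ (c, x) = (C.ρ τ c + twistLin C φ τ x.1, augRepresentation k G τ x) := rfl

/-- The inclusion `C ⟶ C(φ)`. -/
noncomputable def splitIncl : C ⟶ splitRep C φ :=
  Rep.ofHom
    { toLinearMap := LinearMap.inl k C.V (augSub k G)
      isIntertwining' := fun g => by
        apply LinearMap.ext
        intro c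
        change ((C.ρ g c, 0) : C.V × augSub k G) = (splitRep C φ).ρ g (c, 0)
        rw [splitRep_ρ_apply, map_zero]
        simp }

/-- The projection `C(φ) ⟶ I`. -/
noncomputable def splitProj : splitRep C φ ⟶ augRep k G :=
  Rep.ofHom
    { toLinearMap := LinearMap.snd k C.V (augSub k G)
      isIntertwining' := fun g => by
        apply LinearMap.ext
        rintro ⟨c, x⟩
        rfl }

@[simp] theorem splitIncl_apply (c : C.V) : (splitIncl C φ).hom c = (c, 0) := rfl

@[simp] theorem splitProj_apply (p : C.V × augSub k G) : (splitProj C φ).hom p = p.2 := rfl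

theorem splitIncl_comp_splitProj : splitIncl C φ ≫ splitProj C φ = 0 := by
  ext c
  rfl

/-- The short complex `C ⟶ C(φ) ⟶ I`. -/
noncomputable def splitSC : ShortComplex (Rep k G) :=
  ShortComplex.mk (splitIncl C φ) (splitProj C φ) (splitIncl_comp_splitProj C φ)

theorem splitSC_shortExact : (splitSC C φ).ShortExact := by
  have hM : Mono (splitSC C φ).f := by
    rw [Rep.mono_iff_injective]
    intro a b hab
    exact congrArg Prod.fst hab
  have hP : Epi (splitSC C φ).g := by
    rw [Rep.epi_iff_surjective]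
    intro x
    exact ⟨((0 : C.V), (x : augSub k G)), rfl⟩
  have hE : (splitSC C φ).Exact := by
    rw [← ShortComplex.exact_map_iff_of_faithful _ (forget₂ (Rep k G) (ModuleCat k)),
      ShortComplex.moduleCat_exact_iff]
    rintro ⟨c, x⟩ hx
    have hx0 : x = 0 := hx
    exact ⟨c, by rw [hx0]; rfl⟩
  exact { exact := hE, mono_f := hM, epi_g := hP }

section Sub

variable (S : Subgroup G)

/-- The restricted sequence over a subgroup `S`. -/
theorem splitSC_res_shortExact : ((splitSC C φ).map (resFunctor S.subtype)).ShortExact :=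
  (Rep.shortExact_res S.subtype).2 (splitSC_shortExact C φ)

/-- The restriction of the cocycle `φ` to `S`. -/
noncomputable def resCocycle₂ : cocycles₂ (res S.subtype C) :=
  mapCocycles₂ S.subtype (𝟙 (res S.subtype C)) φ

theorem resCocycle₂_apply (s t : S) : resCocycle₂ C φ S (s, t) = φ ((s : G), (t : G)) := rfl

theorem resH_H2π : resH S C 2 (H2π C φ) = H2π (res S.subtype C) (resCocycle₂ C φ S) :=
  H2π_comp_map_apply S.subtype (𝟙 (res S.subtype C)) φ

/-- **The connecting homomorphism of the splitting sequence** sends the fundamental class of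
`H¹(S, I)` to the restriction of the class of `φ`. -/
theorem δ_split_augClass :
    δ (splitSC_res_shortExact C φ S) 1 2 rfl (H1π _ (augCocycle k G S)) =
      H2π (res S.subtype C) (resCocycle₂ C φ S) := by
  have hx : ((splitSC C φ).map (resFunctor S.subtype)).f.hom ∘
      (fun p : S × S => φ ((p.1 : G), (p.2 : G))) =
      d₁₂ ((splitSC C φ).map (resFunctor S.subtype)).X₂
        (fun s : S => ((φ (1, 1), augCocycleFun k G (s : G)) : C.V × augSub k G)) := by
    funext ⟨s, t⟩
    change ((φ ((s : G), (t : G)), 0) : C.V × augSub k G) =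
      (splitRep C φ).ρ (s : G) (φ (1, 1), augCocycleFun k G (t : G)) -
        (φ (1, 1), augCocycleFun k G ((s : G) * (t : G))) + (φ (1, 1), augCocycleFun k G (s : G))
    rw [splitRep_ρ_apply, augCocycleFun_mul, augCocycleFun_val, map_sub, twistLin_gDelta,
      twistLin_gDelta]
    refine Prod.ext ?_ ?_
    · have h1 := cocycles₂_map_one_snd φ (s : G)
      simp only [Prod.fst_add, Prod.fst_sub]
      rw [h1]
      abel
    · simp
  have h := δ₁_apply (splitSC_res_shortExact C φ S) (augCocycle k G S)
    (fun s : S => ((φ (1, 1), augCocycleFun k G (s : G)) : C.V × augSub k G)) rfl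
    (fun p : S × S => φ ((p.1 : G), (p.2 : G))) hx
  rw [h]
  congr 1

end Sub

end Fermat.Agent.CFT
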