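import Fermat.Agent.CFT.Coh.TateThm
import Fermat.Agent.CFT.Coh.H2Int

set_option autoImplicit false

/-!
# Stream A (Coh): Tate's theorem in degree `4`: `H⁴(S, C) ≅ Hom(S, ℚ/ℤ)`

For a class cocycle `φ` of `C : Rep ℤ G` (`G` finite) and every subgroup `S ≤ G`,
`H⁴(S, C) ≅ H²(S, ℤ) ≅ H¹(S, ℚ/ℤ) = Hom(S, ℚ/ℤ)`.
-/

namespace Fermat.Agent.CFT

open CategoryTheory groupCohomology Rep

variable {G : Type} [Group G] [Fintype G] (C : Rep.{0} ℤ G) (φ : cocycles₂ C)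

/-- `H²(S, ℤ) ≅ Hom(S, ℚ/ℤ)` for the restriction of the trivial representation of `G` to a
subgroup `S` -/
noncomputable def h2IntResIsoHom (S : Subgroup G) :
    groupCohomology (res S.subtype (Rep.trivial ℤ G ℤ)) 2 ≅
      ModuleCat.of ℤ (Additive S →+ QModZ) :=
  h2IntIsoHom S

/-- **Tate's theorem, degree `4`**: `H⁴(S, C) ≅ Hom(S, ℚ/ℤ)` for a class cocycle. -/
noncomputable def tateH4IsoHom (hφ : IsClassCocycle C φ) (S : Subgroup G) :
    groupCohomology (res S.subtype C) 4 ≅ ModuleCat.of ℤ (Additive S →+ QModZ) :=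
  (tateIsoInt C φ hφ S 1).symm ≪≫ h2IntResIsoHom S

/-- `H⁴(S, C) ≃+ Hom(S, ℚ/ℤ)` -/
noncomputable def tateH4EquivHom (hφ : IsClassCocycle C φ) (S : Subgroup G) :
    groupCohomology (res S.subtype C) 4 ≃+ (Additive S →+ QModZ) :=
  (tateH4IsoHom C φ hφ S).toLinearEquiv.toAddEquiv

end Fermat.Agent.CFT
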