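import Fermat.Agent.CFT.Coh.SplittingModule
import Fermat.Agent.CFT.Coh.CohTrivial

set_option autoImplicit false

/-!
# Stream A (Coh), chunk T5a: Tate's theorem in positive degrees

Let `G` be a finite group, `C : Rep k G` and `φ` a `2`-cocycle such that for every subgroup
`S ≤ G`: `H¹(S, C) = 0` and `H²(S, C)` is generated by the restriction of the class of `φ`, with
annihilator `|S| k` (a *class cocycle*; for `k = ℤ`: `H²(S, C)` is cyclic of order `|S|`
generated by `res [φ]`).  Assume moreover `H¹(S, k) = 0` for all `S` (automatic for `k = ℤ`).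
Then the splitting module `C(φ)` has vanishing cohomology in positive degrees on all subgroups,
and dimension shifting gives isomorphisms `Hᵠ⁺¹(S, k) ≅ Hᵠ⁺³(S, C)`; in particular
`H³(S, C) = 0`.
-/

namespace Fermat.Agent.CFT

open CategoryTheory groupCohomology Rep

universe u

variable {k G : Type u} [CommRing k] [Group G] [Fintype G] (C : Rep.{u} k G) (φ : cocycles₂ C)

/-- The class-formation hypothesis on a `2`-cocycle `φ` of `C`. -/
structure IsClassCocycle : Prop where
  /-- `H¹(S, C) = 0` for all subgroups -/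
  h1 : ∀ S : Subgroup G, Limits.IsZero (groupCohomology (res S.subtype C) 1)
  /-- `H²(S, C)` is generated by the restriction of the class of `φ` -/
  gen : ∀ (S : Subgroup G) (y : groupCohomology (res S.subtype C) 2),
    ∃ n : k, y = n • H2π (res S.subtype C) (resCocycle₂ C φ S)
  /-- the annihilator of the restricted class is `|S| k` -/
  ord : ∀ (S : Subgroup G) (n : k), n • H2π (res S.subtype C) (resCocycle₂ C φ S) = 0 →
    ∃ m : k, n = (Nat.card S : k) * m

/-- The coefficient ring has no `H¹` on subgroups (automatic for `k = ℤ`). -/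
def TrivialH1Vanishes (k G : Type u) [CommRing k] [Group G] : Prop :=
  ∀ S : Subgroup G, Limits.IsZero (groupCohomology (res S.subtype (Rep.trivial k G k)) 1)

variable {C φ}

section Sub

variable (S : Subgroup G)

/-- `H²(S, I) = 0` when `H¹(S, k) = 0`. -/
theorem isZero_H2_augRep (hk : TrivialH1Vanishes k G) :
    Limits.IsZero (groupCohomology (res S.subtype (augRep k G)) 2) := by
  have iS : IsIso (groupCohomology.δ (augSC_res_shortExact k G S) 1 2 rfl) :=
    isIso_δ_of_isZero _ 1 (isZero_groupCohomology_res_funRep k S k 0)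
      (isZero_groupCohomology_res_funRep k S k 1)
  exact Limits.IsZero.of_iso (hk S)
    (@asIso _ _ _ _ (groupCohomology.δ (augSC_res_shortExact k G S) 1 2 rfl) iS).symm

/-- The fundamental class of `H¹(S, I)` is killed by `|S|`. -/
theorem natCard_smul_augClass :
    (Nat.card S : k) • H1π (res S.subtype (augRep k G)) (augCocycle k G S) = 0 := by
  rw [Nat.cast_smul_eq_nsmul]
  exact natCard_nsmul_eq_zero (res S.subtype (augRep k G)) 0 _

/-- `H¹(S, C(φ)) = 0`. -/
theorem isZero_H1_splitRep (hφ : IsClassCocycle C φ) :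
    Limits.IsZero (groupCohomology (res S.subtype (splitRep C φ)) 1) := by
  rw [ModuleCat.isZero_iff_subsingleton]
  have hX := splitSC_res_shortExact C φ S
  let f1 : groupCohomology (res S.subtype C) 1 ⟶ groupCohomology (res S.subtype (splitRep C φ)) 1 :=
    (mapShortComplex₂ ((splitSC C φ).map (resFunctor S.subtype)) 1).f
  let g1 : groupCohomology (res S.subtype (splitRep C φ)) 1 ⟶
      groupCohomology (res S.subtype (augRep k G)) 1 :=
    (mapShortComplex₂ ((splitSC C φ).map (resFunctor S.subtype)) 1).g
  let δ12 : groupCohomology (res S.subtype (augRep k G)) 1 ⟶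
      groupCohomology (res S.subtype C) 2 := groupCohomology.δ hX 1 2 rfl
  have hzero : ∀ x, δ12 (g1 x) = 0 := fun x => by
    have h0 : g1 ≫ δ12 = 0 := (mapShortComplex₃ hX (i := 1) rfl).zero
    exact (ConcreteCategory.comp_apply _ _ x).symm.trans (ConcreteCategory.congr_hom h0 x)
  have hex : ∀ x, g1 x = 0 → ∃ y, f1 y = x := by
    have hex := mapShortComplex₂_exact hX 1
    rw [ShortComplex.moduleCat_exact_iff] at hex
    exact hex
  have key : ∀ x : groupCohomology (res S.subtype (splitRep C φ)) 1, x = 0 := by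
    intro x
    obtain ⟨n, hn⟩ := exists_eq_smul_augClass k G S (g1 x)
    have h1 : δ12 (n • H1π (res S.subtype (augRep k G)) (augCocycle k G S)) = 0 := by
      rw [← hn]; exact hzero x
    have h2 : n • δ12 (H1π (res S.subtype (augRep k G)) (augCocycle k G S)) = 0 :=
      (map_smul δ12.hom n _).symm.trans h1
    have h3 : δ12 (H1π (res S.subtype (augRep k G)) (augCocycle k G S)) =
        H2π (res S.subtype C) (resCocycle₂ C φ S) := δ_split_augClass C φ S
    rw [h3] at h2
    obtain ⟨m, rfl⟩ := hφ.ord S n h2
    have hx' : g1 x = 0 := by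
      rw [hn, mul_comm, mul_smul, natCard_smul_augClass, smul_zero]
    obtain ⟨y, rfl⟩ := hex x hx'
    have hy : y = 0 := (ModuleCat.isZero_iff_subsingleton.mp (hφ.h1 S)).elim _ _
    rw [hy, map_zero]
  exact ⟨fun x y => (key x).trans (key y).symm⟩

/-- `H²(S, C(φ)) = 0`. -/
theorem isZero_H2_splitRep (hφ : IsClassCocycle C φ) (hk : TrivialH1Vanishes k G) :
    Limits.IsZero (groupCohomology (res S.subtype (splitRep C φ)) 2) := by
  rw [ModuleCat.isZero_iff_subsingleton]
  have hX := splitSC_res_shortExact C φ S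
  let f2 : groupCohomology (res S.subtype C) 2 ⟶ groupCohomology (res S.subtype (splitRep C φ)) 2 :=
    (mapShortComplex₂ ((splitSC C φ).map (resFunctor S.subtype)) 2).f
  let g2 : groupCohomology (res S.subtype (splitRep C φ)) 2 ⟶
      groupCohomology (res S.subtype (augRep k G)) 2 :=
    (mapShortComplex₂ ((splitSC C φ).map (resFunctor S.subtype)) 2).g
  let δ12 : groupCohomology (res S.subtype (augRep k G)) 1 ⟶
      groupCohomology (res S.subtype C) 2 := groupCohomology.δ hX 1 2 rfl
  have hzero : ∀ x, f2 (δ12 x) = 0 := fun x => by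
    have h0 : δ12 ≫ f2 = 0 := (mapShortComplex₁ hX (i := 1) rfl).zero
    exact (ConcreteCategory.comp_apply _ _ x).symm.trans (ConcreteCategory.congr_hom h0 x)
  have hex : ∀ x, g2 x = 0 → ∃ y, f2 y = x := by
    have hex := mapShortComplex₂_exact hX 2
    rw [ShortComplex.moduleCat_exact_iff] at hex
    exact hex
  have key : ∀ x : groupCohomology (res S.subtype (splitRep C φ)) 2, x = 0 := by
    intro x
    have hx' : g2 x = 0 :=
      (ModuleCat.isZero_iff_subsingleton.mp (isZero_H2_augRep S hk)).elim _ _
    obtain ⟨y, rfl⟩ := hex x hx'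
    obtain ⟨n, rfl⟩ := hφ.gen S y
    have h3 : δ12 (H1π (res S.subtype (augRep k G)) (augCocycle k G S)) =
        H2π (res S.subtype C) (resCocycle₂ C φ S) := δ_split_augClass C φ S
    have h4 : n • H2π (res S.subtype C) (resCocycle₂ C φ S) =
        δ12 (n • H1π (res S.subtype (augRep k G)) (augCocycle k G S)) := by
      rw [← h3]; exact (map_smul δ12.hom n _).symm
    rw [h4]
    exact hzero _
  exact ⟨fun x y => (key x).trans (key y).symm⟩

end Sub

/-- The splitting module of a class cocycle satisfies the hypothesis of the twin number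
criterion. -/
theorem twinVanishing_splitRep (hφ : IsClassCocycle C φ) (hk : TrivialH1Vanishes k G) :
    TwinVanishing (splitRep C φ) :=
  twinVanishing_of_subgroups fun S => ⟨isZero_H1_splitRep S hφ, isZero_H2_splitRep S hφ hk⟩

/-- **The splitting module of a class cocycle is cohomologically trivial** (positive degrees). -/
theorem isZero_groupCohomology_splitRep (hφ : IsClassCocycle C φ) (hk : TrivialH1Vanishes k G)
    (S : Subgroup G) (q : ℕ) (hq : 0 < q) :
    Limits.IsZero (groupCohomology (res S.subtype (splitRep C φ)) q) :=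
  isZero_groupCohomology_res_of_twinVanishing (twinVanishing_splitRep hφ hk) S.subtype
    S.subtype_injective q hq

section Iso

variable (S : Subgroup G)

/-- Dimension shifting along `0 ⟶ I ⟶ Fun(G, k) ⟶ k ⟶ 0`: `Hᵠ⁺¹(S, k) ≅ Hᵠ⁺²(S, I)`. -/
noncomputable def augShiftIso (q : ℕ) :
    groupCohomology (res S.subtype (Rep.trivial k G k)) (q + 1) ≅
      groupCohomology (res S.subtype (augRep k G)) (q + 2) :=
  @asIso _ _ _ _ (groupCohomology.δ (augSC_res_shortExact k G S) (q + 1) (q + 2) rfl)
    (isIso_δ_of_isZero _ (q + 1) (isZero_groupCohomology_res_funRep k S k q)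
      (isZero_groupCohomology_res_funRep k S k (q + 1)))

/-- Dimension shifting along the splitting sequence: `Hᵠ⁺¹(S, I) ≅ Hᵠ⁺²(S, C)`. -/
noncomputable def splitShiftIso (hφ : IsClassCocycle C φ) (hk : TrivialH1Vanishes k G) (q : ℕ) :
    groupCohomology (res S.subtype (augRep k G)) (q + 1) ≅
      groupCohomology (res S.subtype C) (q + 2) :=
  @asIso _ _ _ _ (groupCohomology.δ (splitSC_res_shortExact C φ S) (q + 1) (q + 2) rfl)
    (isIso_δ_of_isZero _ (q + 1) (isZero_groupCohomology_splitRep hφ hk S (q + 1) q.succ_pos)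
      (isZero_groupCohomology_splitRep hφ hk S (q + 2) (q + 1).succ_pos))

/-- **Tate's theorem** (positive degrees): `Hᵠ⁺¹(S, k) ≅ Hᵠ⁺³(S, C)` for a class cocycle. -/
noncomputable def tateIso (hφ : IsClassCocycle C φ) (hk : TrivialH1Vanishes k G) (q : ℕ) :
    groupCohomology (res S.subtype (Rep.trivial k G k)) (q + 1) ≅
      groupCohomology (res S.subtype C) (q + 3) :=
  augShiftIso S q ≪≫ splitShiftIso S hφ hk (q + 1)

/-- **Tate's theorem, `n = 1`**: `H³(S, C) = 0` for a class cocycle. -/
theorem isZero_H3_of_isClassCocycle (hφ : IsClassCocycle C φ) (hk : TrivialH1Vanishes k G) :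
    Limits.IsZero (groupCohomology (res S.subtype C) 3) :=
  Limits.IsZero.of_iso (hk S) (tateIso S hφ hk 0).symm

end Iso

section Int

variable {G : Type} [Group G] [Fintype G]

/-- `H¹(S, ℤ) = 0` for every subgroup of a finite group. -/
theorem trivialH1Vanishes_int : TrivialH1Vanishes ℤ G := by
  intro S
  rw [ModuleCat.isZero_iff_subsingleton]
  have key : ∀ x : groupCohomology (res S.subtype (Rep.trivial ℤ G ℤ)) 1, x = 0 := by
    intro x
    induction x using H1_induction_on with
    | h f =>
      have hadd : ∀ s t : S, f (s * t) = f t + f s := fun s t =>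
        (mem_cocycles₁_iff (A := res S.subtype (Rep.trivial ℤ G ℤ)) f).1 f.2 s t
      have hpow : ∀ (s : S) (n : ℕ), f (s ^ n) = n • f s := by
        intro s n
        induction n with
        | zero => rw [pow_zero, zero_smul]; exact cocycles₁_map_one f
        | succ n ih => rw [pow_succ, hadd, ih, succ_nsmul, add_comm]
      have hzero : ∀ s : S, f s = 0 := by
        intro s
        have h1 := hpow s (Nat.card S)
        rw [pow_card_eq_one', cocycles₁_map_one f] at h1
        have h2 : (Nat.card S : ℤ) * (f s : ℤ) = 0 := by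
          rw [← nsmul_eq_mul]; exact h1.symm
        rcases mul_eq_zero.1 h2 with h | h
        · exact absurd h (by exact_mod_cast Nat.card_pos.ne')
        · exact h
      rw [H1π_eq_zero_iff]
      refine ⟨0, ?_⟩
      funext s
      rw [map_zero]
      exact (hzero s).symm
  exact ⟨fun x y => (key x).trans (key y).symm⟩

variable (C : Rep.{0} ℤ G) (φ : cocycles₂ C)

/-- For `k = ℤ`, a `2`-cocycle is a class cocycle as soon as for every subgroup `S`:
`H¹(S, C) = 0`, `|H²(S, C)| = |S|` and the restricted class has order `|S|`. -/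
theorem isClassCocycle_of_card
    (h1 : ∀ S : Subgroup G, Limits.IsZero (groupCohomology (res S.subtype C) 1))
    (hcard : ∀ S : Subgroup G, Nat.card (groupCohomology (res S.subtype C) 2) = Nat.card S)
    (hord : ∀ S : Subgroup G,
      addOrderOf (H2π (res S.subtype C) (resCocycle₂ C φ S)) = Nat.card S) :
    IsClassCocycle C φ where
  h1 := h1
  gen S y := by
    have hfin : Finite (groupCohomology (res S.subtype C) 2) :=
      Nat.finite_of_card_ne_zero (by rw [hcard S]; exact Nat.card_pos.ne')
    have htop : AddSubgroup.zmultiples (H2π (res S.subtype C) (resCocycle₂ C φ S)) = ⊤ := by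
      rw [← AddSubgroup.card_eq_iff_eq_top, Nat.card_zmultiples, hord S, hcard S]
    have hy : y ∈ AddSubgroup.zmultiples (H2π (res S.subtype C) (resCocycle₂ C φ S)) := by
      rw [htop]; exact AddSubgroup.mem_top y
    obtain ⟨n, hn⟩ := AddSubgroup.mem_zmultiples_iff.1 hy
    exact ⟨n, hn.symm.trans (int_smul_eq_zsmul _ n _).symm⟩
  ord S n hn := by
    have h2 : (addOrderOf (H2π (res S.subtype C) (resCocycle₂ C φ S)) : ℤ) ∣ n := by
      rw [addOrderOf_dvd_iff_zsmul_eq_zero]
      exact (int_smul_eq_zsmul _ n _).symm.trans hn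
    rw [hord S] at h2
    obtain ⟨m, hm⟩ := h2
    exact ⟨m, hm⟩

/-- **Tate's theorem over `ℤ`**: `Hᵠ⁺¹(S, ℤ) ≅ Hᵠ⁺³(S, C)`. -/
noncomputable def tateIsoInt (hφ : IsClassCocycle C φ) (S : Subgroup G) (q : ℕ) :
    groupCohomology (res S.subtype (Rep.trivial ℤ G ℤ)) (q + 1) ≅
      groupCohomology (res S.subtype C) (q + 3) :=
  tateIso S hφ trivialH1Vanishes_int q

/-- **Tate's theorem over `ℤ`, `n = 1`**: `H³(S, C) = 0`. -/
theorem isZero_H3_of_isClassCocycle_int (hφ : IsClassCocycle C φ) (S : Subgroup G) :
    Limits.IsZero (groupCohomology (res S.subtype C) 3) :=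
  isZero_H3_of_isClassCocycle S hφ trivialH1Vanishes_int

end Int

end Fermat.Agent.CFT
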