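import Fermat.Agent.CFT.Coh.CyclicHerbrand

set_option autoImplicit false

/-!
# Stream A (Coh), layer (A6): the abstract "first inequality" index theorem

Abelian groups `E, M, I` with commuting pairs of endomorphisms `(f, g)`, `f ∘ g = 0 = g ∘ f`
(cyclic case: `f = σ - 1`, `g = N`), an exact sequence `0 → E → M → I` of such, with
`I / im M` finite, `H¹(M) = 0 = H¹(I)` (i.e. `ker g ≤ im f`).  Then for the map
`φ̄ : Ĥ⁰(M) → Ĥ⁰(I)` one has `|coker φ̄| * |Ĥ⁰(E)| = |H¹(E)| * |ker φ̄|`, stated with explicit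
subgroups:
`[ker f_I : φ(ker f_M) + im g_I] * [ker f_E : im g_E] = [ker g_E : im f_E] * [Nloc : im g_M]`,
`Nloc = ker f_M ∩ φ⁻¹(im g_I)`.

Number field instance (`M/F` cyclic unramified, `E = (𝓞 M)ˣ`, `M = Mˣ`, `I =` ideals of `M`):
`[I_F : P_F N(I_M)] * |Ĥ⁰(E_M)| = |H¹(E_M)| * [{b ∈ Fˣ : (b) ∈ N(I_M)} : N(Mˣ)]`.
-/

namespace Fermat.Agent.CFT

open AddSubgroup

section Lattice

variable {X : Type*} [AddCommGroup X]

/-- `[V + W : U + W] = [V : U + (V ∩ W)]` for `U ≤ V`. -/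
theorem relIndex_sup_sup_of_le {U V : AddSubgroup X} (W : AddSubgroup X) (h : U ≤ V) :
    (U ⊔ W).relIndex (V ⊔ W) = (U ⊔ (W ⊓ V)).relIndex V := by
  have e1 : V ⊔ W = (U ⊔ W) ⊔ V := by
    rw [sup_comm (U ⊔ W) V, ← sup_assoc, sup_eq_left.mpr h]
  rw [e1, relIndex_sup_left, ← inf_relIndex_right (U ⊔ W) V, sup_inf_assoc_of_le W h]

/-- `[X + Y : X] = [Y : X ∩ Y]`. -/
theorem relIndex_sup_self_left (U V : AddSubgroup X) :
    U.relIndex (U ⊔ V) = (U ⊓ V).relIndex V := by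
  rw [relIndex_sup_left, inf_relIndex_right]

end Lattice

section TwoStep

variable {M I : Type*} [AddCommGroup M] [AddCommGroup I]

/-- image of `S ∩ φ⁻¹ T` is `φ S ∩ T`. -/
theorem map_inf_comap_eq (φ : M →+ I) (S : AddSubgroup M) (T : AddSubgroup I) :
    (S ⊓ T.comap φ).map φ = S.map φ ⊓ T := by
  ext x
  simp only [AddSubgroup.mem_map, AddSubgroup.mem_inf, AddSubgroup.mem_comap]
  constructor
  · rintro ⟨m, ⟨hm, hmT⟩, rfl⟩
    exact ⟨⟨m, hm, rfl⟩, hmT⟩
  · rintro ⟨⟨m, hm, rfl⟩, hT⟩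
    exact ⟨m, ⟨hm, hT⟩, rfl⟩

/-- The atomic index `γ_u = [K ∩ im u : u K]` for `K = ker φ` equals `[im φ ∩ ker u' : φ (ker u)]`
(both are `[u⁻¹ K : ker u + K]`). -/
theorem hGamma_ker_eq (φ : M →+ I) (u : M →+ M) (u' : I →+ I)
    (hu : ∀ m, φ (u m) = u' (φ m)) :
    hGamma u φ.ker = (u.ker.map φ).relIndex (φ.range ⊓ u'.ker) := by
  unfold hGamma
  set K := φ.ker with hK
  -- `X = u⁻¹ K = φ⁻¹ (ker u')`, `X₀ = ker u + K`
  have hX : K.comap u = u'.ker.comap φ := by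
    ext m
    simp only [AddSubgroup.mem_comap, hK, AddMonoidHom.mem_ker, hu]
  have hstab : K ≤ K.comap u := by
    intro k hk
    simp only [AddSubgroup.mem_comap, hK, AddMonoidHom.mem_ker] at hk ⊢
    rw [hu, hk, map_zero]
  have hle : u.ker ⊔ K ≤ K.comap u := by
    refine sup_le ?_ hstab
    intro m hm
    simp only [AddSubgroup.mem_comap, AddMonoidHom.mem_ker] at hm ⊢
    rw [hm]; exact K.zero_mem
  have h1 := relIndex_eq_map_mul_ker u hle
  have h2 := relIndex_eq_map_mul_ker φ hle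
  -- simplify h1
  have a1 : (u.ker ⊔ K).map u = K.map u := by
    rw [AddSubgroup.map_sup, (AddSubgroup.map_eq_bot_iff _).mpr le_rfl, bot_sup_eq]
  have a2 : (K.comap u).map u = K ⊓ u.range := by
    rw [map_comap_eq, inf_comm]
  have a3 : (u.ker ⊔ K).relIndex (K.comap u ⊓ u.ker) = 1 := by
    rw [relIndex_eq_one]
    exact inf_le_right.trans le_sup_left
  rw [a1, a2, a3, mul_one] at h1
  -- simplify h2
  have b1 : (u.ker ⊔ K).map φ = u.ker.map φ := by
    rw [AddSubgroup.map_sup, (AddSubgroup.map_eq_bot_iff K).mpr le_rfl, sup_bot_eq]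
  have b2 : (K.comap u).map φ = φ.range ⊓ u'.ker := by
    rw [hX, map_comap_eq]
  have b3 : (u.ker ⊔ K).relIndex (K.comap u ⊓ φ.ker) = 1 := by
    rw [relIndex_eq_one]
    exact inf_le_right.trans le_sup_right
  rw [b1, b2, b3, mul_one] at h2
  rw [← h1, h2]

variable {E : Type*} [AddCommGroup E]
variable {fE gE : E →+ E} {fM gM : M →+ M} {fI gI : I →+ I}
variable (ι : E →+ M) (φ : M →+ I)

/-- **Abstract first inequality, exact form.**  See the module docstring. -/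
theorem twoStep_index
    (hι : Function.Injective ι) (hex : ι.range = φ.ker)
    (hfι : ∀ e, ι (fE e) = fM (ι e)) (hgι : ∀ e, ι (gE e) = gM (ι e))
    (hfφ : ∀ m, φ (fM m) = fI (φ m)) (hgφ : ∀ m, φ (gM m) = gI (φ m))
    (hfgM : ∀ m, fM (gM m) = 0) (hgfM : ∀ m, gM (fM m) = 0)
    (hfgI : ∀ x, fI (gI x) = 0) (hgfI : ∀ x, gI (fI x) = 0)
    (hM : gM.ker ≤ fM.range) (hI : gI.ker ≤ fI.range)
    [hC : φ.range.FiniteIndex] (hE : HerbrandDefined fE gE) :
    (fM.ker.map φ ⊔ gI.range).relIndex fI.ker ≠ 0 ∧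
    gM.range.relIndex (fM.ker ⊓ gI.range.comap φ) ≠ 0 ∧
    (fM.ker.map φ ⊔ gI.range).relIndex fI.ker * hIndex fE gE =
      hIndex gE fE * gM.range.relIndex (fM.ker ⊓ gI.range.comap φ) := by
  classical
  set K := φ.ker with hK
  set P := φ.range with hP
  -- basic inclusions
  have hBgZf : gM.range ≤ fM.ker := range_le_ker hfgM
  have hBfZg : fM.range ≤ gM.ker := range_le_ker hgfM
  have hBgZf' : gI.range ≤ fI.ker := range_le_ker hfgI
  have hBfZg' : fI.range ≤ gI.ker := range_le_ker hgfI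
  have hZgM : gM.ker = fM.range := le_antisymm hM hBfZg
  have hZgI : gI.ker = fI.range := le_antisymm hI hBfZg'
  -- stability of `K` and `P`
  have hfK : ∀ a ∈ K, fM a ∈ K := by
    intro a ha
    simp only [hK, AddMonoidHom.mem_ker] at ha ⊢
    rw [hfφ, ha, map_zero]
  have hgK : ∀ a ∈ K, gM a ∈ K := by
    intro a ha
    simp only [hK, AddMonoidHom.mem_ker] at ha ⊢
    rw [hgφ, ha, map_zero]
  have hfP : ∀ a ∈ P, fI a ∈ P := by
    rintro _ ⟨m, rfl⟩
    exact ⟨fM m, hfφ m⟩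
  have hgP : ∀ a ∈ P, gI a ∈ P := by
    rintro _ ⟨m, rfl⟩
    exact ⟨gM m, hgφ m⟩
  -- (f) Herbrand numbers of `E` through atoms of `(M, K)`
  have hE0 : hIndex fE gE = hBeta fM gM K * hGamma gM K := by
    rw [← hIndex_sub_eq ι hι hfι hgι]
    have := hIndex_subHom hfgM ι.range (range_stable ι hfι) (range_stable ι hgι)
    rw [this, hex]
  have hE1 : hIndex gE fE = hGamma fM K := by
    rw [← hIndex_sub_eq ι hι hgι hfι]
    have := hIndex_subHom hgfM ι.range (range_stable ι hgι) (range_stable ι hfι)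
    rw [this, hex]
    have : hBeta gM fM K = 1 := by
      unfold hBeta
      rw [relIndex_eq_one, hZgM]
    rw [this, one_mul]
  -- (a) finiteness of `I / P`
  have : Finite (I ⧸ P) := finite_quotient_of_finiteIndex
  have hq := hIndex_eq_of_finite (A := I ⧸ P)
    (f := quotHom fI P hfP) (g := quotHom gI P hgP)
    (quotHom_comp_eq_zero hfgI P hfP hgP) (quotHom_comp_eq_zero hgfI P hgP hfP)
  rw [hIndex_quotHom hfgI P hfP hgP, hIndex_quotHom hgfI P hgP hfP] at hq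
  have hα1 : hAlpha gI fI P = 1 := by
    unfold hAlpha
    rw [relIndex_eq_one]
    exact hI.trans le_sup_left
  rw [hα1, mul_one] at hq
  obtain ⟨hq1, hq2⟩ := hq
  -- (b) `γ_g(M,K) = γ_f(I,P)`
  have hb : hGamma gM K = hGamma fI P := by
    rw [hGamma_ker_eq φ gM gI hgφ, hZgM, hZgI]
    unfold hGamma
    congr 1
    rw [AddMonoidHom.map_range, AddMonoidHom.map_range]
    congr 1
    ext m
    simp [hfφ]
  -- (I2)
  have hI2 : hGamma fM K = (fM.ker.map φ).relIndex (P ⊓ fI.ker) := hGamma_ker_eq φ fM fI hfφ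
  -- the subgroups
  set Zf := fM.ker with hZf
  set Zf' := fI.ker with hZf'
  set Bg := gM.range with hBg
  set Bg' := gI.range with hBg'
  have hφZf_P : Zf.map φ ≤ P := by
    rintro _ ⟨m, -, rfl⟩
    exact ⟨m, rfl⟩
  have hφZf_Zf' : Zf.map φ ≤ Zf' := by
    rintro _ ⟨m, hm, rfl⟩
    simp only [hZf, hZf', AddMonoidHom.mem_ker] at hm ⊢
    rw [← hfφ, hm, map_zero]
  -- the indices `a`, `x`, `y`
  set a := (Zf.map φ ⊓ Bg').relIndex (P ⊓ Bg') with ha
  set x := (Zf.map φ ⊔ Bg').relIndex ((P ⊓ Zf') ⊔ Bg') with hx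
  set y := (Bg ⊔ (K ⊓ Zf)).relIndex (Zf ⊓ Bg'.comap φ) with hy
  -- (c) `a * x = γ_f`
  have hc : a * x = hGamma fM K := by
    have hx' : x = (Zf.map φ ⊔ (P ⊓ Bg')).relIndex (P ⊓ Zf') := by
      rw [hx, relIndex_sup_sup_of_le Bg' (le_inf hφZf_P hφZf_Zf')]
      congr 2
      rw [inf_comm Bg', inf_assoc, inf_eq_right.mpr hBgZf']
    have ha' : a = (Zf.map φ).relIndex (Zf.map φ ⊔ (P ⊓ Bg')) := by
      rw [ha, relIndex_sup_self_left]
      congr 1
      rw [← inf_assoc, inf_eq_left.mpr hφZf_P]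
    rw [hx', ha', hI2]
    refine relIndex_mul_relIndex _ _ _ le_sup_left (sup_le (le_inf hφZf_P hφZf_Zf') ?_)
    exact inf_le_inf_left _ hBgZf'
  -- (d) `y * a = γ_g'`
  have hgPZf : P.map gI ≤ Zf.map φ := by
    rintro _ ⟨_, ⟨m, rfl⟩, rfl⟩
    refine ⟨gM m, ?_, hgφ m⟩
    simp only [hZf]
    exact hfgM m
  have hgPBg' : P.map gI ≤ Bg' := by
    rintro _ ⟨z, -, rfl⟩
    exact ⟨z, rfl⟩
  have hd : y * a = hGamma gI P := by
    have hle : Bg ⊔ (K ⊓ Zf) ≤ Zf ⊓ Bg'.comap φ := by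
      refine sup_le (le_inf hBgZf ?_) (le_inf inf_le_right ?_)
      · rintro _ ⟨m, rfl⟩
        exact ⟨φ m, (hgφ m).symm⟩
      · intro k hk
        have : φ k = 0 := hk.1
        simp only [AddSubgroup.mem_comap, this]
        exact Bg'.zero_mem
    have h := relIndex_eq_map_mul_ker φ hle
    have c1 : (Bg ⊔ (K ⊓ Zf)).map φ = P.map gI := by
      rw [AddSubgroup.map_sup, (AddSubgroup.map_eq_bot_iff _).mpr (inf_le_left : K ⊓ Zf ≤ K),
        sup_bot_eq, hBg, AddMonoidHom.map_range, hP, AddMonoidHom.map_range]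
      congr 1
      ext m
      simp [hgφ]
    have c2 : (Zf ⊓ Bg'.comap φ).map φ = Zf.map φ ⊓ Bg' := map_inf_comap_eq φ Zf Bg'
    have c3 : (Bg ⊔ (K ⊓ Zf)).relIndex ((Zf ⊓ Bg'.comap φ) ⊓ φ.ker) = 1 := by
      rw [relIndex_eq_one]
      intro k hk
      exact le_sup_right (a := Bg) ⟨hk.2, hk.1.1⟩
    rw [c1, c2, c3, mul_one] at h
    rw [hy, h, ha]
    unfold hGamma
    exact relIndex_mul_relIndex _ _ _ (le_inf hgPZf hgPBg') (inf_le_inf_right _ hφZf_P)
  -- (e) the two target indices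
  have he1 : (Zf.map φ ⊔ Bg').relIndex Zf' = x * hAlpha fI gI P := by
    unfold hAlpha
    rw [hx, sup_comm Bg' (P ⊓ Zf')]
    refine (relIndex_mul_relIndex _ _ _ (sup_le_sup_right (le_inf hφZf_P hφZf_Zf') _)
      (sup_le inf_le_right hBgZf')).symm
  have he2 : Bg.relIndex (Zf ⊓ Bg'.comap φ) = hBeta fM gM K * y := by
    have hle1 : Bg ≤ Bg ⊔ (K ⊓ Zf) := le_sup_left
    have hle2 : Bg ⊔ (K ⊓ Zf) ≤ Zf ⊓ Bg'.comap φ := by
      refine sup_le (le_inf hBgZf ?_) (le_inf inf_le_right ?_)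
      · rintro _ ⟨m, rfl⟩
        exact ⟨φ m, (hgφ m).symm⟩
      · intro k hk
        have : φ k = 0 := hk.1
        simp only [AddSubgroup.mem_comap, this]
        exact Bg'.zero_mem
    rw [← relIndex_mul_relIndex _ _ _ hle1 hle2, ← hy]
    congr 1
    rw [relIndex_sup_self_left]
    unfold hBeta
    congr 1
    rw [inf_comm Bg, inf_assoc, inf_comm Zf Bg, inf_eq_left.mpr hBgZf]
  -- assemble
  rw [he1, he2, hE0, hE1]
  have hγ : hGamma gM K ≠ 0 := by
    intro h0; apply hE.1; rw [hE0, h0, mul_zero]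
  have hβ : hBeta fM gM K ≠ 0 := by
    intro h0; apply hE.1; rw [hE0, h0, zero_mul]
  have hγf : hGamma fM K ≠ 0 := by
    intro h0; apply hE.2; rw [hE1, h0]
  have hα' : hAlpha fI gI P ≠ 0 := by
    intro h0; apply hq2; rw [h0, mul_zero]
  have hγg' : hGamma gI P ≠ 0 := by
    rw [← hq1]; exact hq2
  have hx0 : x ≠ 0 := by
    intro h0; apply hγf; rw [← hc, h0, mul_zero]
  have hy0 : y ≠ 0 := by
    intro h0; apply hγg'; rw [← hd, h0, zero_mul]
  refine ⟨mul_ne_zero hx0 hα', mul_ne_zero hβ hy0, ?_⟩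
  calc x * hAlpha fI gI P * (hBeta fM gM K * hGamma gM K)
      = x * hBeta fM gM K * (hGamma fI P * hAlpha fI gI P) := by rw [hb]; ring
    _ = x * hBeta fM gM K * (y * a) := by rw [hq1, hd]
    _ = (a * x) * (hBeta fM gM K * y) := by ring
    _ = hGamma fM K * (hBeta fM gM K * y) := by rw [hc]

end TwoStep

section Cyclic

variable {G : Type*} [Group G] [Fintype G]
variable {E M I : Type*} [AddCommGroup E] [AddCommGroup M] [AddCommGroup I]
  [DistribMulAction G E] [DistribMulAction G M] [DistribMulAction G I]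

/-- the subgroup `Nloc = {m ∈ M^σ : φ m ∈ N(I)}` -/
def twoStepKer (φ : M →+ I) (σ : G) : AddSubgroup M :=
  (subOneHom M σ).ker ⊓ (normHom G I).range.comap φ

/-- the subgroup `φ(M^σ) + N(I)` of `I^σ` -/
def twoStepIm (φ : M →+ I) (σ : G) : AddSubgroup I :=
  (subOneHom M σ).ker.map φ ⊔ (normHom G I).range

theorem mem_twoStepKer_iff (φ : M →+ I) (σ : G) (m : M) :
    m ∈ twoStepKer φ σ ↔ σ • m = m ∧ ∃ y : I, ∑ τ : G, τ • y = φ m := by
  unfold twoStepKer
  simp only [AddSubgroup.mem_inf, AddSubgroup.mem_comap, AddMonoidHom.mem_range, normHom_apply,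
    mem_ker_subOneHom]

theorem mem_twoStepIm_iff (φ : M →+ I) (σ : G) (x : I) :
    x ∈ twoStepIm φ σ ↔ ∃ m : M, σ • m = m ∧ ∃ y : I, x = φ m + ∑ τ : G, τ • y := by
  unfold twoStepIm
  rw [AddSubgroup.mem_sup]
  constructor
  · rintro ⟨_, ⟨m, hm, rfl⟩, _, ⟨y, rfl⟩, rfl⟩
    exact ⟨m, mem_ker_subOneHom.mp hm, y, rfl⟩
  · rintro ⟨m, hm, y, rfl⟩
    exact ⟨φ m, ⟨m, mem_ker_subOneHom.mpr hm, rfl⟩, _, ⟨y, rfl⟩, rfl⟩

variable (ι : E →+ M) (φ : M →+ I) (σ : G)

/-- **Abstract first inequality (exact form), cyclic group version**: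
`[I^σ : φ(M^σ) + N I] * |Ĥ⁰(E)| = |H¹(E)| * [Nloc : N M]`, both indices finite. -/
theorem twoStep_index_cyclic
    (hι : Function.Injective ι) (hex : ι.range = φ.ker)
    (hιG : ∀ (τ : G) (e : E), ι (τ • e) = τ • ι e) (hφG : ∀ (τ : G) (m : M), φ (τ • m) = τ • φ m)
    (hM : (normHom G M).ker ≤ (subOneHom M σ).range)
    (hI : (normHom G I).ker ≤ (subOneHom I σ).range)
    [φ.range.FiniteIndex] (hE : HerbrandDefinedCyclic G E σ) :
    (twoStepIm φ σ).relIndex (subOneHom I σ).ker ≠ 0 ∧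
    (normHom G M).range.relIndex (twoStepKer φ σ) ≠ 0 ∧
    (twoStepIm φ σ).relIndex (subOneHom I σ).ker * tateH0Card G E σ =
      tateH1Card G E σ * (normHom G M).range.relIndex (twoStepKer φ σ) :=
  twoStep_index ι φ hι hex (fun e => hom_subOneHom ι hιG σ e) (fun e => hom_normHom ι hιG e)
    (fun m => hom_subOneHom φ hφG σ m) (fun m => hom_normHom φ hφG m)
    (subOneHom_normHom σ) (normHom_subOneHom σ) (subOneHom_normHom σ) (normHom_subOneHom σ)
    hM hI hE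

/-- With `h(E) = 1/n` : `[I^σ : φ(M^σ) + N I] = n * [Nloc : N M]`; in particular the index is
at least `n` ("first inequality"). -/
theorem twoStep_index_of_herbrand
    (hι : Function.Injective ι) (hex : ι.range = φ.ker)
    (hιG : ∀ (τ : G) (e : E), ι (τ • e) = τ • ι e) (hφG : ∀ (τ : G) (m : M), φ (τ • m) = τ • φ m)
    (hM : (normHom G M).ker ≤ (subOneHom M σ).range)
    (hI : (normHom G I).ker ≤ (subOneHom I σ).range)
    [φ.range.FiniteIndex] (hE : HerbrandDefinedCyclic G E σ) (n : ℕ)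
    (hn : herbrand G E σ * n = 1) :
    (twoStepIm φ σ).relIndex (subOneHom I σ).ker =
      n * (normHom G M).range.relIndex (twoStepKer φ σ) ∧
    (normHom G M).range.relIndex (twoStepKer φ σ) ≠ 0 := by
  obtain ⟨h1, h2, h3⟩ := twoStep_index_cyclic ι φ σ hι hex hιG hφG hM hI hE
  refine ⟨?_, h2⟩
  have h0 : (tateH0Card G E σ : ℚ) ≠ 0 := Nat.cast_ne_zero.mpr hE.1
  have h1' : (tateH1Card G E σ : ℚ) ≠ 0 := Nat.cast_ne_zero.mpr hE.2
  rw [herbrand_eq, div_mul_eq_mul_div, div_eq_one_iff_eq h1'] at hn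
  have hn' : tateH0Card G E σ * n = tateH1Card G E σ := by exact_mod_cast hn
  rw [← hn'] at h3
  have : tateH0Card G E σ * (twoStepIm φ σ).relIndex (subOneHom I σ).ker =
      tateH0Card G E σ * (n * (normHom G M).range.relIndex (twoStepKer φ σ)) := by
    rw [mul_comm, h3]; ring
  exact Nat.eq_of_mul_eq_mul_left (Nat.pos_of_ne_zero hE.1) this

end Cyclic

end Fermat.Agent.CFT
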